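import Fermat.Agent.FlatBound.Roots
import Fermat.Agent.LocalCond.FixedApprox
import Fermat.Agent.LocalInertia.Kummer
import Fermat.Agent.LocalInertia.CyclicTame
import Mathlib.LinearAlgebra.Lagrange
import Mathlib.FieldTheory.KummerExtension

/-!
# Values and roots in the fixed field of inertia and of its tame subgroups
-/

set_option autoImplicit false

noncomputable section

open Fermat.Agent.GaloisBasics (Qbar GalQ)
open IsLocalRing Finset Polynomial
open scoped NumberField Pointwise

namespace Fermat.Agent.FlatBound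

variable {A : ValuationSubring Qbar} {p : ℕ}

/-- The values at elements fixed by the decomposition group are powers of `|p|`. -/
theorem exists_zpow_of_decomposition_fixed (hA : A.LiesOverPrime p) (hp : p.Prime) {x : Qbar}
    (hx0 : x ≠ 0) (hfix : ∀ σ ∈ A.decompositionSubgroup ℚ, σ x = x) :
    ∃ j : ℤ, A.valuation x = A.valuation (p : Qbar) ^ j := by
  wlog hxA : x ∈ A generalizing x
  · obtain ⟨j, hj⟩ := this (inv_ne_zero hx0) (fun σ hσ => by rw [map_inv₀, hfix σ hσ])
      ((A.mem_or_inv_mem x).resolve_left hxA)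
    exact ⟨-j, by rw [zpow_neg, ← hj, map_inv₀, inv_inv]⟩
  have hv0 : A.valuation x ≠ 0 := (_root_.map_ne_zero _).2 hx0
  have hp1 := valuation_natCast_prime_lt_one hA
  obtain ⟨N, hN⟩ : ∃ N : ℕ, A.valuation (p : Qbar) ^ N < A.valuation x := by
    have : FiniteDimensional ℚ (IntermediateField.adjoin ℚ ({x} : Set Qbar)) :=
      IntermediateField.adjoin.finiteDimensional (Algebra.IsAlgebraic.isAlgebraic x).isIntegral
    obtain ⟨j, hj⟩ := LocalInertia.exists_valuation_pow_factorial hp hA _
      (IntermediateField.mem_adjoin_simple_self ℚ x) hx0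
    refine ⟨j.natAbs + 1, ?_⟩
    set K := (Module.finrank ℚ (IntermediateField.adjoin ℚ ({x} : Set Qbar))).factorial with hK
    refine lt_of_pow_lt_pow_left₀ K zero_le ?_
    rw [hj, ← zpow_natCast, ← zpow_natCast, ← zpow_mul]
    refine zpow_lt_zpow_right_of_lt_one₀ (valuation_natCast_prime_pos A hp) hp1 ?_
    have hKpos : (1 : ℤ) ≤ K := by exact_mod_cast Nat.factorial_pos _
    push_cast
    nlinarith [abs_nonneg j, le_abs_self j]
  obtain ⟨m, hm⟩ := LocalCond.exists_int_valuation_sub_le hA hp hxA hfix N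
  have hmx : A.valuation (m : Qbar) = A.valuation x := by
    have := A.valuation.map_add_eq_of_lt_left (x := x) (y := (m : Qbar) - x)
      (by rw [A.valuation.map_sub_swap]; exact hm.trans_lt hN)
    rwa [add_sub_cancel] at this
  obtain ⟨j, hj⟩ := LocalInertia.exists_valuation_ratCast_eq_zpow (L := Qbar) hp hA (c := (m : ℚ))
    (by
      intro h
      rw [show m = 0 by exact_mod_cast h, Int.cast_zero, map_zero] at hmx
      exact hv0 hmx.symm)
  exact ⟨j, by rw [← hmx, ← hj, Rat.cast_intCast]⟩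

/-- The residues of the integers of a number field in `ℚ̄` lie in a finite field. -/
theorem exists_residue_pow_eq (hA : A.LiesOverPrime p) (hp : p.Prime)
    (L : IntermediateField ℚ Qbar) [NumberField L] :
    ∃ f, 0 < f ∧ ∀ a : 𝓞 L,
      (GaloisBasics.zbarResidue A).comp (GaloisBasics.intIncl L) a ^ p ^ f =
        (GaloisBasics.zbarResidue A).comp (GaloisBasics.intIncl L) a := by
  have : Fact p.Prime := ⟨hp⟩
  have := GaloisBasics.residueField_charP hA hp
  set r : 𝓞 L →+* ResidueField A := (GaloisBasics.zbarResidue A).comp (GaloisBasics.intIncl L)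
  obtain ⟨gens, hgens⟩ := (Module.finite_def.1 (inferInstance : Module.Finite ℤ (𝓞 L)))
  choose d hd hdy using fun a : 𝓞 L => GaloisBasics.exists_pow_card_eq hA hp (r a)
  set f := ∏ a ∈ gens, d a with hfdef
  refine ⟨f, prod_pos fun a _ => hd a, fun a => ?_⟩
  have ha : a ∈ Submodule.span ℤ (gens : Set (𝓞 L)) := hgens ▸ Submodule.mem_top
  induction ha using Submodule.span_induction with
  | mem b hb =>
    obtain ⟨c, hc⟩ := Finset.dvd_prod_of_mem d hb
    rw [hfdef, hc]
    clear hc
    induction c with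
    | zero => simp
    | succ c ih => rw [Nat.mul_succ, pow_add, pow_mul, ih, hdy b]
  | zero => rw [map_zero, zero_pow (pow_ne_zero _ hp.ne_zero)]
  | add a b _ _ ha hb => rw [map_add, add_pow_char_pow, ha, hb]
  | smul n a _ ha =>
    rw [zsmul_eq_mul, map_mul, mul_pow, ha, map_intCast]
    congr 1
    exact map_intCast (iterateFrobenius (ResidueField A) p f) n

/-- In a Galois number field with residues in the field of `p ^ f` elements, an element of the
decomposition group fixing the roots of unity of order `p ^ f - 1` acts as an element of inertia. -/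
theorem exists_inertia_apply_eq (hA : A.LiesOverPrime p) (hp : p.Prime)
    (L : IntermediateField ℚ Qbar) [NumberField L] [IsGalois ℚ L] {f : ℕ} (hf : 0 < f)
    (hres : ∀ a : 𝓞 L, (GaloisBasics.zbarResidue A).comp (GaloisBasics.intIncl L) a ^ p ^ f =
      (GaloisBasics.zbarResidue A).comp (GaloisBasics.intIncl L) a)
    {ω : Qbar} (hω : IsPrimitiveRoot ω (p ^ f - 1)) {σ : GalQ}
    (hσ : σ ∈ A.decompositionSubgroup ℚ) (hσω : σ ω = ω) :
    ∃ τ ∈ A.inertiaSubgroupIn ℚ, ∀ x ∈ L, σ x = τ x := by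
  have : NeZero (p ^ f - 1) := ⟨by have := Nat.one_lt_pow hf.ne' hp.one_lt; omega⟩
  have hmem : GaloisBasics.restrictK L σ ∈
      (GaloisBasics.intIdeal L A).inertia (L ≃ₐ[ℚ] L) := by
    intro a
    show GaloisBasics.restrictK L σ • a - a ∈ GaloisBasics.intIdeal L A
    rw [GaloisBasics.smul_sub_mem_intIdeal_iff, GaloisBasics.mem_zbarIdeal,
      ValuationSubring.mem_nonunits_iff]
    have hbA : ((GaloisBasics.intIncl L a : GaloisBasics.Zbar) : Qbar) ∈ A :=
      GaloisBasics.coe_mem A _
    set b := ((GaloisBasics.intIncl L a : GaloisBasics.Zbar) : Qbar) with hb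
    show A.valuation (σ b - b) < 1
    rcases eq_or_ne ((GaloisBasics.zbarResidue A).comp (GaloisBasics.intIncl L) a) 0 with h0 | h0
    · have h1 : A.valuation b < 1 := by
        have h0' : GaloisBasics.intIncl L a ∈ GaloisBasics.zbarIdeal A :=
          GaloisBasics.zbarResidue_eq_zero_iff.1 h0
        exact A.mem_nonunits_iff.1 (GaloisBasics.mem_zbarIdeal.1 h0')
      exact A.valuation.map_sub_lt (by rwa [LocalInertia.valuation_apply hσ]) h1
    · obtain ⟨w, hw, hwa⟩ := exists_root_of_unity_residue hA hp h0 hf (hres a)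
      obtain ⟨i, -, hi⟩ := hω.eq_pow_of_pow_eq_one hw
      have h1 : A.valuation ((w : Qbar) - b) < 1 :=
        LocalInertia.valuation_sub_lt_of_residue_eq (a := w) (b := ⟨b, hbA⟩) hwa
      have e : σ b - b = ((w : Qbar) - b) - σ ((w : Qbar) - b) := by
        rw [map_sub, ← hi, map_pow, hσω]; ring
      rw [e]
      exact A.valuation.map_sub_lt h1 (by rwa [LocalInertia.valuation_apply hσ])
  rw [← GaloisBasics.map_inertiaSubgroupIn L hA hp] at hmem
  obtain ⟨τ, hτ, hτσ⟩ := hmem
  refine ⟨τ, hτ, fun x hx => ?_⟩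
  have h1 := GaloisBasics.coe_restrictK_apply L σ ⟨x, hx⟩
  rw [← hτσ, GaloisBasics.coe_restrictK_apply] at h1
  exact h1.symm

/-- Lagrange basis polynomials on roots of unity of order prime to `p` are integral. -/
theorem valuation_coeff_lagrangeBasis_le (hA : A.LiesOverPrime p) (hp : p.Prime) {m : ℕ}
    (hm0 : 0 < m) (hpm : ¬ p ∣ m) {W : Finset Qbar} (hW : ∀ w ∈ W, w ^ m = 1) {ω : Qbar}
    (hω : ω ^ m = 1) (i : ℕ) : A.valuation ((Lagrange.basis W id ω).coeff i) ≤ 1 := by
  rw [A.valuation_le_one_iff]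
  have hmemS : Lagrange.basis W id ω ∈ Polynomial.lifts A.subtype := by
    unfold Lagrange.basis
    refine Subsemiring.prod_mem _ fun w hw => ?_
    have hwW := mem_of_mem_erase hw
    unfold Lagrange.basisDivisor
    simp only [id_eq]
    have hinv : (ω - w)⁻¹ ∈ A := by
      rw [← A.valuation_le_one_iff, map_inv₀]
      refine (inv_le_one₀ ?_).2 (not_lt.1 fun hlt => ?_)
      · exact zero_lt_iff.2 ((_root_.map_ne_zero _).2 (sub_ne_zero.2 (ne_of_mem_erase hw).symm))
      · exact ne_of_mem_erase hw (GaloisBasics.eq_of_pow_eq_one_of_sub_mem_nonunits hA hp hpm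
          hω (hW w hwW) (by
            rw [ValuationSubring.mem_nonunits_iff, A.valuation.map_sub_swap]; exact hlt))
    exact Subsemiring.mul_mem _ ⟨Polynomial.C (⟨_, hinv⟩ : A), by simp⟩
      ⟨Polynomial.X - Polynomial.C (⟨w, mem_of_pow_eq_one hm0 (hW w hwW)⟩ : A), by simp⟩
  obtain ⟨Q, hQ⟩ := hmemS
  rw [← hQ, coe_mapRingHom, Polynomial.coeff_map]
  exact (Q.coeff i).2

/-- If every element of decomposition fixing the root of unity `ω` of order prime to `p` fixes `x`,
interpolation over the orbit of `ω` gives an element fixed by decomposition of the same value. -/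
theorem exists_decomposition_fixed_valuation_eq (hA : A.LiesOverPrime p) (hp : p.Prime) {m : ℕ}
    (hm0 : 0 < m) (hpm : ¬ p ∣ m) {ω x : Qbar} (hω : ω ^ m = 1)
    (hkey : ∀ σ ∈ A.decompositionSubgroup ℚ, σ ω = ω → σ x = x) :
    ∃ y : Qbar, A.valuation x = A.valuation y ∧ ∀ σ ∈ A.decompositionSubgroup ℚ, σ y = y := by
  classical
  -- the orbit of `ω` under the decomposition group
  let W : Finset Qbar := ((nthRootsFinset m (1 : Qbar))).filter
    fun w => ∃ σ ∈ A.decompositionSubgroup ℚ, σ ω = w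
  have hWmem : ∀ {w}, w ∈ W ↔ ∃ σ ∈ A.decompositionSubgroup ℚ, σ ω = w := by
    intro w
    refine ⟨fun h => (mem_filter.1 h).2, fun h => mem_filter.2 ⟨?_, h⟩⟩
    obtain ⟨σ, -, rfl⟩ := h
    rw [mem_nthRootsFinset hm0, ← map_pow, hω, map_one]
  have hWm : ∀ w ∈ W, w ^ m = 1 := fun w hw =>
    (mem_nthRootsFinset hm0 (a := (1 : Qbar))).1 (mem_filter.1 hw).1
  have hωW : ω ∈ W := hWmem.2 ⟨1, one_mem _, rfl⟩
  choose! g hgD hgω using fun w (hw : w ∈ W) => hWmem.1 hw
  have hgx : ∀ w ∈ W, ∀ σ ∈ A.decompositionSubgroup ℚ, σ ω = w → σ x = g w x := by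
    intro w hw σ hσ hσω
    have h1 := hkey ((g w)⁻¹ * σ) (mul_mem (inv_mem (hgD w hw)) hσ) (by
      rw [AlgEquiv.mul_apply, hσω]
      exact (g w).injective (by rw [← AlgEquiv.mul_apply, mul_inv_cancel, AlgEquiv.one_apply,
        hgω w hw]))
    rw [AlgEquiv.mul_apply] at h1
    have h2 := congrArg (g w) h1
    rwa [← AlgEquiv.mul_apply, mul_inv_cancel, AlgEquiv.one_apply] at h2
  let y : ℕ → Qbar := fun k => ∑ w ∈ W, w ^ k * g w x
  have hy : ∀ k, ∀ σ ∈ A.decompositionSubgroup ℚ, σ (y k) = y k := by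
    intro k σ hσ
    have hmaps : ∀ w ∈ W, σ w ∈ W := fun w hw =>
      hWmem.2 ⟨σ * g w, mul_mem hσ (hgD w hw), by rw [AlgEquiv.mul_apply, hgω w hw]⟩
    rw [map_sum]
    refine sum_bij (fun w _ => σ w) hmaps (fun a _ b _ h => σ.injective h) (fun w hw => ?_)
      fun w hw => ?_
    · exact ⟨σ⁻¹ w, hWmem.2 ⟨σ⁻¹ * g w, mul_mem (inv_mem hσ) (hgD w hw), by
        rw [AlgEquiv.mul_apply, hgω w hw]⟩,
        by rw [← AlgEquiv.mul_apply, mul_inv_cancel, AlgEquiv.one_apply]⟩
    · rw [map_mul, map_pow, ← hgx _ (hmaps w hw) (σ * g w) (mul_mem hσ (hgD w hw))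
        (by rw [AlgEquiv.mul_apply, hgω w hw]), AlgEquiv.mul_apply]
  -- interpolation gives `x` from the `y k` with integral coefficients
  let P : Qbar[X] := Lagrange.basis W id ω
  have hinterp : x = ∑ i ∈ range (P.natDegree + 1), P.coeff i * y i := by
    have h1 : ∑ w ∈ W, P.eval w * g w x = x := by
      rw [sum_eq_single_of_mem ω hωW fun w hw hne => by
        rw [show P.eval w = 0 from Lagrange.eval_basis_of_ne (v := id) hne.symm hw, zero_mul]]
      rw [show P.eval ω = 1 from Lagrange.eval_basis_self (Set.injOn_id _) hωW, one_mul,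
        ← hgx ω hωW 1 (one_mem _) rfl, AlgEquiv.one_apply]
    conv_lhs => rw [← h1]
    simp only [eval_eq_sum_range, sum_mul, y, mul_sum]
    rw [sum_comm]
    exact sum_congr rfl fun i _ => sum_congr rfl fun w _ => by ring
  obtain ⟨i₀, -, hi₀⟩ := exists_max_image (range (P.natDegree + 1))
    (fun i => A.valuation (y i)) ⟨0, by simp⟩
  refine ⟨y i₀, le_antisymm ?_ ?_, hy i₀⟩
  · conv_lhs => rw [hinterp]
    refine A.valuation.map_sum_le fun i hi => ?_
    rw [map_mul]
    exact (mul_le_of_le_one_left'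
      (valuation_coeff_lagrangeBasis_le hA hp hm0 hpm hWm hω i)).trans (hi₀ i hi)
  · refine A.valuation.map_sum_le fun w hw => ?_
    rw [map_mul, map_pow, valuation_eq_one_of_pow_eq_one hm0 (hWm w hw), one_pow, one_mul,
      LocalInertia.valuation_apply (hgD w hw)]

/-- The values at elements fixed by inertia are powers of `|p|`. -/
theorem exists_zpow_of_inertia_fixed (hA : A.LiesOverPrime p) (hp : p.Prime) {x : Qbar}
    (hx0 : x ≠ 0) (hfix : ∀ σ ∈ A.inertiaSubgroupIn ℚ, σ x = x) :
    ∃ j : ℤ, A.valuation x = A.valuation (p : Qbar) ^ j := by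
  have : FiniteDimensional ℚ (IntermediateField.adjoin ℚ ({x} : Set Qbar)) :=
    IntermediateField.adjoin.finiteDimensional (Algebra.IsAlgebraic.isAlgebraic x).isIntegral
  let L := IntermediateField.normalClosure ℚ (IntermediateField.adjoin ℚ {x}) Qbar
  have : Normal ℚ L := normalClosure.normal ℚ _ Qbar
  have : IsGalois ℚ L := ⟨⟩
  have : NumberField L := ⟨⟩
  have hxL : x ∈ L := IntermediateField.le_normalClosure _
    (IntermediateField.mem_adjoin_simple_self ℚ x)
  obtain ⟨f, hf, hres⟩ := exists_residue_pow_eq hA hp L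
  have hq : 1 < p ^ f := Nat.one_lt_pow hf.ne' hp.one_lt
  have hpm : ¬ p ∣ p ^ f - 1 := fun h => by
    have h1 : p ∣ p ^ f - 1 + 1 := by rw [Nat.sub_add_cancel hq.le]; exact dvd_pow_self p hf.ne'
    exact hp.one_lt.ne' (Nat.dvd_one.1 ((Nat.dvd_add_right h).1 h1))
  have : NeZero (p ^ f - 1) := ⟨by omega⟩
  obtain ⟨ω, hω⟩ := HasEnoughRootsOfUnity.exists_primitiveRoot Qbar (p ^ f - 1)
  -- an element of the decomposition group fixing `ω` fixes `x`
  have hkey : ∀ σ ∈ A.decompositionSubgroup ℚ, σ ω = ω → σ x = x := fun σ hσ hσω => by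
    obtain ⟨τ, hτ, hτσ⟩ := exists_inertia_apply_eq hA hp L hf hres hω hσ hσω
    rw [hτσ x hxL, hfix τ hτ]
  obtain ⟨y, hxy, hy⟩ := exists_decomposition_fixed_valuation_eq hA hp (by omega) hpm
    hω.pow_eq_one hkey
  rw [hxy]
  refine exists_zpow_of_decomposition_fixed hA hp (fun h => ?_) hy
  rw [h, map_zero, map_eq_zero] at hxy
  exact hx0 hxy

/-- An element close to one has a `p`-th root fixed by every automorphism fixing it. -/
theorem exists_root_near_one (hA : A.LiesOverPrime p) (hp : p.Prime) {ζ : Qbar}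
    (hζ : IsPrimitiveRoot ζ p) {x : Qbar}
    (hx : A.valuation (x - 1) < A.valuation (ζ - 1) ^ p) :
    ∃ y : Qbar, y ^ p = x ∧ A.valuation (y - 1) < A.valuation (ζ - 1) ∧
      ∀ σ ∈ A.decompositionSubgroup ℚ, σ x = x → σ y = y := by
  classical
  obtain ⟨z, hz⟩ := IsAlgClosed.exists_pow_nat_eq x hp.pos
  have hprod : A.valuation (x - 1) = ∏ i ∈ range p, A.valuation (ζ ^ i * z - 1) := by
    have h := congrArg (Polynomial.eval (1 : Qbar))
      (X_pow_sub_C_eq_prod hζ hp.pos hz)
    simp only [eval_sub, eval_pow, eval_X, eval_C, one_pow, eval_prod] at h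
    rw [A.valuation.map_sub_swap, h, map_prod]
    exact prod_congr rfl fun i _ => A.valuation.map_sub_swap _ _
  obtain ⟨i, hi, hlt⟩ : ∃ i ∈ range p, A.valuation (ζ ^ i * z - 1) < A.valuation (ζ - 1) := by
    by_contra! h
    refine absurd hx (not_lt.2 ?_)
    rw [hprod, ← card_range p, ← prod_const, card_range]
    exact prod_le_prod' fun i hi => h i hi
  refine ⟨ζ ^ i * z, by rw [mul_pow, pow_right_comm, hζ.pow_eq_one, one_pow, one_mul, hz], hlt,
    fun σ hσ hσx => ?_⟩
  set y := ζ ^ i * z with hy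
  have hy0 : y ≠ 0 := fun h => by
    rw [h, zero_sub, Valuation.map_neg, map_one] at hlt
    exact absurd (valuation_zeta_sub_one_lt_one hA hp hζ.pow_eq_one) (not_lt.2 hlt.le)
  have hyp : y ^ p = x := by
    rw [hy, mul_pow, pow_right_comm, hζ.pow_eq_one, one_pow, one_mul, hz]
  by_contra hne
  have hw : (σ y / y) ^ p = 1 := by
    rw [div_pow, ← map_pow, hyp, hσx, div_self]
    rw [← hyp]; exact pow_ne_zero _ hy0
  have hw1 : σ y / y ≠ 1 := fun h => hne ((div_eq_one_iff_eq hy0).1 h)
  have hroot := valuation_root_sub_one hA hp hζ hw hw1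
  have hy1 : A.valuation y = 1 := by
    have := A.valuation.map_add_eq_of_lt_left (x := (1 : Qbar)) (y := y - 1)
      (by rw [map_one]; exact hlt.trans (valuation_zeta_sub_one_lt_one hA hp hζ.pow_eq_one))
    rwa [add_sub_cancel, map_one] at this
  have hdiff : A.valuation (σ y - y) < A.valuation (ζ - 1) := by
    rw [show σ y - y = σ (y - 1) - (y - 1) by rw [map_sub, map_one]; ring]
    exact A.valuation.map_sub_lt (by rwa [LocalInertia.valuation_apply hσ]) hlt
  rw [div_sub_one hy0, map_div₀, hy1, div_one] at hroot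
  exact hdiff.ne hroot

end Fermat.Agent.FlatBound
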