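import Fermat.Agent.FlatBound.Main

/-!
# The flat family of local conditions

`flatConds` is the flat condition at `p` together with the unipotent conditions elsewhere, in the
shape used by the Taylor-Wiles assembly.
-/

set_option autoImplicit false

noncomputable section

open IsLocalRing Module
open Fermat.Agent.TangentBound
open Fermat.Agent.TWAssembly (rbOf rbOf_apply resPlace conjMap)
open Fermat.Agent.GaloisBasics (Qbar GalQ)

namespace Fermat.Agent.FlatBound

section General

variable {k : Type} [Field k] {p q : ℕ} {rb : GQ →* Mat2 k} {A : ValuationSubring Qbar}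

/-- The flat family of local conditions: `Lflat` at `p`, unipotent elsewhere. -/
def flatConds (p : ℕ) (rb : GQ →* Mat2 k) (q : ℕ) (A : ValuationSubring Qbar) :
    Submodule k (A.decompositionSubgroup ℚ → Mat2 k) :=
  TWLocal.localConds p rb (Lflat p rb) q A

theorem level_of_contRep (hcont : ContRep rb) : ∃ F : IntermediateField ℚ Qbar,
    FiniteDimensional ℚ F ∧ ∀ σ : GalQ, (∀ x ∈ F, σ x = x) → rb σ = 1 := by
  obtain ⟨F, hF, h⟩ := hcont
  exact ⟨F, hF, fun σ hσ => h σ ((IntermediateField.mem_fixingSubgroup_iff F σ).2 hσ)⟩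

/-- Coboundaries satisfy the flat local conditions. -/
theorem cob_mem_flatConds (hcont : ContRep rb) (X : Mat2 k) :
    TWLocal.cob rb (A.decompositionSubgroup ℚ) X ∈ flatConds p rb q A := by
  by_cases hqp : q = p
  · subst hqp
    rw [flatConds, TWLocal.localConds_self]
    exact cob_mem_Lflat X
  · rw [flatConds, TWLocal.localConds_ne hqp]
    exact TWLocal.cob_mem_condUnip (level_of_contRep hcont) X

/-- The flat local conditions have dimension at most four at `p` and three elsewhere. -/
theorem finrank_flatConds_le [Finite k] (hA : A.LiesOverPrime q) (hq : q.Prime) (hp : p.Prime)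
    (hp2 : p ≠ 2) (hpk : (p : k) = 0) (h2 : (2 : k) ≠ 0) (hcont : ContRep rb)
    (hdet : CycloDet p rb) :
    FiniteDimensional k (flatConds p rb q A) ∧
      Module.finrank k (flatConds p rb q A) ≤ if q = p then 4 else 3 := by
  by_cases hqp : q = p
  · subst hqp
    have : Fact q.Prime := ⟨hp⟩
    rw [flatConds, TWLocal.localConds_self, if_pos rfl]
    exact finrank_Lflat_le hA hp hp2 hpk hcont hdet
  · rw [flatConds, TWLocal.localConds_ne hqp, if_neg hqp]
    exact TWLocal.finrank_condUnip_le hA hq hp hqp hpk h2 (level_of_contRep hcont)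

end General

section Residual

variable {𝒪 : Type} [CommRing 𝒪] [IsDomain 𝒪] [IsDiscreteValuationRing 𝒪]
  [IsAdicComplete (maximalIdeal 𝒪) 𝒪] {ρbar : ResidualGaloisRep (ResidueField 𝒪)}
  (b : Basis (Fin 2) (ResidueField 𝒪) ρbar.V) {p : ℕ}

omit [IsAdicComplete (maximalIdeal 𝒪) 𝒪] in
/-- The matrix form of a residual representation is continuous. -/
theorem contRep_rbOf : ContRep (rbOf ρbar b) := by
  obtain ⟨F, hF, h⟩ := TWLocal.exists_level_rbOf b
  exact ⟨F, hF, fun σ hσ => h σ ((IntermediateField.mem_fixingSubgroup_iff F σ).1 hσ)⟩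

omit [IsAdicComplete (maximalIdeal 𝒪) 𝒪] in
/-- The matrix form of a representation of cyclotomic determinant has cyclotomic determinant. -/
theorem cycloDet_rbOf
    (hdet : (GaloisRepAdic.ofResidualGaloisRep ρbar).DetIsCyclotomic p) :
    CycloDet p (rbOf ρbar b) := by
  intro σ a ha
  have h1 : (p : ResidueField 𝒪) = 0 := by
    simpa [IsLocalRing.maximalIdeal_eq_bot] using hdet.1
  have h := hdet.2 1 σ a (fun μ hμ => ha μ (by rwa [pow_one] at hμ))
  rw [pow_one, h1, Ideal.span_singleton_zero, Ideal.mem_bot, sub_eq_zero] at h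
  rw [rbOf_apply, LinearMap.det_toMatrix]
  exact h

variable {𝒟 : ∀ ⦃A : Type⦄ [CommRing A] [IsLocalRing A] [Algebra 𝒪 A], GaloisRepAdic A → Prop}

/-- The membership hypothesis of the assembly for the flat conditions. -/
theorem flatConds_mem [Fact p.Prime] [Finite (ResidueField 𝒪)] (Smin : Finset ℕ)
    (hSmin : ∀ q ∈ Smin, q.Prime)
    (hram : ∀ q ∈ Smin, q ≠ p → ¬ ρbar.IsUnramifiedAt q) (T : Finset ℕ)
    (DQ : GaloisRep.DeformationRingData 𝒪 ρbar (fun _A _ _ _ ρ =>
      GaloisRep.flatCondition 𝒪 p T ρ ∧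
        ∀ q ∈ Smin, q.Prime → q ≠ p → ρ.IsUnipotentOnInertiaAt q))
    (V : (Mat2 (ResidueField 𝒪))ˣ)
    (hV : ∀ σ, (V : Mat2 (ResidueField 𝒪)) * barMat DQ σ = rbOf ρbar b σ * V)
    (d : derSpace DQ.residue_surjective) (q : ℕ) (hq : q ∈ Smin)
    (P : ValuationSubring (AlgebraicClosure ℚ)) (hP : P.LiesOverPrime q) :
    resPlace P (conjMap V (tangentCocycle DQ d)) ∈ flatConds p (rbOf ρbar b) q P := by
  by_cases hqp : q = p
  · subst hqp
    rw [flatConds, TWLocal.localConds_self]
    exact resPlace_mem_Lflat DQ _ V hV DQ.isOfType.1.1 DQ.isOfType.1.2.1 P d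
  · rw [flatConds, TWLocal.localConds_ne hqp]
    exact TWLocal.resPlace_mem_condUnip b DQ V hV (Fact.out : p.Prime) DQ.isOfType.1.1
      (hSmin q hq) (hram q hq hqp) (DQ.isOfType.2 q hq (hSmin q hq) hqp) hP d

end Residual

end Fermat.Agent.FlatBound
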