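import Fermat.Agent.FlatBound.SmallPoints
import Fermat.Agent.LocalInertia.CyclicTame
import Mathlib.Data.Finset.Max

/-!
# Bounded functionals have bounded Fourier transform

A functional on functions, integral on the lattice of a model, takes integral values on characters:
its convolution powers are again integral.
-/

set_option autoImplicit false

noncomputable section

open Fermat.Agent.FlatModels (Gal)
open Fermat.Agent.GaloisBasics (Qbar)
open Finset

namespace Fermat.Agent.FlatBound

variable {A : ValuationSubring Qbar}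

/-- Powers of an element of absolute value `> 1` are unbounded. -/
theorem exists_lt_valuation_pow {p : ℕ} (hp : p.Prime) (hA : A.LiesOverPrime p) {x : Qbar}
    (hx : 1 < A.valuation x) (y : Qbar) : ∃ n : ℕ, A.valuation y < A.valuation x ^ n := by
  rcases le_or_gt (A.valuation y) 1 with hy | hy
  · exact ⟨1, by rw [pow_one]; exact hy.trans_lt hx⟩
  have hx0 : x ≠ 0 := fun h => by simp [h] at hx
  have hy0 : y ≠ 0 := fun h => by simp [h] at hy
  let F := IntermediateField.adjoin ℚ ({x, y} : Set Qbar)
  have : FiniteDimensional ℚ F :=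
    IntermediateField.finiteDimensional_adjoin fun z _ => (Algebra.IsAlgebraic.isAlgebraic z).isIntegral
  obtain ⟨i, hi⟩ := LocalInertia.exists_valuation_pow_factorial hp hA F
    (IntermediateField.subset_adjoin ℚ _ (by simp)) hx0
  obtain ⟨j, hj⟩ := LocalInertia.exists_valuation_pow_factorial hp hA F
    (IntermediateField.subset_adjoin ℚ _ (by simp)) hy0
  set N := (Module.finrank ℚ F).factorial with hN
  have hN0 : N ≠ 0 := Nat.factorial_ne_zero _
  have hp1 : A.valuation (p : Qbar) < 1 := A.mem_nonunits_iff.1 hA
  have hp0 : 0 < A.valuation (p : Qbar) :=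
    zero_lt_iff.2 ((map_ne_zero _).2 (Nat.cast_ne_zero.2 hp.ne_zero))
  have hneg : ∀ {z : A.ValueGroup} {k : ℤ}, 1 < z → z ^ N = A.valuation (p : Qbar) ^ k → k < 0 := by
    intro z k hz hk
    by_contra! hk0
    obtain ⟨m, rfl⟩ := Int.eq_ofNat_of_zero_le hk0
    rw [zpow_natCast] at hk
    have := one_lt_pow₀ hz hN0
    rw [hk] at this
    exact absurd this (not_lt.2 (pow_le_one₀ zero_le hp1.le))
  have hi0 := hneg hx hi
  refine ⟨(-j).toNat + 1, lt_of_pow_lt_pow_left₀ N zero_le ?_⟩
  rw [hj, pow_right_comm, hi, ← zpow_natCast, ← zpow_mul]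
  refine zpow_lt_zpow_right_of_lt_one₀ hp0 hp1 ?_
  have h1 : ((-j).toNat : ℤ) + 1 ≤ -(i * (((-j).toNat : ℤ) + 1)) := by nlinarith
  push_cast
  omega

variable {M : Type} [AddCommGroup M] {Δ : Subgroup Gal} {act : Gal → M → M}

/-- The convolution powers of a finitely supported functional. -/
def convPow (s : Finset M) (c : M → Qbar) : ℕ → (M → Qbar) → Qbar
  | 0, h => h 0
  | n + 1, h => ∑ x ∈ s, c x * convPow s c n (fun y => h (y + x))

theorem convPow_sum {J : Type*} (s : Finset M) (c : M → Qbar) (t : Finset J) (a : J → Qbar)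
    (h : J → M → Qbar) (n : ℕ) :
    convPow s c n (fun y => ∑ j ∈ t, a j * h j y) = ∑ j ∈ t, a j * convPow s c n (h j) := by
  induction n generalizing h with
  | zero => rfl
  | succ n ih =>
    simp only [convPow]
    simp only [fun x => ih (fun j y => h j (y + x)), Finset.mul_sum]
    rw [sum_comm]
    exact sum_congr rfl fun j _ => sum_congr rfl fun x _ => by ring

theorem convPow_const_mul (s : Finset M) (c : M → Qbar) (a : Qbar) (h : M → Qbar) (n : ℕ) :
    convPow s c n (fun y => a * h y) = a * convPow s c n h := by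
  simpa using convPow_sum s c ({()} : Finset Unit) (fun _ => a) (fun _ => h) n

theorem convPow_character (s : Finset M) (c : M → Qbar) {χ : M → Qbar} (hχ0 : χ 0 = 1)
    (hχ : ∀ x y, χ (x + y) = χ x * χ y) (n : ℕ) :
    convPow s c n χ = (∑ x ∈ s, c x * χ x) ^ n := by
  induction n with
  | zero => simp [convPow, hχ0]
  | succ n ih =>
    simp only [convPow]
    have h : ∀ x, (fun y => χ (y + x)) = fun y => χ x * χ y :=
      fun x => by funext y; simp [hχ, mul_comm]
    simp only [h, convPow_const_mul, ih]
    rw [pow_succ', sum_mul]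
    exact sum_congr rfl fun x _ => by ring

namespace Model

variable (L : Model A Δ act)

theorem valuation_convPow_le {s : Finset M} {c : M → Qbar}
    (hc : ∀ i, A.valuation (∑ x ∈ s, c x * L.e i x) ≤ 1) :
    ∀ (n : ℕ) (i : L.ι), A.valuation (convPow s c n (L.e i)) ≤ 1 := by
  intro n
  induction n with
  | zero => exact fun i => (A.valuation_le_one_iff _).2 (L.integral i 0)
  | succ n ih =>
    intro i
    obtain ⟨C, hC, hadd⟩ := L.comul i
    have e : convPow s c (n + 1) (L.e i) =
        ∑ j, ∑ l, C j l * convPow s c n (L.e j) * ∑ x ∈ s, c x * L.e l x := by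
      simp only [convPow]
      have h : ∀ x, (fun y => L.e i (y + x)) =
          fun y => ∑ j, (∑ l, C j l * L.e l x) * L.e j y := fun x => by
        funext y
        rw [hadd]
        simp only [Finset.sum_mul]
        exact sum_congr rfl fun j _ => sum_congr rfl fun l _ => by ring
      simp only [h, convPow_sum]
      simp only [Finset.mul_sum, Finset.sum_mul]
      rw [sum_comm]
      refine sum_congr rfl fun j _ => ?_
      rw [sum_comm]
      exact sum_congr rfl fun l _ => sum_congr rfl fun x _ => by ring
    rw [e]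
    exact (L.valuation_bilinear_le hC ih hc).trans (mul_one 1).le

/-- A functional which is integral on the lattice is integral on every character. -/
theorem valuation_sum_mul_character_le {p : ℕ} (hp : p.Prime) (hA : A.LiesOverPrime p)
    {s : Finset M} {c : M → Qbar} (hc : ∀ i, A.valuation (∑ x ∈ s, c x * L.e i x) ≤ 1)
    {χ : M → Qbar} (hχ0 : χ 0 = 1) (hχ : ∀ x y, χ (x + y) = χ x * χ y) :
    A.valuation (∑ x ∈ s, c x * χ x) ≤ 1 := by
  classical
  by_contra! hlt
  set b := fun i => A.valuation (L.e.repr χ i)
  obtain ⟨i₀, -, hi₀⟩ := exists_max_image univ b (univ_nonempty_iff.2 L.nonempty_index)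
  obtain ⟨n, hn⟩ := exists_lt_valuation_pow hp hA hlt (L.e.repr χ i₀)
  refine absurd hn (not_lt.2 ?_)
  rw [← map_pow, ← convPow_character s c hχ0 hχ n]
  conv_lhs => rw [show χ = fun y => ∑ i, L.e.repr χ i * L.e i y from
    funext fun y => (L.sum_repr_apply χ y).symm]
  rw [convPow_sum]
  refine A.valuation.map_sum_le fun i _ => ?_
  rw [map_mul]
  exact (mul_le_of_le_one_right' (L.valuation_convPow_le hc n i)).trans (hi₀ i (mem_univ i))

end Model

end Fermat.Agent.FlatBound
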