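import Fermat.Agent.FlatBound.TameField
import Fermat.Agent.FlatBound.Fourier
import Mathlib.FieldTheory.Finite.Basic
import Mathlib.LinearAlgebra.Basis.VectorSpace

/-!
# Size of the points in an irreducible tame constituent

If inertia acts on a copy of a finite field `F` inside a model through the fundamental character of
level `[F : 𝔽_p]`, then the nonzero points of the copy have size at least `|π|`.

Were the size smaller, the combination `∑ a, [a]⁻¹ x_i (a • v)` of the coordinates (with `[a]` the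
root of unity lifting `a`) would have value at most `|π| ^ (e + 1)`, since its quotient by `π` is
fixed by inertia. The duality of the model then bounds a Gauss sum `∑ a, [a]⁻¹ ζ ^ λ(a)` by
`|π| ^ (e + 1)`, whereas some coordinate `λ` gives it the value `|π| ^ E`.
-/

set_option autoImplicit false

noncomputable section

open Fermat.Agent.GaloisBasics (Qbar GalQ)
open IsLocalRing Finset

namespace Fermat.Agent.FlatBound

variable {A : ValuationSubring Qbar} {p : ℕ} (R : TameRoot A p)

/-- `b` is the value at `σ` of the fundamental character attached to `π`, read in `F` through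
`ι`. -/
def TameRoot.Matches {F : Type} [Field F] (ι : F →+* ResidueField A) (σ : GalQ) (b : F) : Prop :=
  ∃ u : A, σ (R.π : Qbar) = u * R.π ∧ residue A u = ι b

/-- The residue field has characteristic `p`. -/
theorem residueRing_charP (R : TameRoot A p) : CharP (ResidueField A) p :=
  GaloisBasics.residueField_charP R.over R.prime

/-- A root of unity of order dividing `e` is determined by its residue. -/
theorem TameRoot.root_eq {u w : A} (hu : (u : Qbar) ^ R.ee = 1) (hw : (w : Qbar) ^ R.ee = 1)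
    (h : residue A u = residue A w) : (u : Qbar) = w :=
  (GaloisBasics.eq_of_pow_eq_one_of_sub_mem_nonunits R.over R.prime R.not_dvd_ee hw hu
    (by rw [ValuationSubring.mem_nonunits_iff]; exact LocalInertia.valuation_sub_lt_of_residue_eq h))

/-- `ζ ^ n - 1` is `n (ζ - 1)` to first order. -/
theorem valuation_zeta_pow_sub_le (R : TameRoot A p) (n : ℕ) :
    A.valuation (R.ζ ^ n - 1 - (n : Qbar) * (R.ζ - 1)) ≤ A.valuation (R.ζ - 1) ^ 2 := by
  induction n with
  | zero => simp
  | succ n ih =>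
    have hζ1 : A.valuation R.ζ = 1 :=
      valuation_eq_one_of_pow_eq_one R.prime.pos R.prim.pow_eq_one
    have e : R.ζ ^ (n + 1) - 1 - ((n + 1 : ℕ) : Qbar) * (R.ζ - 1) =
        (R.ζ ^ n - 1 - (n : Qbar) * (R.ζ - 1)) * R.ζ + (n : Qbar) * (R.ζ - 1) ^ 2 := by
      push_cast; ring
    rw [e]
    refine A.valuation.map_add_le ?_ ?_
    · rw [map_mul, hζ1, mul_one]; exact ih
    · rw [map_mul, map_pow]
      exact mul_le_of_le_one_left' (LocalInertia.valuation_natCast_le_one A n)

namespace TameRoot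

/-- An element `x` of value less than `|π|` such that inertia fixes `x / π` has value at most
`|π| ^ (e + 1)`. -/
theorem valuation_le_of_div_fixed {x : Qbar}
    (hfix : ∀ σ ∈ A.inertiaSubgroupIn ℚ, σ (x / R.π) = x / R.π) (hlt : A.valuation x < R.vπ) :
    A.valuation x ≤ R.vπ ^ (R.ee + 1) := by
  rcases eq_or_ne x 0 with rfl | h0
  · simp
  obtain ⟨k, hk⟩ := exists_zpow_of_inertia_fixed R.over R.prime (div_ne_zero h0 R.π.ne_zero) hfix
  have hlt1 : A.valuation (x / R.π) < 1 := by
    rw [map_div₀]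
    exact (div_lt_one₀ R.vπ_pos).2 hlt
  have hk1 : 1 ≤ k := by
    by_contra! hk0
    rw [hk] at hlt1
    exact absurd hlt1 (not_lt.2 (one_le_zpow_of_nonpos₀ (valuation_natCast_prime_pos A R.prime)
      (valuation_natCast_prime_lt_one R.over).le (by omega)))
  have h1 : A.valuation (x / R.π) ≤ A.valuation (p : Qbar) := by
    rw [hk]
    conv_rhs => rw [← zpow_one (A.valuation (p : Qbar))]
    exact zpow_le_zpow_right_of_le_one₀ (valuation_natCast_prime_pos A R.prime)
      (valuation_natCast_prime_lt_one R.over).le hk1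
  rw [map_div₀, show A.valuation (R.π : Qbar) = R.vπ from rfl, div_le_iff₀ R.vπ_pos,
    ← R.vπ_pow_ee] at h1
  rw [pow_succ]
  exact h1

/-- Every root of unity of order dividing `e` in the residue field lifts to one in `A`. -/
theorem exists_root_lift {z : ResidueField A} (hz : z ^ R.ee = 1) :
    ∃ u : A, (u : Qbar) ^ R.ee = 1 ∧ residue A u = z := by
  have : NeZero R.ee := ⟨R.ee_pos.ne'⟩
  obtain ⟨w, hw⟩ := HasEnoughRootsOfUnity.exists_primitiveRoot Qbar R.ee
  set w' : A := ⟨w, mem_of_pow_eq_one R.ee_pos hw.pow_eq_one⟩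
  have hbar : IsPrimitiveRoot (residue A w') R.ee := by
    refine (IsPrimitiveRoot.iff_def _ _).2 ⟨by
      rw [← map_pow, show w' ^ R.ee = 1 from Subtype.ext hw.pow_eq_one, map_one], fun l hl => ?_⟩
    rw [← hw.pow_eq_one_iff_dvd]
    have h1 : residue A (w' ^ l) = residue A 1 := by rw [map_pow, hl, map_one]
    simpa using R.root_eq (u := w' ^ l) (w := 1)
      (by rw [SubmonoidClass.coe_pow, pow_right_comm]; simp [w', hw.pow_eq_one])
      (by simp) h1
  obtain ⟨i, -, hi⟩ := hbar.eq_pow_of_pow_eq_one hz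
  exact ⟨w' ^ i, by rw [SubmonoidClass.coe_pow, pow_right_comm]; simp [w', hw.pow_eq_one],
    by rw [map_pow, hi]⟩

/-- `T` sends each non-zero element of `F` to the root of unity of order dividing `e` lifting it. -/
structure IsRootLift {F : Type} [Field F] (ι : F →+* ResidueField A) (T : F → A) : Prop where
  pow_ee : ∀ b : F, b ≠ 0 → (T b : Qbar) ^ R.ee = 1
  residue_eq : ∀ b : F, b ≠ 0 → residue A (T b) = ι b

/-- A finite field with `e + 1` elements in the residue field lifts to roots of unity. -/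
theorem exists_isRootLift {F : Type} [Field F] [Fintype F] (ι : F →+* ResidueField A)
    (hcard : Fintype.card F - 1 = R.ee) : ∃ T : F → A, R.IsRootLift ι T := by
  have h : ∀ b : F, b ≠ 0 → ∃ u : A, (u : Qbar) ^ R.ee = 1 ∧ residue A u = ι b := fun b hb =>
    R.exists_root_lift (by
      rw [← map_pow, ← hcard, FiniteField.pow_card_sub_one_eq_one b hb, map_one])
  choose! T h1 h2 using h
  exact ⟨T, h1, h2⟩

namespace IsRootLift

variable {R} {F : Type} [Field F] {ι : F →+* ResidueField A} {T : F → A}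
  (hT : R.IsRootLift ι T)

include hT in
/-- The lifts are multiplicative. -/
theorem map_mul {a b : F} (ha : a ≠ 0) (hb : b ≠ 0) : (T (a * b) : Qbar) = T a * T b :=
  R.root_eq (w := T a * T b) (hT.pow_ee _ (mul_ne_zero ha hb))
    (by rw [MulMemClass.coe_mul, mul_pow, hT.pow_ee a ha, hT.pow_ee b hb, one_mul])
    (by rw [hT.residue_eq _ (mul_ne_zero ha hb), _root_.map_mul, _root_.map_mul, hT.residue_eq a ha,
      hT.residue_eq b hb])

include hT in
theorem valuation_inv {a : F} (ha : a ≠ 0) : A.valuation ((T a : Qbar)⁻¹) = 1 := by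
  rw [map_inv₀, valuation_eq_one_of_pow_eq_one R.ee_pos (hT.pow_ee a ha), inv_one]

include hT in
/-- The lifts are non-zero. -/
theorem ne_zero {a : F} (ha : a ≠ 0) : (T a : Qbar) ≠ 0 := fun h => by
  have h1 := valuation_eq_one_of_pow_eq_one (A := A) R.ee_pos (hT.pow_ee a ha)
  rw [h, map_zero] at h1
  exact zero_ne_one h1

variable [Fintype F] [DecidableEq F]

include hT in
/-- The roots of unity lifting `F` sum to zero. -/
theorem sum_inv_eq_zero (hF : 2 < Fintype.card F) :
    ∑ a ∈ univ.erase 0, ((T a : A) : Qbar)⁻¹ = 0 := by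
  obtain ⟨b₀, hb₀, hb₁⟩ : ∃ b : F, b ≠ 0 ∧ b ≠ 1 := by
    by_contra! h
    have : Fintype.card F ≤ 2 := by
      rw [← card_univ]
      exact (card_le_card (t := {0, 1}) fun x _ => by
        rcases eq_or_ne x 0 with rfl | hx
        · simp
        · simp [h x hx]).trans card_le_two
    omega
  have hb1 : ((T b₀ : A) : Qbar)⁻¹ ≠ 1 := fun h => hb₁ (by
    have h1 : (T b₀ : A) = 1 := Subtype.ext (inv_eq_one.1 h)
    have := hT.residue_eq b₀ hb₀
    rw [h1, map_one] at this
    exact ι.injective (this.symm.trans (map_one ι).symm))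
  suffices h : ((T b₀ : A) : Qbar)⁻¹ * ∑ a ∈ univ.erase 0, ((T a : A) : Qbar)⁻¹ =
      ∑ a ∈ univ.erase 0, ((T a : A) : Qbar)⁻¹ from (mul_left_eq_self₀.1 h).resolve_left hb1
  rw [mul_sum]
  refine sum_bij (fun a _ => b₀ * a) (fun a ha => by simpa [hb₀] using ha)
    (fun a _ b _ h => mul_left_cancel₀ hb₀ h)
    (fun a ha => ⟨b₀⁻¹ * a, by simpa [hb₀] using ha, mul_inv_cancel_left₀ hb₀ a⟩) (fun a ha => ?_)
  rw [hT.map_mul hb₀ (by simpa using ha), mul_inv]

include hT in
/-- Inertia moves `π` only by the roots of unity lifting `F`. -/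
theorem exists_apply_π (hcard : Fintype.card F - 1 = R.ee) (σ : GalQ) :
    ∃ b : F, b ≠ 0 ∧ σ (R.π : Qbar) = T b * R.π := by
  obtain ⟨u, hu, hσπ⟩ := R.exists_apply_π σ
  set u' : A := ⟨u, mem_of_pow_eq_one R.ee_pos hu⟩
  have hroots : ∃ b : F, b ≠ 0 ∧ ι b = residue A u' := by
    classical
    by_contra! h
    have hsub : ((univ.erase (0 : F)).image ι ∪ {residue A u'}).val ≤
        (Polynomial.X ^ R.ee - Polynomial.C (1 : ResidueField A)).roots := by
      refine (Multiset.le_iff_subset (Finset.nodup _)).2 fun z hz => ?_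
      rw [Polynomial.mem_roots (Polynomial.X_pow_sub_C_ne_zero R.ee_pos 1)]
      rcases mem_union.1 hz with hz | hz
      · obtain ⟨a, ha, rfl⟩ := mem_image.1 hz
        simp [← map_pow, ← hcard, FiniteField.pow_card_sub_one_eq_one a (ne_of_mem_erase ha)]
      · rw [mem_singleton.1 hz]
        simp [← map_pow, show u' ^ R.ee = 1 from Subtype.ext hu]
    have hc := (Multiset.card_le_card hsub).trans (Polynomial.card_roots' _)
    rw [Polynomial.natDegree_X_pow_sub_C, Finset.card_val, card_union_of_disjoint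
      (by simpa using fun a ha => h a ha), card_image_of_injective _ ι.injective,
      card_singleton, card_erase_of_mem (mem_univ _), card_univ] at hc
    omega
  obtain ⟨b, hb, hbu⟩ := hroots
  refine ⟨b, hb, ?_⟩
  have h : u = T b := R.root_eq (u := u') hu (hT.pow_ee b hb) (by rw [hT.residue_eq b hb, hbu])
  rw [hσπ, h]

include hT in
/-- If the residue of the sum `∑ a, [a]⁻¹ n(a)` is non-zero, the Gauss sum `∑ a, [a]⁻¹ ζ ^ n(a)`
has value `|ζ - 1| = |π| ^ E`. -/
theorem valuation_gaussSum (hF : 2 < Fintype.card F) {n : F → ℕ}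
    (hn : ∑ a ∈ univ.erase 0, (ι a)⁻¹ * (n a : ResidueField A) ≠ 0) :
    A.valuation (∑ a ∈ univ.erase 0, ((T a : A) : Qbar)⁻¹ * R.ζ ^ n a) = R.vπ ^ R.E := by
  set s : Finset F := univ.erase 0
  set G := ∑ a ∈ s, ((T a : A) : Qbar)⁻¹ * R.ζ ^ n a
  set S := ∑ a ∈ s, ((T a : A) : Qbar)⁻¹ * (n a : Qbar) with hSdef
  have hS : A.valuation S = 1 := by
    have hinvA : ∀ a ∈ s, ((T a : A) : Qbar)⁻¹ ∈ A := fun a ha =>
      (A.valuation_le_one_iff _).1 (hT.valuation_inv (ne_of_mem_erase ha)).le
    let S' : A := ⟨S, sum_mem fun a ha => mul_mem (hinvA a ha) (natCast_mem A _)⟩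
    have hres : residue A S' = ∑ a ∈ s, (ι a)⁻¹ * (n a : ResidueField A) := by
      have e : S' = ∑ a ∈ s.attach, (⟨((T a.1 : A) : Qbar)⁻¹, hinvA a.1 a.2⟩ : A) * (n a.1 : A) :=
        Subtype.ext (by
          show S = _
          rw [AddSubmonoidClass.coe_finsetSum, hSdef, ← sum_attach s]
          exact sum_congr rfl fun a _ => by push_cast; rfl)
      rw [e, map_sum, ← sum_attach s (fun a => (ι a)⁻¹ * (n a : ResidueField A))]
      refine sum_congr rfl fun a _ => ?_
      rw [_root_.map_mul, map_natCast]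
      congr 1
      refine eq_inv_of_mul_eq_one_left ?_
      rw [← hT.residue_eq a.1 (ne_of_mem_erase a.2), ← _root_.map_mul, ← map_one (residue A)]
      congr 1
      exact Subtype.ext (inv_mul_cancel₀ (hT.ne_zero (ne_of_mem_erase a.2)))
    refine le_antisymm ((A.valuation_le_one_iff _).2 S'.2) (not_lt.1 fun h => hn ?_)
    rw [← hres, residue_eq_zero_iff, ValuationSubring.valuation_lt_one_iff]
    exact h
  have hE : A.valuation (G - S * (R.ζ - 1)) ≤ A.valuation (R.ζ - 1) ^ 2 := by
    have e : G - S * (R.ζ - 1) = ∑ a ∈ s, ((T a : A) : Qbar)⁻¹ *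
        (R.ζ ^ n a - 1 - (n a : Qbar) * (R.ζ - 1)) := by
      simp only [G, hSdef, mul_sub, sum_sub_distrib, sum_mul, mul_one,
        show ∑ a ∈ s, ((T a : A) : Qbar)⁻¹ = 0 from hT.sum_inv_eq_zero hF, sub_zero, mul_assoc]
    rw [e]
    refine A.valuation.map_sum_le fun a ha => ?_
    rw [_root_.map_mul, hT.valuation_inv (ne_of_mem_erase ha), one_mul]
    exact valuation_zeta_pow_sub_le R _
  have hζpos : 0 < A.valuation (R.ζ - 1) := by rw [R.valuation_zeta]; exact pow_pos R.vπ_pos _
  have h1 : A.valuation (G - S * (R.ζ - 1)) < A.valuation (S * (R.ζ - 1)) := by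
    rw [_root_.map_mul, hS, one_mul]
    refine hE.trans_lt ?_
    rw [sq]
    exact mul_lt_of_lt_one_left hζpos
      (valuation_zeta_sub_one_lt_one R.over R.prime R.prim.pow_eq_one)
  have h2 := A.valuation.map_add_eq_of_lt_left h1
  rw [add_sub_cancel, _root_.map_mul, hS, one_mul, R.valuation_zeta] at h2
  exact h2

end IsRootLift

end TameRoot

/-- Some coordinate `λ` of `F` over `𝔽_p` has `∑ a, a⁻¹ λ(a)` non-zero in the residue field. -/
theorem exists_coord_sum_ne_zero {K F : Type} [Field K] [Field F] [Fintype F] [DecidableEq F]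
    [Algebra (ZMod p) F] [Fact p.Prime] (ι : F →+* K) {κ : Type} [Fintype κ]
    (bas : Module.Basis κ (ZMod p) F) :
    ∃ k, ∑ a ∈ univ.erase 0, (ι a)⁻¹ * ((bas.repr a k).val : K) ≠ 0 := by
  by_contra! h
  set s : Finset F := univ.erase 0
  have h1 : ∑ a ∈ s, (ι a)⁻¹ * ι a = ∑ k, ι (bas k) *
      ∑ a ∈ s, (ι a)⁻¹ * ((bas.repr a k).val : K) := by
    simp only [mul_sum]
    rw [sum_comm]
    refine sum_congr rfl fun a _ => ?_
    have hexp : ι a = ∑ k, ((bas.repr a k).val : K) * ι (bas k) := by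
      conv_lhs => rw [← bas.sum_repr a]
      rw [map_sum]
      refine sum_congr rfl fun k _ => ?_
      rw [Algebra.smul_def, map_mul, ← map_natCast ι, ← map_natCast (algebraMap (ZMod p) F),
        ZMod.natCast_zmod_val]
    conv_lhs => rw [hexp, mul_sum]
    exact sum_congr rfl fun k _ => by rw [hexp]; ring
  have h0 : ∑ k, ι (bas k) * ∑ a ∈ s, (ι a)⁻¹ * ((bas.repr a k).val : K) = 0 :=
    sum_eq_zero (fun k _ => by rw [h k, mul_zero])
  rw [sum_congr rfl (fun a ha => inv_mul_cancel₀
    ((_root_.map_ne_zero ι).2 (ne_of_mem_erase ha)) : ∀ a ∈ s, (ι a)⁻¹ * ι a = 1),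
    h0, sum_const, nsmul_one, card_erase_of_mem (mem_univ _), card_univ] at h1
  have h2 : ((Fintype.card F - 1 : ℕ) : F) = 0 := ι.injective (by rw [map_natCast, h1, map_zero])
  rw [Nat.cast_sub Fintype.card_pos, FiniteField.cast_card_eq_zero, zero_sub, Nat.cast_one] at h2
  exact one_ne_zero (neg_eq_zero.1 h2)

variable {M : Type} [AddCommGroup M] {act : GalQ → M → M}

/-- If the points of the embedded character are smaller than `|π|`, the eigen combination of their
coordinates has value at most `|π| ^ (e + 1)`. -/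
theorem Model.valuation_eigenSum_le (L : Model A (A.inertiaSubgroupIn ℚ) act)
    {F : Type} [Field F] [Fintype F] [DecidableEq F] {ι : F →+* ResidueField A}
    (hcard : Fintype.card F - 1 = R.ee) (hF : 2 < Fintype.card F) {j : F →+ M}
    (hact : ∀ σ ∈ A.inertiaSubgroupIn ℚ, ∀ b : F, R.Matches ι σ b →
      ∀ a : F, act σ (j a) = j (b * a))
    {T : F → A} (hT : R.IsRootLift ι T) {a₀ : F} (hlt : L.size (j a₀) < R.vπ) (i : L.ι) :
    A.valuation (∑ a ∈ univ.erase 0, ((T a : A) : Qbar)⁻¹ * L.e i (j (a * a₀))) ≤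
      R.vπ ^ (R.ee + 1) := by
  set s : Finset F := univ.erase 0 with hs
  have hmem : ∀ {a}, a ∈ s ↔ a ≠ 0 := by simp [hs]
  refine R.valuation_le_of_div_fixed (fun σ hσ => ?_) ?_
  · -- the combination is multiplied by `[b]` under an element acting by `b`
    obtain ⟨b, hb, hσπ⟩ := hT.exists_apply_π hcard σ
    have hσj := hact σ hσ b ⟨T b, hσπ, hT.residue_eq b hb⟩
    have hΦσ : σ (∑ a ∈ s, ((T a : A) : Qbar)⁻¹ * L.e i (j (a * a₀))) =
        (T b : A) * ∑ a ∈ s, ((T a : A) : Qbar)⁻¹ * L.e i (j (a * a₀)) := by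
      simp only [map_sum, map_mul, map_inv₀, mul_sum]
      refine sum_bij (fun a _ => b * a) (fun a ha => hmem.2 (mul_ne_zero hb (hmem.1 ha)))
        (fun a _ c _ h => mul_left_cancel₀ hb h)
        (fun a ha => ⟨b⁻¹ * a, hmem.2 (mul_ne_zero (inv_ne_zero hb) (hmem.1 ha)),
          mul_inv_cancel_left₀ hb a⟩) (fun a ha => ?_)
      rw [R.apply_root hσ (hT.pow_ee a (hmem.1 ha)), ← L.equivariant i σ hσ, hσj,
        hT.map_mul hb (hmem.1 ha), mul_assoc b a a₀, mul_inv, ← mul_assoc, ← mul_assoc,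
        ← mul_assoc, mul_inv_cancel₀ (hT.ne_zero hb), one_mul]
    rw [map_div₀, hΦσ, hσπ, mul_div_mul_left _ _ (hT.ne_zero hb)]
  · have e : ∑ a ∈ s, ((T a : A) : Qbar)⁻¹ * L.e i (j (a * a₀)) =
        ∑ a ∈ s, ((T a : A) : Qbar)⁻¹ * L.coord i (j (a * a₀)) := by
      simp only [Model.coord, mul_sub, sum_sub_distrib, ← sum_mul,
        show ∑ a ∈ s, ((T a : A) : Qbar)⁻¹ = 0 from hT.sum_inv_eq_zero hF, zero_mul, sub_zero]
    rw [e]
    refine lt_of_le_of_lt (A.valuation.map_sum_le fun a ha => ?_) hlt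
    -- inertia realises every non-zero element of `F`
    obtain ⟨σ, hσ, hσπ⟩ := LocalInertia.exists_inertia_apply_root R.over R.prime R.not_dvd_ee
      R.pow_ee (hT.pow_ee a (hmem.1 ha))
    rw [map_mul, hT.valuation_inv (hmem.1 ha), one_mul,
      ← hact σ hσ a ⟨T a, hσπ, hT.residue_eq a (hmem.1 ha)⟩ a₀, L.coord_act hσ,
      LocalInertia.valuation_apply_of_mem_inertia hσ]
    exact L.valuation_coord_le i _

/-- The size of the points of an embedded fundamental character is at least `|π|`. -/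
theorem Model.vπ_le_size (L : Model A (A.inertiaSubgroupIn ℚ) act) (hpM : ∀ x : M, p • x = 0)
    {F : Type} [Field F] [Fintype F] (ι : F →+* ResidueField A)
    (hcard : Fintype.card F - 1 = R.ee) (hF : 2 < Fintype.card F)
    (j : F →+ M) (hj : Function.Injective j)
    (hact : ∀ σ ∈ A.inertiaSubgroupIn ℚ, ∀ b : F, R.Matches ι σ b →
      ∀ a : F, act σ (j a) = j (b * a))
    {a₀ : F} (ha₀ : a₀ ≠ 0) : R.vπ ≤ L.size (j a₀) := by
  classical
  have hp : Fact p.Prime := ⟨R.prime⟩
  have := residueRing_charP R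
  have hFp : CharP F p := (ι.charP_iff ι.injective p).2 inferInstance
  obtain ⟨T, hT⟩ := R.exists_isRootLift ι hcard
  by_contra! hlt
  -- a character of `M` with large transform on the points `a • a₀`
  let _ : Algebra (ZMod p) F := ZMod.algebra F p
  let _ : Module (ZMod p) M := AddCommGroup.zmodModule hpM
  let bas := Module.finBasis (ZMod p) F
  obtain ⟨k, hk⟩ := exists_coord_sum_ne_zero ι bas
  let jl : F →ₗ[ZMod p] M :=
    (j.comp (AddMonoidHom.mulRight a₀)).toZModLinearMap p
  have hjl : LinearMap.ker jl = ⊥ := LinearMap.ker_eq_bot.2 fun a b h =>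
    mul_right_cancel₀ ha₀ (hj h)
  obtain ⟨g, hg⟩ := jl.exists_leftInverse_of_injective hjl
  let f : M →+ ZMod p := ((bas.coord k).comp g).toAddMonoidHom
  have hf : ∀ a : F, f (j (a * a₀)) = bas.repr a k := fun a => by
    show bas.repr (g (jl a)) k = _
    rw [← LinearMap.comp_apply, hg, LinearMap.id_apply]
  let χ : M → Qbar := fun x => R.ζ ^ (f x).val
  have hχ : ∀ x y, χ (x + y) = χ x * χ y := fun x y => by
    show R.ζ ^ (f (x + y)).val = _
    rw [map_add, ← pow_add, ZMod.val_add]
    exact (pow_eq_pow_mod _ R.prim.pow_eq_one).symm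
  -- duality bounds the Gauss sum by the eigen combinations
  set s : Finset F := univ.erase 0
  let c : M → Qbar := fun x => ∑ a ∈ s,
    if j (a * a₀) = x then ((T a : A) : Qbar)⁻¹ / (R.π : Qbar) ^ (R.ee + 1) else 0
  have hsum : ∀ h : M → Qbar, ∑ x ∈ s.image (fun a => j (a * a₀)), c x * h x =
      (∑ a ∈ s, ((T a : A) : Qbar)⁻¹ * h (j (a * a₀))) / (R.π : Qbar) ^ (R.ee + 1) := by
    intro h
    simp only [c, sum_mul, sum_div]
    rw [sum_comm]
    refine sum_congr rfl fun a ha => ?_
    rw [sum_eq_single_of_mem _ (mem_image_of_mem _ ha) fun x _ hx => by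
      rw [if_neg (Ne.symm hx), zero_mul], if_pos rfl]
    ring
  have hint : ∀ i, A.valuation (∑ x ∈ s.image (fun a => j (a * a₀)), c x * L.e i x) ≤ 1 := by
    intro i
    rw [hsum, map_div₀, map_pow]
    exact (div_le_one₀ (pow_pos R.vπ_pos _)).2 (L.valuation_eigenSum_le R hcard hF hact hT hlt i)
  have hG := L.valuation_sum_mul_character_le R.prime R.over hint (χ := χ)
    (by simp [χ]) hχ
  rw [hsum, map_div₀, map_pow, show A.valuation (R.π : Qbar) = R.vπ from rfl,
    div_le_one₀ (pow_pos R.vπ_pos _)] at hG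
  simp only [χ, hf] at hG
  rw [hT.valuation_gaussSum hF hk] at hG
  refine absurd hG (not_le.2 (R.pow_lt_pow ?_))
  have : R.E ≤ R.ee := Nat.le_mul_of_pos_left _ (by have := R.prime.two_le; omega)
  omega

end Fermat.Agent.FlatBound
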