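import Fermat.Agent.FlatBound.Cocycle
import Fermat.Agent.FlatBound.Gauss

/-!
# Flat cocycles of a reducible representation: the shape on inertia and the first level

`rb` is upper triangular on the decomposition group with unramified quotient; the diagonal
character on inertia is then the cyclotomic character.
-/

set_option autoImplicit false

noncomputable section

open Fermat.Agent.TangentBound
open Fermat.Agent.TWAssembly (adCocycles adCoboundary resPlace)
open Fermat.Agent.GaloisBasics (Qbar GalQ)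
open Fermat.Agent.FlatModels (HasFlatModel)
open IsLocalRing

namespace Fermat.Agent.FlatBound

variable {k : Type} [Field k] {A : ValuationSubring Qbar} {p : ℕ}

/-- An entry of a product of a two by two matrix and a vector. -/
theorem mulVec2 (M : Mat2 k) (v : Fin 2 → k) (i : Fin 2) :
    M.mulVec v i = M i 0 * v 0 + M i 1 * v 1 := by
  simp [Matrix.mulVec, dotProduct, Fin.sum_univ_two]

/-- An entry of a product of two by two matrices. -/
theorem mul2 (M N : Mat2 k) (i j : Fin 2) : (M * N) i j = M i 0 * N 0 j + M i 1 * N 1 j := by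
  simp [Matrix.mul_apply, Fin.sum_univ_two]

/-- Pairs of vectors over a field of characteristic `p` are killed by `p`. -/
theorem nsmul_eq_zero_of_natCast (hk : (p : k) = 0) (v : (Fin 2 → k) × (Fin 2 → k)) :
    p • v = 0 := by
  refine Prod.ext ?_ ?_ <;> funext i <;> simp [hk]

/-- The reducible ordinary shape, with a chosen generator of tame inertia acting diagonally. -/
structure DataA (A : ValuationSubring Qbar) (p : ℕ) (rb : GQ →* Mat2 k) where
  R : TameRoot A p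
  E_eq : R.E = 1
  ne_two : p ≠ 2
  char : (p : k) = 0
  cont : ContRep rb
  det : CycloDet p rb
  upper : ∀ σ ∈ A.decompositionSubgroup ℚ, rb σ 1 0 = 0
  quot : ∀ σ ∈ A.inertiaSubgroupIn ℚ, rb σ 1 1 = 1
  τ : GalQ
  τ_mem : τ ∈ A.inertiaSubgroupIn ℚ
  u : A
  τ_π : τ (R.π : Qbar) = u * R.π
  u_order : ∀ j : ℕ, residue A u ^ j = 1 → R.ee ∣ j
  gen : ∀ σ ∈ A.inertiaSubgroupIn ℚ, ∃ m : ℕ, ∃ h ∈ R.H, σ = τ ^ m * h
  n : ℕ
  τ_ζ : τ R.ζ = R.ζ ^ n
  τ01 : rb τ 0 1 = 0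

namespace DataA

variable {rb : GQ →* Mat2 k} (D : DataA A p rb)

/-- The tame exponent of the reducible shape is `p - 1`. -/
theorem ee_eq : D.R.ee = p - 1 := by rw [TameRoot.ee, D.E_eq, mul_one]

/-- The tame exponent is at least two. -/
theorem two_le : 2 ≤ D.R.ee := by
  have h1 := D.R.prime.two_le
  have h2 := D.ne_two
  rw [D.ee_eq]; omega

include D in
/-- The coefficient field has characteristic `p`. -/
theorem charP : CharP k p := (CharP.charP_iff_prime_eq_zero D.R.prime).2 D.char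

theorem n_cast : (D.n : ResidueField A) = residue A D.u := by
  rw [D.R.natCast_exponent_inertia D.τ_mem D.τ_ζ D.τ_π, D.E_eq, pow_one]

/-- The cyclotomic character is non-trivial on the generator. -/
theorem n_ne_one : (D.n : k) ≠ 1 := by
  have := D.charP
  have := residueRing_charP D.R
  intro h
  have h1 : ((D.n : ℕ) : ResidueField A) = ((1 : ℕ) : ResidueField A) :=
    (CharP.natCast_eq_natCast (ResidueField A) p).2
      ((CharP.natCast_eq_natCast k p).1 (h.trans Nat.cast_one.symm))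
  rw [D.n_cast, Nat.cast_one] at h1
  have h2 := Nat.le_of_dvd one_pos (D.u_order 1 (by rw [pow_one]; exact h1))
  have := D.two_le
  omega

/-- Inertia lies in decomposition. -/
theorem inertia_mem {σ : GalQ} (hσ : σ ∈ A.inertiaSubgroupIn ℚ) :
    σ ∈ A.decompositionSubgroup ℚ :=
  LocalInertia.inertiaSubgroupIn_le_decompositionSubgroup hσ

include D in
theorem rb00 {σ : GalQ} (hσ : σ ∈ A.inertiaSubgroupIn ℚ) {a : ℕ} (ha : σ D.R.ζ = D.R.ζ ^ a) :
    rb σ 0 0 = (a : k) := by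
  have h := det_eq_of_apply_zeta D.R D.det ha
  rw [Matrix.det_fin_two, D.upper σ (inertia_mem hσ), D.quot σ hσ] at h
  simpa using h

/-- The generator acts on the stable line by the cyclotomic character. -/
theorem rbτ00 : rb D.τ 0 0 = (D.n : k) := D.rb00 D.τ_mem D.τ_ζ

/-- `H` fixes the stable line pointwise. -/
theorem rbH00 {σ : GalQ} (hσ : σ ∈ D.R.H) : rb σ 0 0 = 1 := by
  rw [D.rb00 (D.R.H_le hσ) (a := 1) (by rw [pow_one, D.R.apply_zeta hσ]), Nat.cast_one]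

include D in
theorem rb00_ne_zero {σ : GalQ} (hσ : σ ∈ A.decompositionSubgroup ℚ) : rb σ 0 0 ≠ 0 :=
  left_ne_zero_of_mul_eq_one (upper_inv (D.upper σ hσ) (rb_mul_inv rb σ)).2.1

/-- The inverse of the generator acts trivially on the quotient. -/
theorem τ_inv11 : rb D.τ⁻¹ 1 1 = 1 := D.quot _ (inv_mem D.τ_mem)

/-- The inverse of the generator is diagonal. -/
theorem τ_inv01 : rb D.τ⁻¹ 0 1 = 0 := by
  obtain ⟨-, -, -, h⟩ := upper_inv (D.upper _ (inertia_mem D.τ_mem)) (rb_mul_inv rb D.τ)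
  rw [D.τ01, zero_mul, add_zero, D.rbτ00] at h
  refine (mul_eq_zero.1 h).resolve_left fun h0 => D.rb00_ne_zero (inertia_mem D.τ_mem) ?_
  rw [D.rbτ00, h0]

/-- A flat cocycle, normalised at `τ`, is upper triangular and unipotent on inertia. -/
theorem shape_I {c : GQ → Mat2 k} (hc : c ∈ adCocycles rb)
    (hflat : HasFlatModel p (dualAct rb c)) (hτ : c D.τ 1 0 = 0)
    {σ : GalQ} (hσ : σ ∈ A.inertiaSubgroupIn ℚ) :
    c σ 1 0 = 0 ∧ c σ 1 1 = 0 ∧ c σ 0 0 = 0 := by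
  obtain ⟨L⟩ := exists_model D.R.over hflat (A.inertiaSubgroupIn ℚ)
  let N : AddSubgroup ((Fin 2 → k) × (Fin 2 → k)) :=
    { carrier := {v | v.1 1 = 0 ∧ v.2 = 0}
      zero_mem' := ⟨rfl, rfl⟩
      add_mem' := fun {a b} ha hb => ⟨by simp [ha.1, hb.1], by simp [ha.2, hb.2]⟩
      neg_mem' := fun {a} ha => ⟨by simp [ha.1], by simp [ha.2]⟩ }
  have hN : ∀ g ∈ A.inertiaSubgroupIn ℚ, ∀ x ∈ N, dualAct rb c g x ∈ N := by
    rintro g hg x ⟨h1, h2⟩
    refine ⟨?_, ?_⟩
    · simp [h1, h2, D.upper g (inertia_mem hg)]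
    · simp [h2]
  obtain ⟨actQ, hact, ⟨LQ⟩⟩ := L.exists_quotient_act N hN
  have key : ∀ g ∈ A.inertiaSubgroupIn ℚ, ∀ v w : (Fin 2 → k) × (Fin 2 → k),
      dualAct rb c g v - v - w ∈ N → LQ.size (w : _ ⧸ N) < 1 := by
    intro g hg v w h
    have e : ((w : _) : _ ⧸ N) = actQ g (v : _ ⧸ N) - (v : _ ⧸ N) := by
      rw [hact g hg, ← QuotientAddGroup.mk_sub]
      exact ((QuotientAddGroup.eq_iff_sub_mem).2 h).symm
    rw [e]
    exact LQ.size_act_sub_lt_one hg hg _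
  have hn1 : (D.n : k) - 1 ≠ 0 := sub_ne_zero.2 D.n_ne_one
  have hsmall : ∀ r : k,
      LQ.size ((((0 : Fin 2 → k), ![r, 0]) : (Fin 2 → k) × (Fin 2 → k)) : _ ⧸ N) < 1 := fun r =>
    key D.τ D.τ_mem (0, ![r / ((D.n : k) - 1), 0]) _ (by
      refine ⟨?_, ?_⟩
      · simp [mul2, hτ, D.upper D.τ (inertia_mem D.τ_mem)]
      · funext i
        fin_cases i
        · simp [D.rbτ00]
          field_simp
          ring
        · simp [D.upper D.τ (inertia_mem D.τ_mem)])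
  have hzero : ∀ y r : k,
      LQ.size (((![0, y], ![r, 0]) : (Fin 2 → k) × (Fin 2 → k)) : _ ⧸ N) < 1 → y = 0 := by
    intro y r h
    set z : _ ⧸ N := (((![0, y], (0 : Fin 2 → k)) : (Fin 2 → k) × (Fin 2 → k)) : _ ⧸ N) with hz
    have h1 : LQ.size z < 1 := by
      have e : z = (((![0, y], ![r, 0]) : (Fin 2 → k) × (Fin 2 → k)) : _ ⧸ N) +
          -((((0 : Fin 2 → k), ![r, 0]) : (Fin 2 → k) × (Fin 2 → k)) : _ ⧸ N) := by
        rw [hz, ← sub_eq_add_neg, ← QuotientAddGroup.mk_sub]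
        congr 1
        ext <;> simp
      rw [e]
      refine (LQ.size_add_le _ _).trans_lt (max_lt h ?_)
      rw [LQ.size_neg]
      exact hsmall r
    have h0 : z = 0 := LQ.eq_zero_of_fixed D.R.over D.R.prime D.ne_two
      (by rw [hz, ← QuotientAddGroup.mk_nsmul, nsmul_eq_zero_of_natCast D.char,
        QuotientAddGroup.mk_zero])
      (fun g hg => by
        rw [hz, hact g hg, QuotientAddGroup.eq_iff_sub_mem]
        refine ⟨?_, ?_⟩
        · simp [D.quot g hg]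
        · simp)
      h1
    have := ((QuotientAddGroup.eq_zero_iff _).1 h0).1
    simpa using this
  have hω := D.rb00_ne_zero (inertia_mem hσ)
  have hu := D.upper σ (inertia_mem hσ)
  have h10 : c σ 1 0 = 0 := by
    refine (mul_eq_zero.1 (hzero (c σ 1 0 * rb σ 0 0) (rb σ 0 0 - 1)
      (key σ hσ (0, ![1, 0]) _ ?_))).resolve_right hω
    refine ⟨?_, ?_⟩
    · simp [mul2, hu]
    · funext i
      fin_cases i <;> simp [hu]
  have h11 : c σ 1 1 = 0 := by
    refine hzero (c σ 1 1) (rb σ 0 1) (key σ hσ (0, ![0, 1]) _ ?_)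
    refine ⟨?_, ?_⟩
    · simp [mul2, D.quot σ hσ, h10]
    · funext i
      fin_cases i <;> simp [D.quot σ hσ]
  refine ⟨h10, h11, ?_⟩
  have := hc.2.1 σ
  rwa [Matrix.trace_fin_two, h11, add_zero] at this

include D in
/-- A flat cocycle, normalised at `τ`, is upper triangular on the decomposition group. -/
theorem shape_D {c : GQ → Mat2 k} (hc : c ∈ adCocycles rb)
    (hI : ∀ σ ∈ A.inertiaSubgroupIn ℚ, c σ 1 0 = 0) {d : GalQ}
    (hd : d ∈ A.decompositionSubgroup ℚ) : c d 1 0 = 0 := by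
  have hτD := inertia_mem D.τ_mem
  have hmem : d⁻¹ * D.τ * d ∈ A.inertiaSubgroupIn ℚ := by
    have := LocalInertia.conj_mem_inertiaSubgroupIn (inv_mem hd) D.τ_mem
    rwa [inv_inv] at this
  have h := hI _ hmem
  rw [cocycle_conj hc] at h
  obtain ⟨-, h00', h11', -⟩ := upper_inv (D.upper _ (inv_mem hd)) (rb_inv_mul rb d)
  rw [(upper_conj (D.upper _ (inv_mem hd)) (rb_inv_mul rb d) _).1] at h
  have hne : rb d⁻¹ 1 1 * rb d 0 0 ≠ 0 :=
    mul_ne_zero (left_ne_zero_of_mul_eq_one h11') (right_ne_zero_of_mul_eq_one h00')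
  replace h := (mul_eq_zero.1 h).resolve_left hne
  rw [Matrix.sub_apply, Matrix.add_apply, hI D.τ D.τ_mem, zero_add,
    (upper_conj (D.upper _ hτD) (rb_mul_inv rb D.τ) _).1, D.quot _ D.τ_mem, one_mul] at h
  obtain ⟨-, hinv, -, -⟩ := upper_inv (D.upper _ hτD) (rb_mul_inv rb D.τ)
  rw [D.rbτ00] at hinv
  refine (mul_eq_zero.1 (show (rb D.τ⁻¹ 0 0 - 1) * c d 1 0 = 0 by linear_combination h)).resolve_left
    fun h1 => D.n_ne_one ?_
  rw [sub_eq_zero] at h1
  rw [h1, mul_one] at hinv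
  exact hinv

/-- The upper right entry, as a function on `H`. -/
def bH (c : GQ → Mat2 k) (σ : GalQ) : k := c σ 0 1

/-- The upper right entry of a unipotent cocycle is a homomorphism on `H`. -/
theorem isHom_bH {c : GQ → Mat2 k} (hc : c ∈ adCocycles rb)
    (hI : ∀ σ ∈ A.inertiaSubgroupIn ℚ, c σ 1 0 = 0 ∧ c σ 0 0 = 0) : D.R.IsHom (bH c) := by
  refine ⟨fun σ hσ τ hτ => ?_, ?_⟩
  · obtain ⟨h10, h00⟩ := hI τ (D.R.H_le hτ)
    have h11 : c τ 1 1 = 0 := by
      have := hc.2.1 τ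
      rwa [Matrix.trace_fin_two, h00, zero_add] at this
    show c (σ * τ) 0 1 = c σ 0 1 + c τ 0 1
    rw [hc.1, Matrix.add_apply,
      ((upper_conj (D.upper σ (D.R.H_le_decomposition hσ)) (rb_mul_inv rb σ) (c τ)).2.2 h10).2,
      h00, h11, D.rbH00 hσ, D.quot σ⁻¹ (inv_mem (D.R.H_le hσ))]
    ring
  · obtain ⟨F, hF, h⟩ := exists_level hc
    exact ⟨F, hF, fun σ _ hσ => by rw [bH, h σ hσ]; rfl⟩

/-- A tame Kummer element is impossible for a flat cocycle. -/
theorem allLev_one {c : GQ → Mat2 k} (hc : c ∈ adCocycles rb)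
    (hflat : HasFlatModel p (dualAct rb c))
    (hI : ∀ σ ∈ A.inertiaSubgroupIn ℚ, c σ 1 0 = 0 ∧ c σ 1 1 = 0 ∧ c σ 0 0 = 0) :
    D.R.AllLev (bH c) 1 := by
  classical
  intro f
  set γ : GalQ → ZMod p := fun σ => f (bH c σ) with hγdef
  have hb := D.isHom_bH hc fun σ hσ => ⟨(hI σ hσ).1, (hI σ hσ).2.2⟩
  have hγ : ∀ σ ∈ D.R.H, ∀ τ ∈ D.R.H, γ (σ * τ) = γ σ + γ τ := fun σ hσ τ hτ => by
    rw [hγdef]; simp [hb.map_mul σ hσ τ hτ]
  by_cases h0 : ∀ σ ∈ D.R.H, γ σ = 0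
  · exact TameRoot.Lev.congr D.R (TameRoot.Lev.zero D.R 1) fun σ hσ => (h0 σ hσ).symm
  obtain ⟨σ₀, hσ₀, hne⟩ : ∃ σ ∈ D.R.H, γ σ ≠ 0 := by simpa using h0
  obtain ⟨g, hg, hg1⟩ := D.R.exists_apply_eq_one hγ hσ₀ hne
  obtain ⟨α, hα⟩ := hb.exists_kum D.R f
  refine (D.R.lev_one_or_tame hα).resolve_right ?_
  rintro ⟨i, hi, hpi⟩
  obtain ⟨L⟩ := exists_model D.R.over hflat (A.inertiaSubgroupIn ℚ)
  have := D.R.prime_fact
  have := D.charP
  have hω : ∀ σ ∈ A.inertiaSubgroupIn ℚ, ∃ a : ℕ, σ D.R.ζ = D.R.ζ ^ a ∧ rb σ 0 0 = (a : k) :=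
    fun σ hσ => by
      obtain ⟨a, -, ha⟩ := D.R.exists_apply_zeta σ
      exact ⟨a, ha, D.rb00 hσ ha⟩
  have hfsmul : ∀ (a : ℕ) (x : k), f ((a : k) * x) = (a : ZMod p) * f x := fun a x => by
    rw [← nsmul_eq_mul, map_nsmul, nsmul_eq_mul]
  let N : AddSubgroup ((Fin 2 → k) × (Fin 2 → k)) :=
    { carrier := {v | v.1 1 = 0 ∧ v.2 1 = 0 ∧ f (v.1 0) = 0}
      zero_mem' := ⟨rfl, rfl, map_zero f⟩
      add_mem' := fun {a b} ha hb =>
        ⟨by simp [ha.1, hb.1], by simp [ha.2.1, hb.2.1], by simp [ha.2.2, hb.2.2]⟩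
      neg_mem' := fun {a} ha => ⟨by simp [ha.1], by simp [ha.2.1], by simp [ha.2.2]⟩ }
  have hN : ∀ σ ∈ A.inertiaSubgroupIn ℚ, ∀ x ∈ N, dualAct rb c σ x ∈ N := by
    rintro σ hσ x ⟨h1, h2, h3⟩
    obtain ⟨a, -, ha⟩ := hω σ hσ
    have hu := D.upper σ (inertia_mem hσ)
    obtain ⟨e10, e11, e00⟩ := hI σ hσ
    refine ⟨?_, ?_, ?_⟩
    · simp [mul2, h1, h2, hu, e10, e11]
    · simp [mulVec2, h2, hu]
    · simp [mul2, h1, h2, hu, e00, ha, hfsmul, h3]
  obtain ⟨actQ, hact, ⟨LQ⟩⟩ := L.exists_quotient_act N hN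
  let F : ((Fin 2 → k) × (Fin 2 → k)) ⧸ N →+ ZMod p :=
    QuotientAddGroup.lift N (AddMonoidHom.mk' (fun v => f (v.1 0)) fun v w => map_add f _ _)
      fun v hv => hv.2.2
  have hF : ∀ v : (Fin 2 → k) × (Fin 2 → k), F (v : _ ⧸ N) = f (v.1 0) := fun v => rfl
  set y0 := bH c g with hy0
  have hfy0 : f y0 = 1 := hg1
  let line : k →+ ((Fin 2 → k) × (Fin 2 → k)) ⧸ N :=
    (QuotientAddGroup.mk' N).comp (AddMonoidHom.mk'
      (fun y => ((![y, 0], 0) : (Fin 2 → k) × (Fin 2 → k))) fun a b => by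
        refine Prod.ext ?_ (add_zero _).symm
        funext i; fin_cases i <;> simp)
  have hline : ∀ y, F (line y) = f y := fun y => by
    show f (![y, 0] 0) = _
    simp
  let j : ZMod p →+ ((Fin 2 → k) × (Fin 2 → k)) ⧸ N :=
    line.comp ((AddMonoidHom.mulRight y0).comp (ZMod.castHom (dvd_refl p) k).toAddMonoidHom)
  have hFj : ∀ a : ZMod p, F (j a) = a := fun a => by
    have e : (ZMod.castHom (dvd_refl p) k a) = ((a.val : ℕ) : k) := by
      conv_lhs => rw [← ZMod.natCast_zmod_val a]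
      rw [map_natCast]
    show F (line (ZMod.castHom (dvd_refl p) k a * y0)) = a
    rw [hline, e, hfsmul, hfy0, mul_one, ZMod.natCast_zmod_val]
  have hjinj : Function.Injective j := fun a b h => by rw [← hFj a, ← hFj b, h]
  set U : Finset (((Fin 2 → k) × (Fin 2 → k)) ⧸ N) := Finset.univ.image j with hU
  have hmemU : ∀ {z}, z ∈ U ↔ ∃ a, j a = z := by simp [hU]
  set x : ((Fin 2 → k) × (Fin 2 → k)) ⧸ N :=
    (((0, ![0, 1]) : (Fin 2 → k) × (Fin 2 → k)) : _ ⧸ N) with hx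
  have hdiff : ∀ h ∈ D.R.H, actQ h x - x = j (f (bH c h)) := by
    intro h hh
    have hI' := D.R.H_le hh
    obtain ⟨e10, e11, e00⟩ := hI h hI'
    rw [hx, hact h hI', ← QuotientAddGroup.mk_sub]
    refine (QuotientAddGroup.eq_iff_sub_mem).2 ⟨?_, ?_, ?_⟩
    · simp [mul2, e10, e11]
    · simp [D.quot h hI']
    · have e : ((dualAct rb c h (0, ![0, 1]) - (0, ![0, 1])).1) 0 = bH c h := by
        simp [mul2, e00, D.quot h hI', bH]
      have e' : ((ZMod.castHom (dvd_refl p) k (f (bH c h))) * y0) =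
          (((f (bH c h)).val : ℕ) : k) * y0 := by
        congr 1
        conv_lhs => rw [← ZMod.natCast_zmod_val (f (bH c h))]
        rw [map_natCast]
      show f (((dualAct rb c h (0, ![0, 1]) - (0, ![0, 1])).1) 0 -
        (![(ZMod.castHom (dvd_refl p) k (f (bH c h))) * y0, 0] : Fin 2 → k) 0) = 0
      rw [map_sub, e, Matrix.cons_val_zero, e', hfsmul, hfy0, mul_one, ZMod.natCast_zmod_val,
        sub_self]
  have hjfix : ∀ σ ∈ A.inertiaSubgroupIn ℚ, ∀ a b : ZMod p, rb σ 0 0 = (b.val : k) →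
      actQ σ (j a) = j (b * a) := by
    intro σ hσ a b hb
    show actQ σ (line _) = line (ZMod.castHom (dvd_refl p) k (b * a) * y0)
    have hbk : ZMod.castHom (dvd_refl p) k b = (b.val : k) := by
      conv_lhs => rw [← ZMod.natCast_zmod_val b]
      rw [map_natCast]
    rw [map_mul (ZMod.castHom (dvd_refl p) k), hbk, mul_assoc, ← hb]
    refine (hact σ hσ _).trans (congrArg _ ?_)
    refine Prod.ext (funext fun i => ?_) (by simp)
    fin_cases i <;> simp [D.upper σ (inertia_mem hσ)]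
  have hUsize : ∀ z ∈ U, z ≠ 0 → D.R.vπ ≤ LQ.size z := by
    intro z hz hz0
    obtain ⟨a, rfl⟩ := hmemU.1 hz
    have ha : a ≠ 0 := fun h => hz0 (by rw [h, map_zero])
    have := residueRing_charP D.R
    refine Model.vπ_le_size D.R LQ (fun z => ?_) (ZMod.castHom (dvd_refl p) (ResidueField A))
      (by rw [ZMod.card, D.ee_eq]) (by rw [ZMod.card]; have := D.two_le; rw [D.ee_eq] at this; omega)
      j hjinj (fun σ hσ b hb a => hjfix σ hσ a b ?_) ha
    · obtain ⟨v, rfl⟩ := QuotientAddGroup.mk_surjective z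
      rw [← QuotientAddGroup.mk_nsmul, nsmul_eq_zero_of_natCast D.char, QuotientAddGroup.mk_zero]
    obtain ⟨u, hu, hub⟩ := hb
    obtain ⟨a', ha', hσ00⟩ := hω σ hσ
    have h1 := D.R.natCast_exponent_inertia hσ ha' hu
    rw [D.E_eq, pow_one, hub, ← map_natCast (ZMod.castHom (dvd_refl p) (ResidueField A))] at h1
    rw [hσ00, ← (ZMod.castHom (dvd_refl p) (ResidueField A)).injective h1, ZMod.val_natCast]
    exact (CharP.natCast_eq_natCast k p).2 (Nat.mod_modEq a' p).symm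
  have hfilter : (U.filter fun z => F z = 0).card = 1 := by
    refine Finset.card_eq_one.2 ⟨0, Finset.ext fun z => ?_⟩
    simp only [Finset.mem_filter, Finset.mem_singleton]
    refine ⟨fun ⟨hz, hz0⟩ => ?_, fun hz => ?_⟩
    · obtain ⟨a, rfl⟩ := hmemU.1 hz
      rw [hFj] at hz0
      rw [hz0, map_zero]
    · subst hz
      exact ⟨hmemU.2 ⟨0, map_zero j⟩, map_zero F⟩
  have hγeq : ∀ h ∈ D.R.H, F (actQ h x - x) = γ h := fun h hh => by
    rw [hdiff h hh, hFj]
  obtain ⟨m, hmfix, hm1, hm⟩ := Model.exists_norm_bound D.R LQ D.R.H_le U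
    (hmemU.2 ⟨0, map_zero j⟩)
    (fun u hu v hv => by
      obtain ⟨a, rfl⟩ := hmemU.1 hu
      obtain ⟨b, rfl⟩ := hmemU.1 hv
      exact hmemU.2 ⟨a + b, map_add j a b⟩)
    (fun h hh => hmemU.2 ⟨_, (hdiff h hh).symm⟩)
    (fun h hh z hz => by
      obtain ⟨a, rfl⟩ := hmemU.1 hz
      rw [hjfix h (D.R.H_le hh) a 1 (by rw [D.rbH00 hh, ZMod.val_one, Nat.cast_one]), one_mul])
    hUsize F hg (by rw [hγeq g hg, hg1]; exact one_ne_zero)
  have hlt := D.R.valuation_apply_sub_lt_of_tame hγ hg hg1 hα hpi hi hg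
    (fun h hh hh0 => hmfix h hh (by rw [hγeq h hh, hh0])) hm1
  rw [hfilter, pow_one] at hm
  rw [D.E_eq, pow_one] at hlt
  exact absurd hm (not_le.2 hlt)

end DataA

end Fermat.Agent.FlatBound
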