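import Fermat.Agent.FlatBound.Equivariance
import Fermat.Agent.FlatBound.Gauss

/-!
# A generator of tame inertia

For a tame root `π` of exponent `e`, an element of inertia multiplying `π` by a primitive `e`-th
root of unity generates inertia modulo `H`. We bundle it with the root of unity and with its
exponent on the `p`-th roots of unity, and record how Frobenius conjugates it.
-/

set_option autoImplicit false

noncomputable section

open Fermat.Agent.GaloisBasics (Qbar GalQ)
open IsLocalRing

namespace Fermat.Agent.FlatBound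

variable {A : ValuationSubring Qbar} {p : ℕ}

namespace TameRoot

variable (R : TameRoot A p)

/-- An element `τ` of inertia generating it modulo `H`, with its multiplier `u` on `π` and its
exponent `n` on `ζ`. -/
structure Generator where
  τ : GalQ
  τ_mem : τ ∈ A.inertiaSubgroupIn ℚ
  u : A
  u_pow : (u : Qbar) ^ R.ee = 1
  τ_π : τ (R.π : Qbar) = u * R.π
  u_order : ∀ j : ℕ, residue A u ^ j = 1 → R.ee ∣ j
  gen : ∀ σ ∈ A.inertiaSubgroupIn ℚ, ∃ m : ℕ, ∃ h ∈ R.H, σ = τ ^ m * h
  n : ℕ
  τ_ζ : τ R.ζ = R.ζ ^ n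

/-- A generator of tame inertia exists: its multiplier is a primitive `e`-th root of unity, which
stays of order `e` in the residue field. -/
theorem nonempty_generator : Nonempty R.Generator := by
  obtain ⟨τ, hτ, w, hw, hτπ, hgen⟩ := R.exists_generator
  obtain ⟨n, -, hn⟩ := R.exists_apply_zeta τ
  set u : A := ⟨w, mem_of_pow_eq_one R.ee_pos hw.pow_eq_one⟩ with hu
  refine ⟨⟨τ, hτ, u, hw.pow_eq_one, hτπ, fun j hj => hw.dvd_of_pow_eq_one _ ?_, fun σ hσ => ?_,
    n, hn⟩⟩
  · have h := R.root_eq (u := u ^ j) (w := 1)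
      (by rw [SubmonoidClass.coe_pow, hu, pow_right_comm, hw.pow_eq_one, one_pow])
      (by rw [OneMemClass.coe_one, one_pow]) (by rw [map_pow, hj, map_one])
    simpa [hu] using h
  · obtain ⟨m, -, h, hh, e⟩ := hgen σ hσ
    exact ⟨m, h, hh, e⟩

namespace Generator

variable {R} (G : R.Generator)

/-- The generator lies in decomposition. -/
theorem τ_mem_decomposition : G.τ ∈ A.decompositionSubgroup ℚ :=
  LocalInertia.inertiaSubgroupIn_le_decompositionSubgroup G.τ_mem

/-- The residue of the multiplier has order dividing the tame exponent. -/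
theorem residue_u_pow_ee : residue A G.u ^ R.ee = 1 := by
  rw [← map_pow, show G.u ^ R.ee = 1 from Subtype.ext G.u_pow, map_one]

/-- The residue of the multiplier is non-zero. -/
theorem residue_u_ne_zero : residue A G.u ≠ 0 := fun h => by
  have h1 := G.residue_u_pow_ee
  rw [h, zero_pow R.ee_pos.ne'] at h1
  exact zero_ne_one h1

/-- The cyclotomic character is the `E`-th power of the tame character. -/
theorem natCast_n : (G.n : ResidueField A) = residue A G.u ^ R.E :=
  R.natCast_exponent_inertia G.τ_mem G.τ_ζ G.τ_π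

/-- The cyclotomic character is non-trivial on inertia for odd `p`. -/
theorem n_ne_one {k : Type} [Field k] [CharP k p] (hp2 : p ≠ 2) : (G.n : k) ≠ 1 := fun h => by
  have := residueRing_charP R
  have h1 : ((G.n : ℕ) : ResidueField A) = ((1 : ℕ) : ResidueField A) :=
    (CharP.natCast_eq_natCast (ResidueField A) p).2
      ((CharP.natCast_eq_natCast k p).1 (h.trans Nat.cast_one.symm))
  rw [G.natCast_n, Nat.cast_one] at h1
  have h2 : (p - 1) * R.E ≤ 1 * R.E := by
    rw [one_mul]; exact Nat.le_of_dvd R.E_pos (G.u_order _ h1)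
  have h3 := Nat.le_of_mul_le_mul_right h2 R.E_pos
  have := R.prime.two_le
  omega

/-- A Frobenius element fixing `π` conjugates the generator to its `p`-th power modulo `H`. -/
theorem exists_frobenius_conj {φ : GalQ} (hφ : A.IsFrobeniusAt φ p)
    (hφπ : φ (R.π : Qbar) = R.π) : ∃ h ∈ R.H, φ * G.τ * φ⁻¹ = G.τ ^ p * h := by
  have hφD := hφ.mem_decompositionSubgroup
  refine ⟨(G.τ ^ p)⁻¹ * (φ * G.τ * φ⁻¹), R.mem_H.2 ⟨mul_mem (inv_mem (pow_mem G.τ_mem p))
    (LocalInertia.conj_mem_inertiaSubgroupIn hφD G.τ_mem), ?_⟩, (mul_inv_cancel_left _ _).symm⟩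
  have hφu : φ (G.u : Qbar) = (G.u : Qbar) ^ p := by
    have huA : φ (G.u : Qbar) ∈ A :=
      (LocalInertia.mem_decompositionSubgroup_iff.1 hφD _).2 G.u.2
    have := R.root_eq (u := ⟨_, huA⟩) (w := G.u ^ p)
      (by show φ (G.u : Qbar) ^ R.ee = 1; rw [← map_pow, G.u_pow, map_one])
      (by rw [SubmonoidClass.coe_pow, pow_right_comm, G.u_pow, one_pow])
      (by rw [map_pow]; exact residue_apply_frobenius hφ G.u ⟨_, huA⟩ rfl)
    simpa using this
  have hφπ' : φ⁻¹ (R.π : Qbar) = R.π := by
    conv_lhs => rw [← hφπ]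
    rw [← AlgEquiv.mul_apply, inv_mul_cancel, AlgEquiv.one_apply]
  rw [AlgEquiv.mul_apply, AlgEquiv.mul_apply, AlgEquiv.mul_apply, hφπ', G.τ_π, map_mul, hφu, hφπ,
    ← R.pow_apply_π G.τ_mem G.u_pow G.τ_π p, ← AlgEquiv.mul_apply, inv_mul_cancel,
    AlgEquiv.one_apply]

end Generator

end TameRoot

end Fermat.Agent.FlatBound
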