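import Mathlib.Algebra.Field.ZMod
import Mathlib.Algebra.Module.ZMod
import Mathlib.LinearAlgebra.Basis.VectorSpace
import Mathlib.Algebra.CharP.Algebra
import Mathlib.FieldTheory.Finite.Basic
import Mathlib.LinearAlgebra.Dimension.Constructions
import Mathlib.LinearAlgebra.FiniteDimensional.Lemmas

/-!
# Semilinear descent for functions fixed by Frobenius

Functions `r` with `r (T x) = r x ^ p` for a surjection `T` which are independent over `𝔽_p` are
independent over the big field; this bounds the dimension of spaces of such functions.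
-/

set_option autoImplicit false

open Finset

namespace Fermat.Agent.FlatBound

variable {K : Type*} [Field K] {p : ℕ} [Fact p.Prime] [CharP K p]

/-- An element fixed by Frobenius is in the prime field. -/
theorem exists_natCast_of_pow_eq_self {c : K} (hc : c ^ p = c) : ∃ a : ℕ, a < p ∧ (a : K) = c := by
  have hp : p.Prime := Fact.out
  obtain ⟨z, hz⟩ : c ∈ (ZMod.castHom (dvd_refl p) K).range := by
    by_contra h
    classical
    let P : Polynomial K := Polynomial.X ^ p - Polynomial.X
    have hdeg : P.natDegree = p := by
      rw [Polynomial.natDegree_sub_eq_left_of_natDegree_lt] <;> simp [hp.one_lt]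
    have hP : P ≠ 0 := fun h0 => by rw [h0, Polynomial.natDegree_zero] at hdeg; exact hp.ne_zero hdeg.symm
    let s : Finset K := (univ : Finset (ZMod p)).image (ZMod.castHom (dvd_refl p) K)
    have hroots : ∀ z ∈ insert c s, P.IsRoot z := by
      intro z hz
      rcases mem_insert.1 hz with rfl | hz
      · simp [P, hc]
      · obtain ⟨a, -, rfl⟩ := mem_image.1 hz
        simp only [P, Polynomial.IsRoot.def, Polynomial.eval_sub, Polynomial.eval_pow,
          Polynomial.eval_X, sub_eq_zero]
        rw [← map_pow, ZMod.pow_card]
    have hle : (insert c s).card ≤ p := by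
      refine le_trans ?_ ((Polynomial.card_roots' P).trans hdeg.le)
      exact Multiset.card_le_card ((Multiset.le_iff_subset (Finset.nodup _)).2 fun z hz =>
        (Polynomial.mem_roots hP).2 (hroots z hz))
    rw [card_insert_of_notMem (fun hcs => h (by obtain ⟨a, -, ha⟩ := mem_image.1 hcs; exact ⟨a, ha⟩)),
      card_image_of_injective _ (ZMod.castHom (dvd_refl p) K).injective, card_univ, ZMod.card] at hle
    omega
  have : NeZero p := ⟨hp.ne_zero⟩
  exact ⟨z.val, ZMod.val_lt z, by rw [← hz, ← ZMod.natCast_zmod_val z, map_natCast, ZMod.natCast_zmod_val]⟩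

variable {X : Type*}

/-- Fixed functions independent over the prime field are independent. -/
theorem linearIndependent_of_fixed {T : X → X} (hT : Function.Surjective T) {J : Type*}
    (r : J → X → K) (hr : ∀ j x, r j (T x) = r j x ^ p)
    (hind : ∀ (s : Finset J) (a : J → ℕ), (∀ x, ∑ j ∈ s, (a j : K) * r j x = 0) →
      ∀ j ∈ s, (a j : K) = 0) : LinearIndependent K r := by
  classical
  refine linearIndependent_iff'.2 fun s => ?_
  induction s using Finset.induction_on with
  | empty => simp
  | insert i s hi ih =>
    intro g hg
    have hg' : ∀ x, g i * r i x + ∑ j ∈ s, g j * r j x = 0 := fun x => by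
      simpa [Finset.sum_apply, sum_insert hi] using congrFun hg x
    by_cases hgi : g i = 0
    · intro j hj
      rcases mem_insert.1 hj with rfl | hj
      · exact hgi
      refine ih g (funext fun x => ?_) j hj
      simpa [Finset.sum_apply, hgi] using hg' x
    exfalso
    set c : J → K := fun j => g j / g i with hc
    have hcx : ∀ x, r i x + ∑ j ∈ s, c j * r j x = 0 := fun x => by
      have h := congrArg (fun z => (g i)⁻¹ * z) (hg' x)
      simp only [mul_zero, mul_add, inv_mul_cancel_left₀ hgi, mul_sum] at h
      rw [← h]
      exact congrArg _ (sum_congr rfl fun j _ => by show g j / g i * r j x = _; rw [div_eq_inv_mul, mul_assoc])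
    have hfix : ∀ j ∈ s, c j ^ p = c j := fun j hj => by
      have h := ih (fun j => c j - c j ^ p) (funext fun z => ?_) j hj
      · exact (sub_eq_zero.1 h).symm
      obtain ⟨x, rfl⟩ := hT z
      have h1 := hcx (T x)
      have h2 := congrArg (fun z => z ^ p) (hcx x)
      simp only [← frobenius_def, map_add, map_sum, map_mul, map_zero] at h2
      simp only [frobenius_def, hr] at h1 h2
      simp only [Finset.sum_apply, Pi.smul_apply, smul_eq_mul, Pi.zero_apply, sub_mul, hr,
        sum_sub_distrib]
      linear_combination h1 - h2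
    have : ∀ j ∈ s, ∃ a : ℕ, a < p ∧ (a : K) = c j := fun j hj =>
      exists_natCast_of_pow_eq_self (hfix j hj)
    choose! a _ ha using this
    have h := hind (insert i s) (fun j => if j = i then 1 else a j) (fun x => by
      rw [sum_insert hi, if_pos rfl, Nat.cast_one, one_mul, ← hcx x]
      exact congrArg _ (sum_congr rfl fun j hj => by
        rw [if_neg (fun e : j = i => hi (e ▸ hj)), ha j hj])) i (mem_insert_self i s)
    simp at h

variable {k B : Type*} [Field k] [Finite k] [AddCommGroup B] [Module k B]

private theorem finrank_le_of_fixed' [Module (ZMod p) B] {T : X → X} (hT : Function.Surjective T)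
    (Ψ : B →+ X → K) (hinj : Function.Injective Ψ) (hfix : ∀ b x, Ψ b (T x) = Ψ b x ^ p)
    (S : Submodule K (X → K)) [FiniteDimensional K S] (hS : ∀ b, Ψ b ∈ S) (n : ℕ)
    (hdim : p ^ Module.finrank K S ≤ Nat.card k ^ n) :
    Module.Finite k B ∧ Module.finrank k B ≤ n := by
  have hp : p.Prime := Fact.out
  let bas := Module.Basis.ofVectorSpace (ZMod p) B
  have hli : LinearIndependent K fun j => (⟨Ψ (bas j), hS _⟩ : S) := by
    refine LinearIndependent.of_comp S.subtype ?_
    refine linearIndependent_of_fixed hT (fun j => Ψ (bas j)) (fun j => hfix _)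
      fun s a h j hj => ?_
    have h0 : ∑ j ∈ s, a j • bas j = 0 := hinj (by
      rw [map_sum, map_zero]
      funext x
      simpa [Finset.sum_apply, map_nsmul, nsmul_eq_mul] using h x)
    have h1 := linearIndependent_iff'.1 bas.linearIndependent s (fun j => (a j : ZMod p))
      (by simpa only [Nat.cast_smul_eq_nsmul] using h0) j hj
    exact (CharP.cast_eq_zero_iff K p _).2 ((ZMod.natCast_eq_zero_iff _ _).1 h1)
  have hfinι := hli.finite
  let _ := Fintype.ofFinite (Module.Basis.ofVectorSpaceIndex (ZMod p) B)
  have hd := hli.fintype_card_le_finrank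
  have hfp : Module.Finite (ZMod p) B := .of_basis bas
  have : Finite B := Module.finite_of_finite (ZMod p)
  have hfk : Module.Finite k B := .of_finite
  refine ⟨hfk, ?_⟩
  have h1 : Nat.card B = Nat.card k ^ Module.finrank k B := Module.natCard_eq_pow_finrank
  have h2 : Nat.card B = p ^ Fintype.card (Module.Basis.ofVectorSpaceIndex (ZMod p) B) := by
    rw [Module.natCard_eq_pow_finrank (K := ZMod p), Nat.card_zmod,
      Module.finrank_eq_card_basis bas]
  refine (Nat.pow_le_pow_iff_right (Finite.one_lt_card (α := k))).1 ?_
  rw [← h1, h2]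
  exact (Nat.pow_le_pow_right hp.pos hd).trans hdim

/-- The bound on a space injecting semilinearly into fixed functions. -/
theorem finrank_le_of_fixed (hk : (p : k) = 0) {T : X → X} (hT : Function.Surjective T)
    (Ψ : B →+ X → K) (hinj : Function.Injective Ψ) (hfix : ∀ b x, Ψ b (T x) = Ψ b x ^ p)
    (S : Submodule K (X → K)) [FiniteDimensional K S] (hS : ∀ b, Ψ b ∈ S) (n : ℕ)
    (hdim : p ^ Module.finrank K S ≤ Nat.card k ^ n) :
    Module.Finite k B ∧ Module.finrank k B ≤ n :=
  let _ : Module (ZMod p) B := AddCommGroup.zmodModule (n := p) fun b => by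
    rw [← Nat.cast_smul_eq_nsmul k, hk, zero_smul]
  finrank_le_of_fixed' hT Ψ hinj hfix S hS n hdim

/-- Evaluation at finitely many points bounds the dimension of a space of functions. -/
theorem finrank_le_of_eval (S : Submodule K (X → K)) {m : ℕ} (e : Fin m → X)
    (h : ∀ r ∈ S, (∀ i, r (e i) = 0) → r = 0) :
    FiniteDimensional K S ∧ Module.finrank K S ≤ m := by
  let g : S →ₗ[K] Fin m → K :=
    (LinearMap.pi fun i => LinearMap.proj (e i)).comp S.subtype
  have hg : Function.Injective g := by
    rw [← LinearMap.ker_eq_bot, LinearMap.ker_eq_bot']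
    exact fun r hr => Subtype.ext (h r r.2 fun i => congrFun hr i)
  exact ⟨Module.Finite.of_injective g hg,
    (LinearMap.finrank_le_finrank_of_injective hg).trans (by simp)⟩

end Fermat.Agent.FlatBound
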