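import Fermat.Agent.FlatBound.CaseA
import Fermat.Agent.FlatBound.Generator
import Fermat.Agent.FlatBound.Semilinear
import Fermat.Agent.TWLocal.Generation
import Mathlib.LinearAlgebra.Dual.Lemmas

/-!
# The bound on flat cocycles of a reducible representation
-/

set_option autoImplicit false

noncomputable section

open Fermat.Agent.TangentBound
open Fermat.Agent.TWAssembly (adCocycles adCoboundary resPlace)
open Fermat.Agent.GaloisBasics (Qbar GalQ)
open Fermat.Agent.FlatModels (HasFlatModel)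
open IsLocalRing

namespace Fermat.Agent.FlatBound

variable {k : Type} [Field k] {A : ValuationSubring Qbar} {p : ℕ}

private theorem natCard_dual' [Fact p.Prime] (V : Type*) [AddCommGroup V] [Finite V]
    [Module (ZMod p) V] : Nat.card (V →+ ZMod p) = Nat.card V := by
  refine (Nat.card_congr
    (⟨fun f => f.toZModLinearMap p, fun f => f.toAddMonoidHom, fun f => by ext; rfl,
      fun f => by ext; rfl⟩ : (V →+ ZMod p) ≃ (V →ₗ[ZMod p] ZMod p))).trans ?_
  rw [Module.natCard_eq_pow_finrank (K := ZMod p) (V := V →ₗ[ZMod p] ZMod p),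
    Module.natCard_eq_pow_finrank (K := ZMod p) (V := V)]
  exact congrArg _ Subspace.dual_finrank_eq

/-- The additive functionals on a finite `𝔽_p`-space are as numerous as its elements. -/
theorem natCard_dual [Fact p.Prime] (V : Type*) [AddCommGroup V] [Finite V]
    (hpV : ∀ v : V, p • v = 0) : Nat.card (V →+ ZMod p) = Nat.card V :=
  @natCard_dual' p _ V _ _ (AddCommGroup.zmodModule hpV)

/-- Additive functions, as a subspace of all functions. -/
def additiveFunctions (X K : Type*) [AddCommGroup X] [Field K] : Submodule K (X → K) where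
  carrier := {r | ∀ x y, r (x + y) = r x + r y}
  zero_mem' := fun x y => by simp
  add_mem' := fun {a b} ha hb x y => by simp only [Pi.add_apply, ha x y, hb x y]; abel
  smul_mem' := fun a r hr x y => by simp only [Pi.smul_apply, hr x y, smul_add]

theorem finrank_additiveFunctions_le [Fact p.Prime] (X K : Type*) [AddCommGroup X] [Finite X]
    [Module (ZMod p) X] [Field K] :
    FiniteDimensional K (additiveFunctions X K) ∧
      p ^ Module.finrank K (additiveFunctions X K) ≤ Nat.card X := by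
  let bas := Module.finBasis (ZMod p) X
  obtain ⟨h1, h2⟩ := finrank_le_of_eval (additiveFunctions X K) (fun i => bas i) fun r hr h0 => by
    let φ : X →+ K := AddMonoidHom.mk' r hr
    funext x
    show φ x = 0
    rw [← bas.sum_repr x, map_sum]
    refine Finset.sum_eq_zero fun i _ => ?_
    rw [← ZMod.natCast_zmod_val (bas.repr x i), Nat.cast_smul_eq_nsmul, map_nsmul,
      show φ (bas i) = 0 from h0 i, smul_zero]
  refine ⟨h1, ?_⟩
  rw [Module.natCard_eq_pow_finrank (K := ZMod p) (V := X), Nat.card_zmod]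
  exact Nat.pow_le_pow_right (Fact.out : p.Prime).pos h2

namespace DataA

variable {rb : GQ →* Mat2 k} (D : DataA A p rb)

/-- The levels below `e` are killed by the generator of tame inertia. -/
theorem allLev_ee {c : GQ → Mat2 k} (hc : c ∈ adCocycles rb)
    (hI : ∀ σ ∈ A.inertiaSubgroupIn ℚ, c σ 1 0 = 0 ∧ c σ 0 0 = 0) (hτ : c D.τ = 0)
    (h1 : D.R.AllLev (bH c) 1) : D.R.AllLev (bH c) D.R.ee := by
  have hb := D.isHom_bH hc hI
  have hτD := inertia_mem D.τ_mem
  let M00 := rb D.τ⁻¹ 0 0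
  have hM : M00 * (D.n : k) = 1 := by
    obtain ⟨-, h, -, -⟩ := upper_inv (D.upper _ hτD) (rb_mul_inv rb D.τ)
    rw [D.rbτ00] at h
    rw [mul_comm]; exact h
  have hL : ∀ σ ∈ D.R.H, bH c (D.τ⁻¹ * σ * D.τ) = AddMonoidHom.mulLeft M00 (bH c σ) := by
    intro σ hσ
    obtain ⟨e10, e00⟩ := hI σ (D.R.H_le hσ)
    show c (D.τ⁻¹ * σ * D.τ) 0 1 = M00 * c σ 0 1
    rw [cocycle_conj hc, hτ, mul_zero, zero_mul, add_zero, sub_zero,
      ((upper_conj (D.upper _ (inv_mem hτD)) (rb_inv_mul rb D.τ) (c σ)).2.2 e10).2,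
      D.quot _ D.τ_mem, D.τ01]
    ring
  suffices h : ∀ i, 1 ≤ i → i ≤ D.R.ee → D.R.AllLev (bH c) i from
    h _ (le_trans one_le_two D.two_le) le_rfl
  intro i hi1 hie
  induction i, hi1 using Nat.le_induction with
  | base => exact h1
  | succ i hi1 ih =>
    have hlev := ih (by omega)
    have hpi : ¬ p ∣ i := fun h => by
      have := Nat.le_of_dvd hi1 h
      have := D.ee_eq
      omega
    have hiE : i < p * D.R.E := by
      rw [D.E_eq, mul_one]
      have := D.ee_eq
      omega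
    obtain ⟨r, hr⟩ := D.R.exists_coefMap hpi hiE hlev
    refine D.R.allLev_succ_of_coef_zero hr fun f => ?_
    have h := D.R.coefMap_twist hpi hiE hr hτD D.τ_ζ id
      (fun x y => TameRoot.residue_apply_inertia D.τ_mem x y) D.τ_π _ hL (f := f) (f' := f)
      fun v => by
        rw [← nsmul_eq_mul, ← map_nsmul, AddMonoidHom.coe_mulLeft, nsmul_eq_mul, ← mul_assoc,
          mul_comm _ M00, hM, one_mul]
    rw [id_eq] at h
    refine
      (mul_eq_zero.1 (show (1 - residue A D.u ^ i) * r f = 0 by linear_combination h)).resolve_left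
      fun h0 => ?_
    have := Nat.le_of_dvd hi1 (D.u_order i (sub_eq_zero.1 h0).symm)
    omega

variable [Finite k]

/-- The normalised classes. -/
def normalised : Submodule k (GQ → Mat2 k) where
  carrier := {c | c ∈ adCocycles rb ∧ (∀ σ ∈ A.inertiaSubgroupIn ℚ, c σ 1 0 = 0 ∧ c σ 0 0 = 0) ∧
    c D.τ 0 1 = 0 ∧ (∀ σ ∈ A.decompositionSubgroup ℚ, c σ 1 0 = 0) ∧
    D.R.AllLev (bH c) D.R.ee}
  zero_mem' := ⟨zero_mem _, fun _ _ => ⟨rfl, rfl⟩, rfl, fun _ _ => rfl,
    TameRoot.AllLev.congr D.R (TameRoot.AllLev.zero D.R _) fun _ _ => rfl⟩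
  add_mem' := fun {a b} ⟨a0, a1, a2, a3, a4⟩ ⟨b0, b1, b2, b3, b4⟩ =>
    ⟨add_mem a0 b0, fun σ hσ => ⟨by simp [(a1 σ hσ).1, (b1 σ hσ).1],
      by simp [(a1 σ hσ).2, (b1 σ hσ).2]⟩, by simp [a2, b2],
      fun σ hσ => by simp [a3 σ hσ, b3 σ hσ],
      TameRoot.AllLev.congr D.R (TameRoot.AllLev.add D.R D.R.ee_pos.ne' a4 b4) fun _ _ => rfl⟩
  smul_mem' := fun t a ⟨a0, a1, a2, a3, a4⟩ =>
    ⟨Submodule.smul_mem _ t a0, fun σ hσ => ⟨by simp [(a1 σ hσ).1], by simp [(a1 σ hσ).2]⟩,
      by simp [a2], fun σ hσ => by simp [a3 σ hσ],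
      TameRoot.AllLev.congr D.R (TameRoot.AllLev.map D.R a4 (AddMonoidHom.mulLeft t))
        fun _ _ => rfl⟩

/-- The restrictions to `H` of normalised classes vanishing at Frobenius on the diagonal. -/
def upperClasses (φ : GalQ) : Submodule k (GalQ → k) where
  carrier := {b | (∀ σ, σ ∉ D.R.H → b σ = 0) ∧ D.R.IsHom b ∧ D.R.AllLev b D.R.ee ∧
    ∀ σ ∈ D.R.H, b (φ⁻¹ * σ * φ) = rb φ⁻¹ 0 0 * rb φ 1 1 * b σ}
  zero_mem' := ⟨fun _ _ => rfl, TameRoot.IsHom.zero D.R, TameRoot.AllLev.zero D.R _,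
    fun σ _ => by simp⟩
  add_mem' := fun {a b} ⟨a0, a1, a2, a3⟩ ⟨b0, b1, b2, b3⟩ =>
    ⟨fun σ hσ => by simp [a0 σ hσ, b0 σ hσ], TameRoot.IsHom.add D.R a1 b1,
      TameRoot.AllLev.add D.R D.R.ee_pos.ne' a2 b2,
      fun σ hσ => by simp only [Pi.add_apply, a3 σ hσ, b3 σ hσ]; ring⟩
  smul_mem' := fun t a ⟨a0, a1, a2, a3⟩ =>
    ⟨fun σ hσ => by simp [a0 σ hσ], TameRoot.IsHom.map D.R a1 (AddMonoidHom.mulLeft t),
      TameRoot.AllLev.map D.R a2 (AddMonoidHom.mulLeft t),
      fun σ hσ => by simp only [Pi.smul_apply, a3 σ hσ, smul_eq_mul]; ring⟩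

theorem finrank_upperClasses_le {φ : GalQ} (hφ : A.IsFrobeniusAt φ p)
    (hπ : φ (D.R.π : Qbar) = D.R.π) {m : ℕ} (hm : φ D.R.ζ = D.R.ζ ^ m)
    (hm1 : (m : ResidueField A) = -1) :
    Module.Finite k (D.upperClasses φ) ∧ Module.finrank k (D.upperClasses φ) ≤ 1 := by
  have := D.R.prime_fact
  have := residueRing_charP D.R
  have hpi : ¬ p ∣ D.R.ee := D.R.not_dvd_ee
  have hiE : D.R.ee < p * D.R.E := by
    rw [D.E_eq, mul_one, D.ee_eq]
    have := D.R.prime.pos
    omega
  obtain ⟨r, hr⟩ := D.R.exists_coefHom hpi hiE (D.upperClasses φ) fun b hb => hb.2.2.1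
  set μ := rb φ⁻¹ 0 0 * rb φ 1 1 with hμdef
  have hμ : μ ≠ 0 := by
    obtain ⟨-, h00, -, -⟩ := upper_inv (D.upper _ (inv_mem hφ.mem_decompositionSubgroup))
      (rb_inv_mul rb φ)
    obtain ⟨-, -, h11, -⟩ := upper_inv (D.upper _ hφ.mem_decompositionSubgroup) (rb_mul_inv rb φ)
    exact mul_ne_zero (left_ne_zero_of_mul_eq_one h00) (left_ne_zero_of_mul_eq_one h11)
  have hm0 := D.R.natCast_ne_zero_of_residue hm1
  let T : (k →+ ZMod p) → (k →+ ZMod p) := fun f =>
    (AddMonoidHom.mulLeft (m : ZMod p)).comp (f.comp (AddMonoidHom.mulLeft μ))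
  have hT : Function.Surjective T := fun g =>
    ⟨(AddMonoidHom.mulLeft (m : ZMod p)⁻¹).comp (g.comp (AddMonoidHom.mulLeft μ⁻¹)), by
      ext v
      simp only [T, AddMonoidHom.coe_comp, AddMonoidHom.coe_mulLeft, Function.comp_apply,
        inv_mul_cancel_left₀ hμ, mul_inv_cancel_left₀ hm0]⟩
  let Ψ : D.upperClasses φ →+ ((k →+ ZMod p) → ResidueField A) := (AddMonoidHom.coeFn _ _).comp r
  have : Finite (k →+ ZMod p) := Finite.of_injective _ DFunLike.coe_injective
  obtain ⟨hfin, hdim⟩ := finrank_additiveFunctions_le (p := p) (k →+ ZMod p) (ResidueField A)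
  refine finrank_le_of_fixed (p := p) D.char hT Ψ ?_ (fun b f => ?_)
    (additiveFunctions _ _) (fun b x y => map_add (r b) x y) 1 ?_
  · refine (injective_iff_map_eq_zero Ψ).2 fun b hb => Subtype.ext (funext fun σ => ?_)
    by_cases hσ : σ ∈ D.R.H
    swap
    · exact b.2.1 σ hσ
    have h1 := D.R.allLev_succ_of_coef_zero (hr b) fun f => congrFun hb f
    rw [show D.R.ee + 1 = p * 1 by have := D.R.prime.pos; rw [D.ee_eq]; omega] at h1
    have h2 := D.R.allLev_succ_of_dvd one_ne_zero (by rw [D.E_eq]) h1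
    rw [show p * 1 + 1 = p * D.R.E + 1 by rw [D.E_eq]] at h2
    exact D.R.eq_zero_of_allLev_top (fun v => by rw [nsmul_eq_mul, D.char, zero_mul]) h2 σ hσ
  · have h := D.R.coefMap_twist hpi hiE (hr b) hφ.mem_decompositionSubgroup hm (· ^ p)
      (TameRoot.residue_apply_frobenius hφ) (u := 1) (by rw [hπ, OneMemClass.coe_one, one_mul])
      (AddMonoidHom.mulLeft μ) b.2.2.2.2 (f := f) (f' := T f) fun v => rfl
    show r b (T f) = r b f ^ p
    rw [h, map_one, one_pow, one_mul]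
  · rw [pow_one, ← natCard_dual (p := p) k fun v => by rw [nsmul_eq_mul, D.char, zero_mul]]
    exact hdim

open scoped Classical in
/-- Restriction of the upper right entry to `H`. -/
def resH : (GQ → Mat2 k) →ₗ[k] (GalQ → k) where
  toFun c σ := if σ ∈ D.R.H then c σ 0 1 else 0
  map_add' c e := by funext σ; simp only [Pi.add_apply, Matrix.add_apply]; split <;> simp
  map_smul' t c := by
    funext σ; simp only [Pi.smul_apply, Matrix.smul_apply, RingHom.id_apply]; split <;> simp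

omit [Finite k] in
/-- A normalised class with vanishing diagonal at Frobenius restricts to an element of
`upperClasses`. -/
theorem resH_mem_upperClasses {c : GQ → Mat2 k} (hnorm : c ∈ D.normalised) {φ : GalQ}
    (hφD : φ ∈ A.decompositionSubgroup ℚ) (ha : c φ 0 0 = 0) : D.resH c ∈ D.upperClasses φ := by
  obtain ⟨hc, hI, -, hD, hlev⟩ := hnorm
  have hcI : ∀ σ ∈ A.inertiaSubgroupIn ℚ, c σ 1 1 = 0 := fun σ hσ => by
    have := hc.2.1 σ
    rwa [Matrix.trace_fin_two, (hI σ hσ).2, zero_add] at this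
  have hφ11 : c φ 1 1 = 0 := by
    have := hc.2.1 φ
    rwa [Matrix.trace_fin_two, ha, zero_add] at this
  have hb := D.isHom_bH hc hI
  have hres' : ∀ σ ∈ D.R.H, D.resH c σ = bH c σ := fun σ hσ => if_pos hσ
  refine ⟨fun σ hσ => if_neg hσ, TameRoot.IsHom.congr D.R hb fun σ hσ => (hres' σ hσ).symm,
    TameRoot.AllLev.congr D.R hlev fun σ hσ => (hres' σ hσ).symm, fun σ hσ => ?_⟩
  rw [hres' σ hσ, hres' _ (D.R.conj_mem_of_decomposition hφD hσ)]
  show c (φ⁻¹ * σ * φ) 0 1 = _ * c σ 0 1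
  have e10 := (hI σ (D.R.H_le hσ)).1
  have had : rb σ * c φ * rb σ⁻¹ = c φ := by
    have hσD := D.R.H_le_decomposition hσ
    obtain ⟨u10, u11, u0⟩ := upper_conj (D.upper σ hσD) (rb_mul_inv rb σ) (c φ)
    obtain ⟨u00, u01⟩ := u0 (hD φ hφD)
    ext i j
    fin_cases i <;> fin_cases j
    · exact u00
    · refine u01.trans ?_
      rw [ha, hφ11, D.rbH00 hσ, D.quot σ⁻¹ (inv_mem (D.R.H_le hσ))]
      simp
    · refine u10.trans ?_
      simp [hD φ hφD]
    · refine u11.trans ?_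
      simp [hD φ hφD]
  rw [cocycle_conj hc, had, add_sub_cancel_right,
    ((upper_conj (D.upper _ (inv_mem hφD)) (rb_inv_mul rb φ) (c σ)).2.2 e10).2,
    (hI σ (D.R.H_le hσ)).2, hcI σ (D.R.H_le hσ)]
  ring

omit [Finite k] in
/-- A normalised class with vanishing diagonal at Frobenius and vanishing upper right entry on `H`
vanishes on the decomposition group. -/
theorem resPlace_eq_zero_of_normalised {c : GQ → Mat2 k} (hnorm : c ∈ D.normalised) {φ : GalQ}
    (hφ : A.IsFrobeniusAt φ p) (ha : c φ 0 0 = 0) (hH : ∀ σ ∈ D.R.H, c σ 0 1 = 0) :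
    resPlace A c = 0 := by
  obtain ⟨hc, hI, hτ01, hD, -⟩ := hnorm
  have hφD := hφ.mem_decompositionSubgroup
  have hcI : ∀ σ ∈ A.inertiaSubgroupIn ℚ, c σ 1 1 = 0 := fun σ hσ => by
    have := hc.2.1 σ
    rwa [Matrix.trace_fin_two, (hI σ hσ).2, zero_add] at this
  have hτ : c D.τ = 0 := by
    ext i j
    fin_cases i <;> fin_cases j
    · exact (hI _ D.τ_mem).2
    · exact hτ01
    · exact (hI _ D.τ_mem).1
    · exact hcI _ D.τ_mem
  have hφ11 : c φ 1 1 = 0 := by
    have := hc.2.1 φ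
    rwa [Matrix.trace_fin_two, ha, zero_add] at this
  have hH0 : ∀ σ ∈ D.R.H, c σ = 0 := fun σ hσ => by
    ext i j
    fin_cases i <;> fin_cases j
    · exact (hI _ (D.R.H_le hσ)).2
    · exact hH σ hσ
    · exact (hI _ (D.R.H_le hσ)).1
    · exact hcI _ (D.R.H_le hσ)
  have hI0 := cocycle_eq_zero_of_gen hc D.gen hτ hH0
  have hφ01 : c φ 0 1 = 0 := by
    have h4 := congrFun (congrFun (cocycle_fixed_of_inertia hc hI0 hφD D.τ_mem) 0) 1
    rw [((upper_conj (D.upper _ (inertia_mem D.τ_mem)) (rb_mul_inv rb D.τ) (c φ)).2.2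
      (hD φ hφD)).2, D.rbτ00, D.τ_inv11, D.τ_inv01] at h4
    exact (mul_eq_zero.1 (show ((D.n : k) - 1) * c φ 0 1 = 0 by linear_combination h4)).resolve_left
      (sub_ne_zero.2 D.n_ne_one)
  have hφ0 : c φ = 0 := by
    ext i j
    fin_cases i <;> fin_cases j
    · exact ha
    · exact hφ01
    · exact hD φ hφD
    · exact hφ11
  exact resPlace_eq_zero hc D.R.over D.R.prime hI0 hφ hφ0

include D in
/-- The bound in the reducible case. -/
theorem exists_bound : ∃ L : Submodule k (A.decompositionSubgroup ℚ → Mat2 k),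
    FiniteDimensional k L ∧ Module.finrank k L ≤ 4 ∧
      ∀ c ∈ adCocycles rb, HasFlatModel p (dualAct rb c) → resPlace A c ∈ L := by
  classical
  obtain ⟨φ, hφ, hπ, m, hm, hm1⟩ := D.R.exists_frobenius
  obtain ⟨hBfin, hBdim⟩ := D.finrank_upperClasses_le hφ hπ hm hm1
  have hφD := hφ.mem_decompositionSubgroup
  obtain ⟨proj, hproj⟩ := (D.upperClasses φ).subtype.exists_leftInverse_of_injective
    (Submodule.ker_subtype _)
  let ev : (GQ → Mat2 k) →ₗ[k] k :=
    { toFun := fun c => c φ 0 0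
      map_add' := fun c e => rfl
      map_smul' := fun t c => rfl }
  let g : D.normalised →ₗ[k] k × D.upperClasses φ :=
    (ev.prod (proj.comp D.resH)).comp D.normalised.subtype
  let f : D.normalised →ₗ[k] (A.decompositionSubgroup ℚ → Mat2 k) :=
    (resPlace A).comp D.normalised.subtype
  have hker : ∀ v, g v = 0 → f v = 0 := by
    rintro ⟨c, hc⟩ hv
    have ha : c φ 0 0 = 0 := congrArg Prod.fst hv
    refine D.resPlace_eq_zero_of_normalised hc hφ ha fun σ hσ => ?_
    have h1 : proj (D.resH c) = 0 := congrArg Prod.snd hv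
    have h2 : proj (D.resH c) = ⟨D.resH c, D.resH_mem_upperClasses hc hφD ha⟩ :=
      LinearMap.congr_fun hproj ⟨D.resH c, D.resH_mem_upperClasses hc hφD ha⟩
    rw [h1] at h2
    exact (if_pos hσ : D.resH c σ = c σ 0 1).symm.trans (congrFun (congrArg Subtype.val h2.symm) σ)
  obtain ⟨hfin, hdim⟩ := finrank_range_le_of_ker f g hker
  let off : k × k →ₗ[k] (A.decompositionSubgroup ℚ → Mat2 k) :=
    (resPlace A).comp ((adCoboundary rb).comp
      ({ toFun := fun z => !![0, z.1; z.2, 0]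
         map_add' := fun z w => by ext i j; fin_cases i <;> fin_cases j <;> simp
         map_smul' := fun t z => by ext i j; fin_cases i <;> fin_cases j <;> simp } :
        k × k →ₗ[k] Mat2 k))
  refine ⟨LinearMap.range f ⊔ LinearMap.range off, inferInstance, ?_, fun c hc hflat => ?_⟩
  · refine (Submodule.finrank_add_le_finrank_add_finrank _ _).trans (add_le_add (hdim.trans ?_)
      ((LinearMap.finrank_range_le off).trans (by simp)) : _ ≤ 2 + 2)
    rw [Module.finrank_prod, Module.finrank_self]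
    omega
  have hτD := inertia_mem D.τ_mem
  obtain ⟨hN10, hN00, -, -⟩ := upper_inv (D.upper _ hτD) (rb_mul_inv rb D.τ)
  rw [D.rbτ00] at hN00
  have hn1 : (1 : k) - D.n ≠ 0 := sub_ne_zero.2 (Ne.symm D.n_ne_one)
  have hm1' : (1 : k) - rb D.τ⁻¹ 0 0 ≠ 0 := sub_ne_zero.2 fun h => D.n_ne_one (by
    rwa [← h, mul_one] at hN00)
  set x : k := -c D.τ 0 1 / (1 - D.n) with hx
  set y : k := -c D.τ 1 0 / (1 - rb D.τ⁻¹ 0 0) with hy
  set c' := c + adCoboundary rb !![0, x; y, 0] with hc'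
  have hc'A : c' ∈ adCocycles rb := add_mem hc
    (adCoboundary_mem D.cont (by simp [Matrix.trace_fin_two]))
  have hflat' : HasFlatModel p (dualAct rb c') := hasFlatModel_add_coboundary hflat _
  have h10 : c' D.τ 1 0 = 0 := by
    simp [hc', TWAssembly.adCoboundary_apply, mul2, D.upper _ hτD, hN10, 
      D.quot _ D.τ_mem]
    rw [hy]; field_simp; ring
  have h01 : c' D.τ 0 1 = 0 := by
    simp [hc', TWAssembly.adCoboundary_apply, mul2, D.τ01, D.τ_inv01,
      D.τ_inv11, D.rbτ00]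
    rw [hx]; field_simp; ring
  have hshape : ∀ σ ∈ A.inertiaSubgroupIn ℚ, c' σ 1 0 = 0 ∧ c' σ 1 1 = 0 ∧ c' σ 0 0 = 0 :=
    fun σ hσ => D.shape_I hc'A hflat' h10 hσ
  have hτ0 : c' D.τ = 0 := by
    obtain ⟨e10, e11, e00⟩ := hshape _ D.τ_mem
    ext i j
    fin_cases i <;> fin_cases j
    · exact e00
    · exact h01
    · exact e10
    · exact e11
  have hI' : ∀ σ ∈ A.inertiaSubgroupIn ℚ, c' σ 1 0 = 0 ∧ c' σ 0 0 = 0 :=
    fun σ hσ => ⟨(hshape σ hσ).1, (hshape σ hσ).2.2⟩
  have hmem : c' ∈ D.normalised := ⟨hc'A, hI', h01,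
    fun σ hσ => D.shape_D hc'A (fun σ hσ => (hI' σ hσ).1) hσ,
    D.allLev_ee hc'A hI' hτ0 (D.allLev_one hc'A hflat' hshape)⟩
  have e : resPlace A c = f ⟨c', hmem⟩ - off (x, y) := by
    show resPlace A c = resPlace A c' - resPlace A (adCoboundary rb _)
    rw [← map_sub, hc']
    congr 1
    exact (add_sub_cancel_right c _).symm
  rw [e]
  exact sub_mem (Submodule.mem_sup_left ⟨_, rfl⟩) (Submodule.mem_sup_right ⟨_, rfl⟩)

end DataA

/-- The bound for a representation with an unramified quotient at `p`. -/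
theorem exists_bound_caseA [Finite k] (hA : A.LiesOverPrime p) (hp : p.Prime) (hp2 : p ≠ 2)
    (hk : (p : k) = 0) (rb : GQ →* Mat2 k) (hcont : ContRep rb) (hdet : CycloDet p rb)
    (hupper : ∀ σ ∈ A.decompositionSubgroup ℚ, rb σ 1 0 = 0)
    (hquot : ∀ σ ∈ A.inertiaSubgroupIn ℚ, rb σ 1 1 = 1) :
    ∃ L : Submodule k (A.decompositionSubgroup ℚ → Mat2 k),
      FiniteDimensional k L ∧ Module.finrank k L ≤ 4 ∧
        ∀ c ∈ adCocycles rb, HasFlatModel p (dualAct rb c) → resPlace A c ∈ L := by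
  have hp3 : 2 < p := lt_of_le_of_ne hp.two_le (Ne.symm hp2)
  obtain ⟨R, hE⟩ := exists_tameRoot hA hp Nat.one_pos fun h => by
    have := Nat.le_of_dvd (by omega) h
    omega
  obtain ⟨G⟩ := R.nonempty_generator
  have : CharP k p := (CharP.charP_iff_prime_eq_zero hp).2 hk
  have hτ := G.τ_mem
  have h00 : rb G.τ 0 0 = (G.n : k) := by
    have h := det_eq_of_apply_zeta R hdet G.τ_ζ
    rw [Matrix.det_fin_two, hupper G.τ (DataA.inertia_mem hτ), hquot G.τ hτ] at h
    simpa using h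
  have hn1 : (G.n : k) ≠ 1 := G.n_ne_one hp2
  set x : k := rb G.τ 0 1 / (1 - G.n) with hx
  let U : (Mat2 k)ˣ :=
    ⟨!![1, x; 0, 1], !![1, -x; 0, 1], by ext i j; fin_cases i <;> fin_cases j <;> simp,
      by ext i j; fin_cases i <;> fin_cases j <;> simp⟩
  have hconj : ∀ σ, conjRep rb U σ = !![1, -x; 0, 1] * rb σ * !![1, x; 0, 1] := fun σ => rfl
  refine exists_bound_of_conj U A ?_
  refine DataA.exists_bound (p := p)
    { R := R, E_eq := hE, ne_two := hp2, char := hk, cont := conjRep_cont U hcont,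
      det := conjRep_det U hdet
      upper := fun σ hσ => by rw [hconj, mul2, mul2, mul2]; simp [hupper σ hσ]
      quot := fun σ hσ => by
        rw [hconj, mul2, mul2, mul2]
        simp [hupper σ (DataA.inertia_mem hσ), hquot σ hσ]
      τ := G.τ, τ_mem := hτ, u := G.u, τ_π := G.τ_π, u_order := G.u_order
      gen := G.gen
      n := G.n, τ_ζ := G.τ_ζ
      τ01 := by
        rw [hconj, mul2, mul2, mul2]
        simp [hupper G.τ (DataA.inertia_mem hτ), hquot G.τ hτ, h00]
        rw [hx]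
        field_simp [sub_ne_zero.2 (Ne.symm hn1)]
        ring }

end Fermat.Agent.FlatBound
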