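import Fermat.Agent.FlatBound.CaseA
import Fermat.Agent.FlatBound.CaseABound
import Mathlib.Algebra.Module.Submodule.RestrictScalars

/-!
# Flat cocycles of a supersingular representation: levels
-/

set_option autoImplicit false

noncomputable section

open Fermat.Agent.TangentBound
open Fermat.Agent.TWAssembly (adCocycles adCoboundary resPlace)
open Fermat.Agent.GaloisBasics (Qbar GalQ)
open Fermat.Agent.FlatModels (HasFlatModel)
open IsLocalRing

namespace Fermat.Agent.FlatBound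

variable {A : ValuationSubring Qbar} {p : ℕ}

namespace TameRoot

variable (R : TameRoot A p) {V : Type} [AddCommGroup V] {b : GalQ → V}

/-- Climb through levels at which the coefficient vanishes or which are divisible by `p`. -/
theorem allLev_climb {i₀ i₁ : ℕ} (hi₀ : 1 ≤ i₀) (hle : i₀ ≤ i₁) (hi₁ : i₁ ≤ p * R.E + 1)
    (h : R.AllLev b i₀)
    (hkill : ∀ i, i₀ ≤ i → i < i₁ → ¬ p ∣ i → i < p * R.E →
      ∀ r : (V →+ ZMod p) →+ ResidueField A,
        (∀ f, R.HasCoef (fun σ => f (b σ)) i (r f)) → ∀ f, r f = 0) :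
    R.AllLev b i₁ := by
  induction i₁, hle using Nat.le_induction with
  | base => exact h
  | succ i hi ih =>
    have hlev := ih (by omega) fun j h1 h2 => hkill j h1 (by omega)
    by_cases hpi : p ∣ i
    · obtain ⟨l, rfl⟩ := hpi
      refine R.allLev_succ_of_dvd ?_ (Nat.le_of_mul_le_mul_left (by omega) R.prime.pos) hlev
      rintro rfl
      omega
    · have hiE : i < p * R.E :=
        lt_of_le_of_ne (by omega) fun h => hpi (h ▸ dvd_mul_right p R.E)
      obtain ⟨r, hr⟩ := R.exists_coefMap hpi hiE hlev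
      exact R.allLev_succ_of_coef_zero hr (hkill i hi (Nat.lt_succ_self i) hpi hiE r hr)

/-- A non-zero coefficient gives a Kummer element of exact level. -/
theorem exact_level {γ : GalQ → ZMod p} {i : ℕ} {r : ResidueField A} (h : R.HasCoef γ i r)
    (hr : r ≠ 0) : ∃ α, R.Kum γ α ∧ A.valuation (α ^ p - 1) = R.vπ ^ i := by
  obtain ⟨α, hα, hv, rfl⟩ := h
  exact ⟨α, hα, le_antisymm hv (not_lt.1 fun hlt => hr ((R.coef_eq_zero_iff hv).2 hlt))⟩

/-- A non-zero coefficient means a non-zero homomorphism. -/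
theorem exists_ne_zero_of_coef {γ : GalQ → ZMod p} {i : ℕ} (hpi : ¬ p ∣ i) (hiE : i < p * R.E)
    {r : ResidueField A} (h : R.HasCoef γ i r) (hr : r ≠ 0) : ∃ σ ∈ R.H, γ σ ≠ 0 := by
  by_contra! h0
  have h1 : R.HasCoef γ i 0 := by
    refine ⟨1, ⟨one_ne_zero, fun σ hσ => ?_⟩, by simp, ?_⟩
    · rw [h0 σ hσ, map_one, ZMod.val_zero, pow_zero, one_mul]
    · exact (R.coef_eq_zero_iff (by simp)).2 (by simpa using pow_pos R.vπ_pos i)
  exact hr (R.hasCoef_unique hpi hiE h h1)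

end TameRoot

/-- Functionals factor through a given one on a finite field. -/
theorem exists_factor_dual [Fact p.Prime] {F V : Type} [Field F] [Finite F] [AddCommGroup V]
    [Module F V] [Finite V] (hpV : ∀ v : V, p • v = 0) {f₀ : F →+ ZMod p} (hf₀ : f₀ ≠ 0)
    (ψ : V →+ ZMod p) : ∃ g : V →ₗ[F] F, ∀ v, ψ v = f₀ (g v) := by
  let Φ : (V →ₗ[F] F) → (V →+ ZMod p) := fun g => f₀.comp g.toAddMonoidHom
  have hinj : Function.Injective Φ := fun g g' h => by
    refine LinearMap.ext fun v => sub_eq_zero.1 ?_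
    by_contra hne
    refine hf₀ (AddMonoidHom.ext fun a => ?_)
    have h1 := DFunLike.congr_fun h ((a / (g v - g' v)) • v)
    simp only [Φ, AddMonoidHom.comp_apply, LinearMap.toAddMonoidHom_coe, map_smul,
      smul_eq_mul] at h1
    rw [← sub_eq_zero, ← map_sub, ← mul_sub, div_mul_cancel₀ _ hne] at h1
    exact h1
  have : Finite (V →ₗ[F] F) := Finite.of_injective _ DFunLike.coe_injective
  have hcard : Nat.card (V →+ ZMod p) = Nat.card (V →ₗ[F] F) := by
    rw [natCard_dual V hpV, Module.natCard_eq_pow_finrank (K := F) (V := V),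
      Module.natCard_eq_pow_finrank (K := F) (V := V →ₗ[F] F)]
    exact congrArg _ Subspace.dual_finrank_eq.symm
  have : Finite (V →+ ZMod p) := Finite.of_injective _ DFunLike.coe_injective
  obtain ⟨g, hg⟩ := ((Nat.bijective_iff_injective_and_card Φ).2 ⟨hinj, hcard.symm⟩).2 ψ
  exact ⟨g, fun v => (DFunLike.congr_fun hg v).symm⟩

/-- Extending functionals along an injection. -/
theorem exists_extend_dual [Fact p.Prime] {V W : Type} [AddCommGroup V] [AddCommGroup W]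
    [Module (ZMod p) V] [Module (ZMod p) W] (i : V →+ W) (hi : Function.Injective i)
    (f : V →+ ZMod p) : ∃ g : W →+ ZMod p, ∀ v, g (i v) = f v := by
  obtain ⟨l, hl⟩ := (i.toZModLinearMap p).exists_leftInverse_of_injective
    (LinearMap.ker_eq_bot.2 hi)
  exact ⟨f.comp l.toAddMonoidHom, fun v => congrArg f (LinearMap.congr_fun hl v)⟩

variable {k : Type} [Field k]

/-- Two by two matrices of trace zero anticommute up to the trace of their product. -/
theorem mul_add_mul_of_trace_zero {X Y : Mat2 k} (hX : X.trace = 0) (hY : Y.trace = 0) :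
    X * Y + Y * X = (X * Y).trace • (1 : Mat2 k) := by
  rw [Matrix.trace_fin_two] at hX hY
  have eX : X 1 1 = -X 0 0 := by linear_combination hX
  have eY : Y 1 1 = -Y 0 0 := by linear_combination hY
  ext i j
  fin_cases i <;> fin_cases j <;>
    simp [Matrix.mul_apply, Fin.sum_univ_two, Matrix.trace_fin_two, eX, eY] <;> ring

/-- The supersingular shape. -/
structure DataB (A : ValuationSubring Qbar) (p : ℕ) (rb : GQ →* Mat2 k) where
  R : TameRoot A p
  E_eq : R.E = p + 1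
  ne_two : p ≠ 2
  char : (p : k) = 0
  cont : ContRep rb
  det : CycloDet p rb
  τ : GalQ
  τ_mem : τ ∈ A.inertiaSubgroupIn ℚ
  u : A
  u_pow : (u : Qbar) ^ R.ee = 1
  τ_π : τ (R.π : Qbar) = u * R.π
  u_order : ∀ j : ℕ, residue A u ^ j = 1 → R.ee ∣ j
  gen : ∀ σ ∈ A.inertiaSubgroupIn ℚ, ∃ m : ℕ, ∃ h ∈ R.H, σ = τ ^ m * h
  rbH : ∀ h ∈ R.H, rb h = 1
  F : Type
  [fieldF : Field F]
  [fintypeF : Fintype F]
  cardF : Fintype.card F = p ^ 2
  ι : F →+* ResidueField A
  κ : F →+* Mat2 k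
  w₀ : F
  ι_w₀ : ι w₀ = residue A u
  κ_w₀ : κ w₀ = rb τ
  span : ∀ a : F, ∃ i j : ℕ, a = i + j * w₀
  s : ℕ
  n : ℕ
  rel : w₀ ^ 2 + n = s * w₀
  τ_ζ : τ R.ζ = R.ζ ^ n

attribute [instance] DataB.fieldF DataB.fintypeF

namespace DataB

variable {rb : GQ →* Mat2 k} (D : DataB A p rb)

include D in
/-- In the supersingular shape `p` is at least three. -/
theorem three_le : 3 ≤ p := by
  have := D.R.prime.two_le
  have := D.ne_two
  omega

/-- The tame exponent of the supersingular shape is `p ^ 2 - 1`. -/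
theorem ee_eq : D.R.ee + 1 = p ^ 2 := by
  obtain ⟨q, hq⟩ : ∃ q, p = q + 1 := ⟨p - 1, by have := D.three_le; omega⟩
  rw [TameRoot.ee, D.E_eq, show p - 1 = q by omega, hq]
  ring

/-- The tame exponent exceeds `2 p`. -/
theorem two_lt_ee : 2 * p < D.R.ee := by
  have := D.three_le
  have := D.ee_eq
  nlinarith

include D in
/-- The coefficient field has characteristic `p`. -/
theorem charP : CharP k p := (CharP.charP_iff_prime_eq_zero D.R.prime).2 D.char

/-- The quadratic field `F` has characteristic `p`. -/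
theorem charP_F : CharP D.F p :=
  (D.ι.charP_iff D.ι.injective p).2 (residueRing_charP D.R)

/-- `p` vanishes in `F`. -/
theorem p_eq_zero : (p : D.F) = 0 := by
  have := D.charP_F
  exact CharP.cast_eq_zero D.F p

/-- The generator `w₀` of `F` has multiplicative order the tame exponent. -/
theorem w₀_pow_eq_one {j : ℕ} : D.w₀ ^ j = 1 ↔ D.R.ee ∣ j := by
  refine ⟨fun h => D.u_order j ?_, fun ⟨m, hm⟩ => ?_⟩
  · rw [← D.ι_w₀, ← map_pow, h, map_one]
  · have he : D.w₀ ^ D.R.ee = 1 := D.ι.injective (by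
      rw [map_pow, D.ι_w₀, ← map_pow, show D.u ^ D.R.ee = 1 from Subtype.ext D.u_pow, map_one,
        map_one])
    rw [hm, pow_mul, he, one_pow]

/-- The generator `w₀` is non-zero. -/
theorem w₀_ne_zero : D.w₀ ≠ 0 := fun h => by
  have := (D.w₀_pow_eq_one (j := D.R.ee)).2 dvd_rfl
  rw [h, zero_pow D.R.ee_pos.ne'] at this
  exact zero_ne_one this

theorem n_eq_pow : (D.n : D.F) = D.w₀ ^ (p + 1) :=
  D.ι.injective (by
    rw [map_natCast, map_pow, D.ι_w₀, D.R.natCast_exponent_inertia D.τ_mem D.τ_ζ D.τ_π, D.E_eq])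

/-- The cyclotomic character is non-trivial on the generator. -/
theorem n_ne_one : (D.n : D.F) ≠ 1 := fun h => by
  rw [D.n_eq_pow, D.w₀_pow_eq_one] at h
  have := Nat.le_of_dvd (by omega) h
  have := D.two_lt_ee
  have := D.three_le
  omega

theorem n_ne_zero : (D.n : D.F) ≠ 0 := by
  rw [D.n_eq_pow]; exact pow_ne_zero _ D.w₀_ne_zero

/-- The conjugate root. -/
def w₁ : D.F := D.s - D.w₀

theorem w₀_mul_w₁ : D.w₀ * D.w₁ = D.n := by
  rw [w₁]; linear_combination -D.rel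

/-- The conjugate root `w₁` is non-zero. -/
theorem w₁_ne_zero : D.w₁ ≠ 0 := fun h => D.n_ne_zero (by rw [← D.w₀_mul_w₁, h, mul_zero])

/-- The conjugate of `w₀` is its `p`-th power. -/
theorem frob_w₀ : D.w₀ ^ p = D.w₁ := by
  refine mul_left_cancel₀ D.w₀_ne_zero ?_
  rw [D.w₀_mul_w₁, D.n_eq_pow, pow_succ']

/-- The two roots are distinct. -/
theorem w₁_ne_w₀ : D.w₁ ≠ D.w₀ := fun h => by
  have h1 : D.w₀ ^ (p - 1) = 1 := mul_right_cancel₀ D.w₀_ne_zero (by
    rw [← pow_succ, Nat.sub_add_cancel D.R.prime.one_lt.le, D.frob_w₀, h, one_mul])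
  have := D.three_le
  have := Nat.le_of_dvd (by omega) (D.w₀_pow_eq_one.1 h1)
  have := D.two_lt_ee
  omega

/-- The difference of the two roots. -/
def δF : D.F := D.w₀ - D.w₁

/-- The difference of the two roots is non-zero. -/
theorem δF_ne_zero : D.δF ≠ 0 := sub_ne_zero.2 D.w₁_ne_w₀.symm

theorem κ_natCast (a : ℕ) : D.κ a = (a : k) • (1 : Mat2 k) := by
  rw [map_natCast, Nat.cast_smul_eq_nsmul, nsmul_one]

/-- The embedding of `F` in the matrices is injective. -/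
theorem κ_injective : Function.Injective D.κ := D.κ.injective

/-- The image of `F` in the matrices is commutative. -/
theorem κ_comm (a b : D.F) : D.κ a * D.κ b = D.κ b * D.κ a := by
  rw [← map_mul, mul_comm, map_mul]

theorem trace_T : (rb D.τ).trace = (D.s : k) := by
  have hT : D.κ D.w₀ * D.κ (D.w₀⁻¹) = 1 := by
    rw [← map_mul, mul_inv_cancel₀ D.w₀_ne_zero, map_one]
  have hdet := det_eq_of_apply_zeta D.R D.det D.τ_ζ
  set T := rb D.τ with hTdef
  have hrel : T * T + (D.n : k) • (1 : Mat2 k) = (D.s : k) • T := by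
    have h := congrArg D.κ D.rel
    rw [map_add, map_mul, map_pow, D.κ_w₀, D.κ_natCast, D.κ_natCast, smul_one_mul, sq] at h
    exact h
  have hch : T * T + (D.n : k) • (1 : Mat2 k) = T.trace • T := by
    rw [← hdet]
    ext i j
    fin_cases i <;> fin_cases j <;>
      simp [Matrix.mul_apply, Fin.sum_univ_two, Matrix.trace_fin_two, Matrix.det_fin_two] <;> ring
  rw [hch] at hrel
  have h2 := congrArg (fun Y => Y * D.κ (D.w₀⁻¹)) hrel
  simp only [smul_mul_assoc] at h2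
  rw [D.κ_w₀] at hT
  rw [hT] at h2
  simpa using congrFun (congrFun h2 0) 0

/-- The trace zero generator of the centraliser of tame inertia. -/
def δ₀ : Mat2 k := D.κ D.δF

/-- `δ₀` has trace zero. -/
theorem trace_δ₀ : D.δ₀.trace = 0 := by
  rw [δ₀, δF, w₁, map_sub, map_sub, D.κ_w₀, D.κ_natCast, Matrix.trace_sub, Matrix.trace_sub,
    Matrix.trace_smul, Matrix.trace_one, D.trace_T]
  simp; ring

/-- The square of `δ₀`. -/
def d : k := (D.s : k) ^ 2 - 4 * (D.n : k)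

/-- The square of `δ₀` is the discriminant. -/
theorem δ₀_mul_self : D.δ₀ * D.δ₀ = D.d • (1 : Mat2 k) := by
  have e : D.δF * D.δF + (4 * D.n : ℕ) = ((D.s ^ 2 : ℕ) : D.F) := by
    rw [δF, w₁]; push_cast; linear_combination 4 * D.rel
  have h := congrArg D.κ e
  rw [map_add, map_mul, D.κ_natCast, D.κ_natCast, Nat.cast_mul, Nat.cast_pow, Nat.cast_ofNat] at h
  rw [d, sub_smul]
  exact eq_sub_of_add_eq h

/-- The discriminant is non-zero. -/
theorem d_ne_zero : D.d ≠ 0 := fun h => by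
  have h1 := D.δ₀_mul_self
  rw [h, zero_smul, δ₀, ← map_mul] at h1
  exact mul_ne_zero D.δF_ne_zero D.δF_ne_zero (D.κ_injective (h1.trans (map_zero D.κ).symm))

include D in
/-- `2` is invertible in the coefficient field. -/
theorem two_ne_zero' : (2 : k) ≠ 0 := fun h => by
  have := D.charP
  have h1 : ((2 : ℕ) : k) = 0 := by exact_mod_cast h
  have := Nat.le_of_dvd two_pos ((CharP.cast_eq_zero_iff k p 2).1 h1)
  have := D.three_le
  omega

/-- The matrices anticommuting with `δ₀`. -/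
def minusSpace : Submodule k (Mat2 k) where
  carrier := {X | D.δ₀ * X + X * D.δ₀ = 0}
  zero_mem' := by simp
  add_mem' := fun {a b} ha hb => by
    simp only [Set.mem_ofPred_eq] at *
    rw [mul_add, add_mul, add_add_add_comm, ha, hb, add_zero]
  smul_mem' := fun t a ha => by
    simp only [Set.mem_ofPred_eq] at *
    rw [mul_smul_comm, smul_mul_assoc, ← smul_add, ha, smul_zero]

/-- Membership in the matrices anticommuting with `δ₀`. -/
theorem mem_minus {X : Mat2 k} : X ∈ D.minusSpace ↔ D.δ₀ * X + X * D.δ₀ = 0 := Iff.rfl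

/-- The coordinate along `δ₀`. -/
def plusCoef : Mat2 k →ₗ[k] k where
  toFun X := (X * D.δ₀).trace / (2 * D.d)
  map_add' X Y := by rw [add_mul, Matrix.trace_add, add_div]
  map_smul' t X := by rw [smul_mul_assoc, Matrix.trace_smul, smul_eq_mul, mul_div_assoc]; rfl

/-- The projection to the anticommuting part. -/
def minusProj : Mat2 k →ₗ[k] D.minusSpace where
  toFun X := ⟨(2 : k)⁻¹ • (X - D.d⁻¹ • (D.δ₀ * X * D.δ₀)), by
    have h2 : D.δ₀ * (D.δ₀ * X * D.δ₀) = D.d • (X * D.δ₀) := by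
      rw [← mul_assoc, ← mul_assoc, D.δ₀_mul_self, smul_one_mul, smul_mul_assoc]
    have h3 : D.δ₀ * X * D.δ₀ * D.δ₀ = D.d • (D.δ₀ * X) := by
      rw [mul_assoc _ D.δ₀ D.δ₀, D.δ₀_mul_self, mul_smul_comm, mul_one]
    rw [mem_minus, mul_smul_comm, smul_mul_assoc, ← smul_add, mul_sub, sub_mul, mul_smul_comm,
      smul_mul_assoc, h2, h3, inv_smul_smul₀ D.d_ne_zero, inv_smul_smul₀ D.d_ne_zero]
    rw [show D.δ₀ * X - X * D.δ₀ + (X * D.δ₀ - D.δ₀ * X) = 0 by abel, smul_zero]⟩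
  map_add' X Y := Subtype.ext (by
    simp only [Submodule.coe_add, mul_add, add_mul, smul_add, smul_sub]; abel)
  map_smul' t X := Subtype.ext (by
    simp only [Submodule.coe_smul, RingHom.id_apply, mul_smul_comm, smul_mul_assoc,
      smul_comm D.d⁻¹ t, ← smul_sub, smul_comm (2 : k)⁻¹ t])

/-- A matrix of trace zero is its anticommuting part plus a multiple of `δ₀`. -/
theorem decompose {X : Mat2 k} (hX : X.trace = 0) :
    (D.minusProj X : Mat2 k) + D.plusCoef X • D.δ₀ = X := by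
  have h := mul_add_mul_of_trace_zero hX D.trace_δ₀
  have h1 : D.δ₀ * X * D.δ₀ = (X * D.δ₀).trace • D.δ₀ - D.d • X := by
    rw [eq_sub_iff_add_eq, show D.d • X = X * (D.d • (1 : Mat2 k)) by rw [mul_smul_comm, mul_one],
      ← D.δ₀_mul_self, ← mul_assoc, ← add_mul, add_comm (D.δ₀ * X), h, smul_one_mul]
  show (2 : k)⁻¹ • (X - D.d⁻¹ • (D.δ₀ * X * D.δ₀)) + ((X * D.δ₀).trace / (2 * D.d)) • D.δ₀ = X
  rw [h1, smul_sub (D.d⁻¹), inv_smul_smul₀ D.d_ne_zero]
  have hd := D.d_ne_zero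
  have h2 := D.two_ne_zero'
  ext i j
  simp only [Matrix.add_apply, Matrix.smul_apply, Matrix.sub_apply, smul_eq_mul]
  field_simp
  ring

/-- Matrices anticommuting with `δ₀` have trace zero. -/
theorem trace_eq_zero_of_mem {X : Mat2 k} (hX : X ∈ D.minusSpace) : X.trace = 0 := by
  have h1 : D.δ₀ * X * D.δ₀ = -(D.d • X) := by
    rw [eq_neg_of_add_eq_zero_left (D.mem_minus.1 hX), neg_mul, mul_assoc, D.δ₀_mul_self,
      mul_smul_comm, mul_one]
  have h2 : (D.δ₀ * X * D.δ₀).trace = (D.d • X).trace := by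
    rw [Matrix.trace_mul_comm, ← mul_assoc, D.δ₀_mul_self, smul_one_mul]
  rw [h1, Matrix.trace_neg, Matrix.trace_smul, smul_eq_mul] at h2
  have h3 : 2 * D.d * X.trace = 0 := by linear_combination -h2
  exact (mul_eq_zero.1 h3).resolve_left (mul_ne_zero D.two_ne_zero' D.d_ne_zero)

/-- Matrices anticommuting with `δ₀` have no part along `δ₀`. -/
theorem plusCoef_eq_zero_of_mem {X : Mat2 k} (hX : X ∈ D.minusSpace) : D.plusCoef X = 0 := by
  show (X * D.δ₀).trace / _ = 0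
  have h : (X * D.δ₀).trace = 0 := by
    have h1 := congrArg Matrix.trace (D.mem_minus.1 hX)
    rw [Matrix.trace_add, Matrix.trace_mul_comm D.δ₀, Matrix.trace_zero] at h1
    exact (mul_eq_zero.1 (show 2 * (X * D.δ₀).trace = 0 by linear_combination h1)).resolve_left
      D.two_ne_zero'
  rw [h, zero_div]

/-- The anticommuting part of an anticommuting matrix is itself. -/
theorem minusProj_of_mem {X : Mat2 k} (hX : X ∈ D.minusSpace) : (D.minusProj X : Mat2 k) = X := by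
  have h := D.decompose (D.trace_eq_zero_of_mem hX)
  rwa [D.plusCoef_eq_zero_of_mem hX, zero_smul, add_zero] at h

/-- Anticommuting matrices swap the roots. -/
theorem mul_T_eq {X : Mat2 k} (hX : X ∈ D.minusSpace) :
    X * D.κ D.w₀ = D.κ D.w₁ * X ∧ D.κ D.w₀ * X = X * D.κ D.w₁ := by
  have h := D.mem_minus.1 hX
  have e0 : D.δ₀ = D.κ D.w₀ - D.κ D.w₁ := map_sub D.κ _ _
  have e1 : D.κ D.w₁ + D.κ D.w₀ = (D.s : k) • (1 : Mat2 k) := by
    rw [← map_add, w₁, sub_add_cancel, D.κ_natCast]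
  rw [e0, sub_mul, mul_sub] at h
  have hc : (D.κ D.w₁ + D.κ D.w₀) * X = X * (D.κ D.w₁ + D.κ D.w₀) := by
    rw [e1, smul_one_mul, mul_smul_comm, mul_one]
  rw [add_mul, mul_add] at hc
  have h2 : (2 : k) • (X * D.κ D.w₀ - D.κ D.w₁ * X) = 0 := by
    rw [two_smul]
    calc _ = (D.κ D.w₀ * X - D.κ D.w₁ * X + (X * D.κ D.w₀ - X * D.κ D.w₁)) -
          ((D.κ D.w₁ * X + D.κ D.w₀ * X) - (X * D.κ D.w₁ + X * D.κ D.w₀)) := by abel
      _ = 0 := by rw [h, hc, sub_self, sub_zero]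
  have hfst := sub_eq_zero.1 ((smul_eq_zero.1 h2).resolve_left D.two_ne_zero')
  refine ⟨hfst, ?_⟩
  have h3 : D.κ D.w₀ * X - X * D.κ D.w₁ =
      (D.κ D.w₁ * X + D.κ D.w₀ * X - (X * D.κ D.w₁ + X * D.κ D.w₀)) +
        (X * D.κ D.w₀ - D.κ D.w₁ * X) := by abel
  rw [hc, hfst, sub_self, sub_self, add_zero] at h3
  exact sub_eq_zero.1 h3

/-- Right multiplication by an element of the field on anticommuting matrices. -/
def rmul (a : D.F) : D.minusSpace →+ D.minusSpace :=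
  AddMonoidHom.mk' (fun X => ⟨(X : Mat2 k) * D.κ a, by
    rw [mem_minus, ← mul_assoc, mul_assoc _ (D.κ a) D.δ₀, δ₀, D.κ_comm a, ← mul_assoc, ← add_mul,
      show D.κ D.δF * (X : Mat2 k) + X * D.κ D.δF = 0 from X.2, zero_mul]⟩)
    fun X Y => Subtype.ext (by simp [add_mul])

/-- `rmul` is multiplication on the right by the image of `F`. -/
@[simp] theorem coe_rmul (a : D.F) (X : D.minusSpace) :
    (D.rmul a X : Mat2 k) = (X : Mat2 k) * D.κ a := rfl

/-- The value of `rb` on inertia from the action on `π`. -/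
theorem rb_eq_of_matches {σ : GalQ} (hσ : σ ∈ A.inertiaSubgroupIn ℚ) {b : D.F}
    (h : D.R.Matches D.ι σ b) : rb σ = D.κ b := by
  obtain ⟨u', hu', hb⟩ := h
  obtain ⟨m, g, hg, rfl⟩ := D.gen σ hσ
  rw [AlgEquiv.mul_apply, (D.R.mem_H.1 hg).2, D.R.pow_apply_π D.τ_mem D.u_pow D.τ_π] at hu'
  have e : u' = D.u ^ m := Subtype.ext (by
    rw [SubmonoidClass.coe_pow]; exact (mul_right_cancel₀ D.R.π.ne_zero hu').symm)
  rw [e, map_pow, ← D.ι_w₀, ← map_pow] at hb
  rw [← D.ι.injective hb, map_mul, map_pow, D.rbH g hg, mul_one, map_pow, D.κ_w₀]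

/-- Every element of inertia is matched by an element of `F`. -/
theorem matches_exists {σ : GalQ} (hσ : σ ∈ A.inertiaSubgroupIn ℚ) :
    ∃ b : D.F, D.R.Matches D.ι σ b := by
  obtain ⟨m, g, hg, rfl⟩ := D.gen σ hσ
  refine ⟨D.w₀ ^ m, D.u ^ m, ?_, by rw [map_pow, map_pow, D.ι_w₀]⟩
  rw [AlgEquiv.mul_apply, (D.R.mem_H.1 hg).2, D.R.pow_apply_π D.τ_mem D.u_pow D.τ_π,
    SubmonoidClass.coe_pow]

/-- Frobenius conjugates `T` to `T ^ p`. -/
theorem rb_frobenius {φ : GalQ} (hφ : A.IsFrobeniusAt φ p) (hπ : φ (D.R.π : Qbar) = D.R.π) :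
    rb φ * D.κ D.w₀ = D.κ D.w₁ * rb φ ∧ rb φ * D.δ₀ = -(D.δ₀ * rb φ) := by
  have hφD := hφ.mem_decompositionSubgroup
  have hI : φ * D.τ * φ⁻¹ ∈ A.inertiaSubgroupIn ℚ :=
    LocalInertia.conj_mem_inertiaSubgroupIn hφD D.τ_mem
  have huA : φ (D.u : Qbar) ∈ A :=
    (LocalInertia.mem_decompositionSubgroup_iff.1 hφD _).2 D.u.2
  have hm : D.R.Matches D.ι (φ * D.τ * φ⁻¹) D.w₁ := by
    refine ⟨⟨_, huA⟩, ?_, ?_⟩
    · have hπ' : φ⁻¹ (D.R.π : Qbar) = D.R.π := by
        conv_lhs => rw [← hπ]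
        rw [← AlgEquiv.mul_apply, inv_mul_cancel, AlgEquiv.one_apply]
      rw [AlgEquiv.mul_apply, AlgEquiv.mul_apply, hπ', D.τ_π, map_mul, hπ]
    · rw [TameRoot.residue_apply_frobenius hφ D.u ⟨_, huA⟩ rfl, ← D.frob_w₀, map_pow, D.ι_w₀]
  have h := D.rb_eq_of_matches hI hm
  have h1 : rb φ * D.κ D.w₀ = D.κ D.w₁ * rb φ := by
    rw [← h, map_mul, map_mul, D.κ_w₀, mul_assoc, mul_assoc, rb_inv_mul, mul_one]
  refine ⟨h1, ?_⟩
  have e1 : D.κ D.w₁ + D.κ D.w₀ = (D.s : k) • (1 : Mat2 k) := by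
    rw [← map_add, w₁, sub_add_cancel, D.κ_natCast]
  have h2 : rb φ * D.κ D.w₁ = D.κ D.w₀ * rb φ := by
    rw [eq_sub_of_add_eq e1, mul_sub, h1, mul_smul_comm, mul_one, eq_sub_of_add_eq' e1, sub_mul,
      smul_one_mul]
  rw [δ₀, δF, map_sub, mul_sub, sub_mul, h1, h2, neg_sub]

/-- The action of `g` on the values on `H`. -/
theorem conj_H {c : GQ → Mat2 k} (hc : c ∈ adCocycles rb) (g : GalQ) {σ : GalQ}
    (hσ : σ ∈ D.R.H) : c (g⁻¹ * σ * g) = rb g⁻¹ * c σ * rb g := by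
  rw [cocycle_conj hc, D.rbH σ hσ, D.rbH σ⁻¹ (inv_mem hσ), one_mul, mul_one, add_sub_cancel_right]

/-- The anticommuting part on `H`. -/
def bH (c : GQ → Mat2 k) (σ : GalQ) : D.minusSpace := D.minusProj (c σ)

/-- The part along `δ₀` on `H`. -/
def aH (c : GQ → Mat2 k) (σ : GalQ) : k := D.plusCoef (c σ)

theorem map_mul_H {c : GQ → Mat2 k} (hc : c ∈ adCocycles rb) {σ τ : GalQ} (hσ : σ ∈ D.R.H) :
    c (σ * τ) = c σ + c τ := by
  rw [hc.1, D.rbH σ hσ, D.rbH σ⁻¹ (inv_mem hσ), one_mul, mul_one]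

/-- The anticommuting part of a cocycle is a homomorphism on `H`. -/
theorem isHom_bH {c : GQ → Mat2 k} (hc : c ∈ adCocycles rb) : D.R.IsHom (D.bH c) := by
  refine ⟨fun σ hσ τ _ => by rw [bH, D.map_mul_H hc hσ, map_add]; rfl, ?_⟩
  obtain ⟨F, hF, h⟩ := exists_level hc
  exact ⟨F, hF, fun σ _ hσ => by rw [bH, h σ hσ, map_zero]⟩

/-- The part along `δ₀` of a cocycle is a homomorphism on `H`. -/
theorem isHom_aH {c : GQ → Mat2 k} (hc : c ∈ adCocycles rb) : D.R.IsHom (D.aH c) := by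
  refine ⟨fun σ hσ τ _ => by rw [aH, D.map_mul_H hc hσ, map_add]; rfl, ?_⟩
  obtain ⟨F, hF, h⟩ := exists_level hc
  exact ⟨F, hF, fun σ _ hσ => by rw [aH, h σ hσ, map_zero]⟩

/-- Conjugation commuting with `δ₀` keeps the part along `δ₀`. -/
theorem plusCoef_conj (g : GalQ) (hg : rb g * D.δ₀ = D.δ₀ * rb g) (X : Mat2 k) :
    D.plusCoef (rb g⁻¹ * X * rb g) = D.plusCoef X := by
  show (rb g⁻¹ * X * rb g * D.δ₀).trace / _ = (X * D.δ₀).trace / _
  rw [mul_assoc _ (rb g), hg, ← mul_assoc, Matrix.trace_mul_comm, ← mul_assoc, ← mul_assoc,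
    rb_mul_inv, one_mul]

/-- Conjugation anticommuting with `δ₀` negates the part along `δ₀`. -/
theorem plusCoef_conj_neg (g : GalQ) (hg : rb g * D.δ₀ = -(D.δ₀ * rb g)) (X : Mat2 k) :
    D.plusCoef (rb g⁻¹ * X * rb g) = -D.plusCoef X := by
  show (rb g⁻¹ * X * rb g * D.δ₀).trace / _ = -((X * D.δ₀).trace / _)
  rw [mul_assoc _ (rb g), hg, mul_neg, Matrix.trace_neg, neg_div, ← mul_assoc,
    Matrix.trace_mul_comm, ← mul_assoc, ← mul_assoc, rb_mul_inv, one_mul]

/-- The generator commutes with `δ₀`. -/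
theorem T_comm : rb D.τ * D.δ₀ = D.δ₀ * rb D.τ := by
  rw [← D.κ_w₀, δ₀, D.κ_comm]

theorem natCast_ZMod_ne_one : (D.n : ZMod p) ≠ 1 := fun h => by
  have := D.charP_F
  exact D.n_ne_one (by rw [← map_natCast (ZMod.castHom (dvd_refl p) D.F), h, map_one])

/-- A homomorphism invariant under the generator has coefficients only at the level `p + 1`. -/
theorem kill_of_invariant {V : Type} [AddCommGroup V] {b : GalQ → V}
    (hL : ∀ σ ∈ D.R.H, b (D.τ⁻¹ * σ * D.τ) = AddMonoidHom.id V (b σ)) {i : ℕ} (hne : i ≠ p + 1)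
    (hpi : ¬ p ∣ i) (hiE : i < p * D.R.E) (r : (V →+ ZMod p) →+ ResidueField A)
    (hr : ∀ f, D.R.HasCoef (fun σ => f (b σ)) i (r f)) (f : V →+ ZMod p) : r f = 0 := by
  have hτD := LocalInertia.inertiaSubgroupIn_le_decompositionSubgroup D.τ_mem
  have h := D.R.coefMap_twist hpi hiE hr hτD D.τ_ζ id
    (fun x y => TameRoot.residue_apply_inertia D.τ_mem x y) D.τ_π _ hL (f := f) (f' := D.n • f)
    fun v => by rw [AddMonoidHom.smul_apply, nsmul_eq_mul]; rfl
  rw [id_eq, map_nsmul, nsmul_eq_mul, ← map_natCast D.ι, D.n_eq_pow, map_pow, D.ι_w₀] at h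
  refine (mul_eq_zero.1 (show (residue A D.u ^ (p + 1) - residue A D.u ^ i) * r f = 0 by
    linear_combination h)).resolve_left fun h0 => hne ?_
  rw [sub_eq_zero, ← D.ι_w₀, ← map_pow, ← map_pow] at h0
  have h1 := D.ι.injective h0
  have he := D.ee_eq
  have h2 := D.two_lt_ee
  have := D.three_le
  have hE : p * D.R.E = p ^ 2 + p := by rw [D.E_eq]; ring
  rcases le_or_gt i (p + 1) with hlt | hgt
  · have h3 : D.w₀ ^ (p + 1 - i) = 1 := mul_right_cancel₀ (pow_ne_zero i D.w₀_ne_zero) (by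
      rw [← pow_add, Nat.sub_add_cancel hlt, h1, one_mul])
    rcases Nat.eq_zero_or_pos (p + 1 - i) with h4 | h4
    · omega
    · have := Nat.le_of_dvd h4 (D.w₀_pow_eq_one.1 h3); omega
  · have h3 : D.w₀ ^ (i - (p + 1)) = 1 :=
      mul_right_cancel₀ (pow_ne_zero (p + 1) D.w₀_ne_zero) (by
        rw [← pow_add, Nat.sub_add_cancel hgt.le, h1, one_mul])
    have := Nat.le_of_dvd (by omega) (D.w₀_pow_eq_one.1 h3)
    omega

/-- The part along `δ₀` has level `p + 1` and no other coefficient below the top. -/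
theorem aH_kill {c : GQ → Mat2 k} (hc : c ∈ adCocycles rb) :
    D.R.AllLev (D.aH c) (p + 1) ∧
    ∀ i, i ≠ p + 1 → ¬ p ∣ i → i < p * D.R.E → ∀ r : (k →+ ZMod p) →+ ResidueField A,
      (∀ f, D.R.HasCoef (fun σ => f (D.aH c σ)) i (r f)) → ∀ f, r f = 0 := by
  have := D.R.prime_fact
  have hτD := LocalInertia.inertiaSubgroupIn_le_decompositionSubgroup D.τ_mem
  have hL : ∀ σ ∈ D.R.H, D.aH c (D.τ⁻¹ * σ * D.τ) = AddMonoidHom.id k (D.aH c σ) :=
    fun σ hσ => by rw [aH, D.conj_H hc _ hσ, D.plusCoef_conj _ D.T_comm]; rfl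
  have hkill : ∀ i, i ≠ p + 1 → ¬ p ∣ i → i < p * D.R.E →
      ∀ r : (k →+ ZMod p) →+ ResidueField A,
        (∀ f, D.R.HasCoef (fun σ => f (D.aH c σ)) i (r f)) → ∀ f, r f = 0 :=
    fun i hne hpi hiE r hr f => D.kill_of_invariant hL hne hpi hiE r hr f
  refine ⟨?_, hkill⟩
  refine D.R.allLev_climb le_rfl (by omega) ?_ ?_ fun i _ hi => hkill i (by omega)
  · rw [D.E_eq]; have := D.three_le; nlinarith
  · refine (D.isHom_aH hc).allLev_one D.R hτD D.τ_ζ _ hL fun f =>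
      ⟨(AddMonoidHom.mulLeft ((D.n : ZMod p) - 1)⁻¹).comp f, fun v => ?_⟩
    simp only [AddMonoidHom.coe_comp, AddMonoidHom.coe_mulLeft, Function.comp_apply,
      AddMonoidHom.id_apply]
    have := sub_ne_zero.2 D.natCast_ZMod_ne_one
    field_simp

theorem minusProj_T_conj (X : Mat2 k) :
    (D.minusProj (rb D.τ⁻¹ * X * rb D.τ) : Mat2 k) =
      rb D.τ⁻¹ * (D.minusProj X : Mat2 k) * rb D.τ := by
  show (2 : k)⁻¹ • (_ - D.d⁻¹ • _) = rb D.τ⁻¹ * ((2 : k)⁻¹ • (X - D.d⁻¹ • _)) * rb D.τ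
  have h1 : D.δ₀ * rb D.τ⁻¹ = rb D.τ⁻¹ * D.δ₀ := by
    have e := congrArg (fun Y => rb D.τ⁻¹ * Y * rb D.τ⁻¹) D.T_comm
    simp only [← mul_assoc, rb_inv_mul, one_mul] at e
    simp only [mul_assoc, rb_mul_inv, mul_one] at e
    exact e
  have e : D.δ₀ * (rb D.τ⁻¹ * X * rb D.τ) * D.δ₀ = rb D.τ⁻¹ * (D.δ₀ * X * D.δ₀) * rb D.τ := by
    rw [← mul_assoc D.δ₀, ← mul_assoc D.δ₀, h1, mul_assoc _ (rb D.τ) D.δ₀, D.T_comm]
    simp only [mul_assoc]
  rw [e, mul_smul_comm, smul_mul_assoc, mul_sub, sub_mul, mul_smul_comm, smul_mul_assoc]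

/-- The twist of the anticommuting part by the generator. -/
def twistL : D.minusSpace →+ D.minusSpace := D.rmul (D.w₀ / D.w₁)

/-- Conjugation by the generator twists the anticommuting part. -/
theorem hL_bH {c : GQ → Mat2 k} (hc : c ∈ adCocycles rb) :
    ∀ σ ∈ D.R.H, D.bH c (D.τ⁻¹ * σ * D.τ) = D.twistL (D.bH c σ) := fun σ hσ => by
  refine Subtype.ext ?_
  rw [bH, D.conj_H hc _ hσ, D.minusProj_T_conj, twistL, coe_rmul]
  set X := (D.minusProj (c σ) : Mat2 k) with hX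
  have hτi : rb D.τ⁻¹ = D.κ D.w₀⁻¹ := by
    calc rb D.τ⁻¹ = rb D.τ⁻¹ * (rb D.τ * D.κ D.w₀⁻¹) := by
          rw [← D.κ_w₀, ← map_mul, mul_inv_cancel₀ D.w₀_ne_zero, map_one, mul_one]
      _ = _ := by rw [← mul_assoc, rb_inv_mul, one_mul]
  have h2 : D.κ D.w₀⁻¹ * X = X * D.κ D.w₁⁻¹ := by
    have h := (D.mul_T_eq (D.minusProj (c σ)).2).2
    calc D.κ D.w₀⁻¹ * X = D.κ D.w₀⁻¹ * (X * D.κ D.w₁) * D.κ D.w₁⁻¹ := by
          rw [mul_assoc, mul_assoc X, ← map_mul, mul_inv_cancel₀ D.w₁_ne_zero, map_one, mul_one]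
      _ = _ := by
          rw [← h, ← mul_assoc (D.κ D.w₀⁻¹), ← map_mul, inv_mul_cancel₀ D.w₀_ne_zero, map_one,
            one_mul]
  rw [hτi, ← D.κ_w₀, h2, mul_assoc, ← map_mul, show D.bH c σ = D.minusProj (c σ) from rfl, ← hX]
  congr 2
  rw [mul_comm, div_eq_mul_inv]

/-- The cyclotomic character times the twist is multiplication by `w₀ ^ 2`. -/
theorem natCast_twist (f : D.minusSpace →+ ZMod p) (v : D.minusSpace) :
    (D.n : ZMod p) * f (D.twistL v) = f (D.rmul (D.w₀ ^ 2) v) := by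
  rw [← nsmul_eq_mul, ← map_nsmul]
  congr 1
  refine Subtype.ext ?_
  rw [AddSubmonoidClass.coe_nsmul, twistL, coe_rmul, coe_rmul, ← mul_smul_comm, ← map_nsmul,
    nsmul_eq_mul, ← D.w₀_mul_w₁]
  congr 2
  field_simp [D.w₁_ne_zero]

/-- A homomorphism with the twist of the anticommuting part has coefficients only at the levels
`2` and `p² + 1`. -/
theorem kill_of_twist {b : GalQ → D.minusSpace}
    (hL : ∀ σ ∈ D.R.H, b (D.τ⁻¹ * σ * D.τ) = D.twistL (b σ)) {i : ℕ} (hne : i ≠ 2)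
    (hne' : i ≠ p ^ 2 + 1) (hpi : ¬ p ∣ i) (hiE : i < p * D.R.E)
    (r : (D.minusSpace →+ ZMod p) →+ ResidueField A)
    (hr : ∀ f, D.R.HasCoef (fun σ => f (b σ)) i (r f)) (f : D.minusSpace →+ ZMod p) : r f = 0 := by
  have := D.R.prime_fact
  have hτD := LocalInertia.inertiaSubgroupIn_le_decompositionSubgroup D.τ_mem
  have hstep : ∀ f, r (f.comp (D.rmul (D.w₀ ^ 2))) = residue A D.u ^ i * r f := fun f => by
    have h := D.R.coefMap_twist hpi hiE hr hτD D.τ_ζ id
      (fun x y => TameRoot.residue_apply_inertia D.τ_mem x y) D.τ_π _ hL (f := f)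
      (f' := f.comp (D.rmul (D.w₀ ^ 2))) fun v => (D.natCast_twist f v).symm
    rwa [id_eq] at h
  set x := residue A D.u ^ i with hx
  -- the quadratic relation of the square of the root
  have hquad : ((f.comp (D.rmul (D.w₀ ^ 2))).comp (D.rmul (D.w₀ ^ 2))) +
      (2 * D.n) • f.comp (D.rmul (D.w₀ ^ 2)) + (D.n ^ 2) • f =
        (D.s ^ 2) • f.comp (D.rmul (D.w₀ ^ 2)) := by
    ext v
    simp only [AddMonoidHom.add_apply, AddMonoidHom.coe_comp, Function.comp_apply,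
      AddMonoidHom.smul_apply]
    rw [← map_nsmul f, ← map_nsmul f, ← map_nsmul f, ← map_add, ← map_add]
    congr 1
    refine Subtype.ext ?_
    simp only [Submodule.coe_add, AddSubmonoidClass.coe_nsmul, coe_rmul]
    rw [mul_assoc, ← map_mul, ← mul_smul_comm, ← mul_smul_comm, ← map_nsmul, ← map_nsmul,
      show (D.n ^ 2) • (v : Mat2 k) = (v : Mat2 k) * D.κ ((D.n ^ 2) • (1 : D.F)) by
        rw [map_nsmul, map_one, mul_smul_comm, mul_one],
      ← mul_add, ← mul_add, ← map_add, ← map_add]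
    congr 2
    simp only [nsmul_eq_mul, mul_one]
    push_cast
    linear_combination (D.w₀ ^ 2 + D.n + D.s * D.w₀) * D.rel
  have h := congrArg r hquad
  simp only [map_add, map_nsmul, hstep, nsmul_eq_mul] at h
  push_cast at h
  have e1 : (D.ι D.w₀) + D.ι D.w₁ = (D.s : ResidueField A) := by
    rw [← map_add, w₁, add_sub_cancel, map_natCast]
  have e2 : (D.ι D.w₀) * D.ι D.w₁ = (D.n : ResidueField A) := by
    rw [← map_mul, D.w₀_mul_w₁, map_natCast]
  have h' : (x - D.ι D.w₀ ^ 2) * (x - D.ι D.w₁ ^ 2) * r f = 0 := by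
    rw [← e1, ← e2] at h
    linear_combination h
  have he := D.ee_eq
  have h2 := D.two_lt_ee
  have hE : p * D.R.E = p ^ 2 + p := by rw [D.E_eq]; ring
  have hdiff : ∀ j, 0 < j → D.w₀ ^ i = D.w₀ ^ j → j < D.R.ee → i = j ∨ i = j + D.R.ee := by
    intro j hj hij hjlt
    rcases le_or_gt i j with hlt | hgt
    · have h3 : D.w₀ ^ (j - i) = 1 := mul_right_cancel₀ (pow_ne_zero i D.w₀_ne_zero) (by
        rw [← pow_add, Nat.sub_add_cancel hlt, hij, one_mul])
      rcases Nat.eq_zero_or_pos (j - i) with h4 | h4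
      · left; omega
      · have := Nat.le_of_dvd h4 (D.w₀_pow_eq_one.1 h3); omega
    · have h3 : D.w₀ ^ (i - j) = 1 := mul_right_cancel₀ (pow_ne_zero j D.w₀_ne_zero) (by
        rw [← pow_add, Nat.sub_add_cancel hgt.le, hij, one_mul])
      obtain ⟨q, hq⟩ := D.w₀_pow_eq_one.1 h3
      rcases q with _ | _ | q
      · omega
      · right; omega
      · have h5 : 2 * D.R.ee ≤ D.R.ee * (q + 1 + 1) := by
          rw [mul_comm]; exact Nat.mul_le_mul_left _ (by omega)
        have h6 : 3 * p ≤ p ^ 2 := by rw [sq]; exact Nat.mul_le_mul_right p D.three_le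
        have := D.three_le
        omega
  rcases mul_eq_zero.1 h' with h0 | h0
  · exfalso
    rcases mul_eq_zero.1 h0 with h0 | h0
    · rw [sub_eq_zero, hx, ← D.ι_w₀, ← map_pow, ← map_pow] at h0
      rcases hdiff 2 two_pos (D.ι.injective h0) (by have := D.three_le; omega) with h1 | h1
      · exact hne h1
      · omega
    · rw [sub_eq_zero, hx, ← D.ι_w₀, ← map_pow, ← map_pow, ← D.frob_w₀, ← pow_mul] at h0
      rcases hdiff (p * 2) (by have := D.three_le; omega) (D.ι.injective h0)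
        (by omega) with h1 | h1
      · exact hpi ⟨2, h1⟩
      · have := D.three_le; omega
  · exact h0

/-- The coefficients of the anticommuting part vanish away from the levels `2` and `p² + 1`. -/
theorem bH_kill {c : GQ → Mat2 k} (hc : c ∈ adCocycles rb) :
    D.R.AllLev (D.bH c) 2 ∧
    ∀ i, i ≠ 2 → i ≠ p ^ 2 + 1 → ¬ p ∣ i → i < p * D.R.E →
      ∀ r : (D.minusSpace →+ ZMod p) →+ ResidueField A,
        (∀ f, D.R.HasCoef (fun σ => f (D.bH c σ)) i (r f)) → ∀ f, r f = 0 := by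
  have := D.R.prime_fact
  have hτD := LocalInertia.inertiaSubgroupIn_le_decompositionSubgroup D.τ_mem
  have hkill : ∀ i, i ≠ 2 → i ≠ p ^ 2 + 1 → ¬ p ∣ i → i < p * D.R.E →
      ∀ r : (D.minusSpace →+ ZMod p) →+ ResidueField A,
        (∀ f, D.R.HasCoef (fun σ => f (D.bH c σ)) i (r f)) → ∀ f, r f = 0 :=
    fun i hne hne' hpi hiE r hr f => D.kill_of_twist (D.hL_bH hc) hne hne' hpi hiE r hr f
  refine ⟨?_, hkill⟩
  have hsq : D.w₀ ^ 2 - 1 ≠ 0 := fun h => by
    have := Nat.le_of_dvd two_pos (D.w₀_pow_eq_one.1 (sub_eq_zero.1 h))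
    have := D.two_lt_ee
    have := D.three_le
    omega
  refine D.R.allLev_climb le_rfl one_le_two ?_ ?_ fun i _ hi => hkill i (by omega) (by
    have := D.three_le; nlinarith)
  · rw [D.E_eq]; have := D.three_le; nlinarith
  · refine (D.isHom_bH hc).allLev_one D.R hτD D.τ_ζ _ (D.hL_bH hc) fun f =>
      ⟨f.comp (D.rmul (D.w₀ ^ 2 - 1)⁻¹), fun v => ?_⟩
    rw [D.natCast_twist, ← map_sub]
    simp only [AddMonoidHom.coe_comp, Function.comp_apply]
    congr 1
    refine Subtype.ext ?_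
    simp only [AddSubgroupClass.coe_sub, coe_rmul, map_sub]
    rw [mul_assoc, ← map_mul, ← mul_sub, ← map_sub]
    rw [show D.w₀ ^ 2 * (D.w₀ ^ 2 - 1)⁻¹ - (D.w₀ ^ 2 - 1)⁻¹ = 1 by field_simp, map_one, mul_one]

end DataB

end Fermat.Agent.FlatBound
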