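import Fermat.Agent.FlatBound.CaseBFlat
import Fermat.Agent.TWLocal.Ordinary

/-!
# The bound on flat cocycles of a supersingular representation
-/

set_option autoImplicit false

noncomputable section

open Fermat.Agent.TangentBound
open Fermat.Agent.TWAssembly (adCocycles adCoboundary resPlace)
open Fermat.Agent.GaloisBasics (Qbar GalQ)
open Fermat.Agent.FlatModels (HasFlatModel)
open IsLocalRing

namespace Fermat.Agent.FlatBound

variable {A : ValuationSubring Qbar} {p : ℕ} {k : Type} [Field k]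

namespace DataB

variable {rb : GQ →* Mat2 k} (D : DataB A p rb)

theorem s_ne_zero : (D.s : D.F) ≠ 0 := fun h => by
  have h3 := D.three_le
  have hee := D.two_lt_ee
  have h1 : D.w₀ ^ (p - 1) = -1 := mul_right_cancel₀ D.w₀_ne_zero (by
    rw [← pow_succ, Nat.sub_add_cancel D.R.prime.one_lt.le, D.frob_w₀, w₁, h]
    ring)
  have h2 : D.w₀ ^ ((p - 1) * 2) = 1 := by rw [pow_mul, h1]; ring
  have := Nat.le_of_dvd (by omega) (D.w₀_pow_eq_one.1 h2)
  omega

theorem rb_τ_inv : rb D.τ⁻¹ = D.κ D.w₀⁻¹ := by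
  calc rb D.τ⁻¹ = rb D.τ⁻¹ * (rb D.τ * D.κ D.w₀⁻¹) := by
        rw [← D.κ_w₀, ← map_mul, mul_inv_cancel₀ D.w₀_ne_zero, map_one, mul_one]
    _ = _ := by rw [← mul_assoc, rb_inv_mul, one_mul]

theorem plusCoef_δ₀ : D.plusCoef D.δ₀ = 1 := by
  show (D.δ₀ * D.δ₀).trace / (2 * D.d) = 1
  rw [D.δ₀_mul_self, Matrix.trace_smul, Matrix.trace_one, Fintype.card_fin, smul_eq_mul,
    Nat.cast_ofNat, mul_comm, div_self (mul_ne_zero D.two_ne_zero' D.d_ne_zero)]

theorem δ₀_injective {X : Mat2 k} (h : X * D.δ₀ = 0) : X = 0 := by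
  have h1 := congrArg (fun Y => Y * D.δ₀) h
  simp only [mul_assoc, D.δ₀_mul_self, zero_mul, mul_smul_comm, mul_one] at h1
  exact (smul_eq_zero.1 h1).resolve_left D.d_ne_zero

/-- Conjugation by Frobenius on the anticommuting matrices. -/
def frobL (φ : GalQ) : D.minusSpace →ₗ[k] D.minusSpace :=
  (D.minusProj.comp ((LinearMap.mulRight k (rb φ)).comp (LinearMap.mulLeft k (rb φ⁻¹)))).comp
    D.minusSpace.subtype

theorem frobL_coe {φ : GalQ} (hφ : rb φ * D.δ₀ = -(D.δ₀ * rb φ)) (X : D.minusSpace) :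
    (D.frobL φ X : Mat2 k) = rb φ⁻¹ * (X : Mat2 k) * rb φ := by
  refine D.minusProj_of_mem ?_
  show D.δ₀ * (rb φ⁻¹ * (X : Mat2 k) * rb φ) + rb φ⁻¹ * (X : Mat2 k) * rb φ * D.δ₀ = 0
  have h1 : D.δ₀ * rb φ⁻¹ = -(rb φ⁻¹ * D.δ₀) := by
    have e := congrArg (fun Y => rb φ⁻¹ * Y * rb φ⁻¹) hφ
    simp only [mul_neg, neg_mul, ← mul_assoc, rb_inv_mul, one_mul] at e
    simp only [mul_assoc, rb_mul_inv, mul_one] at e
    exact e
  rw [← mul_assoc D.δ₀, ← mul_assoc D.δ₀, h1, mul_assoc _ (rb φ) D.δ₀, hφ, mul_neg, neg_mul,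
    neg_mul, ← neg_add, ← mul_assoc (rb φ⁻¹ * (X : Mat2 k)), ← add_mul,
    mul_assoc (rb φ⁻¹) D.δ₀, mul_assoc (rb φ⁻¹) (X : Mat2 k) D.δ₀, ← mul_add,
    D.mem_minus.1 X.2, mul_zero, zero_mul, neg_zero]

variable [Finite k]

/-- The possible restrictions to `H`. -/
def minusClasses (φ : GalQ) : Submodule k (GalQ → D.minusSpace) where
  carrier := {b | (∀ σ, σ ∉ D.R.H → b σ = 0) ∧ D.R.IsHom b ∧ D.R.AllLev b (p ^ 2 + 1) ∧
    (∀ σ ∈ D.R.H, b (D.τ⁻¹ * σ * D.τ) = D.twistL (b σ)) ∧
    ∀ σ ∈ D.R.H, b (φ⁻¹ * σ * φ) = D.frobL φ (b σ)}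
  zero_mem' := ⟨fun _ _ => rfl, TameRoot.IsHom.zero D.R, TameRoot.AllLev.zero D.R _,
    fun σ _ => by simp, fun σ _ => by simp⟩
  add_mem' := fun {a b} ⟨a0, a1, a2, a3, a4⟩ ⟨b0, b1, b2, b3, b4⟩ =>
    ⟨fun σ hσ => by simp [a0 σ hσ, b0 σ hσ], TameRoot.IsHom.add D.R a1 b1,
      TameRoot.AllLev.add D.R (Nat.succ_ne_zero _) a2 b2,
      fun σ hσ => by simp [a3 σ hσ, b3 σ hσ], fun σ hσ => by simp [a4 σ hσ, b4 σ hσ]⟩
  smul_mem' := fun t a ⟨a0, a1, a2, a3, a4⟩ =>
    ⟨fun σ hσ => by simp [a0 σ hσ],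
      TameRoot.IsHom.map D.R a1 (DistribSMul.toAddMonoidHom D.minusSpace t),
      TameRoot.AllLev.map D.R a2 (DistribSMul.toAddMonoidHom D.minusSpace t),
      fun σ hσ => Subtype.ext (by simp [a3 σ hσ, twistL]),
      fun σ hσ => by simp [a4 σ hσ]⟩

theorem natCard_minus_le : Nat.card D.minusSpace ≤ Nat.card k ^ 2 := by
  rw [Module.natCard_eq_pow_finrank (K := k) (V := D.minusSpace)]
  refine Nat.pow_le_pow_right Nat.card_pos ?_
  let Φ : (D.minusSpace × k × k) →ₗ[k] Mat2 k :=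
    D.minusSpace.subtype.coprod ((LinearMap.toSpanSingleton k _ (1 : Mat2 k)).coprod
      (LinearMap.toSpanSingleton k _ D.δ₀))
  have hinj : Function.Injective Φ := by
    rw [← LinearMap.ker_eq_bot, LinearMap.ker_eq_bot']
    rintro ⟨X, a, b⟩ h
    have h' : (X : Mat2 k) + (a • (1 : Mat2 k) + b • D.δ₀) = 0 := by
      simpa [Φ] using h
    have htr := congrArg Matrix.trace h'
    rw [Matrix.trace_add, Matrix.trace_add, Matrix.trace_smul, Matrix.trace_smul, D.trace_δ₀,
      D.trace_eq_zero_of_mem X.2, Matrix.trace_one, Matrix.trace_zero] at htr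
    have ha : a = 0 := by
      simp only [smul_eq_mul, mul_zero, add_zero, zero_add, Fintype.card_fin, Nat.cast_ofNat] at htr
      exact (mul_eq_zero.1 htr).resolve_right D.two_ne_zero'
    rw [ha, zero_smul, zero_add] at h'
    have hb := congrArg D.plusCoef h'
    rw [map_add, map_smul, D.plusCoef_eq_zero_of_mem X.2, D.plusCoef_δ₀, map_zero, zero_add,
      smul_eq_mul, mul_one] at hb
    rw [hb, zero_smul, add_zero] at h'
    exact Prod.ext (Subtype.ext h') (Prod.ext ha hb)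
  have := LinearMap.finrank_le_finrank_of_injective hinj
  rw [Module.finrank_prod, Module.finrank_prod, Module.finrank_self,
    Module.finrank_matrix, Fintype.card_fin, Module.finrank_self] at this
  omega

/-- Functions with the tame multiplier. -/
def multiplierFunctions :
    Submodule (ResidueField A) ((D.minusSpace →+ ZMod p) → ResidueField A) where
  carrier := {r | (∀ x y, r (x + y) = r x + r y) ∧
    ∀ x, r (x.comp (D.rmul (D.w₀ ^ 2))) = D.ι D.w₀ ^ 2 * r x}
  zero_mem' := ⟨fun _ _ => by simp, fun _ => by simp⟩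
  add_mem' := fun {a b} ha hb => ⟨fun x y => by simp only [Pi.add_apply, ha.1, hb.1]; abel,
    fun x => by simp only [Pi.add_apply, ha.2, hb.2, mul_add]⟩
  smul_mem' := fun t r hr => ⟨fun x y => by simp only [Pi.smul_apply, hr.1, smul_add],
    fun x => by simp only [Pi.smul_apply, hr.2, smul_eq_mul]; ring⟩

theorem finrank_multiplierFunctions_le :
    FiniteDimensional (ResidueField A) D.multiplierFunctions ∧
      p ^ Module.finrank (ResidueField A) D.multiplierFunctions ≤ Nat.card k := by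
  have := D.R.prime_fact
  have := residueRing_charP D.R
  set X := D.minusSpace →+ ZMod p
  have : Finite X := Finite.of_injective _ DFunLike.coe_injective
  let _ : SMul D.F X := ⟨fun a f => f.comp (D.rmul a)⟩
  have hsmul : ∀ (a : D.F) (f : X), a • f = f.comp (D.rmul a) := fun _ _ => rfl
  let _ : Module D.F X := Module.ofMinimalAxioms
    (fun a f g => by ext v; rfl)
    (fun a b f => by
      ext v
      show f (D.rmul (a + b) v) = f (D.rmul a v) + f (D.rmul b v)
      rw [← map_add]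
      congr 1
      exact Subtype.ext (by simp [mul_add]))
    (fun a b f => by
      ext v
      simp only [hsmul, AddMonoidHom.coe_comp, Function.comp_apply]
      congr 1
      exact Subtype.ext (by rw [coe_rmul, coe_rmul, coe_rmul, mul_assoc, ← map_mul]))
    (fun f => by
      ext v
      simp only [hsmul, AddMonoidHom.coe_comp, Function.comp_apply]
      congr 1
      exact Subtype.ext (by rw [coe_rmul, map_one, mul_one]))
  have : Module.Finite D.F X := .of_finite
  let bas := Module.finBasis D.F X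
  obtain ⟨h1, h2⟩ := finrank_le_of_eval D.multiplierFunctions (fun i => bas i) fun r hr h0 => by
    let ρ : X →+ ResidueField A := AddMonoidHom.mk' r hr.1
    have hsq : ∀ f : X, ρ (D.w₀ ^ 2 • f) = D.ι D.w₀ ^ 2 * ρ f := hr.2
    have hnat : ∀ (i : ℕ) (f : X), ρ ((i : D.F) • f) = (i : ResidueField A) * ρ f := fun i f => by
      rw [Nat.cast_smul_eq_nsmul, map_nsmul, nsmul_eq_mul]
    have hw : ∀ f : X, ρ (D.w₀ • f) = D.ι D.w₀ * ρ f := by
      intro f
      have h := congrArg ρ (show (D.s : D.F) • (D.w₀ • f) = D.w₀ ^ 2 • f + (D.n : D.F) • f by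
        rw [← mul_smul, ← add_smul, D.rel])
      rw [hnat, map_add, hsq, hnat] at h
      have e := congrArg D.ι D.rel
      rw [map_add, map_mul, map_pow, map_natCast, map_natCast] at e
      refine mul_left_cancel₀ (?_ : (D.s : ResidueField A) ≠ 0) (h.trans ?_)
      · rw [← map_natCast D.ι]
        exact (_root_.map_ne_zero D.ι).2 D.s_ne_zero
      · linear_combination (ρ f) * e
    have hall : ∀ (a : D.F) (f : X), ρ (a • f) = D.ι a * ρ f := by
      intro a f
      obtain ⟨i, j, rfl⟩ := D.span a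
      rw [add_smul, mul_smul, map_add ρ, hnat, hnat, hw, map_add, map_mul, map_natCast, map_natCast]
      ring
    funext x
    show ρ x = 0
    rw [← bas.sum_repr x, map_sum]
    exact Finset.sum_eq_zero fun i _ => by rw [hall, show ρ (bas i) = 0 from h0 i, mul_zero]
  refine ⟨h1, ?_⟩
  refine (Nat.pow_le_pow_right D.R.prime.pos h2).trans ?_
  rw [← Nat.pow_le_pow_iff_left two_ne_zero, ← pow_mul, mul_comm, pow_mul, ← D.cardF,
    ← Nat.card_eq_fintype_card, ← Module.natCard_eq_pow_finrank,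
    natCard_dual D.minusSpace fun v => by rw [← Nat.cast_smul_eq_nsmul k, D.char, zero_smul]]
  exact D.natCard_minus_le

theorem finrank_minusClasses_le {φ : GalQ} (hφ : A.IsFrobeniusAt φ p)
    (hπ : φ (D.R.π : Qbar) = D.R.π) {m : ℕ} (hm : φ D.R.ζ = D.R.ζ ^ m)
    (hm1 : (m : ResidueField A) = -1) :
    Module.Finite k (D.minusClasses φ) ∧ Module.finrank k (D.minusClasses φ) ≤ 1 := by
  have := D.R.prime_fact
  have := residueRing_charP D.R
  have h3 := D.three_le
  have hE := D.p_sq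
  have hpi := D.not_dvd_sq_add_one
  have hp2 : 3 * p ≤ p ^ 2 := by rw [sq]; exact Nat.mul_le_mul_right p h3
  have hiE : p ^ 2 + 1 < p * D.R.E := by omega
  obtain ⟨r, hr⟩ := D.R.exists_coefHom hpi hiE (D.minusClasses φ) fun b hb => hb.2.2.1
  have hφδ := (D.rb_frobenius hφ hπ).2
  have hLinj : Function.Injective (D.frobL φ) := fun X Y h => by
    have h1 := congrArg (fun Z : D.minusSpace => rb φ * (Z : Mat2 k) * rb φ⁻¹) h
    simp only [D.frobL_coe hφδ, mul_assoc, rb_mul_inv, mul_one] at h1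
    simp only [← mul_assoc, rb_mul_inv, one_mul] at h1
    exact Subtype.ext h1
  have : Finite D.minusSpace := Subtype.finite
  have hLsurj := Finite.injective_iff_surjective.1 hLinj
  have hm0 := D.R.natCast_ne_zero_of_residue hm1
  let T : (D.minusSpace →+ ZMod p) → (D.minusSpace →+ ZMod p) := fun f =>
    (AddMonoidHom.mulLeft (m : ZMod p)).comp (f.comp (D.frobL φ).toAddMonoidHom)
  have : Finite (D.minusSpace →+ ZMod p) := Finite.of_injective _ DFunLike.coe_injective
  have hT : Function.Surjective T := Finite.injective_iff_surjective.1 fun f g h => by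
    ext v
    obtain ⟨w, rfl⟩ := hLsurj v
    exact mul_left_cancel₀ hm0 (DFunLike.congr_fun h w)
  let Ψ : D.minusClasses φ →+ ((D.minusSpace →+ ZMod p) → ResidueField A) :=
    (AddMonoidHom.coeFn _ _).comp r
  obtain ⟨hfin, hdim⟩ := D.finrank_multiplierFunctions_le
  refine finrank_le_of_fixed (p := p) D.char hT Ψ ?_ (fun b f => ?_)
    D.multiplierFunctions (fun b => ⟨fun x y => map_add (r b) x y, fun f => ?_⟩) 1 ?_
  · refine (injective_iff_map_eq_zero Ψ).2 fun b hb => Subtype.ext (funext fun σ => ?_)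
    by_cases hσ : σ ∈ D.R.H
    swap
    · exact b.2.1 σ hσ
    have h1 := D.R.allLev_climb (i₁ := p * D.R.E + 1) (by omega : 1 ≤ p ^ 2 + 1) (by omega) le_rfl
      b.2.2.2.1 fun i hi _ hpi' hiE' r' hr' f => by
        rcases eq_or_ne i (p ^ 2 + 1) with rfl | hne
        · rw [D.R.hasCoef_unique hpi' hiE' (hr' f) (hr b f)]
          exact congrFun hb f
        · exact D.kill_of_twist b.2.2.2.2.1 (by omega) hne hpi' hiE' r' hr' f
    exact D.R.eq_zero_of_allLev_top
      (fun v => by rw [← Nat.cast_smul_eq_nsmul k, D.char, zero_smul]) h1 σ hσ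
  · have h := D.R.coefMap_twist hpi hiE (hr b) hφ.mem_decompositionSubgroup hm (· ^ p)
      (TameRoot.residue_apply_frobenius hφ) (u := 1) (by rw [hπ, OneMemClass.coe_one, one_mul])
      (D.frobL φ).toAddMonoidHom b.2.2.2.2.2 (f := f) (f' := T f) fun v => rfl
    show r b (T f) = r b f ^ p
    rw [h, map_one, one_pow, one_mul]
  · have hτD := LocalInertia.inertiaSubgroupIn_le_decompositionSubgroup D.τ_mem
    have h := D.R.coefMap_twist hpi hiE (hr b) hτD D.τ_ζ id
      (fun x y => TameRoot.residue_apply_inertia D.τ_mem x y) D.τ_π _ b.2.2.2.2.1 (f := f)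
      (f' := f.comp (D.rmul (D.w₀ ^ 2))) fun v => (D.natCast_twist f v).symm
    show r b _ = _ * r b f
    rw [h, id_eq, ← D.ι_w₀, ← map_pow, ← map_pow]
    congr 2
    have he := D.ee_eq
    rw [show p ^ 2 + 1 = D.R.ee + 2 by omega, pow_add, (D.w₀_pow_eq_one).2 dvd_rfl, one_mul]
  · rw [pow_one]; exact hdim

open scoped Classical in
/-- Restriction of the anticommuting part to `H`. -/
def resH : (GQ → Mat2 k) →ₗ[k] (GalQ → D.minusSpace) where
  toFun c σ := if σ ∈ D.R.H then D.minusProj (c σ) else 0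
  map_add' c e := by funext σ; simp only [Pi.add_apply, map_add]; split <;> simp
  map_smul' t c := by
    funext σ; simp only [Pi.smul_apply, map_smul, RingHom.id_apply]; split <;> simp

/-- The normalised classes. -/
def normalised (φ : GalQ) : Submodule k (GQ → Mat2 k) where
  carrier := {c | c ∈ adCocycles rb ∧ (∀ σ ∈ D.R.H, D.plusCoef (c σ) = 0) ∧
    D.R.AllLev (D.bH c) (p ^ 2 + 1) ∧ c D.τ = 0 ∧ D.plusCoef (c φ) = 0}
  zero_mem' := ⟨zero_mem _, fun σ _ => by simp,
    TameRoot.AllLev.congr D.R (TameRoot.AllLev.zero D.R _) fun σ _ => by simp [bH],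
    rfl, by simp⟩
  add_mem' := fun {a b} ⟨a0, a1, a2, a3, a4⟩ ⟨b0, b1, b2, b3, b4⟩ =>
    ⟨add_mem a0 b0, fun σ hσ => by simp [a1 σ hσ, b1 σ hσ],
      TameRoot.AllLev.congr D.R (TameRoot.AllLev.add D.R (Nat.succ_ne_zero _) a2 b2)
        fun σ _ => by simp [bH],
      by simp [a3, b3], by simp [a4, b4]⟩
  smul_mem' := fun t a ⟨a0, a1, a2, a3, a4⟩ =>
    ⟨Submodule.smul_mem _ t a0, fun σ hσ => by simp [a1 σ hσ],
      TameRoot.AllLev.congr D.R
        (TameRoot.AllLev.map D.R a2 (DistribSMul.toAddMonoidHom D.minusSpace t))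
        fun σ _ => by simp [bH],
      by simp [a3], by simp [a4]⟩

omit [Finite k] in
theorem plusCoef_pow {c : GQ → Mat2 k} (hc : c ∈ adCocycles rb) (m : ℕ) :
    D.plusCoef (c (D.τ ^ m)) = (m : k) * D.plusCoef (c D.τ) := by
  induction m with
  | zero => rw [pow_zero, cocycle_one hc, map_zero, Nat.cast_zero, zero_mul]
  | succ m ih =>
    have hcomm : rb (D.τ ^ m)⁻¹ * D.δ₀ = D.δ₀ * rb (D.τ ^ m)⁻¹ := by
      rw [← inv_pow, map_pow, D.rb_τ_inv, ← map_pow, δ₀, D.κ_comm]
    have h := D.plusCoef_conj _ hcomm (c D.τ)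
    rw [inv_inv] at h
    rw [pow_succ, hc.1, map_add, ih, h]
    push_cast
    ring

omit [Finite k] in
theorem τ_pow_ee_mem : D.τ ^ D.R.ee ∈ D.R.H := by
  refine D.R.mem_H.2 ⟨pow_mem D.τ_mem _, ?_⟩
  rw [D.R.pow_apply_π D.τ_mem D.u_pow D.τ_π, D.u_pow, one_mul]

omit [Finite k] in
/-- A matrix of trace zero with no component along `δ₀` anticommutes with it. -/
theorem minusProj_eq_self {X : Mat2 k} (hX : X.trace = 0) (h : D.plusCoef X = 0) :
    (D.minusProj X : Mat2 k) = X := by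
  have e := D.decompose hX
  rwa [h, zero_smul, add_zero] at e

omit [Finite k] in
/-- A normalised class restricts to an element of `minusClasses`. -/
theorem resH_mem_minusClasses {c : GQ → Mat2 k} {φ : GalQ} (hnorm : c ∈ D.normalised φ)
    (hφD : φ ∈ A.decompositionSubgroup ℚ) : D.resH c ∈ D.minusClasses φ := by
  obtain ⟨hc, hplus, hlev, -, -⟩ := hnorm
  have hb := D.isHom_bH hc
  have hres' : ∀ σ ∈ D.R.H, D.resH c σ = D.bH c σ := fun σ hσ => if_pos hσ
  refine ⟨fun σ hσ => if_neg hσ, TameRoot.IsHom.congr D.R hb fun σ hσ => (hres' σ hσ).symm,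
    TameRoot.AllLev.congr D.R hlev fun σ hσ => (hres' σ hσ).symm, fun σ hσ => ?_, fun σ hσ => ?_⟩
  · rw [hres' σ hσ, hres' _ (D.R.conj_mem_of_decomposition
      (LocalInertia.inertiaSubgroupIn_le_decompositionSubgroup D.τ_mem) hσ), D.hL_bH hc σ hσ]
  · rw [hres' σ hσ, hres' _ (D.R.conj_mem_of_decomposition hφD hσ)]
    show D.minusProj (c (φ⁻¹ * σ * φ)) = D.minusProj _
    rw [D.conj_H hc _ hσ, ← D.minusProj_eq_self (hc.2.1 σ) (hplus σ hσ)]
    rfl

omit [Finite k] in
/-- A normalised class whose anticommuting part vanishes on `H` vanishes on the decomposition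
group. -/
theorem resPlace_eq_zero_of_normalised {c : GQ → Mat2 k} {φ : GalQ} (hnorm : c ∈ D.normalised φ)
    (hφ : A.IsFrobeniusAt φ p) (hb : ∀ σ ∈ D.R.H, D.bH c σ = 0) : resPlace A c = 0 := by
  obtain ⟨hc, hplus, -, hτ, hφ0⟩ := hnorm
  have hφD := hφ.mem_decompositionSubgroup
  have hI0 := cocycle_eq_zero_of_gen hc D.gen hτ fun σ hσ => by
    rw [← D.minusProj_eq_self (hc.2.1 σ) (hplus σ hσ)]
    exact congrArg Subtype.val (hb σ hσ)
  have hcφ : c φ = 0 := by
    have hB := D.minusProj_eq_self (hc.2.1 φ) hφ0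
    set B := c φ with hBdef
    have h3 : rb D.τ * B = B * rb D.τ := by
      have := congrArg (fun X => X * rb D.τ) (cocycle_fixed_of_inertia hc hI0 hφD D.τ_mem)
      simpa only [mul_assoc, rb_inv_mul, mul_one] using this
    have h4 : D.κ D.w₀ * B = B * D.κ D.w₁ := by
      have := (D.mul_T_eq (D.minusProj (c φ)).2).2
      rwa [← hBdef, hB] at this
    refine D.δ₀_injective ?_
    rw [δ₀, δF, map_sub, mul_sub, ← h4, D.κ_w₀, h3, sub_self]
  exact resPlace_eq_zero hc D.R.over D.R.prime hI0 hφ hcφ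

include D in
/-- The bound in the supersingular case. -/
theorem exists_bound : ∃ L : Submodule k (A.decompositionSubgroup ℚ → Mat2 k),
    FiniteDimensional k L ∧ Module.finrank k L ≤ 4 ∧
      ∀ c ∈ adCocycles rb, HasFlatModel p (dualAct rb c) → resPlace A c ∈ L := by
  classical
  have := D.R.prime_fact
  have := D.charP
  obtain ⟨φ, hφ, hπ, m, hm, hm1⟩ := D.R.exists_frobenius
  obtain ⟨hBfin, hBdim⟩ := D.finrank_minusClasses_le hφ hπ hm hm1
  have hφD := hφ.mem_decompositionSubgroup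
  obtain ⟨hφT, hφδ⟩ := D.rb_frobenius hφ hπ
  obtain ⟨proj, hproj⟩ := LinearMap.exists_leftInverse_of_injective (V := D.minusClasses φ)
    (D.minusClasses φ).subtype (Submodule.ker_subtype (D.minusClasses φ))
  let g : D.normalised φ →ₗ[k] D.minusClasses φ :=
    (proj.comp D.resH).comp (D.normalised φ).subtype
  let f : D.normalised φ →ₗ[k] (A.decompositionSubgroup ℚ → Mat2 k) :=
    (resPlace A).comp (D.normalised φ).subtype
  have hker : ∀ v, g v = 0 → f v = 0 := by
    rintro ⟨c, hc⟩ hv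
    refine D.resPlace_eq_zero_of_normalised hc hφ fun σ hσ => ?_
    have h1 : proj (D.resH c) = 0 := hv
    have h2 : proj (D.resH c) = ⟨D.resH c, D.resH_mem_minusClasses hc hφD⟩ :=
      LinearMap.congr_fun hproj ⟨D.resH c, D.resH_mem_minusClasses hc hφD⟩
    rw [h1] at h2
    exact (if_pos hσ : D.resH c σ = D.bH c σ).symm.trans (congrFun (congrArg Subtype.val h2.symm) σ)
  obtain ⟨hfin, hdim⟩ := finrank_range_le_of_ker (W := ↥(D.minusClasses φ)) f g hker
  have hcobfin := TWLocal.finrank_range_cob_le (rb := rb) (A := A)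
  have := hcobfin.1
  refine ⟨LinearMap.range f ⊔ LinearMap.range (TWLocal.cob rb (A.decompositionSubgroup ℚ)),
    inferInstance, ?_, fun c hc hflat => ?_⟩
  · exact (Submodule.finrank_add_le_finrank_add_finrank _ _).trans
      (add_le_add (hdim.trans hBdim) hcobfin.2)
  -- normalisation at the generator and at Frobenius
  have hτe : D.plusCoef (c D.τ) = 0 := by
    have h := D.aH_eq_zero hc hflat _ D.τ_pow_ee_mem
    rw [aH, D.plusCoef_pow hc] at h
    refine (mul_eq_zero.1 h).resolve_left fun h0 => D.R.not_dvd_ee ?_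
    exact (CharP.cast_eq_zero_iff k p _).1 h0
  set z := D.w₁ / D.w₀ with hz
  have hz1 : (1 : D.F) - z ≠ 0 := sub_ne_zero.2 fun h => D.w₁_ne_w₀ (by
    rw [hz, eq_div_iff D.w₀_ne_zero, one_mul] at h; exact h.symm)
  let X : D.minusSpace := D.rmul (1 - z)⁻¹ (-(D.minusProj (c D.τ)))
  set c₁ := c + adCoboundary rb (X : Mat2 k) with hc₁
  set a : k := -(D.plusCoef (c₁ φ)) / 2 with ha
  set c₂ := c₁ + adCoboundary rb (a • D.δ₀) with hc₂
  have hc₁A : c₁ ∈ adCocycles rb :=
    add_mem hc (adCoboundary_mem D.cont (D.trace_eq_zero_of_mem X.2))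
  have hc₂A : c₂ ∈ adCocycles rb := add_mem hc₁A (adCoboundary_mem D.cont (by
    rw [Matrix.trace_smul, D.trace_δ₀, smul_zero]))
  have hflat₂ : HasFlatModel p (dualAct rb c₂) :=
    hasFlatModel_add_coboundary (hasFlatModel_add_coboundary hflat _) _
  have hτ₁ : c₁ D.τ = 0 := by
    have hcτ := D.minusProj_eq_self (hc.2.1 D.τ) hτe
    rw [hc₁, Pi.add_apply, TWAssembly.adCoboundary_apply, ← D.κ_w₀, (D.mul_T_eq X.2).2, D.rb_τ_inv,
      mul_assoc, ← map_mul, show (X : Mat2 k) = -(D.minusProj (c D.τ) : Mat2 k) * D.κ (1 - z)⁻¹ from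
        rfl, hcτ, mul_assoc, ← map_mul, neg_mul, neg_mul, neg_sub_neg, ← mul_sub, ← map_sub,
      show (1 - z)⁻¹ * (D.w₁ * D.w₀⁻¹) - (1 - z)⁻¹ = -1 by
        rw [← div_eq_mul_inv, ← hz]; field_simp [hz1]; ring,
      map_neg, map_one, mul_neg, mul_one, add_neg_cancel]
  have hτ₂ : c₂ D.τ = 0 := by
    rw [hc₂, Pi.add_apply, hτ₁, TWAssembly.adCoboundary_apply, mul_smul_comm, smul_mul_assoc,
      D.T_comm, mul_assoc, rb_mul_inv, mul_one, sub_self, add_zero]
  have hφ₂ : D.plusCoef (c₂ φ) = 0 := by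
    have e : adCoboundary rb (a • D.δ₀) φ = (2 * a) • D.δ₀ := by
      rw [TWAssembly.adCoboundary_apply, mul_smul_comm, smul_mul_assoc, hφδ, neg_mul, mul_assoc,
        rb_mul_inv, mul_one, smul_neg, sub_neg_eq_add, ← add_smul, two_mul]
    rw [hc₂, Pi.add_apply, e, map_add, map_smul, D.plusCoef_δ₀, smul_eq_mul, mul_one, ha]
    field_simp [D.two_ne_zero']
    ring
  have hmem : c₂ ∈ D.normalised φ :=
    ⟨hc₂A, D.aH_eq_zero hc₂A hflat₂, D.bH_level hc₂A hflat₂, hτ₂, hφ₂⟩
  have e : resPlace A c = f ⟨c₂, hmem⟩ -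
      (TWLocal.cob rb (A.decompositionSubgroup ℚ) (X : Mat2 k) +
        TWLocal.cob rb (A.decompositionSubgroup ℚ) (a • D.δ₀)) := by
    show resPlace A c = resPlace A c₂ -
      (resPlace A (adCoboundary rb (X : Mat2 k)) + resPlace A (adCoboundary rb (a • D.δ₀)))
    rw [← map_add, ← map_sub, hc₂, hc₁]
    congr 1
    abel
  rw [e]
  exact sub_mem (Submodule.mem_sup_left ⟨_, rfl⟩)
    (Submodule.mem_sup_right (add_mem ⟨_, rfl⟩ ⟨_, rfl⟩))

end DataB

end Fermat.Agent.FlatBound
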