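import Fermat.Agent.FlatBound.CaseB

/-!
# Flat cocycles of a supersingular representation: the norm arguments

For a flat cocycle the part along `δ₀` vanishes on `H`, and the anticommuting part has level
`p ^ 2 + 1`.
-/

set_option autoImplicit false

noncomputable section

open Fermat.Agent.TangentBound
open Fermat.Agent.TWAssembly (adCocycles adCoboundary resPlace)
open Fermat.Agent.GaloisBasics (Qbar GalQ)
open Fermat.Agent.FlatModels (HasFlatModel)
open IsLocalRing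

namespace Fermat.Agent.FlatBound

variable {A : ValuationSubring Qbar} {p : ℕ} {k : Type} [Field k]

theorem nsmul_eq_zero_pi (hk : (p : k) = 0) (v : Fin 2 → k) : p • v = 0 := by
  funext i; simp [hk]

namespace DataB

variable {rb : GQ →* Mat2 k} (D : DataB A p rb)

/-- The scalar multiplication of `F` on the plane. -/
@[reducible] def fieldModule : Module D.F (Fin 2 → k) :=
  Module.compHom (Fin 2 → k)
    ((Matrix.toLinAlgEquiv' : Mat2 k ≃ₐ[k] _).toAlgHom.toRingHom.comp D.κ)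

variable [Finite k]

/-- An `F`-linear functional, written with matrices. -/
theorem exists_functional {f₀ : D.F →+ ZMod p} (hf₀ : f₀ ≠ 0) (ψ : (Fin 2 → k) →+ ZMod p) :
    ∃ g : (Fin 2 → k) →+ D.F,
      (∀ (a : D.F) v, g ((D.κ a).mulVec v) = a * g v) ∧ ∀ v, ψ v = f₀ (g v) := by
  have := D.R.prime_fact
  let _ := D.fieldModule
  obtain ⟨g, hg⟩ := exists_factor_dual (F := D.F) (V := Fin 2 → k) (nsmul_eq_zero_pi D.char) hf₀ ψ
  refine ⟨g.toAddMonoidHom, fun a v => ?_, hg⟩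
  show g ((D.κ a).mulVec v) = a * g v
  rw [← smul_eq_mul, ← map_smul]
  rfl

omit [Finite k] in
/-- A functional on `F` with value one at a given non-zero element. -/
theorem exists_field_dual {z : D.F} (hz : z ≠ 0) : ∃ f : D.F →+ ZMod p, f z = 1 := by
  have := D.R.prime_fact
  by_contra! h
  refine hz (eq_zero_of_forall_dual (p := p) (fun v => ?_) z fun f => ?_)
  · rw [nsmul_eq_mul, D.p_eq_zero, zero_mul]
  · by_contra hne
    refine h ((AddMonoidHom.mulLeft (f z)⁻¹).comp f) ?_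
    simp [inv_mul_cancel₀ hne]

omit [Finite k] in
/-- The norm argument: a homomorphism of exact level `i` read in an `F`-line of a model. -/
theorem norm_contra {M : Type} [AddCommGroup M] {act : GalQ → M → M}
    (hflat : HasFlatModel p act) (hpM : ∀ v : M, p • v = 0) (Lsub : AddSubgroup M) (G : M →+ D.F)
    (hstab : ∀ σ ∈ A.inertiaSubgroupIn ℚ, ∀ b, D.R.Matches D.ι σ b → ∀ v ∈ Lsub,
      act σ v ∈ Lsub ∧ G (act σ v) = b * G v)
    (sec : D.F → M) (hsec : ∀ a, sec a ∈ Lsub ∧ G (sec a) = a)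
    (x : M) (hx : ∀ h ∈ D.R.H, act h x - x ∈ Lsub)
    (S : Finset D.F) (hS0 : (0 : D.F) ∈ S) (hSadd : ∀ a ∈ S, ∀ b ∈ S, a + b ∈ S)
    (hxS : ∀ h ∈ D.R.H, G (act h x - x) ∈ S) (f : D.F →+ ZMod p) {γ : GalQ → ZMod p}
    (hγf : ∀ h ∈ D.R.H, f (G (act h x - x)) = γ h)
    (hγ : ∀ σ ∈ D.R.H, ∀ τ ∈ D.R.H, γ (σ * τ) = γ σ + γ τ)
    {i : ℕ} (hpi : ¬ p ∣ i) (hiE : i < p * D.R.E)
    (hbound : p * (S.filter fun a => f a = 0).card ≤ p * D.R.E - i)
    {α : Qbar} (hα : D.R.Kum γ α) (hlev : A.valuation (α ^ p - 1) = D.R.vπ ^ i)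
    {σ₀ : GalQ} (hσ₀ : σ₀ ∈ D.R.H) (hne : γ σ₀ ≠ 0) : False := by
  classical
  have := D.R.prime_fact
  obtain ⟨g, hg, hg1⟩ := D.R.exists_apply_eq_one hγ hσ₀ hne
  obtain ⟨L⟩ := exists_model D.R.over hflat (A.inertiaSubgroupIn ℚ)
  let N : AddSubgroup M := Lsub ⊓ G.ker
  have hN : ∀ σ ∈ A.inertiaSubgroupIn ℚ, ∀ v ∈ N, act σ v ∈ N := by
    intro σ hσ v hv
    obtain ⟨b, hb⟩ := D.matches_exists hσ
    obtain ⟨h1, h2⟩ := hstab σ hσ b hb v hv.1
    exact AddSubgroup.mem_inf.2 ⟨h1, AddMonoidHom.mem_ker.2 (by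
      rw [h2, AddMonoidHom.mem_ker.1 hv.2, mul_zero])⟩
  obtain ⟨actQ, hact, ⟨LQ⟩⟩ := L.exists_quotient_act N hN
  let GQf : M ⧸ N →+ ZMod p := QuotientAddGroup.lift N (f.comp G) fun v hv => by
    rw [AddMonoidHom.mem_ker, AddMonoidHom.comp_apply, AddMonoidHom.mem_ker.1 hv.2, map_zero]
  have hmk : ∀ u v : M, u ∈ Lsub → v ∈ Lsub → G u = G v → (u : M ⧸ N) = (v : M ⧸ N) :=
    fun u v hu hv he => (QuotientAddGroup.eq_iff_sub_mem).2
      (AddSubgroup.mem_inf.2 ⟨Lsub.sub_mem hu hv,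
        AddMonoidHom.mem_ker.2 (by rw [map_sub, he, sub_self])⟩)
  let j : D.F →+ M ⧸ N := AddMonoidHom.mk' (fun a => (sec a : M ⧸ N)) fun a b => by
    rw [← QuotientAddGroup.mk_add]
    exact hmk _ _ (hsec _).1 (add_mem (hsec a).1 (hsec b).1)
      (by rw [map_add, (hsec _).2, (hsec a).2, (hsec b).2])
  have hj : ∀ u ∈ Lsub, (u : M ⧸ N) = j (G u) := fun u hu =>
    hmk _ _ hu (hsec _).1 (hsec _).2.symm
  have hjinj : Function.Injective j := (injective_iff_map_eq_zero j).2 fun a ha => by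
    have h := AddMonoidHom.mem_ker.1 ((QuotientAddGroup.eq_zero_iff _).1 ha).2
    rwa [(hsec a).2] at h
  have hjact : ∀ σ ∈ A.inertiaSubgroupIn ℚ, ∀ b, D.R.Matches D.ι σ b → ∀ a,
      actQ σ (j a) = j (b * a) := by
    intro σ hσ b hb a
    obtain ⟨h1, h2⟩ := hstab σ hσ b hb _ (hsec a).1
    show actQ σ (sec a : M ⧸ N) = j (b * a)
    rw [hact σ hσ, hj _ h1, h2, (hsec a).2]
  have hGQ : ∀ a, GQf (j a) = f a := fun a => by
    show f (G (sec a)) = f a
    rw [(hsec a).2]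
  have hdiff : ∀ h ∈ D.R.H, actQ h (x : M ⧸ N) - (x : M ⧸ N) = j (G (act h x - x)) := fun h hh => by
    rw [hact h (D.R.H_le hh), ← QuotientAddGroup.mk_sub]
    exact hj _ (hx h hh)
  set U : Finset (M ⧸ N) := S.image j with hU
  have hfix : ∀ h ∈ D.R.H, ∀ z ∈ U, actQ h z = z := fun h hh z hz => by
    obtain ⟨a, -, rfl⟩ := Finset.mem_image.1 hz
    rw [hjact h (D.R.H_le hh) 1 ⟨1, by rw [OneMemClass.coe_one, one_mul]; exact (D.R.mem_H.1 hh).2,
      by rw [map_one, map_one]⟩, one_mul]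
  have hsize : ∀ z ∈ U, z ≠ 0 → D.R.vπ ≤ LQ.size z := by
    intro z hz hz0
    obtain ⟨a, -, rfl⟩ := Finset.mem_image.1 hz
    have hcard := D.cardF
    have hee := D.ee_eq
    have h3 := D.three_le
    refine Model.vπ_le_size D.R LQ (fun w => ?_) D.ι (by omega) (by nlinarith) j hjinj hjact
      fun h => hz0 (by rw [h, map_zero])
    obtain ⟨v, rfl⟩ := QuotientAddGroup.mk_surjective w
    rw [← QuotientAddGroup.mk_nsmul, hpM, QuotientAddGroup.mk_zero]
  have hfilter : (U.filter fun z => GQf z = 0).card = (S.filter fun a => f a = 0).card := by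
    rw [hU, Finset.filter_image, Finset.card_image_of_injective _ hjinj]
    simp [hGQ]
  have hγeq : ∀ h ∈ D.R.H, GQf (actQ h (x : M ⧸ N) - x) = γ h := fun h hh => by
    rw [hdiff h hh, hGQ, hγf h hh]
  obtain ⟨m, hmfix, hm1, hm⟩ := Model.exists_norm_bound D.R LQ D.R.H_le U
    (Finset.mem_image.2 ⟨0, hS0, map_zero j⟩)
    (fun u hu v hv => by
      obtain ⟨a, ha, rfl⟩ := Finset.mem_image.1 hu
      obtain ⟨b, hb, rfl⟩ := Finset.mem_image.1 hv
      exact Finset.mem_image.2 ⟨a + b, hSadd a ha b hb, map_add j a b⟩)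
    (fun h hh => Finset.mem_image.2 ⟨_, hxS h hh, (hdiff h hh).symm⟩)
    hfix hsize GQf hg (by rw [hγeq g hg, hg1]; exact one_ne_zero)
  have hlt := D.R.valuation_apply_sub_lt_of_level hγ hg hg1 hα hpi hiE hlev hg
    (fun h hh hh0 => hmfix h hh (by rw [hγeq h hh, hh0])) hm1
  rw [hfilter] at hm
  have h1 : D.R.vπ ^ (p * D.R.E - i) ≤
      (D.R.vπ ^ (S.filter fun a => f a = 0).card) ^ p := by
    rw [← pow_mul]
    exact D.R.pow_le_pow (le_of_eq_of_le (mul_comm _ _) hbound)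
  exact absurd (h1.trans (pow_le_pow_left' hm p)) (not_le.2 hlt)

omit [Finite k] in
/-- The top level `p E` in the supersingular shape. -/
theorem p_sq : p * D.R.E = p ^ 2 + p := by rw [D.E_eq]; ring

omit [Finite k] in
theorem not_dvd_p_add_one (D : DataB A p rb) : ¬ p ∣ p + 1 := fun h => by
  have := D.three_le
  have := Nat.le_of_dvd one_pos ((Nat.dvd_add_right dvd_rfl).1 h)
  omega

omit [Finite k] in
/-- `p` does not divide `p ^ 2 + 1`. -/
theorem not_dvd_sq_add_one (D : DataB A p rb) : ¬ p ∣ p ^ 2 + 1 := fun h => by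
  have := D.three_le
  have := Nat.le_of_dvd one_pos ((Nat.dvd_add_right (dvd_pow_self p two_ne_zero)).1 h)
  omega

omit [Finite k] in
theorem not_dvd_two (D : DataB A p rb) : ¬ p ∣ 2 := fun h => by
  have := Nat.le_of_dvd two_pos h
  have := D.three_le
  omega

omit [Finite k] in
/-- The coefficients at level `p + 1` of the part along `δ₀` lie in the prime field: Frobenius
fixing `π` negates this part and acts by `-1` on `μ_p`. -/
theorem coef_aH_pow_eq {c : GQ → Mat2 k} (hc : c ∈ adCocycles rb)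
    {r : (k →+ ZMod p) →+ ResidueField A}
    (hr : ∀ f, D.R.HasCoef (fun σ => f (D.aH c σ)) (p + 1) (r f)) (f : k →+ ZMod p) :
    r f ^ p = r f := by
  have := D.R.prime_fact
  have := residueRing_charP D.R
  have h3 := D.three_le
  have hE := D.p_sq
  have hp2 : 3 * p ≤ p ^ 2 := by rw [sq]; exact Nat.mul_le_mul_right p h3
  obtain ⟨φ, hφ, hφπ, m, hm, hm1⟩ := D.R.exists_frobenius
  have hmZ : (m : ZMod p) = -1 := (ZMod.castHom (dvd_refl p) (ResidueField A)).injective (by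
    rw [map_natCast, map_neg, map_one, hm1])
  have h := D.R.coefMap_twist D.not_dvd_p_add_one (by omega) hr hφ.mem_decompositionSubgroup hm
    (· ^ p) (TameRoot.residue_apply_frobenius hφ) (u := 1)
    (by rw [hφπ, OneMemClass.coe_one, one_mul]) (-AddMonoidHom.id k)
    (fun σ hσ => by
      rw [aH, D.conj_H hc _ hσ, D.plusCoef_conj_neg _ (D.rb_frobenius hφ hφπ).2]; rfl)
    (f := f) (f' := f) fun v => by rw [hmZ]; simp
  rw [map_one, one_pow, one_mul] at h
  exact h.symm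

omit [Finite k] in
/-- If `f₁` has non-zero coefficient and value `1` at `g₀`, the functionals killing the value at
`g₀` kill the part along `δ₀` on all of `H`. -/
theorem dual_aH_eq_zero {c : GQ → Mat2 k} (hc : c ∈ adCocycles rb)
    {r : (k →+ ZMod p) →+ ResidueField A}
    (hr : ∀ f, D.R.HasCoef (fun σ => f (D.aH c σ)) (p + 1) (r f)) {f₁ : k →+ ZMod p}
    (hf₁ : r f₁ ≠ 0) {g₀ : GalQ} (hg₀ : g₀ ∈ D.R.H) (hg₀1 : f₁ (D.aH c g₀) = 1)
    {f : k →+ ZMod p} (hfa : f (D.aH c g₀) = 0) : ∀ σ ∈ D.R.H, f (D.aH c σ) = 0 := by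
  have := D.R.prime_fact
  have := residueRing_charP D.R
  have h3 := D.three_le
  have hE := D.p_sq
  have hp2 : 3 * p ≤ p ^ 2 := by rw [sq]; exact Nat.mul_le_mul_right p h3
  obtain ⟨hlev, -⟩ := D.aH_kill hc
  have hb := D.isHom_aH hc
  obtain ⟨l, -, hl⟩ := exists_natCast_of_pow_eq_self (p := p)
    (show (r f / r f₁) ^ p = r f / r f₁ by
      rw [div_pow, D.coef_aH_pow_eq hc hr, D.coef_aH_pow_eq hc hr])
  set f₂ := f - l • f₁ with hf₂
  have hr₂ : r f₂ = 0 := by
    rw [hf₂, map_sub, map_nsmul, nsmul_eq_mul, hl, div_mul_cancel₀ _ hf₁, sub_self]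
  have h1 := D.R.allLev_climb (i₁ := p * D.R.E + 1) (by omega : 1 ≤ p + 1) (by omega) le_rfl
    (b := fun σ => f₂ (D.aH c σ))
    (fun g => hlev (g.comp f₂))
    fun i hi _ hpi hiE r' hr' g => by
      rcases eq_or_ne i (p + 1) with rfl | hne
      · rw [D.R.hasCoef_unique hpi hiE (hr' g) (hr (g.comp f₂))]
        have : g.comp f₂ = (g 1).val • f₂ := by
          ext v
          have e : f₂ v = (f₂ v).val • (1 : ZMod p) := by
            rw [nsmul_eq_mul, mul_one, ZMod.natCast_zmod_val]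
          rw [AddMonoidHom.comp_apply, e, map_nsmul, AddMonoidHom.smul_apply, nsmul_eq_mul,
            nsmul_eq_mul, ZMod.natCast_zmod_val, ZMod.natCast_zmod_val, mul_comm]
        rw [this, map_nsmul, hr₂, smul_zero]
      · refine D.kill_of_invariant (fun σ hσ => ?_) hne hpi hiE r' hr' g
        simp [aH, D.conj_H hc _ hσ, D.plusCoef_conj _ D.T_comm]
  have h0 := D.R.eq_zero_of_allLev_top (fun v => by rw [nsmul_eq_mul, ZMod.natCast_self,
    zero_mul]) h1
  have hl0 : (l : ZMod p) = 0 := by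
    have := h0 g₀ hg₀
    rw [hf₂] at this
    simp only [AddMonoidHom.sub_apply, AddMonoidHom.smul_apply, hfa, hg₀1] at this
    simpa using this
  intro σ hσ
  have := h0 σ hσ
  rw [hf₂] at this
  simp only [AddMonoidHom.sub_apply, AddMonoidHom.smul_apply, nsmul_eq_mul, hl0, zero_mul,
    sub_zero] at this
  exact this

omit [Finite k] in
/-- The part along `δ₀` takes its values on the `𝔽_p`-line through its value at `g₀`. -/
theorem aH_eq_nsmul {c : GQ → Mat2 k} (hc : c ∈ adCocycles rb)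
    {r : (k →+ ZMod p) →+ ResidueField A}
    (hr : ∀ f, D.R.HasCoef (fun σ => f (D.aH c σ)) (p + 1) (r f)) {f₁ : k →+ ZMod p}
    (hf₁ : r f₁ ≠ 0) {g₀ : GalQ} (hg₀ : g₀ ∈ D.R.H) (hg₀1 : f₁ (D.aH c g₀) = 1) :
    ∀ σ ∈ D.R.H, D.aH c σ = (f₁ (D.aH c σ)).val • D.aH c g₀ := by
  have := D.R.prime_fact
  intro σ hσ
  refine sub_eq_zero.1 (eq_zero_of_forall_dual (p := p)
    (fun v => by rw [nsmul_eq_mul, D.char, zero_mul]) _ fun f => ?_)
  have h := D.dual_aH_eq_zero hc hr hf₁ hg₀ hg₀1 (f := f - (f (D.aH c g₀)).val • f₁)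
    (by simp [hg₀1]) σ hσ
  simp only [AddMonoidHom.sub_apply, AddMonoidHom.smul_apply, nsmul_eq_mul,
    ZMod.natCast_zmod_val] at h
  rw [map_sub, map_nsmul, nsmul_eq_mul, ZMod.natCast_zmod_val]
  linear_combination h

/-- For `a ≠ 0` some `F`-linear functional is non-zero on the image of `a δ₀`. -/
theorem exists_functional_δ₀_ne_zero {a : k} (ha : a ≠ 0) :
    ∃ (g : (Fin 2 → k) →+ D.F) (e : Fin 2 → k),
      (∀ (b : D.F) v, g ((D.κ b).mulVec v) = b * g v) ∧ g ((a • D.δ₀).mulVec e) ≠ 0 := by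
  have := D.R.prime_fact
  obtain ⟨e, he⟩ : ∃ e : Fin 2 → k, (a • D.δ₀).mulVec e ≠ 0 := by
    by_contra! h
    have h0 : a • D.δ₀ = 0 := Matrix.ext_of_mulVec_single fun i => by
      rw [Matrix.zero_mulVec]; exact h _
    exact smul_ne_zero ha (fun h => D.δF_ne_zero (D.κ_injective (h.trans (map_zero D.κ).symm))) h0
  obtain ⟨fF, hfF⟩ := D.exists_field_dual (one_ne_zero (α := D.F))
  obtain ⟨ψ, hψ⟩ : ∃ ψ : (Fin 2 → k) →+ ZMod p, ψ ((a • D.δ₀).mulVec e) ≠ 0 := by
    by_contra! h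
    exact he (eq_zero_of_forall_dual (nsmul_eq_zero_pi D.char) _ h)
  obtain ⟨g, hg, hgψ⟩ := D.exists_functional (f₀ := fF) (fun h => by simp [h] at hfF) ψ
  exact ⟨g, e, hg, fun h => hψ (by rw [hgψ, h, map_zero])⟩

omit [Finite k] in
/-- Only zero among the multiples of `z` is killed by a functional taking the value one at `z`. -/
theorem card_filter_nsmul_le_one [DecidableEq D.F] {f : D.F →+ ZMod p} {z : D.F} (hz : f z = 1) :
    (((Finset.range p).image fun m : ℕ => m • z).filter fun a => f a = 0).card ≤ 1 := by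
  refine Finset.card_le_one.2 fun a ha b hb => ?_
  obtain ⟨ha1, ha2⟩ := Finset.mem_filter.1 ha
  obtain ⟨hb1, hb2⟩ := Finset.mem_filter.1 hb
  obtain ⟨m₁, hm₁, rfl⟩ := Finset.mem_image.1 ha1
  obtain ⟨m₂, hm₂, rfl⟩ := Finset.mem_image.1 hb1
  rw [map_nsmul, hz, nsmul_eq_mul, mul_one, ZMod.natCast_eq_zero_iff] at ha2 hb2
  rw [Nat.eq_zero_of_dvd_of_lt ha2 (Finset.mem_range.1 hm₁),
    Nat.eq_zero_of_dvd_of_lt hb2 (Finset.mem_range.1 hm₂)]

/-- A part along `δ₀` with non-zero values on one `𝔽_p`-line is impossible: in the square of the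
model a combination of two points moves by multiples of one element of `F`, against the norm
bound. -/
theorem false_of_aH_line {c : GQ → Mat2 k} (hc : c ∈ adCocycles rb)
    (hflat : HasFlatModel p (dualAct rb c)) {f₁ : k →+ ZMod p} {rf₁ : ResidueField A}
    (hr : D.R.HasCoef (fun σ => f₁ (D.aH c σ)) (p + 1) rf₁) (hrf₁ : rf₁ ≠ 0) {a₀ : k}
    (ha₀ : a₀ ≠ 0) (hval : ∀ σ ∈ D.R.H, D.aH c σ = (f₁ (D.aH c σ)).val • a₀) : False := by
  classical
  have := D.R.prime_fact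
  have := D.charP
  have h3 := D.three_le
  have hE := D.p_sq
  have hp2 : 3 * p ≤ p ^ 2 := by rw [sq]; exact Nat.mul_le_mul_right p h3
  have hb := D.isHom_aH hc
  obtain ⟨g₁, hg₁, hne₁⟩ := D.R.exists_ne_zero_of_coef D.not_dvd_p_add_one (by omega) hr hrf₁
  obtain ⟨α, hα, hαlev⟩ := D.R.exact_level hr hrf₁
  obtain ⟨g', e, hg', hη0⟩ := D.exists_functional_δ₀_ne_zero ha₀
  set η := g' ((a₀ • D.δ₀).mulVec e) with hη
  set β : D.F := -D.w₁⁻¹ with hβ
  set z₀ : D.F := (1 + β * D.w₀) * η with hz₀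
  have hz₀0 : z₀ ≠ 0 := mul_ne_zero (fun h => D.w₁_ne_w₀ (by
    rw [hβ] at h; field_simp [D.w₁_ne_zero] at h; linear_combination h)) hη0
  obtain ⟨f, hf⟩ := D.exists_field_dual hz₀0
  let G : ((Fin 2 → k) × (Fin 2 → k)) × ((Fin 2 → k) × (Fin 2 → k)) →+ D.F :=
    AddMonoidHom.mk' (fun z => g' z.1.1 + β * g' z.2.1) fun a b => by
      simp only [Prod.fst_add, Prod.snd_add, map_add]; ring
  let Lsub : AddSubgroup (((Fin 2 → k) × (Fin 2 → k)) × ((Fin 2 → k) × (Fin 2 → k))) :=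
    { carrier := {z | z.1.2 = 0 ∧ z.2.2 = 0}
      zero_mem' := ⟨rfl, rfl⟩
      add_mem' := fun {a b} ha hb => ⟨by simp [ha.1, hb.1], by simp [ha.2, hb.2]⟩
      neg_mem' := fun {a} ha => ⟨by simp [ha.1], by simp [ha.2]⟩ }
  let x : ((Fin 2 → k) × (Fin 2 → k)) × ((Fin 2 → k) × (Fin 2 → k)) :=
    ((0, e), (0, (D.κ D.w₀).mulVec e))
  have hdiffx : ∀ h ∈ D.R.H, Prod.map (dualAct rb c h) (dualAct rb c h) x - x =
      (((c h).mulVec e, 0), ((c h).mulVec ((D.κ D.w₀).mulVec e), 0)) := by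
    intro h hh
    simp only [x, Prod.map_apply, Prod.ext_iff, Prod.fst_sub, Prod.snd_sub, dualAct_fst,
      dualAct_snd, D.rbH h hh, mul_one, Matrix.one_mulVec, Matrix.mulVec_zero, zero_add, sub_zero,
      sub_self, and_self]
  have hGx : ∀ h ∈ D.R.H,
      G (Prod.map (dualAct rb c h) (dualAct rb c h) x - x) = (f₁ (D.aH c h)).val • z₀ := by
    intro h hh
    rw [hdiffx h hh]
    show g' _ + β * g' _ = _
    set B := (D.minusProj (c h) : Mat2 k) with hB
    set a := D.aH c h with ha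
    have hX : c h = B + a • D.δ₀ := (D.decompose (hc.2.1 h)).symm
    have e1 : g' ((a • D.δ₀).mulVec e) = (f₁ a).val • η := by
      rw [hη, ← map_nsmul, ← Matrix.smul_mulVec, ← smul_assoc, ← hval h hh]
    have e2 : g' ((a • D.δ₀).mulVec ((D.κ D.w₀).mulVec e)) =
        D.w₀ * g' ((a • D.δ₀).mulVec e) := by
      rw [← hg', Matrix.mulVec_mulVec, Matrix.mulVec_mulVec, smul_mul_assoc, mul_smul_comm, δ₀,
        D.κ_comm]
    have e3 : g' (B.mulVec ((D.κ D.w₀).mulVec e)) = D.w₁ * g' (B.mulVec e) := by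
      rw [← hg', Matrix.mulVec_mulVec, Matrix.mulVec_mulVec, (D.mul_T_eq (D.minusProj (c h)).2).1]
    rw [hX, Matrix.add_mulVec, Matrix.add_mulVec, map_add, map_add, e3, e2, e1, hz₀, nsmul_eq_mul,
      nsmul_eq_mul, hβ]
    field_simp [D.w₁_ne_zero]
    ring
  obtain ⟨v₀, hv₀⟩ : ∃ v, g' v = 1 :=
    ⟨(D.κ η⁻¹).mulVec ((a₀ • D.δ₀).mulVec e), by rw [hg', ← hη, inv_mul_cancel₀ hη0]⟩
  refine D.norm_contra (hflat.prod hflat)
    (fun v => Prod.ext (nsmul_eq_zero_of_natCast D.char v.1) (nsmul_eq_zero_of_natCast D.char v.2))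
    Lsub G (fun σ hσ b hb z ⟨h1, h2⟩ => ?_)
    (fun a => (((D.κ a).mulVec v₀, 0), 0)) (fun a => ⟨⟨rfl, rfl⟩, ?_⟩) x
    (fun h hh => by rw [hdiffx h hh]; exact ⟨rfl, rfl⟩)
    ((Finset.range p).image fun m : ℕ => m • z₀) ?_ ?_ (fun h hh => ?_) f
    (γ := fun σ => f₁ (D.aH c σ)) (fun h hh => ?_)
    (fun σ hσ τ hτ => by simp only [hb.map_mul σ hσ τ hτ, map_add])
    D.not_dvd_p_add_one (by omega) ?_ hα hαlev hg₁ hne₁
  · refine ⟨⟨?_, ?_⟩, ?_⟩
    · simp [h1]
    · simp [h2]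
    · show g' _ + β * g' _ = b * (g' z.1.1 + β * g' z.2.1)
      simp only [Prod.map_fst, Prod.map_snd, dualAct_fst, h1, h2, Matrix.mulVec_zero, add_zero,
        D.rb_eq_of_matches hσ hb, hg']
      ring
  · show g' ((D.κ a).mulVec v₀) + β * g' 0 = a
    rw [hg', hv₀, map_zero, mul_zero, add_zero, mul_one]
  · exact Finset.mem_image.2 ⟨0, Finset.mem_range.2 D.R.prime.pos, zero_smul _ _⟩
  · intro a ha b hb'
    obtain ⟨m₁, -, rfl⟩ := Finset.mem_image.1 ha
    obtain ⟨m₂, -, rfl⟩ := Finset.mem_image.1 hb'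
    refine Finset.mem_image.2 ⟨(m₁ + m₂) % p, Finset.mem_range.2 (Nat.mod_lt _ D.R.prime.pos), ?_⟩
    rw [← add_smul, nsmul_eq_mul, nsmul_eq_mul]
    congr 1
    have := D.charP_F
    exact (CharP.natCast_eq_natCast D.F p).2 (Nat.mod_modEq _ _)
  · rw [hGx h hh]
    exact Finset.mem_image.2 ⟨_, Finset.mem_range.2 (ZMod.val_lt _), rfl⟩
  · rw [hGx h hh, map_nsmul, hf, nsmul_eq_mul, mul_one, ZMod.natCast_zmod_val]
  · have := Nat.mul_le_mul_left p (D.card_filter_nsmul_le_one hf)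
    omega

/-- For a flat cocycle the part along `δ₀` vanishes on `H`. -/
theorem aH_eq_zero {c : GQ → Mat2 k} (hc : c ∈ adCocycles rb)
    (hflat : HasFlatModel p (dualAct rb c)) : ∀ σ ∈ D.R.H, D.aH c σ = 0 := by
  have := D.R.prime_fact
  have h3 := D.three_le
  have hE := D.p_sq
  have hp2 : 3 * p ≤ p ^ 2 := by rw [sq]; exact Nat.mul_le_mul_right p h3
  obtain ⟨hlev, hkill⟩ := D.aH_kill hc
  have hb := D.isHom_aH hc
  obtain ⟨r, hr⟩ := D.R.exists_coefMap D.not_dvd_p_add_one (by omega) hlev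
  by_cases hzero : ∀ f, r f = 0
  · have h1 := D.R.allLev_climb (i₁ := p * D.R.E + 1) (by omega : 1 ≤ p + 1) (by omega) le_rfl hlev
      fun i hi _ hpi hiE r' hr' f => by
        rcases eq_or_ne i (p + 1) with rfl | hne
        · rw [D.R.hasCoef_unique hpi hiE (hr' f) (hr f), hzero f]
        · exact hkill i hne hpi hiE r' hr' f
    exact D.R.eq_zero_of_allLev_top (fun v => by rw [nsmul_eq_mul, D.char, zero_mul]) h1
  exfalso
  obtain ⟨f₁, hf₁⟩ : ∃ f, r f ≠ 0 := by simpa using hzero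
  obtain ⟨g₁, hg₁, hne₁⟩ :=
    D.R.exists_ne_zero_of_coef D.not_dvd_p_add_one (by omega) (hr f₁) hf₁
  obtain ⟨g₀, hg₀, hg₀1⟩ := D.R.exists_apply_eq_one (γ := fun σ => f₁ (D.aH c σ))
    (fun σ hσ τ hτ => by simp only [hb.map_mul σ hσ τ hτ, map_add]) hg₁ hne₁
  refine D.false_of_aH_line hc hflat (hr f₁) hf₁ (a₀ := D.aH c g₀) (fun h => ?_)
    (D.aH_eq_nsmul hc hr hf₁ hg₀ hg₀1)
  simp [h] at hg₀1

omit [Finite k] in
/-- The kernel of a non-zero functional on `F` has `p` elements. -/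
theorem card_filter_dual_le [DecidableEq D.F] {f : D.F →+ ZMod p} {z : D.F} (hz : f z = 1) :
    (Finset.univ.filter fun a => f a = 0).card ≤ p := by
  have := D.R.prime_fact
  let e : f.ker × ZMod p → D.F := fun x => (x.1 : D.F) + x.2.val • z
  have hsum : ∀ x, f (e x) = x.2 := fun x => by
    show f ((x.1 : D.F) + x.2.val • z) = x.2
    rw [map_add, AddMonoidHom.mem_ker.1 x.1.2, map_nsmul, hz, zero_add, nsmul_eq_mul, mul_one,
      ZMod.natCast_zmod_val]
  have he : Function.Injective e := fun x y hxy => by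
    have h2 : x.2 = y.2 := by rw [← hsum x, ← hsum y, hxy]
    refine Prod.ext (Subtype.ext ?_) h2
    have h1 : (x.1 : D.F) + x.2.val • z = (y.1 : D.F) + y.2.val • z := hxy
    rw [h2] at h1
    exact add_right_cancel h1
  have h1 := Nat.card_le_card_of_injective e he
  rw [Nat.card_prod, Nat.card_zmod, Nat.card_eq_fintype_card (α := D.F), D.cardF, sq] at h1
  refine le_trans (le_of_eq ?_) (Nat.le_of_mul_le_mul_right h1 D.R.prime.pos)
  rw [← Fintype.card_subtype, ← Nat.card_eq_fintype_card]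
  exact Nat.card_congr (Equiv.refl _)

/-- For a flat cocycle the anticommuting part has level `p ^ 2 + 1`. -/
theorem bH_level {c : GQ → Mat2 k} (hc : c ∈ adCocycles rb)
    (hflat : HasFlatModel p (dualAct rb c)) : D.R.AllLev (D.bH c) (p ^ 2 + 1) := by
  classical
  have := D.R.prime_fact
  have h3 := D.three_le
  have hE := D.p_sq
  have hp2 : 3 * p ≤ p ^ 2 := by rw [sq]; exact Nat.mul_le_mul_right p h3
  obtain ⟨hlev, hkill⟩ := D.bH_kill hc
  have hb := D.isHom_bH hc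
  obtain ⟨r, hr⟩ := D.R.exists_coefMap D.not_dvd_two (by omega) hlev
  obtain ⟨fF, hfF⟩ := D.exists_field_dual (one_ne_zero (α := D.F))
  have hc0 : ∀ h ∈ D.R.H, c h = (D.bH c h : Mat2 k) := fun h hh => by
    have h1 := D.decompose (hc.2.1 h)
    rw [show D.plusCoef (c h) = 0 from D.aH_eq_zero hc hflat h hh, zero_smul, add_zero] at h1
    exact h1.symm
  let col : (Fin 2 → k) → D.minusSpace →+ (Fin 2 → k) := fun e =>
    AddMonoidHom.mk' (fun X => (X : Mat2 k).mulVec e) fun X Y => by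
      simp [Matrix.add_mulVec]
  have hkillcol : ∀ e (ψ : (Fin 2 → k) →+ ZMod p), r (ψ.comp (col e)) = 0 := by
    intro e ψ
    by_contra hne
    obtain ⟨g', hg', hgψ⟩ := D.exists_functional (f₀ := fF) (fun h => by simp [h] at hfF) ψ
    obtain ⟨α, hα, hαlev⟩ := D.R.exact_level (hr _) hne
    obtain ⟨g₁, hg₁, hne₁⟩ := D.R.exists_ne_zero_of_coef D.not_dvd_two (by omega) (hr _) hne
    set η := g' ((D.bH c g₁ : Mat2 k).mulVec e) with hη
    have hη0 : η ≠ 0 := fun h => hne₁ (by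
      show ψ ((D.bH c g₁ : Mat2 k).mulVec e) = 0
      rw [hgψ, ← hη, h, map_zero])
    obtain ⟨v₀, hv₀⟩ : ∃ v, g' v = 1 :=
      ⟨(D.κ η⁻¹).mulVec ((D.bH c g₁ : Mat2 k).mulVec e), by rw [hg', ← hη, inv_mul_cancel₀ hη0]⟩
    let G : (Fin 2 → k) × (Fin 2 → k) →+ D.F :=
      g'.comp (AddMonoidHom.fst (Fin 2 → k) (Fin 2 → k))
    let Lsub : AddSubgroup ((Fin 2 → k) × (Fin 2 → k)) :=
      { carrier := {z | z.2 = 0}
        zero_mem' := rfl
        add_mem' := fun {a b} (ha : a.2 = 0) (hb : b.2 = 0) => show (a + b).2 = 0 by simp [ha, hb]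
        neg_mem' := fun {a} (ha : a.2 = 0) => show (-a).2 = 0 by simp [ha] }
    have hdiffx : ∀ h ∈ D.R.H,
        dualAct rb c h (0, e) - (0, e) = ((D.bH c h : Mat2 k).mulVec e, 0) := by
      intro h hh
      simp only [Prod.ext_iff, Prod.fst_sub, Prod.snd_sub, dualAct_fst, dualAct_snd, D.rbH h hh,
        hc0 h hh, mul_one, Matrix.one_mulVec, Matrix.mulVec_zero, zero_add, sub_zero, sub_self,
        and_self]
    refine D.norm_contra hflat (nsmul_eq_zero_of_natCast D.char) Lsub G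
      (fun σ hσ b hb z (h1 : z.2 = 0) => ⟨show (dualAct rb c σ z).2 = 0 by simp [h1], ?_⟩)
      (fun a => ((D.κ a).mulVec v₀, 0)) (fun a => ⟨rfl, ?_⟩) (0, e)
      (fun h hh => by rw [hdiffx h hh]; rfl)
      Finset.univ (Finset.mem_univ _) (fun _ _ _ _ => Finset.mem_univ _)
      (fun _ _ => Finset.mem_univ _) fF (γ := fun σ => (ψ.comp (col e)) (D.bH c σ))
      (fun h hh => ?_) (fun σ hσ τ hτ => by rw [hb.map_mul σ hσ τ hτ, map_add]) D.not_dvd_two
      (by omega) ?_ hα hαlev hg₁ hne₁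
    · show g' (dualAct rb c σ z).1 = b * g' z.1
      simp only [dualAct_fst, h1, Matrix.mulVec_zero, add_zero, D.rb_eq_of_matches hσ hb, hg']
    · show g' ((D.κ a).mulVec v₀) = a
      rw [hg', hv₀, mul_one]
    · rw [hdiffx h hh]
      exact (hgψ _).symm
    · have := Nat.mul_le_mul_left p (D.card_filter_dual_le hfF)
      rw [← sq] at this
      omega
  have hzero : ∀ f, r f = 0 := by
    intro f
    let i₂ : D.minusSpace →+ (Fin 2 → k) × (Fin 2 → k) :=
      (col (Pi.single 0 1)).prod (col (Pi.single 1 1))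
    have hi₂ : Function.Injective i₂ := fun X Y h => by
      refine Subtype.ext (Matrix.ext_of_mulVec_single fun j => ?_)
      fin_cases j
      · exact congrArg Prod.fst h
      · exact congrArg Prod.snd h
    let _ : Module (ZMod p) D.minusSpace := AddCommGroup.zmodModule fun v => by
      rw [← Nat.cast_smul_eq_nsmul k, D.char, zero_smul]
    let _ : Module (ZMod p) ((Fin 2 → k) × (Fin 2 → k)) :=
      AddCommGroup.zmodModule (nsmul_eq_zero_of_natCast D.char)
    obtain ⟨Ψ, hΨ⟩ := exists_extend_dual i₂ hi₂ f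
    have e : f = (Ψ.comp (AddMonoidHom.inl _ _)).comp (col (Pi.single 0 1)) +
        (Ψ.comp (AddMonoidHom.inr _ _)).comp (col (Pi.single 1 1)) := by
      ext X
      rw [← hΨ X, AddMonoidHom.add_apply, AddMonoidHom.comp_apply, AddMonoidHom.comp_apply,
        AddMonoidHom.comp_apply, AddMonoidHom.comp_apply, ← map_add]
      congr 1
      simp [i₂]
    rw [e, map_add, hkillcol, hkillcol, add_zero]
  refine D.R.allLev_climb one_le_two (by omega) (by omega) hlev
    fun i hi hlt hpi hiE r' hr' f => ?_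
  rcases eq_or_ne i 2 with rfl | hne
  · rw [D.R.hasCoef_unique hpi hiE (hr' f) (hr f), hzero f]
  · exact hkill i hne (Nat.ne_of_lt hlt) hpi hiE r' hr' f

end DataB

end Fermat.Agent.FlatBound
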