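import Fermat.Agent.FlatBound.CaseBBound
import Fermat.Agent.FlatBound.Generator
import Mathlib.LinearAlgebra.Matrix.GeneralLinearGroup.Card
import Mathlib.Algebra.QuadraticAlgebra.Basic
import Mathlib.GroupTheory.PGroup
import Mathlib.LinearAlgebra.Matrix.CharP
import Mathlib.LinearAlgebra.Matrix.Charpoly.Coeff

/-!
# The residual representation at `p` of a flat deformation is ordinary or supersingular

Let `v` be a small point fixed by the elements of inertia fixing a tame root `π`, and let `t` be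
the multiplier on `π` of a generator `τ` of tame inertia. Then `rb τ` acts on `v` through a root
`x = t ^ j` with `j (p - 1) ≤ e` of any integral polynomial killing `v`. Three cases occur:

* the points fixed by `H` form a line: it is stable under decomposition and `τ` acts on it by the
  cyclotomic character (`exists_eigen_of_line`, `exists_bound_of_line`);
* `H` acts trivially and `x` is in the prime field: `rb τ` has the eigenvalues `n` and `1`
  (`exists_bound_of_split`);
* `H` acts trivially and `x` is not in the prime field: tame inertia acts through the fundamental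
  character of level two (`sq_add_eq_levelTwo`, `exists_bound_of_supersingular`).
-/

set_option autoImplicit false

noncomputable section

open Fermat.Agent.TangentBound
open Fermat.Agent.TWAssembly (adCocycles adCoboundary resPlace)
open Fermat.Agent.GaloisBasics (Qbar GalQ)
open Fermat.Agent.FlatModels (HasFlatModel)
open IsLocalRing

namespace Fermat.Agent.FlatBound

variable {k : Type} [Field k] {A : ValuationSubring Qbar} {p : ℕ}

/-- The tame character of an element of value `|π| ^ j`. -/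
theorem tameChar_eq_pow (R : TameRoot A p) {τ : GalQ} (hτ : τ ∈ A.inertiaSubgroupIn ℚ) {u : A}
    (hτπ : τ (R.π : Qbar) = u * R.π) (z : Qbarˣ) {j : ℕ}
    (hz : A.valuation (z : Qbar) = R.vπ ^ j) :
    (LocalInertia.tameChar A z ⟨τ, hτ⟩ : ResidueField A) = residue A u ^ j := by
  set w : Qbar := (z : Qbar) / (R.π : Qbar) ^ j with hw
  have hw1 : A.valuation w = 1 := by
    rw [hw, map_div₀, map_pow, hz]
    exact div_self (pow_ne_zero _ R.vπ_pos.ne')
  have hw0 : w ≠ 0 := fun h => by rw [h, map_zero] at hw1; exact zero_ne_one hw1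
  have hsmall : A.valuation (τ w - w) < 1 :=
    (LocalInertia.mem_inertiaSubgroupIn_iff.1 hτ).2 _ ((A.valuation_le_one_iff _).1 hw1.le)
  have hu0 : (u : Qbar) ≠ 0 := fun h => by
    rw [h, zero_mul, map_eq_zero] at hτπ; exact R.π.ne_zero hτπ
  have hu1 : A.valuation (u : Qbar) ≤ 1 := (A.valuation_le_one_iff _).2 u.2
  rw [LocalInertia.coe_tameChar, ← map_pow]
  refine LocalInertia.residue_eq_of_valuation_sub_lt ?_
  rw [SubmonoidClass.coe_pow]
  show A.valuation (τ (z : Qbar) / (z : Qbar) - (u : Qbar) ^ j) < 1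
  have hzw : (z : Qbar) = w * (R.π : Qbar) ^ j :=
    (div_mul_cancel₀ _ (pow_ne_zero _ R.π.ne_zero)).symm
  have e : τ (z : Qbar) / (z : Qbar) - (u : Qbar) ^ j = (u : Qbar) ^ j * ((τ w - w) / w) := by
    rw [hzw, map_mul, map_pow, hτπ]
    field_simp
    ring
  rw [e, map_mul, map_div₀, hw1, div_one, map_pow]
  exact lt_of_le_of_lt (mul_le_of_le_one_left' (pow_le_one₀ zero_le hu1)) hsmall

variable [Finite k]

/-- A line stable under decomposition, fixed by `H`, on which the generator of tame inertia acts by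
the cyclotomic character, gives the reducible shape. -/
theorem exists_bound_of_line (R : TameRoot A p) (hp2 : p ≠ 2) (hk : (p : k) = 0)
    {rb : GQ →* Mat2 k} (hcont : ContRep rb) (hdet : CycloDet p rb) (G : R.Generator)
    {w : Fin 2 → k} (hw : w ≠ 0)
    (hD : ∀ d ∈ A.decompositionSubgroup ℚ, ∃ l : k, (rb d).mulVec w = l • w)
    (hH : ∀ h ∈ R.H, (rb h).mulVec w = w) (hτw : (rb G.τ).mulVec w = (G.n : k) • w) :
    ∃ L : Submodule k (A.decompositionSubgroup ℚ → Mat2 k),
      FiniteDimensional k L ∧ Module.finrank k L ≤ 4 ∧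
        ∀ c ∈ adCocycles rb, HasFlatModel p (dualAct rb c) → resPlace A c ∈ L := by
  obtain ⟨U, hU⟩ : ∃ U : (Mat2 k)ˣ, (U : Mat2 k).mulVec ![1, 0] = w := by
    by_cases h0 : w 0 = 0
    · have h1 : w 1 ≠ 0 := fun h1 => hw (by funext i; fin_cases i <;> assumption)
      refine ⟨Matrix.GeneralLinearGroup.mkOfDetNeZero !![w 0, 1; w 1, 0]
        (by rw [Matrix.det_fin_two_of]; simpa using h1), ?_⟩
      funext i
      fin_cases i <;> simp [mulVec2, Matrix.GeneralLinearGroup.mkOfDetNeZero]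
    · refine ⟨Matrix.GeneralLinearGroup.mkOfDetNeZero !![w 0, 0; w 1, 1]
        (by rw [Matrix.det_fin_two_of]; simpa using h0), ?_⟩
      funext i
      fin_cases i <;> simp [mulVec2, Matrix.GeneralLinearGroup.mkOfDetNeZero]
  have hcol : ∀ σ : GQ, ∀ l : k, (rb σ).mulVec w = l • w →
      conjRep rb U σ 1 0 = 0 ∧ conjRep rb U σ 0 0 = l := by
    intro σ l hl
    have h : (conjRep rb U σ).mulVec ![1, 0] = l • ![1, 0] := by
      rw [conjRep_apply, TWLocal.conjM_apply, ← Matrix.mulVec_mulVec, hU, ← Matrix.mulVec_mulVec,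
        hl, Matrix.mulVec_smul, ← hU, Matrix.mulVec_mulVec, Units.inv_mul, Matrix.one_mulVec]
    constructor
    · simpa [mulVec2] using congrFun h 1
    · simpa [mulVec2] using congrFun h 0
  have hinD : ∀ σ ∈ A.inertiaSubgroupIn ℚ, σ ∈ A.decompositionSubgroup ℚ :=
    fun σ hσ => LocalInertia.inertiaSubgroupIn_le_decompositionSubgroup hσ
  have hupper : ∀ σ ∈ A.decompositionSubgroup ℚ, conjRep rb U σ 1 0 = 0 := fun σ hσ => by
    obtain ⟨l, hl⟩ := hD σ hσ
    exact (hcol σ l hl).1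
  have h11 : ∀ (σ : GQ) (a : ℕ), σ ∈ A.decompositionSubgroup ℚ → σ R.ζ = R.ζ ^ a →
      conjRep rb U σ 0 0 * conjRep rb U σ 1 1 = (a : k) := by
    intro σ a hσ ha
    have h := det_eq_of_apply_zeta R (conjRep_det U hdet) ha
    rw [Matrix.det_fin_two, hupper σ hσ] at h
    simpa using h
  have hn0 : (G.n : k) ≠ 0 := fun h0 => by
    have h := det_eq_of_apply_zeta R hdet G.τ_ζ
    rw [h0] at h
    have := congrArg Matrix.det (rb_mul_inv rb G.τ)
    rw [Matrix.det_mul, h, zero_mul, Matrix.det_one] at this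
    exact zero_ne_one this
  refine exists_bound_of_conj U A (exists_bound_caseA R.over R.prime hp2 hk (conjRep rb U)
    (conjRep_cont U hcont) (conjRep_det U hdet) hupper fun σ hσ => ?_)
  have hτ11 : conjRep rb U G.τ 1 1 = 1 := by
    have h := h11 G.τ G.n (hinD G.τ G.τ_mem) G.τ_ζ
    rw [(hcol G.τ _ hτw).2] at h
    exact mul_left_cancel₀ hn0 (h.trans (mul_one _).symm)
  have hH11 : ∀ h ∈ R.H, conjRep rb U h 1 1 = 1 := fun h hh => by
    have e := h11 h 1 (R.H_le_decomposition hh) (by rw [pow_one, R.apply_zeta hh])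
    rw [(hcol h 1 (by rw [one_smul, hH h hh])).2, one_mul, Nat.cast_one] at e
    exact e
  obtain ⟨m, h, hh, rfl⟩ := G.gen σ hσ
  have hpow : ∀ m : ℕ, conjRep rb U (G.τ ^ m) 1 1 = 1 := by
    intro m
    induction m with
    | zero => simp
    | succ m ih =>
      rw [pow_succ, map_mul, mul2, hupper _ (pow_mem (hinD G.τ G.τ_mem) m), ih, hτ11]
      ring
  rw [map_mul, mul2, hupper _ (pow_mem (hinD G.τ G.τ_mem) m), hpow, hH11 h hh]
  ring

/-- A small point fixed by the elements of inertia fixing `π`. -/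
theorem exists_small_fixed (R : TameRoot A p) (hk : (p : k) = 0) {rb : GQ →* Mat2 k}
    (hcont : ContRep rb) {c : GQ → Mat2 k}
    (L : Model A (A.inertiaSubgroupIn ℚ) (dualAct rb c)) {a : ℕ}
    (hexp : ∀ σ ∈ A.inertiaSubgroupIn ℚ, rb σ ^ (R.ee * p ^ a) = 1)
    (hne : ∃ σ ∈ A.inertiaSubgroupIn ℚ, rb σ ≠ 1) :
    ∃ v : Fin 2 → k, v ≠ 0 ∧ L.size (v, 0) < 1 ∧ ∀ h ∈ R.H, (rb h).mulVec v = v := by
  classical
  have := R.prime_fact
  let W0 : AddSubgroup (Fin 2 → k) :=
    { carrier := {v | L.size (v, 0) < 1}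
      zero_mem' := by
        show L.size ((0 : Fin 2 → k), (0 : Fin 2 → k)) < 1
        rw [Prod.mk_zero_zero, L.size_zero]
        exact zero_lt_one
      add_mem' := fun {v w} hv hw => by
        show L.size ((v + w, 0) : (Fin 2 → k) × (Fin 2 → k)) < 1
        rw [show ((v + w, 0) : (Fin 2 → k) × (Fin 2 → k)) = (v, 0) + (w, 0) by simp]
        exact (L.size_add_le _ _).trans_lt (max_lt hv hw)
      neg_mem' := fun {v} hv => by
        show L.size ((-v, 0) : (Fin 2 → k) × (Fin 2 → k)) < 1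
        rw [show ((-v, 0) : (Fin 2 → k) × (Fin 2 → k)) = -(v, 0) by simp, L.size_neg]
        exact hv }
  have hact : ∀ σ, ∀ v : Fin 2 → k, dualAct rb c σ (v, 0) = ((rb σ).mulVec v, 0) :=
    fun σ v => by simp [dualAct]
  have hstab : ∀ h ∈ R.H, ∀ v ∈ W0, (rb h).mulVec v ∈ W0 := fun h hh v hv => by
    show L.size _ < 1
    rw [← hact, L.size_act (R.H_le hh) (R.H_le_decomposition hh)]
    exact hv
  obtain ⟨v₁, hv₁W, hv₁⟩ : ∃ v ∈ W0, v ≠ 0 := by
    obtain ⟨σ, hσ, hσne⟩ := hne
    obtain ⟨u, hu⟩ : ∃ u, (rb σ).mulVec u - u ≠ 0 := by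
      by_contra! h
      exact hσne (Matrix.ext_of_mulVec_single fun i => by
        rw [sub_eq_zero.1 (h _), Matrix.one_mulVec])
    refine ⟨_, ?_, hu⟩
    show L.size _ < 1
    rw [show (((rb σ).mulVec u - u, 0) : (Fin 2 → k) × (Fin 2 → k)) =
      dualAct rb c σ (u, 0) - (u, 0) by rw [hact]; simp]
    exact L.size_act_sub_lt_one hσ hσ _
  let P : Subgroup (Mat2 k)ˣ := ((rb.comp R.H.subtype).toHomUnits).range
  have hP : ∀ g : P, ∃ h ∈ R.H, ((g : (Mat2 k)ˣ) : Mat2 k) = rb h := by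
    rintro ⟨g, h, rfl⟩
    exact ⟨h, h.2, rfl⟩
  obtain ⟨F, hF, hF1⟩ := hcont
  have hPp : IsPGroup p P := fun g => by
    obtain ⟨h, hh, e⟩ := hP g
    obtain ⟨m, hm⟩ := R.exists_pow_eq_one rb F hF1 hexp hh
    exact ⟨m, Subtype.ext (Units.ext (by simp [e, hm]))⟩
  let _ : MulAction P W0 :=
    { smul := fun g v => ⟨((g : (Mat2 k)ˣ) : Mat2 k).mulVec v, by
        obtain ⟨h, hh, e⟩ := hP g
        rw [e]; exact hstab h hh v v.2⟩
      one_smul := fun v => Subtype.ext (Matrix.one_mulVec _)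
      mul_smul := fun g g' v => Subtype.ext (by
        show ((((g * g' : P) : (Mat2 k)ˣ)) : Mat2 k).mulVec _ =
          ((g : (Mat2 k)ˣ) : Mat2 k).mulVec (((g' : (Mat2 k)ˣ) : Mat2 k).mulVec _)
        rw [Matrix.mulVec_mulVec]
        rfl) }
  have hdvd : p ∣ Nat.card W0 := by
    have hord : addOrderOf (⟨v₁, hv₁W⟩ : W0) = p := by
      refine addOrderOf_eq_prime (Subtype.ext (by funext i; simp [hk])) ?_
      exact fun h => hv₁ (congrArg Subtype.val h)
    rw [← hord]
    exact addOrderOf_dvd_natCard _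
  obtain ⟨v, hv, hne0⟩ := hPp.exists_fixed_point_of_prime_dvd_card_of_fixed_point W0 hdvd
    (a := 0) (fun g => Subtype.ext
      (show ((g : (Mat2 k)ˣ) : Mat2 k).mulVec 0 = 0 from Matrix.mulVec_zero _))
  refine ⟨v, fun h => hne0 (Subtype.ext h.symm), v.2, fun h hh => ?_⟩
  exact congrArg Subtype.val (hv ⟨_, ⟨h, hh⟩, rfl⟩)

omit [Finite k] in
/-- The trace of the `p`-th power of a two by two matrix. -/
theorem trace_pow_char [Fact p.Prime] [CharP k p] (h2 : (2 : k) ≠ 0) (T : Mat2 k) :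
    (T ^ p).trace = T.trace ^ p := by
  set s : k := T.trace / 2 with hs
  set N : Mat2 k := T - s • (1 : Mat2 k) with hN
  have hNtr : N.trace = 0 := by
    rw [hN, Matrix.trace_sub, Matrix.trace_smul, Matrix.trace_one, Fintype.card_fin, smul_eq_mul,
      hs, Nat.cast_ofNat, div_mul_cancel₀ _ h2, sub_self]
  have hN2 : (2 : k) • (N * N) = (N * N).trace • (1 : Mat2 k) := by
    rw [two_smul, mul_add_mul_of_trace_zero hNtr hNtr]
  have hNp : (N ^ p).trace = 0 := by
    obtain ⟨l, hl⟩ : ∃ l, p = 2 * l + 1 := by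
      rcases (Fact.out : p.Prime).eq_two_or_odd' with h | h
      · exact absurd (by rw [← Nat.cast_ofNat, ← h, CharP.cast_eq_zero]) h2
      · exact h
    have e : N * N = ((N * N).trace / 2) • (1 : Mat2 k) := by
      rw [div_eq_inv_mul, mul_smul, ← hN2, inv_smul_smul₀ h2]
    rw [hl, pow_succ, pow_mul, sq, e, smul_pow, one_pow, smul_one_mul, Matrix.trace_smul, hNtr,
      smul_zero]
  have hT : T = s • (1 : Mat2 k) + N := by rw [hN]; abel
  have hcomm : Commute (s • (1 : Mat2 k)) N := (Commute.one_left N).smul_left s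
  conv_lhs => rw [hT, add_pow_char_of_commute p hcomm, Matrix.trace_add, hNp, add_zero, smul_pow,
    one_pow, Matrix.trace_smul, Matrix.trace_one, Fintype.card_fin, smul_eq_mul, Nat.cast_ofNat]
  rw [show T.trace = s * 2 by rw [hs, div_mul_cancel₀ _ h2], mul_pow]
  congr 1
  obtain ⟨i, hi⟩ : ∃ i : ℕ, (i : k) = 2 := ⟨2, Nat.cast_ofNat⟩
  rw [← hi, ← map_natCast (ZMod.castHom (dvd_refl p) k), ← map_pow, ZMod.pow_card]

/-- The exponent bookkeeping for the supersingular case. -/
theorem exists_level_two_exponent {e₀ M j : ℕ} (hp3 : 3 ≤ p) (hM : e₀ = (p ^ 2 - 1) * M)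
    (hM0 : 0 < M) (hj1 : 1 ≤ j) (hjle : j * (p - 1) ≤ e₀) (hdvd : e₀ ∣ j * (p ^ 2 - 1)) :
    ∃ j₂, j = M * j₂ ∧ 1 ≤ j₂ ∧ j₂ ≤ p + 1 := by
  obtain ⟨q, hq⟩ : ∃ q, p = q + 1 := ⟨p - 1, by omega⟩
  have e : p ^ 2 - 1 = (p - 1) * (p + 1) := by
    subst hq
    rw [show (q + 1) ^ 2 = q * (q + 1 + 1) + 1 by ring, Nat.add_sub_cancel, Nat.add_sub_cancel]
  have hpos : 0 < p ^ 2 - 1 := by rw [e]; exact Nat.mul_pos (by omega) (by omega)
  rw [hM, mul_comm j] at hdvd
  obtain ⟨j₂, rfl⟩ := Nat.dvd_of_mul_dvd_mul_left hpos hdvd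
  refine ⟨j₂, rfl, ?_, ?_⟩
  · rcases Nat.eq_zero_or_pos j₂ with h | h
    · rw [h, mul_zero] at hj1; omega
    · exact h
  · refine Nat.le_of_mul_le_mul_left (c := M * (p - 1)) ?_ (Nat.mul_pos hM0 (by omega))
    rw [hM, e] at hjle
    linarith

omit [Finite k] in
/-- The Cayley–Hamilton relation of a two by two matrix. -/
theorem mul_self_add_det_smul (T : Mat2 k) : T * T + T.det • (1 : Mat2 k) = T.trace • T := by
  ext i j
  fin_cases i <;> fin_cases j <;>
    simp [Matrix.mul_apply, Fin.sum_univ_two, Matrix.trace_fin_two, Matrix.det_fin_two] <;> ring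

omit [Finite k] in
/-- Two matrices agreeing on two independent vectors are equal. -/
theorem eq_of_mulVec_eq_pair {v w : Fin 2 → k} (hv : v ≠ 0) (hw : ∀ a : k, w ≠ a • v)
    {M N : Mat2 k} (h₁ : M.mulVec v = N.mulVec v) (h₂ : M.mulVec w = N.mulVec w) : M = N := by
  have hspan := ((LinearIndependent.pair_iff' hv).2
    fun a => (hw a).symm).span_eq_top_of_card_eq_finrank (by rw [Fintype.card_fin, Module.finrank_fin_fun])
  refine Matrix.toLin'.injective (LinearMap.ext_on_range hspan fun i => ?_)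
  fin_cases i
  · exact h₁
  · exact h₂

omit [Finite k] in
/-- If `Φ T Φ⁻¹ = T ^ p` then the trace of `T` is in the prime field. -/
theorem trace_pow_eq_of_conj [Fact p.Prime] [CharP k p] (h2 : (2 : k) ≠ 0) {rb : GQ →* Mat2 k}
    {φ : GQ} {T : Mat2 k} (h : rb φ * T = T ^ p * rb φ) : T.trace ^ p = T.trace := by
  replace h := congrArg (fun X => X * rb φ⁻¹) h
  simp only [mul_assoc, rb_mul_inv, mul_one] at h
  rw [← trace_pow_char h2, ← h, ← mul_assoc, Matrix.trace_mul_comm, ← mul_assoc, rb_inv_mul,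
    one_mul]

omit [Finite k] in
/-- Equalities of natural numbers transfer between `k` and the residue field. -/
theorem natCast_eq_iff_residue [CharP k p] (R : TameRoot A p) (a b : ℕ) :
    (a : k) = b ↔ (a : ResidueField A) = b :=
  have := residueRing_charP R
  (CharP.natCast_eq_natCast k p).trans (CharP.natCast_eq_natCast (ResidueField A) p).symm

/-- A tame root whose exponent `e` is a multiple of `p ^ 2 - 1` and is, up to a power of `p`, a
multiple of the exponent of `GL₂(k)`. -/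
theorem exists_tameRoot_of_GL (hA : A.LiesOverPrime p) (hp : p.Prime) (hk : (p : k) = 0) :
    ∃ (R : TameRoot A p) (M a : ℕ), R.ee = (p ^ 2 - 1) * M ∧
      ∀ g : (Mat2 k)ˣ, (g : Mat2 k) ^ (R.ee * p ^ a) = 1 := by
  have : CharP k p := (CharP.charP_iff_prime_eq_zero hp).2 hk
  have : Fintype k := Fintype.ofFinite k
  obtain ⟨f, -, hq⟩ := FiniteField.card k p
  set q := Fintype.card k with hqdef
  have hpq : p ∣ q := hq ▸ dvd_pow_self p f.pos.ne'
  obtain ⟨E', hE'⟩ : p - 1 ∣ q - 1 := hq ▸ Nat.sub_one_dvd_pow_sub_one p f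
  obtain ⟨M', hM'⟩ : p ^ 2 - 1 ∣ q ^ 2 - 1 := by
    rw [hq, ← pow_mul, mul_comm, pow_mul]
    exact Nat.sub_one_dvd_pow_sub_one _ _
  have hsub : ∀ x : ℕ, 1 ≤ x → p ∣ x → ¬ p ∣ x - 1 := fun x hx hd h => by
    have h1 : p ∣ x - (x - 1) := Nat.dvd_sub hd h
    rw [show x - (x - 1) = 1 by omega] at h1
    have := Nat.le_of_dvd one_pos h1
    have := hp.two_le
    omega
  have hq1 : 1 ≤ q := Fintype.card_pos
  have hee : (p - 1) * ((q ^ 2 - 1) * E') = (q ^ 2 - 1) * (q - 1) := by rw [hE']; ring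
  have hdvd : ¬ p ∣ (p - 1) * ((q ^ 2 - 1) * E') := by
    rw [hee]
    exact hp.not_dvd_mul (hsub _ (Nat.one_le_pow _ _ hq1) (dvd_pow hpq two_ne_zero))
      (hsub _ hq1 hpq)
  obtain ⟨R, hRE⟩ := exists_tameRoot hA hp
    (Nat.pos_of_ne_zero fun h => hdvd (by rw [h, mul_zero]; exact dvd_zero p)) hdvd
  have hR : R.ee = (q ^ 2 - 1) * (q - 1) := by rw [TameRoot.ee, hRE, hee]
  refine ⟨R, M' * (q - 1), f, by rw [hR, hM', mul_assoc], fun g => ?_⟩
  have hcard : Nat.card (Mat2 k)ˣ = R.ee * p ^ (f : ℕ) := by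
    rw [show (Mat2 k)ˣ = GL (Fin 2) k from rfl, Matrix.card_GL_field, Fin.prod_univ_two, ← hq,
      hR, Fin.val_zero, Fin.val_one, pow_zero, pow_one,
      show q ^ 2 - q = (q - 1) * q by rw [Nat.sub_one_mul, sq]]
    ring
  rw [← Units.val_pow_eq_pow_val, ← hcard, pow_card_eq_one', Units.val_one]

omit [Finite k] in
/-- The tame character of a small point fixed by `H` is `t ^ j` with `1 ≤ j` and `j (p - 1) ≤ e`,
and satisfies every integral linear relation between the translates of the point. -/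
theorem exists_exponent_of_small (hk : (p : k) = 0) {R : TameRoot A p} (G : R.Generator)
    {rb : GQ →* Mat2 k} {c : GQ → Mat2 k} (L : Model A (A.inertiaSubgroupIn ℚ) (dualAct rb c))
    {v : Fin 2 → k} (hv0 : v ≠ 0) (hvsize : L.size (v, 0) < 1)
    (hvH : ∀ h ∈ R.H, (rb h).mulVec v = v) :
    ∃ j, 1 ≤ j ∧ j * (p - 1) ≤ R.ee ∧
      ∀ a : ℕ → ℤ, ∑ i ∈ Finset.range 3, a i • (rb G.τ ^ i).mulVec v = 0 →
        ∑ i ∈ Finset.range 3, (a i : ResidueField A) * (residue A G.u ^ j) ^ i = 0 := by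
  have hx0 : ((v, 0) : (Fin 2 → k) × (Fin 2 → k)) ≠ 0 := fun h => hv0 (congrArg Prod.fst h)
  have hact : ∀ σ, ∀ z : Fin 2 → k, dualAct rb c σ (z, 0) = ((rb σ).mulVec z, 0) :=
    fun σ z => by simp [dualAct]
  obtain ⟨z, ⟨i, hzi⟩, hzv, hrel⟩ := L.exists_tameChar_relation hx0 hvsize
  obtain ⟨j', hj'⟩ := R.exists_zpow (x := (z : Qbar)) (R.mem_fld.2 fun h hh => by
    rw [hzi, ← L.coord_act (R.H_le hh), hact, hvH h hh]) z.ne_zero
  have hj'1 : 1 ≤ j' := by
    by_contra! hlt
    rw [← hzv, hj'] at hvsize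
    exact absurd hvsize (not_lt.2 (one_le_zpow_of_nonpos₀ R.vπ_pos R.vπ_lt_one.le (by omega)))
  obtain ⟨j, rfl⟩ := Int.eq_ofNat_of_zero_le (by omega : 0 ≤ j')
  rw [zpow_natCast] at hj'
  refine ⟨j, by exact_mod_cast hj'1, ?_, fun a ha => ?_⟩
  · have h := L.valuation_natCast_le_size_pow R.prime (nsmul_eq_zero_of_natCast hk _) hx0 hvsize
    rw [← R.vπ_pow_ee, ← hzv, hj', ← pow_mul] at h
    by_contra! hlt
    exact absurd h (not_le.2 (R.pow_lt_pow hlt))
  · rw [← tameChar_eq_pow R G.τ_mem G.τ_π z hj']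
    refine hrel ⟨G.τ, G.τ_mem⟩ G.τ_mem (Finset.range 3) a ?_
    simp only [hact, map_pow]
    refine Prod.ext ?_ ?_
    · simpa [Prod.fst_sum] using ha
    · simp [Prod.snd_sum]

omit [Finite k] in
/-- A power `t ^ j`, `1 ≤ j`, `j (p - 1) ≤ e`, in the prime field is the cyclotomic character. -/
theorem pow_eq_natCast_n {R : TameRoot A p} (G : R.Generator) {j : ℕ} (hj1 : 1 ≤ j)
    (hjle : j * (p - 1) ≤ R.ee) (h : (residue A G.u ^ j) ^ p = residue A G.u ^ j) :
    residue A G.u ^ j = (G.n : ResidueField A) := by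
  have hpos : 0 < p - 1 := by have := R.prime.two_le; omega
  have h1 : (residue A G.u ^ j) ^ (p - 1) = 1 :=
    mul_right_cancel₀ (pow_ne_zero j G.residue_u_ne_zero)
      (by rw [← pow_succ, Nat.sub_add_cancel R.prime.one_lt.le, h, one_mul])
  rw [← pow_mul] at h1
  have h2 : j * (p - 1) = R.ee :=
    le_antisymm hjle (Nat.le_of_dvd (Nat.mul_pos hj1 hpos) (G.u_order _ h1))
  rw [G.natCast_n, Nat.eq_of_mul_eq_mul_right hpos (h2.trans (mul_comm (p - 1) R.E))]

omit [Finite k] in
/-- If the points fixed by `H` form a line, it is stable under decomposition and the generator acts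
on it by an element of the prime field. -/
theorem exists_eigen_of_line [Fact p.Prime] [CharP k p] {R : TameRoot A p} (G : R.Generator)
    {rb : GQ →* Mat2 k} {φ : GalQ} (hφ : A.IsFrobeniusAt φ p) (hφπ : φ (R.π : Qbar) = R.π)
    {v : Fin 2 → k} (hv0 : v ≠ 0) (hvH : ∀ h ∈ R.H, (rb h).mulVec v = v)
    (hline : ∀ z : Fin 2 → k, (∀ h ∈ R.H, (rb h).mulVec z = z) → ∃ l : k, z = l • v) :
    (∀ d ∈ A.decompositionSubgroup ℚ, ∃ l : k, (rb d).mulVec v = l • v) ∧
      ∃ l : ℕ, (rb G.τ).mulVec v = (l : k) • v := by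
  have hD : ∀ d ∈ A.decompositionSubgroup ℚ, ∃ l : k, (rb d).mulVec v = l • v :=
    fun d hd => hline _ fun h hh => by
      rw [Matrix.mulVec_mulVec, ← map_mul, show h * d = d * (d⁻¹ * h * d) by group, map_mul,
        ← Matrix.mulVec_mulVec, hvH _ (R.conj_mem_of_decomposition hd hh)]
  refine ⟨hD, ?_⟩
  obtain ⟨a, ha⟩ := hD _ G.τ_mem_decomposition
  obtain ⟨b, hb⟩ := hD φ hφ.mem_decompositionSubgroup
  have hTpow : ∀ i : ℕ, (rb G.τ ^ i).mulVec v = a ^ i • v := by
    intro i
    induction i with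
    | zero => simp
    | succ i ih =>
      rw [pow_succ, ← Matrix.mulVec_mulVec, ha, Matrix.mulVec_smul, ih, smul_smul, ← pow_succ']
  have hb0 : b ≠ 0 := fun h0 => hv0 (by
    have := congrArg (rb φ⁻¹).mulVec hb
    rwa [Matrix.mulVec_mulVec, rb_inv_mul, Matrix.one_mulVec, h0, zero_smul,
      Matrix.mulVec_zero] at this)
  obtain ⟨h₁, hh₁, hφτ⟩ := G.exists_frobenius_conj hφ hφπ
  have hap : a ^ p = a := by
    have h := congrArg (fun σ : GalQ => (rb (σ * φ)).mulVec v) hφτ
    simp only [inv_mul_cancel_right, map_mul, map_pow, ← Matrix.mulVec_mulVec, ha, hb,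
      Matrix.mulVec_smul, hvH h₁ hh₁, hTpow, smul_smul] at h
    exact mul_left_cancel₀ hb0 (by linear_combination -(smul_left_injective k hv0 h))
  obtain ⟨l, -, hl⟩ := exists_natCast_of_pow_eq_self hap
  exact ⟨l, hl.symm ▸ ha⟩

omit [Finite k] in
/-- When `H` acts trivially, decomposition preserves the eigenspace of the generator for the
cyclotomic character. -/
theorem mulVec_eigen_of_decomposition {R : TameRoot A p} (G : R.Generator) {rb : GQ →* Mat2 k}
    (hdet : CycloDet p rb) (hrbH : ∀ h ∈ R.H, rb h = 1) {z : Fin 2 → k}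
    (hz : (rb G.τ).mulVec z = (G.n : k) • z) {d : GalQ} (hd : d ∈ A.decompositionSubgroup ℚ) :
    (rb G.τ).mulVec ((rb d).mulVec z) = (G.n : k) • (rb d).mulVec z := by
  obtain ⟨m, h, hh, e⟩ := G.gen (d⁻¹ * G.τ * d) (by
    have := LocalInertia.conj_mem_inertiaSubgroupIn (inv_mem hd) G.τ_mem
    rwa [inv_inv] at this)
  have hTd : rb (d⁻¹ * G.τ * d) = rb G.τ ^ m := by
    rw [e, map_mul, hrbH h hh, mul_one, map_pow]
  have hnm : (G.n : k) ^ m = G.n := by
    rw [← det_eq_of_apply_zeta R hdet G.τ_ζ, ← Matrix.det_pow, ← hTd, map_mul, map_mul,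
      Matrix.det_mul, Matrix.det_mul, mul_right_comm, ← Matrix.det_mul, rb_inv_mul,
      Matrix.det_one, one_mul]
  have hTm : (rb G.τ ^ m).mulVec z = (G.n : k) ^ m • z := by
    clear hTd hnm e
    induction m with
    | zero => simp
    | succ m ih =>
      rw [pow_succ, ← Matrix.mulVec_mulVec, hz, Matrix.mulVec_smul, ih, smul_smul, ← pow_succ']
  rw [Matrix.mulVec_mulVec, ← map_mul, show G.τ * d = d * (d⁻¹ * G.τ * d) by group, map_mul, hTd,
    ← Matrix.mulVec_mulVec, hTm, hnm, Matrix.mulVec_smul]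

/-- The reducible case with `H` acting trivially: the generator has eigenvalues `n` and `1`. -/
theorem exists_bound_of_split [CharP k p] {R : TameRoot A p} (G : R.Generator) (hp2 : p ≠ 2)
    (hk : (p : k) = 0) {rb : GQ →* Mat2 k} (hcont : ContRep rb) (hdet : CycloDet p rb)
    (hrbH : ∀ h ∈ R.H, rb h = 1)
    (hch : rb G.τ * rb G.τ + (G.n : k) • (1 : Mat2 k) = ((G.n : k) + 1) • rb G.τ) :
    ∃ L : Submodule k (A.decompositionSubgroup ℚ → Mat2 k),
      FiniteDimensional k L ∧ Module.finrank k L ≤ 4 ∧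
        ∀ c ∈ adCocycles rb, HasFlatModel p (dualAct rb c) → resPlace A c ∈ L := by
  set T := rb G.τ
  have hdetT : T.det = (G.n : k) := det_eq_of_apply_zeta R hdet G.τ_ζ
  have hn1 : (G.n : k) ≠ 1 := G.n_ne_one hp2
  obtain ⟨w, hw⟩ : ∃ u, (T - 1).mulVec u ≠ 0 := by
    by_contra! h
    have hT1 : T - 1 = 0 := Matrix.ext_of_mulVec_single fun i => by rw [h, Matrix.zero_mulVec]
    rw [sub_eq_zero.1 hT1, Matrix.det_one] at hdetT
    exact hn1 hdetT.symm
  set e₁ := (T - 1).mulVec w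
  have heig : T.mulVec e₁ = (G.n : k) • e₁ := by
    rw [Matrix.mulVec_mulVec, ← Matrix.smul_mulVec]
    congr 1
    rw [add_smul, one_smul] at hch
    rw [mul_sub, mul_one, eq_sub_of_add_eq hch, smul_sub]
    abel
  have hscalar : ∀ z : Fin 2 → k, T.mulVec z = (G.n : k) • z → ∃ l : k, z = l • e₁ := by
    intro z hz
    by_contra! hne
    have hall : T = (G.n : k) • (1 : Mat2 k) := eq_of_mulVec_eq_pair hw hne
      (by rw [heig, Matrix.smul_mulVec, Matrix.one_mulVec])
      (by rw [hz, Matrix.smul_mulVec, Matrix.one_mulVec])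
    have hn0 : (G.n : k) ≠ 0 := fun h0 => by
      have h := congrArg Matrix.det (rb_mul_inv rb G.τ)
      rw [Matrix.det_mul, det_eq_of_apply_zeta R hdet G.τ_ζ, h0, zero_mul, Matrix.det_one] at h
      exact zero_ne_one h
    rw [hall, Matrix.det_smul, Matrix.det_one, Fintype.card_fin, mul_one, sq] at hdetT
    exact hn1 (mul_left_cancel₀ hn0 (hdetT.trans (mul_one _).symm))
  exact exists_bound_of_line R hp2 hk hcont hdet G hw
    (fun d hd => hscalar _ (mulVec_eigen_of_decomposition G hdet hrbH heig hd))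
    (fun h hh => by rw [hrbH h hh, Matrix.one_mulVec]) heig

/-- A root of `X ^ 2 - s X + n` outside the prime field: the other root is its `p`-th power and the
polynomial has no root in the prime field. -/
theorem conjugate_root {K : Type*} [Field K] [Fact p.Prime] [CharP K p] {x : K} {n s : ℕ}
    (hrel : x ^ 2 + n = s * x) (hxp : x ^ p ≠ x) :
    x + x ^ p = s ∧ x ^ (p + 1) = n ∧ ∀ r : ZMod p, r ^ 2 ≠ -(n : ZMod p) + (s : ZMod p) * r := by
  have hrelp : (x ^ p) ^ 2 + n = s * x ^ p := by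
    simpa only [map_add, map_mul, map_pow, map_natCast, frobenius_def] using
      congrArg (frobenius K p) hrel
  have hsum : x + x ^ p = s := by
    have h : (x ^ p - x) * ((x ^ p + x) - s) = 0 := by linear_combination hrelp - hrel
    linear_combination (mul_eq_zero.1 h).resolve_left (sub_ne_zero.2 hxp)
  refine ⟨hsum, by rw [pow_succ]; linear_combination -hrel + x * hsum, fun r hr => hxp ?_⟩
  set y := ZMod.castHom (dvd_refl p) K r with hy
  have hyp : y ^ p = y := by rw [hy, ← map_pow, ZMod.pow_card]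
  have h := congrArg (ZMod.castHom (dvd_refl p) K) hr
  rw [map_add, map_neg, map_mul, map_pow, map_natCast, map_natCast, ← hy] at h
  have hfac : (y - x) * (y - x ^ p) = 0 := by
    linear_combination h + x * hsum - hrel - y * hsum
  rcases mul_eq_zero.1 hfac with h0 | h0
  · rw [← sub_eq_zero.1 h0, hyp]
  · rw [sub_eq_zero.1 h0] at hyp
    exact frobenius_inj K p hyp

/-- In the supersingular case the character of level two `t ^ M`, where `e = (p ^ 2 - 1) M`, is a
root of the characteristic polynomial of the generator. -/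
theorem sq_add_eq_levelTwo {R : TameRoot A p} (G : R.Generator) (hp2 : p ≠ 2) {M : ℕ}
    (hee : R.ee = (p ^ 2 - 1) * M) {s j : ℕ} (hj1 : 1 ≤ j) (hjle : j * (p - 1) ≤ R.ee)
    (hrel : (residue A G.u ^ j) ^ 2 + G.n = s * residue A G.u ^ j)
    (hxp : (residue A G.u ^ j) ^ p ≠ residue A G.u ^ j) :
    (residue A G.u ^ M) ^ 2 + G.n = s * residue A G.u ^ M := by
  have := R.prime_fact
  have := residueRing_charP R
  have hp3 : 3 ≤ p := by have := R.prime.two_le; omega
  have hM0 : 0 < M := Nat.pos_of_ne_zero fun h => R.ee_pos.ne' (by rw [hee, h, mul_zero])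
  have hp21 : (p + 1) * (p - 1) = p ^ 2 - 1 := by rw [← Nat.sq_sub_sq, one_pow]
  obtain ⟨hsum, hprod, -⟩ := conjugate_root hrel hxp
  set t := residue A G.u
  have hjdvd : R.ee ∣ j * (p ^ 2 - 1) := G.u_order _ (by
    rw [pow_mul, ← hp21, pow_mul, hprod, G.natCast_n, ← pow_mul, mul_comm]
    exact G.residue_u_pow_ee)
  obtain ⟨i, rfl, hi1, hile⟩ := exists_level_two_exponent hp3 hee hM0 hj1 hjle hjdvd
  rw [pow_mul] at hrel hprod
  set t₂ := t ^ M with ht₂
  have ht₂e : t₂ ^ (p ^ 2 - 1) = 1 := by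
    rw [ht₂, ← pow_mul, mul_comm, ← hee]; exact G.residue_u_pow_ee
  have hEM : R.E = M * (p + 1) := Nat.eq_of_mul_eq_mul_left (by omega : 0 < p - 1) (by
    rw [show (p - 1) * R.E = R.ee from rfl, hee, ← hp21]; ring)
  -- comparing norms to the prime field leaves only the two conjugate characters
  have hi : i = 1 ∨ i = p := by
    have h1 : t₂ ^ (i * (p + 1)) = t₂ ^ (p + 1) := by
      rw [pow_mul, hprod, G.natCast_n, hEM, pow_mul]
    obtain ⟨l, rfl⟩ : ∃ l, i = l + 1 := ⟨i - 1, by omega⟩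
    rw [add_mul, one_mul, pow_add,
      mul_eq_right₀ (pow_ne_zero _ (pow_ne_zero _ G.residue_u_ne_zero))] at h1
    rw [ht₂, ← pow_mul] at h1
    have hdvd := G.u_order _ h1
    rw [hee, mul_comm M, ← hp21, mul_comm l] at hdvd
    obtain ⟨r, hr⟩ := Nat.dvd_of_mul_dvd_mul_left (Nat.succ_pos p)
      (Nat.dvd_of_mul_dvd_mul_right hM0 hdvd)
    rcases r with _ | _ | r
    · left; rw [hr, mul_zero]
    · right; rw [hr]; omega
    · have : 2 * (p - 1) ≤ (p - 1) * (r + 1 + 1) := by
        rw [mul_comm]; exact Nat.mul_le_mul_left _ (by omega)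
      omega
  rcases hi with h | h <;> rw [h] at hrel
  · rwa [pow_one] at hrel
  · have e : (t₂ ^ p) ^ p = t₂ := by
      rw [← pow_mul, ← sq, ← Nat.sub_add_cancel (Nat.one_le_pow 2 p (by omega)), pow_succ, ht₂e,
        one_mul]
    have h := congrArg (frobenius (ResidueField A) p) hrel
    simp only [map_add, map_mul, map_pow, map_natCast, frobenius_def] at h
    rwa [e] at h

/-- The supersingular case: `H` acts trivially and the level two character `t ^ M` is a root of the
characteristic polynomial `X ^ 2 - s X + n` of the generator, irreducible over the prime field. -/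
theorem exists_bound_of_supersingular {R : TameRoot A p} (G : R.Generator) (hp2 : p ≠ 2)
    (hk : (p : k) = 0) {rb : GQ →* Mat2 k} (hcont : ContRep rb) (hdet : CycloDet p rb)
    (hrbH : ∀ h ∈ R.H, rb h = 1) {M s : ℕ} (hee : R.ee = (p ^ 2 - 1) * M)
    (hch : rb G.τ * rb G.τ + (G.n : k) • (1 : Mat2 k) = (s : k) • rb G.τ)
    (hroot : (residue A G.u ^ M) ^ 2 + G.n = s * residue A G.u ^ M)
    (hirr : ∀ r : ZMod p, r ^ 2 ≠ -(G.n : ZMod p) + (s : ZMod p) * r) :
    ∃ L : Submodule k (A.decompositionSubgroup ℚ → Mat2 k),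
      FiniteDimensional k L ∧ Module.finrank k L ≤ 4 ∧
        ∀ c ∈ adCocycles rb, HasFlatModel p (dualAct rb c) → resPlace A c ∈ L := by
  classical
  have := R.prime_fact
  have : CharP k p := (CharP.charP_iff_prime_eq_zero R.prime).2 hk
  have := residueRing_charP R
  have hM0 : 0 < M := Nat.pos_of_ne_zero fun h => R.ee_pos.ne' (by rw [hee, h, mul_zero])
  have hp21 : (p + 1) * (p - 1) = p ^ 2 - 1 := by rw [← Nat.sq_sub_sq, one_pow]
  -- the tame root of level two
  let R₂ : TameRoot A p :=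
    { E := p + 1, π := R.π ^ M, ζ := R.ζ, «over» := R.over, prime := R.prime
      E_pos := Nat.succ_pos _
      not_dvd := fun h => R.not_dvd_ee (by
        rw [hee, ← hp21, mul_comm (p + 1)]; exact dvd_mul_of_dvd_left h M)
      pow_π := by
        rw [Units.val_pow_eq_pow_val, ← pow_mul, show M * ((p - 1) * (p + 1)) = R.ee by
          rw [hee, ← hp21]; ring, R.pow_ee]
      prim := R.prim }
  have hee₂ : R₂.ee = p ^ 2 - 1 := by
    show (p - 1) * (p + 1) = _
    rw [mul_comm, hp21]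
  have hle : ∀ h ∈ R.H, h ∈ R₂.H := fun h hh => R₂.mem_H.2 ⟨R.H_le hh, by
    show h (((R.π ^ M : Qbarˣ)) : Qbar) = _
    rw [Units.val_pow_eq_pow_val, map_pow, (R.mem_H.1 hh).2]⟩
  have hu₂ : (G.u : Qbar) ^ (M * R₂.ee) = 1 := by rw [hee₂, mul_comm, ← hee, G.u_pow]
  have ht₂ord : ∀ i : ℕ, (residue A G.u ^ M) ^ i = 1 → R₂.ee ∣ i := fun i hi => by
    rw [← pow_mul] at hi
    have h := G.u_order _ hi
    rw [hee, mul_comm M] at h
    rw [hee₂]
    exact Nat.dvd_of_mul_dvd_mul_right hM0 h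
  -- the quadratic extension of the prime field, embedded by `t ^ M` and by `rb τ`
  have : Fact (∀ r : ZMod p, r ^ 2 ≠ -(G.n : ZMod p) + (s : ZMod p) * r) := ⟨hirr⟩
  let : Algebra (ZMod p) (ResidueField A) := ZMod.algebra _ p
  let : Algebra (ZMod p) (Mat2 k) := ZMod.algebra _ p
  let K₂ := QuadraticAlgebra (ZMod p) (-(G.n : ZMod p)) (s : ZMod p)
  let ι : K₂ →+* ResidueField A := (QuadraticAlgebra.lift ⟨residue A G.u ^ M, by
    rw [Algebra.smul_def, Algebra.smul_def, map_neg, map_natCast, map_natCast, mul_one]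
    linear_combination hroot⟩).toRingHom
  let κ : K₂ →+* Mat2 k := (QuadraticAlgebra.lift ⟨rb G.τ, by
    rw [Algebra.smul_def, Algebra.smul_def, map_neg, map_natCast, map_natCast, mul_one,
      ← sub_eq_neg_add, ← nsmul_eq_mul, ← Nat.cast_smul_eq_nsmul k, ← nsmul_one G.n,
      ← Nat.cast_smul_eq_nsmul k]
    exact eq_sub_of_add_eq hch⟩).toRingHom
  let e2 := QuadraticAlgebra.equivProd (-(G.n : ZMod p)) (s : ZMod p)
  let fF : Fintype K₂ := Fintype.ofEquiv _ e2.symm
  have hω : (QuadraticAlgebra.omega : K₂) ^ 2 + ((G.n : ℕ) : K₂) =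
      ((s : ℕ) : K₂) * QuadraticAlgebra.omega := by
    ext <;> simp [K₂, sq]
  have hι : ι QuadraticAlgebra.omega = residue A (G.u ^ M) := by
    rw [map_pow]
    simp [ι, K₂, QuadraticAlgebra.lift]
  have hκ : κ QuadraticAlgebra.omega = rb G.τ := by simp [κ, K₂, QuadraticAlgebra.lift]
  have hTe : rb G.τ ^ R₂.ee = 1 := by
    rw [← hκ, ← map_pow, show (QuadraticAlgebra.omega : K₂) ^ R₂.ee = 1 from ι.injective (by
      rw [map_pow, hι, ← map_pow, ← pow_mul, show G.u ^ (M * R₂.ee) = 1 from Subtype.ext hu₂,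
        map_one, map_one]), map_one]
  refine DataB.exists_bound (p := p)
    { R := R₂, E_eq := rfl, ne_two := hp2, char := hk, cont := hcont, det := hdet
      τ := G.τ, τ_mem := G.τ_mem, u := G.u ^ M
      u_pow := by rw [SubmonoidClass.coe_pow, ← pow_mul, hu₂]
      τ_π := by
        show G.τ (((R.π ^ M : Qbarˣ)) : Qbar) = _ * (((R.π ^ M : Qbarˣ)) : Qbar)
        rw [Units.val_pow_eq_pow_val, map_pow, G.τ_π, mul_pow, SubmonoidClass.coe_pow]
      u_order := fun i hi => ht₂ord i (by rwa [map_pow] at hi)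
      gen := fun σ hσ => by
        obtain ⟨m, h, hh, e⟩ := G.gen σ hσ
        exact ⟨m, h, hle h hh, e⟩
      rbH := fun h hh => by
        obtain ⟨hI, hπ⟩ := R₂.mem_H.1 hh
        obtain ⟨m, g, hg, rfl⟩ := G.gen h hI
        change (G.τ ^ m * g) (((R.π ^ M : Qbarˣ)) : Qbar) = (((R.π ^ M : Qbarˣ)) : Qbar) at hπ
        rw [Units.val_pow_eq_pow_val, map_pow, AlgEquiv.mul_apply, (R.mem_H.1 hg).2,
          R.pow_apply_π G.τ_mem G.u_pow G.τ_π, mul_pow, ← pow_mul] at hπ
        have hwm : G.u ^ (m * M) = 1 := Subtype.ext (by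
          rw [SubmonoidClass.coe_pow]
          exact (mul_eq_right₀ (pow_ne_zero _ R.π.ne_zero)).1 hπ)
        obtain ⟨r, rfl⟩ := ht₂ord m (by rw [← pow_mul, mul_comm, ← map_pow, hwm, map_one])
        rw [map_mul, map_pow, hrbH g hg, mul_one, pow_mul, hTe, one_pow]
      F := K₂
      fieldF := inferInstanceAs (Field (QuadraticAlgebra (ZMod p) _ _))
      fintypeF := fF
      cardF := by
        rw [Fintype.card_congr e2, Fintype.card_prod, ZMod.card, sq]
      ι := ι, κ := κ, w₀ := QuadraticAlgebra.omega, ι_w₀ := hι, κ_w₀ := hκ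
      span := fun a => ⟨a.re.val, a.im.val, by
        ext <;> simp [K₂, -ZMod.natCast_val, ZMod.natCast_zmod_val]⟩
      s := s, n := G.n, rel := hω, τ_ζ := G.τ_ζ }

/-- The local bound when some flat class exists. -/
theorem exists_bound_of_flat (hA : A.LiesOverPrime p) (hp : p.Prime) (hp2 : p ≠ 2)
    (hk : (p : k) = 0) {rb : GQ →* Mat2 k} (hcont : ContRep rb) (hdet : CycloDet p rb)
    {c : GQ → Mat2 k} (hflat : HasFlatModel p (dualAct rb c)) :
    ∃ L : Submodule k (A.decompositionSubgroup ℚ → Mat2 k),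
      FiniteDimensional k L ∧ Module.finrank k L ≤ 4 ∧
        ∀ c ∈ adCocycles rb, HasFlatModel p (dualAct rb c) → resPlace A c ∈ L := by
  have : Fact p.Prime := ⟨hp⟩
  have : CharP k p := (CharP.charP_iff_prime_eq_zero hp).2 hk
  have h2 : (2 : k) ≠ 0 := fun h => hp2 ((Nat.prime_dvd_prime_iff_eq hp Nat.prime_two).1
    ((CharP.cast_eq_zero_iff k p 2).1 (by exact_mod_cast h)))
  obtain ⟨R, M, a, hee, hexp⟩ := exists_tameRoot_of_GL (k := k) hA hp hk
  have := residueRing_charP R
  obtain ⟨G⟩ := R.nonempty_generator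
  have hdetτ : (rb G.τ).det = (G.n : k) := det_eq_of_apply_zeta R hdet G.τ_ζ
  obtain ⟨L⟩ := exists_model hA hflat (A.inertiaSubgroupIn ℚ)
  obtain ⟨v, hv0, hvsize, hvH⟩ := exists_small_fixed R hk hcont L
    (fun σ _ => by simpa using hexp (rb.toHomUnits σ)) ⟨G.τ, G.τ_mem, fun h => by
      rw [h, Matrix.det_one] at hdetτ; exact G.n_ne_one hp2 hdetτ.symm⟩
  obtain ⟨j, hj1, hjle, hrel⟩ := exists_exponent_of_small hk G L hv0 hvsize hvH
  obtain ⟨φ, hφ, hφπ, -⟩ := R.exists_frobenius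
  set x := residue A G.u ^ j with hx
  by_cases hline : ∀ z : Fin 2 → k, (∀ h ∈ R.H, (rb h).mulVec z = z) → ∃ l : k, z = l • v
  · -- the fixed line
    obtain ⟨hD, l, hl⟩ := exists_eigen_of_line G hφ hφπ hv0 hvH hline
    have hxl : x = l := by
      have h := hrel (fun i => if i = 0 then -(l : ℤ) else if i = 1 then 1 else 0) (by
        simp only [Finset.sum_range_succ, Finset.sum_range_zero, zero_add, if_true, if_false,
          Nat.one_ne_zero, OfNat.ofNat_ne_zero, OfNat.ofNat_ne_one, pow_zero, pow_one,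
          Matrix.one_mulVec, hl, one_smul, zero_smul, add_zero, neg_smul, Nat.cast_smul_eq_nsmul,
          neg_add_cancel])
      simp [Finset.sum_range_succ] at h
      linear_combination h
    have hxn : x = G.n := pow_eq_natCast_n G hj1 hjle (by
      rw [← hx, hxl]; exact map_natCast (frobenius (ResidueField A) p) l)
    exact exists_bound_of_line R hp2 hk hcont hdet G hv0 hD hvH
      (by rw [hl, (natCast_eq_iff_residue R l G.n).2 (hxl.symm.trans hxn)])
  -- the whole plane is fixed by `H`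
  push Not at hline
  obtain ⟨v', hv'H, hv'⟩ := hline
  have hrbH : ∀ h ∈ R.H, rb h = 1 := fun h hh => eq_of_mulVec_eq_pair hv0 hv'
    ((hvH h hh).trans (Matrix.one_mulVec v).symm) ((hv'H h hh).trans (Matrix.one_mulVec v').symm)
  obtain ⟨s, -, hs⟩ : ∃ s < p, (s : k) = (rb G.τ).trace := by
    obtain ⟨h₁, hh₁, hφτ⟩ := G.exists_frobenius_conj hφ hφπ
    refine exists_natCast_of_pow_eq_self (trace_pow_eq_of_conj h2 (rb := rb) (φ := φ) ?_)
    have h := congrArg (fun σ : GalQ => rb (σ * φ)) hφτ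
    simpa only [inv_mul_cancel_right, map_mul, map_pow, hrbH h₁ hh₁, mul_one] using h
  have hch : rb G.τ * rb G.τ + (G.n : k) • (1 : Mat2 k) = (s : k) • rb G.τ := by
    rw [hs, ← hdetτ, mul_self_add_det_smul]
  have hxrel : x ^ 2 + G.n = s * x := by
    have h := hrel (fun i => if i = 0 then (G.n : ℤ) else if i = 1 then -(s : ℤ) else 1) (by
      have h1 := congrArg (fun X : Mat2 k => X.mulVec v) hch
      simp only [Matrix.add_mulVec, Matrix.smul_mulVec, Matrix.one_mulVec] at h1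
      simp only [Finset.sum_range_succ, Finset.sum_range_zero, zero_add, if_true, if_false,
        Nat.one_ne_zero, OfNat.ofNat_ne_zero, OfNat.ofNat_ne_one, pow_zero, pow_one, one_smul,
        neg_smul, natCast_zsmul, sq, Matrix.one_mulVec]
      rw [← Nat.cast_smul_eq_nsmul k G.n, ← Nat.cast_smul_eq_nsmul k s, ← h1]
      abel)
    simp [Finset.sum_range_succ] at h
    linear_combination h
  by_cases hxp : x ^ p = x
  · -- eigenvalues `n` and `1`
    have hxn : x = G.n := pow_eq_natCast_n G hj1 hjle hxp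
    have hn0 : (G.n : ResidueField A) ≠ 0 := hxn ▸ pow_ne_zero _ G.residue_u_ne_zero
    have hsn : (s : k) = ((G.n + 1 : ℕ) : k) := (natCast_eq_iff_residue R _ _).2
      (mul_right_cancel₀ hn0 (by rw [hxn] at hxrel; push_cast; linear_combination -hxrel))
    push_cast at hsn
    exact exists_bound_of_split G hp2 hk hcont hdet hrbH (hsn ▸ hch)
  -- the supersingular shape
  exact exists_bound_of_supersingular G hp2 hk hcont hdet hrbH hee hch
    (sq_add_eq_levelTwo G hp2 hee hj1 hjle hxrel hxp) (conjugate_root hxrel hxp).2.2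

end Fermat.Agent.FlatBound
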