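import Fermat.Agent.FlatBound.Levels
import Fermat.Agent.LocalInertia.CyclicTame
import Mathlib.Algebra.Module.ZMod
import Mathlib.Algebra.Field.ZMod
import Mathlib.LinearAlgebra.Basis.VectorSpace
import Mathlib.LinearAlgebra.Dual.Lemmas

/-!
# Equivariance of levels and the tame exponent
-/

set_option autoImplicit false

noncomputable section

open Fermat.Agent.GaloisBasics (Qbar GalQ)
open IsLocalRing Finset

namespace Fermat.Agent.FlatBound

variable {A : ValuationSubring Qbar} {p : ℕ}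

private theorem eq_zero_of_forall_dual' [Fact p.Prime] {V : Type} [AddCommGroup V]
    [Module (ZMod p) V] (v : V) (h : ∀ f : V →+ ZMod p, f v = 0) : v = 0 := by
  by_contra hne
  obtain ⟨f, hf⟩ := Module.Projective.exists_dual_ne_zero (ZMod p) hne
  exact hf (h f.toAddMonoidHom)

/-- An element killed by every additive functional of an `𝔽_p`-space is zero. -/
theorem eq_zero_of_forall_dual [Fact p.Prime] {V : Type} [AddCommGroup V]
    (hpV : ∀ v : V, p • v = 0) (v : V) (h : ∀ f : V →+ ZMod p, f v = 0) : v = 0 :=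
  @eq_zero_of_forall_dual' p _ V _ (AddCommGroup.zmodModule hpV) v h

namespace TameRoot

variable (R : TameRoot A p)

/-- The unit `(ζ - 1) / π ^ E`. -/
def zetaUnit : A :=
  ⟨(R.ζ - 1) / (R.π : Qbar) ^ R.E, R.div_pow_mem R.valuation_zeta.le⟩

theorem zetaUnit_residue_ne_zero : residue A R.zetaUnit ≠ 0 := by
  intro h
  rw [residue_eq_zero_iff, ValuationSubring.valuation_lt_one_iff] at h
  change A.valuation ((R.ζ - 1) / (R.π : Qbar) ^ R.E) < 1 at h
  rw [map_div₀, R.valuation_zeta, map_pow] at h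
  exact absurd h (by rw [show A.valuation (R.π : Qbar) = R.vπ from rfl,
    div_self (pow_ne_zero _ R.vπ_pos.ne')]; exact lt_irrefl _)

/-- The unit `(ζ - 1) / π ^ E` has residue of `(p - 1)`-th power `-1`. -/
theorem zetaUnit_pow : residue A R.zetaUnit ^ (p - 1) = -1 := by
  have h := valuation_zeta_sub_one_pow_add_lt R.over R.prime R.prim
  have hπ : ((R.π : Qbar) ^ R.E) ^ (p - 1) = (p : Qbar) := by
    rw [← pow_mul, mul_comm]; exact R.pow_ee
  have hp0 : (p : Qbar) ≠ 0 := Nat.cast_ne_zero.2 R.prime.ne_zero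
  have e : ((R.zetaUnit ^ (p - 1) + 1 : A) : Qbar) =
      ((R.ζ - 1) ^ (p - 1) + (p : Qbar)) / (p : Qbar) := by
    push_cast
    simp only [zetaUnit, div_pow, hπ, add_div, div_self hp0]
  rw [← map_pow, eq_neg_iff_add_eq_zero, ← map_one (residue A), ← map_add, residue_eq_zero_iff,
    ValuationSubring.valuation_lt_one_iff]
  change A.valuation ((R.zetaUnit ^ (p - 1) + 1 : A) : Qbar) < 1
  rw [e, map_div₀]
  exact (div_lt_one₀ (valuation_natCast_prime_pos A R.prime)).2 h

/-- Galois raises `ζ` to a power less than `p`. -/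
theorem exists_apply_zeta (g : GalQ) : ∃ n < p, g R.ζ = R.ζ ^ n := by
  have : NeZero p := ⟨R.prime.ne_zero⟩
  obtain ⟨n, hn, h⟩ := R.prim.eq_pow_of_pow_eq_one
    (show (g R.ζ) ^ p = 1 by rw [← map_pow, R.prim.pow_eq_one, map_one])
  exact ⟨n, hn, h.symm⟩

/-- The exponent of an element of the decomposition group on `ζ`, from its action on `π` and on
residues. -/
theorem natCast_exponent {g : GalQ} (hg : g ∈ A.decompositionSubgroup ℚ) {n : ℕ}
    (hn : g R.ζ = R.ζ ^ n) (ψ : ResidueField A → ResidueField A)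
    (hψ : ∀ (x y : A), g (x : Qbar) = y → residue A y = ψ (residue A x)) {u : A}
    (hu : g (R.π : Qbar) = u * R.π) :
    (n : ResidueField A) * residue A R.zetaUnit =
      ψ (residue A R.zetaUnit) * residue A u ^ R.E := by
  have hc : g (R.zetaUnit : Qbar) ∈ A :=
    (LocalInertia.mem_decompositionSubgroup_iff.1 hg _).2 R.zetaUnit.2
  rw [← hψ R.zetaUnit ⟨_, hc⟩ rfl, ← map_pow (residue A), ← map_mul (residue A),
    ← map_natCast (residue A), ← map_mul (residue A)]
  refine LocalInertia.residue_eq_of_valuation_sub_lt ?_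
  push_cast
  have hπE : (R.π : Qbar) ^ R.E ≠ 0 := pow_ne_zero _ R.π.ne_zero
  have hu0 : (u : Qbar) ≠ 0 := fun h0 => by
    rw [h0, zero_mul, map_eq_zero] at hu; exact R.π.ne_zero hu
  have e : g (R.zetaUnit : Qbar) * (u : Qbar) ^ R.E = (R.ζ ^ n - 1) / (R.π : Qbar) ^ R.E := by
    show g ((R.ζ - 1) / (R.π : Qbar) ^ R.E) * _ = _
    rw [map_div₀, map_sub g, map_pow, map_one, hn, hu, mul_pow]
    field_simp
  rw [e, show (R.zetaUnit : Qbar) = (R.ζ - 1) / (R.π : Qbar) ^ R.E from rfl, ← mul_div_assoc,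
    ← sub_div, map_div₀, A.valuation.map_sub_swap, map_pow]
  rw [show A.valuation (R.π : Qbar) = R.vπ from rfl, ← R.valuation_zeta]
  refine (div_lt_one₀ (by rw [R.valuation_zeta]; exact pow_pos R.vπ_pos _)).2 ?_
  have hlt := valuation_zeta_sub_one_lt_one R.over R.prime R.prim.pow_eq_one
  have hpos : 0 < A.valuation (R.ζ - 1) := by rw [R.valuation_zeta]; exact pow_pos R.vπ_pos _
  refine lt_of_le_of_lt ?_ (mul_lt_of_lt_one_left hpos hlt)
  rw [← sq]
  have h := A.valuation.map_sum_le (s := range n) (f := fun a => (R.ζ ^ a - 1) * (R.ζ - 1))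
    (g := A.valuation (R.ζ - 1) ^ 2) fun a _ => by
      rw [map_mul, sq]
      refine mul_le_mul_left ?_ _
      rw [← geom_sum_mul, map_mul]
      refine mul_le_of_le_one_left' (A.valuation.map_sum_le fun b _ => ?_)
      rw [map_pow, valuation_eq_one_of_pow_eq_one R.prime.pos R.prim.pow_eq_one, one_pow]
  rw [← sum_mul, sum_sub_distrib, sum_const, card_range, nsmul_one, sub_mul, geom_sum_mul] at h
  exact h

/-- For inertia, the exponent on `ζ` is the `E`-th power of the tame character. -/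
theorem natCast_exponent_inertia {g : GalQ} (hg : g ∈ A.inertiaSubgroupIn ℚ) {n : ℕ}
    (hn : g R.ζ = R.ζ ^ n) {u : A} (hu : g (R.π : Qbar) = u * R.π) :
    (n : ResidueField A) = residue A u ^ R.E := by
  have h := R.natCast_exponent (LocalInertia.inertiaSubgroupIn_le_decompositionSubgroup hg) hn id
    (fun x y hxy => LocalInertia.residue_eq_of_valuation_sub_lt (by
      rw [← hxy]; exact (LocalInertia.mem_inertiaSubgroupIn_iff.1 hg).2 _ x.2)) hu
  rw [id_eq, mul_comm (residue A R.zetaUnit)] at h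
  exact mul_right_cancel₀ R.zetaUnit_residue_ne_zero h

/-- An element of inertia acts trivially on residues. -/
theorem residue_apply_inertia {g : GalQ} (hg : g ∈ A.inertiaSubgroupIn ℚ) (x y : A)
    (hxy : g (x : Qbar) = y) : residue A y = id (residue A x) :=
  LocalInertia.residue_eq_of_valuation_sub_lt (by
    rw [← hxy]; exact (LocalInertia.mem_inertiaSubgroupIn_iff.1 hg).2 _ x.2)

/-- A Frobenius element is the `p`-th power on residues. -/
theorem residue_apply_frobenius {g : GalQ} (hg : A.IsFrobeniusAt g p) (x y : A)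
    (hxy : g (x : Qbar) = y) : residue A y = residue A x ^ p := by
  rw [← map_pow]
  exact LocalInertia.residue_eq_of_valuation_sub_lt (by
    rw [← hxy, SubmonoidClass.coe_pow]; exact LocalInertia.isFrobeniusAt_valuation_lt hg x.2)

/-- There is a Frobenius element fixing `π`; it inverts the class of `ζ` modulo `p`. -/
theorem exists_frobenius : ∃ φ : GalQ, A.IsFrobeniusAt φ p ∧ φ (R.π : Qbar) = R.π ∧
    ∃ n : ℕ, φ R.ζ = R.ζ ^ n ∧ (n : ResidueField A) = -1 := by
  obtain ⟨φ₀, hφ₀⟩ := GaloisBasics.exists_isFrobeniusAt R.over R.prime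
  obtain ⟨w, hw, hwπ⟩ := R.exists_apply_π φ₀
  obtain ⟨σ, hσ, hσπ⟩ := LocalInertia.exists_inertia_apply_root R.over R.prime R.not_dvd_ee
    R.pow_ee (show (w⁻¹) ^ R.ee = 1 by rw [inv_pow, hw, inv_one])
  have hfr := GaloisBasics.inertia_mul_IsFrobeniusAt hσ hφ₀
  have hπ : (σ * φ₀) (R.π : Qbar) = R.π := by
    have hw0 : w ≠ 0 := fun h => by rw [h, zero_pow R.ee_pos.ne'] at hw; exact zero_ne_one hw
    rw [AlgEquiv.mul_apply, hwπ, map_mul, R.apply_root hσ hw, hσπ, mul_inv_cancel_left₀ hw0]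
  obtain ⟨n, -, hn⟩ := R.exists_apply_zeta (σ * φ₀)
  refine ⟨_, hfr, hπ, n, hn, ?_⟩
  have h := R.natCast_exponent hfr.mem_decompositionSubgroup hn (· ^ p)
    (residue_apply_frobenius hfr) (u := 1) (by rw [hπ, OneMemClass.coe_one, one_mul])
  simp only [map_one, one_pow, mul_one] at h
  refine mul_right_cancel₀ R.zetaUnit_residue_ne_zero (h.trans ?_)
  calc residue A R.zetaUnit ^ p = residue A R.zetaUnit ^ (p - 1) * residue A R.zetaUnit := by
        rw [← pow_succ, Nat.sub_add_cancel R.prime.one_lt.le]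
    _ = _ := by rw [R.zetaUnit_pow]

/-- The inverse of a Kummer element belongs to the opposite function. -/
theorem Kum.neg {γ : GalQ → ZMod p} {α : Qbar} (h : R.Kum γ α) : R.Kum (-γ) α⁻¹ :=
  ⟨inv_ne_zero h.1, fun σ hσ => by
    have h1 := R.zeta_pow_add (γ σ) (-γ σ)
    rw [add_neg_cancel, ZMod.val_zero, pow_zero] at h1
    rw [map_inv₀, h.2 σ hσ, Pi.neg_apply, mul_inv]
    congr 1
    exact inv_eq_of_mul_eq_one_right h1.symm⟩

/-- If `γ` is the difference of a twist of `γ'` and `γ'`, it has level one. -/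
theorem lev_one_of_twist {γ γ' : GalQ → ZMod p} {α' : Qbar}
    (hα' : R.Kum γ' α') {g : GalQ} (hg : g ∈ A.decompositionSubgroup ℚ) {n : ℕ}
    (hn : g R.ζ = R.ζ ^ n)
    (heq : ∀ σ ∈ R.H, γ σ = (n : ZMod p) * γ' (g⁻¹ * σ * g) - γ' σ) : R.Lev γ 1 := by
  have hK : R.Kum γ (g α' * α'⁻¹) :=
    ((hα'.conj R hg hn).add R (hα'.neg R)).congr R fun σ hσ => by
      rw [heq σ hσ, Pi.add_apply, Pi.neg_apply, sub_eq_add_neg]
  refine (R.lev_one_or_tame hK).resolve_right ?_
  rintro ⟨m, hm, hdvd⟩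
  refine hdvd ?_
  have h1 : A.valuation ((g α' * α'⁻¹) ^ p) = 1 := by
    rw [map_pow, map_mul, LocalInertia.valuation_apply hg, map_inv₀,
      mul_inv_cancel₀ ((map_ne_zero _).2 hα'.1), one_pow]
  rw [h1] at hm
  have : m = 0 := by
    rcases lt_trichotomy m 0 with h | h | h
    · exact absurd hm.symm (one_lt_zpow_of_neg₀ R.vπ_pos R.vπ_lt_one h).ne'
    · exact h
    · exact absurd hm.symm (zpow_lt_one₀ R.vπ_pos R.vπ_lt_one h).ne
  rw [this]
  exact dvd_zero _

section Vector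

variable {V : Type} [AddCommGroup V] (b : GalQ → V)

/-- The Kummer classes of all functionals of `b` have level `i`. -/
def AllLev (i : ℕ) : Prop := ∀ f : V →+ ZMod p, R.Lev (fun σ => f (b σ)) i

/-- `b` is a homomorphism of finite level on `H`. -/
structure IsHom : Prop where
  map_mul : ∀ σ ∈ R.H, ∀ τ ∈ R.H, b (σ * τ) = b σ + b τ
  level : ∃ F : IntermediateField ℚ Qbar, FiniteDimensional ℚ F ∧
    ∀ σ ∈ R.H, σ ∈ F.fixingSubgroup → b σ = 0

variable {b}

/-- A functional of a homomorphism on `H` has a Kummer element. -/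
theorem IsHom.exists_kum (hb : R.IsHom b) (f : V →+ ZMod p) :
    ∃ α, R.Kum (fun σ => f (b σ)) α := by
  obtain ⟨F, hF, hlev⟩ := hb.level
  exact R.exists_kum (fun σ hσ τ hτ => by rw [hb.map_mul σ hσ τ hτ, f.map_add]) F
    fun σ hσ hσF => by rw [hlev σ hσ hσF, f.map_zero]

/-- A homomorphism all of whose functionals are twisted differences has level one. -/
theorem IsHom.allLev_one (hb : R.IsHom b) {g : GalQ} (hg : g ∈ A.decompositionSubgroup ℚ) {n : ℕ}
    (hn : g R.ζ = R.ζ ^ n) (L : V →+ V) (hL : ∀ σ ∈ R.H, b (g⁻¹ * σ * g) = L (b σ))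
    (hsurj : ∀ f : V →+ ZMod p, ∃ f' : V →+ ZMod p, ∀ v, f v = (n : ZMod p) * f' (L v) - f' v) :
    R.AllLev b 1 := by
  intro f
  obtain ⟨f', hf'⟩ := hsurj f
  obtain ⟨α', hα'⟩ := hb.exists_kum R f'
  exact R.lev_one_of_twist hα' hg hn fun σ hσ => by rw [hL σ hσ, ← hf']

/-- The coefficient at level `i`. -/
theorem exists_coefMap {i : ℕ} (hpi : ¬ p ∣ i) (hiE : i < p * R.E) (h : R.AllLev b i) :
    ∃ r : (V →+ ZMod p) →+ ResidueField A, ∀ f, R.HasCoef (fun σ => f (b σ)) i (r f) := by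
  choose r hr using fun f => R.hasCoef_of_lev (h f)
  have hi0 : i ≠ 0 := fun h0 => hpi (h0 ▸ dvd_zero p)
  refine ⟨AddMonoidHom.mk' r fun f f' => R.hasCoef_unique hpi hiE (hr (f + f')) ?_, hr⟩
  have e : (fun σ => (f + f') (b σ)) = (fun σ => f (b σ)) + fun σ => f' (b σ) := rfl
  rw [e]
  exact (hr f).add R hi0 (hr f')

/-- The coefficient transforms under the twist by `g`. -/
theorem coefMap_twist {i : ℕ} (hpi : ¬ p ∣ i) (hiE : i < p * R.E)
    {r : (V →+ ZMod p) →+ ResidueField A} (hr : ∀ f, R.HasCoef (fun σ => f (b σ)) i (r f))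
    {g : GalQ} (hg : g ∈ A.decompositionSubgroup ℚ) {n : ℕ} (hn : g R.ζ = R.ζ ^ n)
    (ψ : ResidueField A → ResidueField A)
    (hψ : ∀ (x y : A), g (x : Qbar) = y → residue A y = ψ (residue A x))
    {u : A} (hu : g (R.π : Qbar) = u * R.π)
    (L : V →+ V) (hL : ∀ σ ∈ R.H, b (g⁻¹ * σ * g) = L (b σ))
    {f f' : V →+ ZMod p} (hf' : ∀ v, f' v = (n : ZMod p) * f (L v)) :
    r f' = residue A u ^ i * ψ (r f) := by
  refine R.hasCoef_unique hpi hiE (hr f') ?_
  obtain ⟨α, hα, hv, hc⟩ := (hr f).conj R hg hn ψ hψ hu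
  exact ⟨α, hα.congr R fun σ hσ => by rw [hL σ hσ, hf'], hv, hc⟩

/-- Vanishing coefficients raise the level by one. -/
theorem allLev_succ_of_coef_zero {i : ℕ} {r : (V →+ ZMod p) →+ ResidueField A}
    (hr : ∀ f, R.HasCoef (fun σ => f (b σ)) i (r f)) (h0 : ∀ f, r f = 0) :
    R.AllLev b (i + 1) := fun f => R.lev_succ_of_coef_zero (by rw [← h0 f]; exact hr f)

/-- The levels divisible by `p` are skipped. -/
theorem allLev_succ_of_dvd {l : ℕ} (hl : l ≠ 0) (hlE : l ≤ R.E) (h : R.AllLev b (p * l)) :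
    R.AllLev b (p * l + 1) := fun f => R.lev_succ_of_dvd hl hlE (h f)

/-- Only zero has the level above `p E`. -/
theorem eq_zero_of_allLev_top (hpV : ∀ v : V, p • v = 0) (h : R.AllLev b (p * R.E + 1)) :
    ∀ σ ∈ R.H, b σ = 0 := fun σ hσ =>
  @eq_zero_of_forall_dual p R.prime_fact V _ hpV (b σ) fun f => R.eq_zero_of_lev_top (h f) σ hσ

end Vector

/-- Elements of `H` act through elements of `p`-power order in any representation of finite level
in which the exponent of inertia is `e` times a power of `p`. -/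
theorem exists_pow_eq_one {G : Type*} [Monoid G] (ρ : GalQ →* G) (F : IntermediateField ℚ Qbar)
    [FiniteDimensional ℚ F] (hF : ∀ σ ∈ F.fixingSubgroup, ρ σ = 1) {a : ℕ}
    (hexp : ∀ σ ∈ A.inertiaSubgroupIn ℚ, ρ σ ^ (R.ee * p ^ a) = 1) {h : GalQ} (hh : h ∈ R.H) :
    ∃ m, ρ h ^ p ^ m = 1 := by
  have := R.prime_fact
  have := GaloisBasics.residueField_charP R.over R.prime
  have : FiniteDimensional ℚ (IntermediateField.adjoin ℚ ({(R.π : Qbar)} : Set Qbar)) :=
    IntermediateField.adjoin.finiteDimensional (Algebra.IsAlgebraic.isAlgebraic _).isIntegral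
  let N := IntermediateField.normalClosure ℚ
    (F ⊔ IntermediateField.adjoin ℚ ({(R.π : Qbar)} : Set Qbar) : IntermediateField ℚ Qbar) Qbar
  have : Normal ℚ N := normalClosure.normal ℚ _ Qbar
  have hFN : F ≤ N := le_sup_left.trans (IntermediateField.le_normalClosure _)
  have hπN : (R.π : Qbar) ∈ N := IntermediateField.le_normalClosure _
    (le_sup_right (a := F) (IntermediateField.mem_adjoin_simple_self ℚ _))
  obtain ⟨Q, hQN, hQ⟩ := LocalInertia.exists_uniformizer R.prime R.over N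
  obtain ⟨σ₀, hσ₀, hgen⟩ := LocalInertia.exists_inertia_generator R.prime R.over N
  set t := LocalInertia.tameChar (K := ℚ) A Q
  set θ := LocalInertia.tameChar (K := ℚ) A R.π
  have hfix : ∀ (x : Qbarˣ), (x : Qbar) ∈ N → ∀ (w : A.inertiaSubgroupIn ℚ) (k : ℕ),
      (∀ y ∈ N, ((w : GalQ) ^ p ^ k) y = y) → LocalInertia.tameChar A x w = 1 := by
    intro x hx w k hw
    have h1 : LocalInertia.tameChar A x (w ^ p ^ k) = 1 := by
      refine (LocalInertia.tameChar_eq_one_iff x _).2 ?_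
      rw [SubmonoidClass.coe_pow, hw _ hx, sub_self, map_zero]
      exact zero_lt_iff.2 ((map_ne_zero _).2 x.ne_zero)
    rw [map_pow] at h1
    have h2 : ((LocalInertia.tameChar A x w : (ResidueField A)ˣ) : ResidueField A) ^ p ^ k = 1 := by
      rw [← Units.val_pow_eq_pow_val, h1, Units.val_one]
    refine Units.ext ?_
    apply iterateFrobenius_inj (ResidueField A) p k
    simp only [iterateFrobenius_def, Units.val_one, one_pow, h2]
  set s : A.inertiaSubgroupIn ℚ := ⟨σ₀, hσ₀⟩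
  have hdecomp : ∀ σ : A.inertiaSubgroupIn ℚ, ∃ j : ℕ, t σ = t s ^ j ∧ θ σ = θ s ^ j := by
    intro σ
    obtain ⟨j, k, hjk⟩ := hgen σ σ.2
    refine ⟨j, ?_, ?_⟩
    · have h1 := hfix Q hQN ((s ^ j)⁻¹ * σ) k (by simpa using hjk)
      rw [map_mul, map_inv, map_pow, inv_mul_eq_one] at h1
      exact h1.symm
    · have h1 := hfix R.π hπN ((s ^ j)⁻¹ * σ) k (by simpa using hjk)
      rw [map_mul, map_inv, map_pow, inv_mul_eq_one] at h1
      exact h1.symm
  -- `θ s` has order at least `e`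
  obtain ⟨τ, hτ, w, hw, hτπ, -⟩ := R.exists_generator
  obtain ⟨hI, hπ⟩ := R.mem_H.1 hh
  obtain ⟨jτ, -, hjτ⟩ := hdecomp ⟨τ, hτ⟩
  obtain ⟨jh, hjt, hjh⟩ := hdecomp ⟨h, hI⟩
  have hθh : θ ⟨h, hI⟩ = 1 := (LocalInertia.tameChar_eq_one_iff R.π _).2 (by
    show A.valuation (h (R.π : Qbar) - R.π) < _
    rw [hπ, sub_self, map_zero]; exact zero_lt_iff.2 ((map_ne_zero _).2 R.π.ne_zero))
  have hord : R.ee ∣ jh := by
    have hwA : w ∈ A := mem_of_pow_eq_one R.ee_pos hw.pow_eq_one
    have hθτ : (θ ⟨τ, hτ⟩ : ResidueField A) = residue A ⟨w, hwA⟩ := by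
      rw [LocalInertia.coe_tameChar]
      refine congrArg _ (Subtype.ext ?_)
      show τ (R.π : Qbar) / R.π = w
      rw [hτπ, mul_div_assoc, div_self R.π.ne_zero, mul_one]
    have h1 : θ ⟨τ, hτ⟩ ^ jh = 1 := by
      rw [hjτ, ← pow_mul, mul_comm, pow_mul, ← hjh, hθh, one_pow]
    refine hw.dvd_of_pow_eq_one _ ?_
    refine GaloisBasics.eq_of_pow_eq_one_of_sub_mem_nonunits R.over R.prime R.not_dvd_ee
      (one_pow _) (by rw [← pow_mul, mul_comm, pow_mul, hw.pow_eq_one, one_pow]) ?_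
    rw [ValuationSubring.mem_nonunits_iff]
    refine LocalInertia.valuation_sub_lt_of_residue_eq (a := (⟨w, hwA⟩ : A) ^ jh) (b := 1) ?_
    rw [map_pow, ← hθτ, ← Units.val_pow_eq_pow_val, h1, Units.val_one, map_one]
  obtain ⟨m, hm⟩ := hord
  set z : A.inertiaSubgroupIn ℚ := (s ^ (jh * p ^ a))⁻¹ * ⟨h, hI⟩ ^ p ^ a
  have hz : t z = 1 := by
    rw [map_mul, map_inv, map_pow, map_pow, hjt, ← pow_mul, inv_mul_cancel]
  have hzN : ∀ y ∈ N, (z : GalQ) y ∈ N := fun y hy => by
    have h := AlgEquiv.restrictNormal_commutes (z : GalQ) N ⟨y, hy⟩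
    exact (show _ = (z : GalQ) y from h) ▸ SetLike.coe_mem _
  obtain ⟨k, hk⟩ := LocalInertia.exists_qpow_fix_of_stable R.prime R.over N (z : GalQ) hzN
    fun y hy hy0 => LocalInertia.valuation_sub_lt_of_tameChar_uniformizer hQ z hz hy hy0
  have hs : ρ (σ₀ ^ (jh * p ^ a)) = 1 := by
    rw [map_pow, hm, show R.ee * m * p ^ a = R.ee * p ^ a * m by ring, pow_mul, hexp σ₀ hσ₀,
      one_pow]
  have hρz : ρ (z : GalQ) = ρ h ^ p ^ a := by
    have e : h ^ p ^ a = σ₀ ^ (jh * p ^ a) * (z : GalQ) := by simp [z, s]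
    rw [← map_pow, e, map_mul, hs, one_mul]
  refine ⟨a + k, ?_⟩
  rw [pow_add, pow_mul, ← hρz, ← map_pow]
  exact hF _ ((IntermediateField.mem_fixingSubgroup_iff F _).2 fun y hy => hk y (hFN hy))

end TameRoot

end Fermat.Agent.FlatBound
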