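import Fermat.Agent.FlatBound.Model
import Fermat.Agent.LocalInertia.Tame
import Mathlib.Data.Nat.Choose.Dvd

/-!
# The size of torsion points and the action of inertia on the graded pieces
-/

set_option autoImplicit false

noncomputable section

open Fermat.Agent.FlatModels (Gal)
open Fermat.Agent.GaloisBasics (Qbar)
open Finset IsLocalRing

namespace Fermat.Agent.FlatBound

variable {A : ValuationSubring Qbar} {M : Type} [AddCommGroup M] {Δ : Subgroup Gal}
  {act : Gal → M → M}

namespace Model

variable (L : Model A Δ act)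

/-- A model has at least one coordinate. -/
theorem nonempty_index : Nonempty L.ι := L.e.index_nonempty

/-- The largest absolute value of a coordinate. -/
def size (x : M) : A.ValueGroup :=
  (Finset.univ : Finset L.ι).sup' (univ_nonempty_iff.2 L.nonempty_index)
    fun i => A.valuation (L.coord i x)

theorem small_iff {r : A.ValueGroup} {x : M} : L.Small r x ↔ L.size x ≤ r := by
  simp [Small, size]

theorem small_size (x : M) : L.Small (L.size x) x := L.small_iff.2 le_rfl

/-- A coordinate is bounded by the size. -/
theorem valuation_coord_le (i : L.ι) (x : M) : A.valuation (L.coord i x) ≤ L.size x :=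
  L.small_size x i

/-- The size is attained by a coordinate. -/
theorem exists_eq_size (x : M) : ∃ i, A.valuation (L.coord i x) = L.size x := by
  obtain ⟨i, -, hi⟩ := exists_mem_eq_sup' (univ_nonempty_iff.2 L.nonempty_index)
    (fun i => A.valuation (L.coord i x))
  exact ⟨i, hi.symm⟩

theorem size_le_one (x : M) : L.size x ≤ 1 := L.small_iff.1 (L.small_one x)

theorem size_eq_zero_iff {x : M} : L.size x = 0 ↔ x = 0 := by
  rw [← le_zero_iff, ← L.small_iff, L.small_zero_iff]

/-- Points other than the origin have positive size. -/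
theorem size_pos {x : M} (hx : x ≠ 0) : 0 < L.size x :=
  zero_lt_iff.2 fun h => hx (L.size_eq_zero_iff.1 h)

/-- The origin has size zero. -/
theorem size_zero : L.size (0 : M) = 0 := L.size_eq_zero_iff.2 rfl

/-- The ultrametric inequality for the size. -/
theorem size_add_le (x y : M) : L.size (x + y) ≤ max (L.size x) (L.size y) :=
  L.small_iff.1 (Small.add L (Small.mono L (L.small_size x) (le_max_left _ _))
    (Small.mono L (L.small_size y) (le_max_right _ _)) (max_le (L.size_le_one x) (L.size_le_one y)))

/-- The size is even. -/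
theorem size_neg (x : M) : L.size (-x) = L.size x := by
  have h : ∀ z, L.size (-z) ≤ L.size z := fun z => L.small_iff.1 (Small.neg L (L.small_size z))
  refine le_antisymm (h x) ?_
  simpa using h (-x)

/-- The size of a difference is read off the differences of the coordinates. -/
theorem size_sub_le_iff {r : A.ValueGroup} {x y : M} :
    L.size (x - y) ≤ r ↔ ∀ i, A.valuation (L.coord i x - L.coord i y) ≤ r := by
  rw [← L.small_iff, L.small_sub_iff]

/-- Points with close coordinates have a small difference. -/
theorem size_sub_lt {r : A.ValueGroup} {x y : M}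
    (h : ∀ i, A.valuation (L.coord i x - L.coord i y) < r) : L.size (x - y) < r := by
  have hne := univ_nonempty_iff.2 L.nonempty_index
  refine lt_of_le_of_lt ((L.size_sub_le_iff
    (r := univ.sup' hne fun i => A.valuation (L.coord i x - L.coord i y))).2 fun i =>
    le_sup' (fun i => A.valuation (L.coord i x - L.coord i y)) (mem_univ i)) ?_
  exact (sup'_lt_iff hne).2 fun i _ => h i

/-- Decomposition preserves the size. -/
theorem size_act {σ : Gal} (hσ : σ ∈ Δ) (hσD : σ ∈ A.decompositionSubgroup ℚ) (x : M) :
    L.size (act σ x) = L.size x := by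
  simp only [size, L.coord_act hσ, LocalInertia.valuation_apply hσD]

/-- Inertia moves every point by a point reducing to the origin. -/
theorem size_act_sub_lt_one {σ : Gal} (hσ : σ ∈ Δ) (hσI : σ ∈ A.inertiaSubgroupIn ℚ) (x : M) :
    L.size (act σ x - x) < 1 :=
  L.size_sub_lt fun i => by
    rw [L.coord_act hσ]
    exact (LocalInertia.mem_inertiaSubgroupIn_iff.1 hσI).2 _ (L.coord_mem i x)

/-- The group law is additive to first order, for finite integral combinations. -/
theorem valuation_coord_sum_sub_le {J : Type*} (s : Finset J) (a : J → ℤ) (x : J → M)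
    {r : A.ValueGroup} (hr : r ≤ 1) (hx : ∀ j ∈ s, L.Small r (x j)) (i : L.ι) :
    A.valuation (L.coord i (∑ j ∈ s, a j • x j) - ∑ j ∈ s, (a j : Qbar) * L.coord i (x j))
      ≤ r * r := by
  classical
  have hnat : ∀ (n : ℕ) (z : M), L.Small r z →
      A.valuation (L.coord i (n • z) - (n : Qbar) * L.coord i z) ≤ r * r := by
    intro n z hz
    induction n with
    | zero => simp
    | succ n ih =>
      have h := L.valuation_coord_add_sub_le (Small.nsmul L hz hr n) hz i
      rw [← succ_nsmul] at h
      have e : L.coord i ((n + 1) • z) - ((n + 1 : ℕ) : Qbar) * L.coord i z =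
          (L.coord i ((n + 1) • z) - (L.coord i (n • z) + L.coord i z)) +
            (L.coord i (n • z) - (n : Qbar) * L.coord i z) := by push_cast; ring
      rw [e]
      exact A.valuation.map_add_le h ih
  have hint : ∀ (n : ℤ) (z : M), L.Small r z →
      A.valuation (L.coord i (n • z) - (n : Qbar) * L.coord i z) ≤ r * r := by
    intro n z hz
    obtain ⟨m, rfl | rfl⟩ := n.eq_nat_or_neg
    · simpa using hnat m z hz
    · have hm := Small.nsmul L hz hr m
      have h := L.valuation_coord_add_sub_le hm (Small.neg L hm) i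
      rw [add_neg_cancel, coord_zero, zero_sub, Valuation.map_neg] at h
      rw [neg_smul, natCast_zsmul, Int.cast_neg, Int.cast_natCast]
      have e : L.coord i (-(m • z)) - -(m : Qbar) * L.coord i z =
          (L.coord i (m • z) + L.coord i (-(m • z))) -
            (L.coord i (m • z) - (m : Qbar) * L.coord i z) := by ring
      rw [e]
      exact A.valuation.map_sub_le h (hnat m z hz)
  induction s using Finset.induction_on with
  | empty => simp
  | insert j s hj ih =>
    rw [sum_insert hj, sum_insert hj]
    have hxs : ∀ k ∈ s, L.Small r (x k) := fun k hk => hx k (mem_insert_of_mem hk)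
    have hsum : L.Small r (∑ k ∈ s, a k • x k) :=
      sum_induction _ (L.Small r) (fun u v hu hv => Small.add L hu hv hr) (L.small_zero r)
        fun k hk => Small.zsmul L (hxs k hk) hr _
    have hxj := hx j (mem_insert_self j s)
    have h := L.valuation_coord_add_sub_le (Small.zsmul L hxj hr (a j)) hsum i
    have e : L.coord i (a j • x j + ∑ k ∈ s, a k • x k) -
        ((a j : Qbar) * L.coord i (x j) + ∑ k ∈ s, (a k : Qbar) * L.coord i (x k)) =
        (L.coord i (a j • x j + ∑ k ∈ s, a k • x k) -
          (L.coord i (a j • x j) + L.coord i (∑ k ∈ s, a k • x k))) +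
        ((L.coord i (a j • x j) - (a j : Qbar) * L.coord i (x j)) +
          (L.coord i (∑ k ∈ s, a k • x k) - ∑ k ∈ s, (a k : Qbar) * L.coord i (x k))) := by ring
    rw [e]
    exact A.valuation.map_add_le h (A.valuation.map_add_le (hint _ _ hxj) (ih hxs))

/-- A point killed by `p` reducing to the origin has size at least `|p| ^ (1/(p-1))`. -/
theorem valuation_natCast_le_size_pow {p : ℕ} (hp : p.Prime) {x : M} (hpx : p • x = 0)
    (hx : x ≠ 0) (hx1 : L.size x < 1) : A.valuation (p : Qbar) ≤ L.size x ^ (p - 1) := by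
  set r := L.size x with hr
  have hr0 : 0 < r := L.size_pos hx
  obtain ⟨i, hi⟩ := L.exists_eq_size x
  by_contra! hlt
  have hp1 : A.valuation (p : Qbar) ≤ 1 := LocalInertia.valuation_natCast_le_one A p
  have hpp : p = p - 1 + 1 := (Nat.sub_add_cancel hp.one_lt.le).symm
  have hbound : ∀ k ∈ Finset.range (p + 1), k ≠ 1 →
      A.valuation (p.choose k • ((fwdDiff x)^[k]) (L.coord i) 0) <
        A.valuation (p : Qbar) * r := by
    intro k hk hk1
    rw [nsmul_eq_mul, map_mul]
    have hd := L.exists_iterate_fwdDiff_le (L.small_size x) i k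
    rcases eq_or_ne k 0 with rfl | hk0
    · simp only [Function.iterate_zero, id_eq, coord_zero, map_zero, mul_zero]
      exact mul_pos (zero_lt_iff.2 ((map_ne_zero _).2 (Nat.cast_ne_zero.2 hp.ne_zero))) hr0
    rcases eq_or_ne k p with rfl | hkp
    · rw [Nat.choose_self, Nat.cast_one, map_one, one_mul]
      refine hd.trans_lt ?_
      rw [← hr]
      calc r ^ k = r ^ (k - 1) * r := by conv_lhs => rw [hpp, pow_succ]
        _ < A.valuation (k : Qbar) * r := mul_lt_mul_of_pos_right hlt hr0
    · obtain ⟨c, hc⟩ := (Nat.Prime.dvd_choose_self hp hk0 (lt_of_le_of_ne (by simpa using hk) hkp))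
      rw [hc, Nat.cast_mul, map_mul, mul_assoc]
      refine mul_lt_mul_of_pos_left ?_
        (zero_lt_iff.2 ((map_ne_zero _).2 (Nat.cast_ne_zero.2 hp.ne_zero)))
      refine lt_of_le_of_lt ((mul_le_of_le_one_left' (LocalInertia.valuation_natCast_le_one A c)).trans hd) ?_
      rw [← hr]
      exact pow_lt_self_of_lt_one₀ hr0 hx1 (by omega)
  have h := shift_eq_sum_fwdDiff_iter x (L.coord i) p 0
  rw [zero_add, hpx, coord_zero] at h
  have h1 : (1 : ℕ) ∈ Finset.range (p + 1) := by simp [hp.pos]
  rw [← Finset.add_sum_erase _ _ h1] at h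
  have hmain : A.valuation (p.choose 1 • ((fwdDiff x)^[1]) (L.coord i) 0) =
      A.valuation (p : Qbar) * r := by
    simp [fwdDiff, hi, nsmul_eq_mul, hr]
  have hrest : A.valuation (∑ k ∈ (Finset.range (p + 1)).erase 1,
      p.choose k • ((fwdDiff x)^[k]) (L.coord i) 0) < A.valuation (p : Qbar) * r :=
    A.valuation.map_sum_lt (ne_of_gt (mul_pos
      (zero_lt_iff.2 ((map_ne_zero _).2 (Nat.cast_ne_zero.2 hp.ne_zero))) hr0))
      fun k hk => hbound k (mem_of_mem_erase hk) (ne_of_mem_erase hk)
  have h2 := A.valuation.map_add_eq_of_lt_left (hrest.trans_le hmain.ge)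
  rw [← h, map_zero, hmain] at h2
  exact (mul_pos (zero_lt_iff.2 ((map_ne_zero _).2 (Nat.cast_ne_zero.2 hp.ne_zero))) hr0).ne h2

/-- Tame inertia acts on a point reducing to the origin through the tame character of a coordinate
of largest size: every integral relation between the translates gives a relation between the powers
of the tame character. -/
theorem exists_tameChar_relation {x : M} (hx : x ≠ 0) (hx1 : L.size x < 1) :
    ∃ z : Qbarˣ, (∃ i, (z : Qbar) = L.coord i x) ∧ A.valuation (z : Qbar) = L.size x ∧
      ∀ (τ : A.inertiaSubgroupIn ℚ), (τ : Gal) ∈ Δ → ∀ (s : Finset ℕ) (a : ℕ → ℤ),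
        ∑ n ∈ s, a n • act ((τ : Gal) ^ n) x = 0 →
          ∑ n ∈ s, (a n : ResidueField A) * (LocalInertia.tameChar A z τ : ResidueField A) ^ n
            = 0 := by
  obtain ⟨i, hi⟩ := L.exists_eq_size x
  have hr0 := L.size_pos hx
  have hz0 : L.coord i x ≠ 0 := fun h => by simp [h] at hi; exact hr0.ne hi
  refine ⟨Units.mk0 _ hz0, ⟨i, rfl⟩, hi, fun τ hτ s a hrel => ?_⟩
  set z := Units.mk0 _ hz0
  have hτn : ∀ n : ℕ, (τ : Gal) ^ n ∈ Δ ∧ (τ : Gal) ^ n ∈ A.decompositionSubgroup ℚ := fun n =>
    ⟨pow_mem hτ n, LocalInertia.inertiaSubgroupIn_le_decompositionSubgroup (pow_mem τ.2 n)⟩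
  have h := L.valuation_coord_sum_sub_le s a (fun n => act ((τ : Gal) ^ n) x) (L.size_le_one x)
    (fun n _ => L.small_iff.2 (L.size_act (hτn n).1 (hτn n).2 x).le) i
  rw [hrel, coord_zero, zero_sub, Valuation.map_neg] at h
  simp only [fun n => L.coord_act (hτn n).1 i x] at h
  let w : ℕ → A := fun n =>
    ⟨((τ : Gal) ^ n) (z : Qbar) / z, LocalInertia.apply_div_mem (hτn n).2 _⟩
  have hw : ∀ n, (LocalInertia.tameChar A z τ : ResidueField A) ^ n = residue A (w n) := fun n => by
    rw [← Units.val_pow_eq_pow_val, ← map_pow, LocalInertia.coe_tameChar]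
    congr 1
  have hsum : ∑ n ∈ s, (a n : ResidueField A) *
      (LocalInertia.tameChar A z τ : ResidueField A) ^ n =
        residue A (∑ n ∈ s, (a n : A) * w n) := by
    simp [hw, map_sum]
  rw [hsum, residue_eq_zero_iff, ValuationSubring.valuation_lt_one_iff]
  have hv : ((∑ n ∈ s, (a n : A) * w n : A) : Qbar) =
      (∑ n ∈ s, (a n : Qbar) * ((τ : Gal) ^ n) (z : Qbar)) / z := by
    simp [w, Finset.sum_div, mul_div_assoc]
  rw [hv, map_div₀]
  refine (div_lt_one₀ (by rw [show A.valuation (z : Qbar) = L.size x from hi]; exact hr0)).2 ?_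
  refine lt_of_le_of_lt h ?_
  rw [show A.valuation (z : Qbar) = L.size x from hi]
  exact mul_lt_of_lt_one_left hr0 hx1

end Model

end Fermat.Agent.FlatBound
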