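import Fermat.Agent.FlatBound.Levels
import Fermat.Agent.FlatBound.SmallPoints
import Mathlib.RingTheory.Polynomial.Basic

/-!
# The norm inequality for torsors and the bound in a Kummer extension
-/

set_option autoImplicit false

noncomputable section

open Fermat.Agent.GaloisBasics (Qbar GalQ)
open IsLocalRing Finset

namespace Fermat.Agent.FlatBound

variable {A : ValuationSubring Qbar} {p : ℕ} (R : TameRoot A p)

/-- The bound on the motion of the integers of a Kummer extension of prime degree. -/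
theorem TameRoot.valuation_apply_sub_lt {σ : GalQ} (hσ : σ ∈ R.H) {y : Qbar} {i : ℤ}
    (hyv : A.valuation y ^ p = R.vπ ^ i) (hi : ¬ (p : ℤ) ∣ i) {D : ℤ}
    (hmove : A.valuation (σ y - y) ^ p ≤ R.vπ ^ D * A.valuation y ^ p) {b : ℕ → Qbar}
    (hb : ∀ l, b l ∈ R.fld) {m : Qbar} (hm : m = ∑ l ∈ range p, b l * y ^ l)
    (hm1 : A.valuation m ≤ 1) : A.valuation (σ m - m) ^ p < R.vπ ^ D := by
  have hp0 := R.prime.ne_zero
  have hD : 0 < R.vπ ^ D := zpow_pos R.vπ_pos _
  set t := A.valuation y with ht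
  have ht0 : 0 < t := zero_lt_iff.2 fun h => by
    rw [h, zero_pow hp0] at hyv
    exact (zpow_pos R.vπ_pos i).ne hyv
  -- the terms have pairwise distinct absolute values
  set S := (range p).filter fun l => b l ≠ 0 with hS
  have hexp : ∀ l ∈ S, ∃ k : ℤ, A.valuation (b l * y ^ l) ^ p = R.vπ ^ ((p : ℤ) * k + l * i) := by
    intro l hl
    obtain ⟨k, hk⟩ := R.exists_zpow (hb l) (mem_filter.1 hl).2
    refine ⟨k, ?_⟩
    rw [map_mul, map_pow, mul_pow, hk, ← ht, pow_right_comm, hyv, ← zpow_natCast, ← zpow_natCast,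
      ← zpow_mul, ← zpow_mul, ← zpow_add₀ R.vπ_pos.ne', mul_comm k, mul_comm i]
  have hinj : ∀ {a c : ℤ}, R.vπ ^ a = R.vπ ^ c → a = c := fun {a c} h =>
    le_antisymm (not_lt.1 fun hlt => (zpow_lt_zpow_right_of_lt_one₀ R.vπ_pos R.vπ_lt_one hlt).ne h)
      (not_lt.1 fun hlt => (zpow_lt_zpow_right_of_lt_one₀ R.vπ_pos R.vπ_lt_one hlt).ne' h)
  have hne : ∀ l ∈ S, ∀ l' ∈ S, l ≠ l' →
      A.valuation (b l * y ^ l) ≠ A.valuation (b l' * y ^ l') := by
    intro l hl l' hl' hll' heq
    obtain ⟨k, hk⟩ := hexp l hl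
    obtain ⟨k', hk'⟩ := hexp l' hl'
    rw [heq, hk'] at hk
    have h := hinj hk
    have hdvd : (p : ℤ) ∣ ((l : ℤ) - l') * i := ⟨k' - k, by linear_combination -h⟩
    rcases (Nat.prime_iff_prime_int.1 R.prime).dvd_or_dvd hdvd with h1 | h1
    · have hl2 := mem_range.1 (mem_filter.1 hl).1
      have hl3 := mem_range.1 (mem_filter.1 hl').1
      have := Int.eq_zero_of_abs_lt_dvd h1 (by rw [abs_lt]; omega)
      omega
    · exact hi h1
  have hmS : m = ∑ l ∈ S, b l * y ^ l := by
    rw [hm, hS, sum_filter]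
    exact sum_congr rfl fun l _ => by by_cases h : b l = 0 <;> simp [h]
  have hterm : ∀ l ∈ S, A.valuation (b l * y ^ l) ≤ 1 := by
    intro l hl
    obtain ⟨l₀, hl₀, hmax⟩ := exists_max_image S (fun l => A.valuation (b l * y ^ l)) ⟨l, hl⟩
    refine (hmax l hl).trans ?_
    have h := A.valuation.map_sum_eq_of_lt (s := S) (f := fun l => b l * y ^ l) hl₀ fun k hk => by
      simp only [mem_sdiff, mem_singleton] at hk
      exact lt_of_le_of_ne (hmax k hk.1) (hne k hk.1 l₀ hl₀ hk.2)
    rw [← hmS] at h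
    rw [← h]
    exact hm1
  have hσb : ∀ l, σ (b l) = b l := fun l => R.mem_fld.1 (hb l) σ hσ
  have hbound : ∀ l ∈ S, A.valuation (σ (b l * y ^ l) - b l * y ^ l) ^ p < R.vπ ^ D := by
    intro l hl
    rcases eq_or_ne l 0 with rfl | hl0
    · simp [hσb, zero_pow hp0, hD]
    have hstrict : A.valuation (b l * y ^ l) < 1 := by
      refine lt_of_le_of_ne (hterm l hl) fun h1 => ?_
      obtain ⟨k, hk⟩ := hexp l hl
      rw [h1, one_pow, ← zpow_zero R.vπ] at hk
      have h := hinj hk
      have hdvd : (p : ℤ) ∣ (l : ℤ) * i := ⟨-k, by linear_combination -h⟩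
      rcases (Nat.prime_iff_prime_int.1 R.prime).dvd_or_dvd hdvd with h2 | h2
      · have hl2 := mem_range.1 (mem_filter.1 hl).1
        have h3 := Int.le_of_dvd (by omega) h2
        omega
      · exact hi h2
    obtain ⟨n, rfl⟩ := Nat.exists_eq_succ_of_ne_zero hl0
    have hσy : A.valuation (σ y) = t := LocalInertia.valuation_apply (R.H_le_decomposition hσ) y
    have hsum : A.valuation (∑ a ∈ range (n + 1), (σ y) ^ a * y ^ (n + 1 - 1 - a)) ≤ t ^ n := by
      refine A.valuation.map_sum_le fun a ha => ?_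
      rw [map_mul, map_pow, map_pow, hσy, ← ht, ← pow_add,
        show a + (n + 1 - 1 - a) = n by have := mem_range.1 ha; omega]
    rw [map_mul, map_pow, hσb, ← mul_sub, ← geom_sum₂_mul, map_mul, map_mul, mul_pow, mul_pow]
    calc A.valuation (b (n + 1)) ^ p *
          (A.valuation (∑ a ∈ range (n + 1), (σ y) ^ a * y ^ (n + 1 - 1 - a)) ^ p *
            A.valuation (σ y - y) ^ p)
        ≤ A.valuation (b (n + 1)) ^ p * ((t ^ n) ^ p * (R.vπ ^ D * t ^ p)) :=
          mul_le_mul_right (mul_le_mul' (pow_le_pow_left' hsum p) hmove) _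
      _ = A.valuation (b (n + 1) * y ^ (n + 1)) ^ p * R.vπ ^ D := by
          rw [map_mul, map_pow, mul_pow, ← ht, pow_succ t n, mul_pow]; ac_rfl
      _ < R.vπ ^ D := mul_lt_of_lt_one_left hD (pow_lt_one₀ zero_le hstrict hp0)
  have hsplit : σ m - m = ∑ l ∈ S, (σ (b l * y ^ l) - b l * y ^ l) := by
    rw [hmS, map_sum, sum_sub_distrib]
  rcases S.eq_empty_or_nonempty with hS0 | hSne
  · rw [hsplit, hS0, sum_empty, map_zero, zero_pow hp0]; exact hD
  · obtain ⟨l₀, hl₀, hmax⟩ := exists_max_image S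
      (fun l => A.valuation (σ (b l * y ^ l) - b l * y ^ l)) hSne
    rw [hsplit]
    exact lt_of_le_of_lt (pow_le_pow_left' (A.valuation.map_sum_le hmax) p) (hbound l₀ hl₀)

/-- Galois descent in a Kummer extension. -/
theorem TameRoot.exists_expansion {γ : GalQ → ZMod p}
    (hγ : ∀ σ ∈ R.H, ∀ τ ∈ R.H, γ (σ * τ) = γ σ + γ τ) {g : GalQ} (hg : g ∈ R.H) (hg1 : γ g = 1)
    {α : Qbar} (hα : R.Kum γ α) {m : Qbar} (hm : ∀ h ∈ R.H, γ h = 0 → h m = m) :
    ∃ b : ℕ → Qbar, (∀ l, b l ∈ R.fld) ∧ m = ∑ l ∈ range p, b l * α ^ l := by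
  have := R.prime_fact
  have hp0 : (p : Qbar) ≠ 0 := Nat.cast_ne_zero.2 R.prime.ne_zero
  have hpow : ∀ j : ℕ, g ^ j ∈ R.H ∧ γ (g ^ j) = j := by
    intro j
    induction j with
    | zero =>
      have h := hγ 1 (one_mem _) 1 (one_mem _)
      rw [mul_one] at h
      exact ⟨by simp, by simpa using (right_eq_add.1 h)⟩
    | succ j ih =>
      exact ⟨pow_mem hg _, by rw [pow_succ, hγ _ ih.1 _ hg, ih.2, hg1]; push_cast; ring⟩
  let F : ZMod p → Qbar := fun j => (g ^ j.val) m
  have hF : ∀ h ∈ R.H, h m = F (γ h) := by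
    intro h hh
    obtain ⟨hmem, hval⟩ := hpow (γ h).val
    have h0 : γ ((g ^ (γ h).val)⁻¹ * h) = 0 := by
      have h1 := hγ _ hmem _ (mul_mem (inv_mem hmem) hh)
      rw [mul_inv_cancel_left, hval, ZMod.natCast_zmod_val] at h1
      exact left_eq_add.1 h1
    have h2 := hm _ (mul_mem (inv_mem hmem) hh) h0
    rw [AlgEquiv.mul_apply] at h2
    have h3 := congrArg (g ^ (γ h).val) h2
    rwa [← AlgEquiv.mul_apply, mul_inv_cancel, AlgEquiv.one_apply] at h3
  let r : ℕ → Qbar := fun l => ∑ j : ZMod p, (R.ζ ^ (l * j.val))⁻¹ * F j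
  refine ⟨fun l => r l / ((p : Qbar) * α ^ l), fun l => R.mem_fld.2 fun h hh => ?_, ?_⟩
  · have hζ0 : ∀ n : ℕ, R.ζ ^ n ≠ 0 := fun n => pow_ne_zero _ (R.prim.ne_zero R.prime.ne_zero)
    have hshift : ∀ j : ZMod p, h (F j) = F (j + γ h) := by
      intro j
      show h ((g ^ j.val) m) = _
      rw [← AlgEquiv.mul_apply, hF _ (mul_mem hh (hpow _).1), hγ h hh _ (hpow _).1, (hpow _).2,
        ZMod.natCast_zmod_val, add_comm]
    have hr : h (r l) = R.ζ ^ (l * (γ h).val) * r l := by
      simp only [r, map_sum, mul_sum]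
      refine Fintype.sum_equiv (Equiv.addRight (γ h)) _ _ fun j => ?_
      have hζj : R.ζ ^ (l * (j + γ h).val) = R.ζ ^ (l * j.val) * R.ζ ^ (l * (γ h).val) := by
        rw [mul_comm l, pow_mul, R.zeta_pow_add, mul_pow, ← pow_mul, ← pow_mul, mul_comm l,
          mul_comm l]
      rw [map_mul, map_inv₀, map_pow, R.apply_zeta hh, hshift, Equiv.coe_addRight, hζj, mul_inv,
        ← mul_assoc, mul_comm (R.ζ ^ (l * (γ h).val)), mul_assoc _⁻¹, inv_mul_cancel₀ (hζ0 _),
        mul_one]
    rw [map_div₀, map_mul, map_natCast, map_pow, hr, hα.2 h hh, mul_pow, ← pow_mul,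
      mul_comm (γ h).val, mul_left_comm (p : Qbar), mul_div_mul_left _ _ (hζ0 _)]
  · have hα0 : ∀ l, α ^ l ≠ 0 := fun l => pow_ne_zero _ hα.1
    have e : ∀ l, r l / ((p : Qbar) * α ^ l) * α ^ l = r l / p := fun l => by
      have := hα0 l
      field_simp
    simp only [e, ← sum_div]
    rw [eq_div_iff hp0, show ∑ l ∈ range p, r l =
      ∑ j : ZMod p, (∑ l ∈ range p, ((R.ζ ^ j.val)⁻¹) ^ l) * F j by
        simp only [r, sum_mul]
        rw [sum_comm]
        refine sum_congr rfl fun j _ => sum_congr rfl fun l _ => ?_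
        rw [inv_pow, ← pow_mul, mul_comm l]]
    rw [sum_eq_single (0 : ZMod p) (fun j _ hj => ?_) (by simp)]
    · simp [F, mul_comm]
    · rw [geom_sum_eq (fun h => hj (R.zeta_pow_val_eq_one (inv_eq_one.1 h))), inv_pow, pow_right_comm,
        R.prim.pow_eq_one, one_pow, inv_one, sub_self, zero_div, zero_mul]

/-- The bound for a Kummer extension by a unit of exact level `i`. -/
theorem TameRoot.valuation_apply_sub_lt_of_level {γ : GalQ → ZMod p}
    (hγ : ∀ σ ∈ R.H, ∀ τ ∈ R.H, γ (σ * τ) = γ σ + γ τ) {g : GalQ} (hg : g ∈ R.H) (hg1 : γ g = 1)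
    {α : Qbar} (hα : R.Kum γ α) {i : ℕ} (hi : ¬ p ∣ i) (hiE : i < p * R.E)
    (hlev : A.valuation (α ^ p - 1) = R.vπ ^ i)
    {σ : GalQ} (hσ : σ ∈ R.H) {m : Qbar} (hm : ∀ h ∈ R.H, γ h = 0 → h m = m)
    (hm1 : A.valuation m ≤ 1) :
    A.valuation (σ m - m) ^ p < R.vπ ^ (p * R.E - i) := by
  have := R.prime_fact
  have := GaloisBasics.residueField_charP R.over R.prime
  obtain ⟨b, hb, hexp⟩ := R.exists_expansion hγ hg hg1 hα hm
  set y := α - 1 with hy
  have hi0 : i ≠ 0 := fun h => hi (h ▸ dvd_zero p)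
  have hlt1 : A.valuation (α ^ p - 1) < 1 := by
    rw [hlev]; exact pow_lt_one₀ zero_le R.vπ_lt_one hi0
  have hα1 : A.valuation α = 1 := by
    have h := A.valuation.map_add_eq_of_lt_left (x := (1 : Qbar)) (y := α ^ p - 1)
      (by rwa [map_one])
    rw [add_sub_cancel, map_one, map_pow] at h
    exact (pow_eq_one_iff.1 h).resolve_right R.prime.ne_zero
  have hαA : α ∈ A := (A.valuation_le_one_iff _).1 hα1.le
  have hy1 : A.valuation y < 1 := by
    refine LocalInertia.valuation_sub_lt_of_residue_eq (a := ⟨α, hαA⟩) (b := 1) ?_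
    rw [map_one]
    apply frobenius_inj (ResidueField A) p
    simp only [frobenius_def, one_pow]
    rw [← map_pow, ← map_one (residue A)]
    exact LocalInertia.residue_eq_of_valuation_sub_lt (by simpa using hlt1)
  -- the absolute value of `y`
  have hrest : A.valuation (α ^ p - 1 - y ^ p) ≤ A.valuation (p : Qbar) * A.valuation y := by
    have h := R.valuation_pow_sub_one_sub_le hy1.le
    rw [show (1 : Qbar) + y = α by rw [hy]; ring] at h
    rw [show α ^ p - 1 - y ^ p = (α ^ p - 1 - (y ^ p + (p : Qbar) * y)) + (p : Qbar) * y by ring]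
    refine A.valuation.map_add_le (h.trans ?_) (map_mul _ _ _).le
    exact mul_le_mul_right (by rw [sq]; exact mul_le_of_le_one_left' hy1.le) _
  have hyv : A.valuation y ^ p = R.vπ ^ i := by
    rcases le_or_gt (A.valuation y) (R.vπ ^ R.E) with hsmall | hbig
    · exfalso
      have h1 : A.valuation (α ^ p - 1) ≤ R.vπ ^ (p * R.E) := by
        rw [← sub_add_cancel (α ^ p - 1) (y ^ p)]
        refine A.valuation.map_add_le (hrest.trans ?_) ?_
        · rw [← R.ee_add_E, pow_add, R.vπ_pow_ee]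
          exact mul_le_mul_right hsmall _
        · rw [map_pow, mul_comm, pow_mul]
          exact pow_le_pow_left' hsmall p
      rw [hlev] at h1
      exact absurd h1 (not_le.2 (R.pow_lt_pow hiE))
    · rw [← map_pow, ← hlev]
      have hy0 : 0 < A.valuation y := lt_of_le_of_lt zero_le hbig
      have hdom : A.valuation (p : Qbar) * A.valuation y < A.valuation (y ^ p) := by
        rw [map_pow]
        nth_rw 2 [← Nat.sub_add_cancel R.prime.one_lt.le]
        rw [pow_succ]
        refine mul_lt_mul_of_pos_right ?_ hy0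
        rw [← R.vπ_pow_ee, TameRoot.ee, mul_comm, pow_mul]
        exact pow_lt_pow_left₀ hbig zero_le (by have := R.prime.two_le; omega)
      have h := A.valuation.map_add_eq_of_lt_left (x := y ^ p) (y := α ^ p - 1 - y ^ p)
        (hrest.trans_lt hdom)
      rwa [add_sub_cancel, eq_comm] at h
  let b' : ℕ → Qbar := fun l => ∑ n ∈ range p, b n * (n.choose l : Qbar)
  have hb' : ∀ l, b' l ∈ R.fld := fun l =>
    sum_mem fun n _ => mul_mem (hb n) (natCast_mem R.fld _)
  have hexp' : m = ∑ l ∈ range p, b' l * y ^ l := by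
    rw [hexp]
    simp only [b', sum_mul]
    rw [sum_comm (γ := ℕ) (f := fun l n => b n * (n.choose l : Qbar) * y ^ l)]
    refine sum_congr rfl fun n hn => ?_
    rw [show α = y + 1 by rw [hy]; ring, add_pow, mul_sum]
    have hsub : range (n + 1) ⊆ range p := fun l hl =>
      mem_range.2 ((Nat.lt_succ_iff.1 (mem_range.1 hl)).trans_lt (mem_range.1 hn))
    rw [sum_subset hsub fun l _ hl => by
      rw [Nat.choose_eq_zero_of_lt (by simpa using hl), Nat.cast_zero, mul_zero, mul_zero]]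
    exact sum_congr rfl fun l _ => by rw [one_pow]; ring
  have hmain := R.valuation_apply_sub_lt hσ (y := y) (i := (i : ℤ)) (D := (p * R.E - i : ℕ))
    (by rw [zpow_natCast]; exact hyv) (by exact_mod_cast hi) ?_ hb' hexp' hm1
  · rw [zpow_natCast] at hmain; exact hmain
  · have hσy : A.valuation (σ y - y) ≤ R.vπ ^ R.E := by
      rw [hy, map_sub σ, map_one, hα.2 σ hσ,
        show R.ζ ^ (γ σ).val * α - 1 - (α - 1) = (R.ζ ^ (γ σ).val - 1) * α by ring,
        map_mul, hα1, mul_one, ← R.valuation_zeta]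
      rw [← geom_sum_mul, map_mul]
      refine mul_le_of_le_one_left' (A.valuation.map_sum_le fun a _ => ?_)
      rw [map_pow, valuation_eq_one_of_pow_eq_one R.prime.pos R.prim.pow_eq_one, one_pow]
    rw [zpow_natCast, hyv, ← pow_add, Nat.sub_add_cancel hiE.le, mul_comm p, pow_mul]
    exact pow_le_pow_left' hσy p

/-- The bound for a Kummer extension by an element of absolute value prime to `p`. -/
theorem TameRoot.valuation_apply_sub_lt_of_tame {γ : GalQ → ZMod p}
    (hγ : ∀ σ ∈ R.H, ∀ τ ∈ R.H, γ (σ * τ) = γ σ + γ τ) {g : GalQ} (hg : g ∈ R.H) (hg1 : γ g = 1)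
    {α : Qbar} (hα : R.Kum γ α) {i : ℤ} (hi : ¬ (p : ℤ) ∣ i)
    (hlev : A.valuation (α ^ p) = R.vπ ^ i)
    {σ : GalQ} (hσ : σ ∈ R.H) {m : Qbar} (hm : ∀ h ∈ R.H, γ h = 0 → h m = m)
    (hm1 : A.valuation m ≤ 1) :
    A.valuation (σ m - m) < R.vπ ^ R.E := by
  obtain ⟨b, hb, hexp⟩ := R.exists_expansion hγ hg hg1 hα hm
  have hmain := R.valuation_apply_sub_lt hσ (y := α) (i := i) (D := ((p * R.E : ℕ) : ℤ))
    (by rw [← map_pow]; exact hlev) hi ?_ hb hexp hm1
  · rw [zpow_natCast, mul_comm, pow_mul] at hmain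
    exact lt_of_pow_lt_pow_left₀ p zero_le hmain
  · rw [zpow_natCast, hα.2 σ hσ, ← sub_one_mul, map_mul, mul_pow]
    refine mul_le_mul_left ?_ _
    rw [mul_comm p, pow_mul]
    refine pow_le_pow_left' ?_ p
    rw [← R.valuation_zeta, ← geom_sum_mul, map_mul]
    refine mul_le_of_le_one_left' (A.valuation.map_sum_le fun a _ => ?_)
    rw [map_pow, valuation_eq_one_of_pow_eq_one R.prime.pos R.prim.pow_eq_one, one_pow]

variable {M : Type} [AddCommGroup M] {Δ : Subgroup GalQ} {act : GalQ → M → M}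

/-- A generic combination of the coordinates with coefficients fixed by inertia separates finitely
many points as well as all the coordinates do. -/
theorem Model.exists_generic (L : Model A Δ act) (hA : A.LiesOverPrime p) (hp : p.Prime) (x : M)
    (U : Finset M) :
    ∃ w : L.ι → A, (∀ i, ∀ σ ∈ A.inertiaSubgroupIn ℚ, σ (w i : Qbar) = w i) ∧
      ∀ u ∈ U, L.size u ≤ A.valuation (∑ i, (w i : Qbar) * (L.e i (x + u) - L.e i x)) := by
  classical
  have := GaloisBasics.residueField_isAlgClosed A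
  set idx : L.ι → ℕ := fun i => (Fintype.equivFin L.ι i : ℕ)
  have hidx : Function.Injective idx := fun a b h =>
    (Fintype.equivFin L.ι).injective (Fin.ext h)
  set U' := U.filter fun u => u ≠ 0
  have hnorm : ∀ u ∈ U', ∃ (s : Qbar) (r : L.ι → A), A.valuation s = L.size u ∧
      (∀ i, L.e i (x + u) - L.e i x = s * r i) ∧ ∃ i, residue A (r i) ≠ 0 := by
    intro u hu
    have hu0 : u ≠ 0 := (mem_filter.1 hu).2
    set d := fun i => L.e i (x + u) - L.e i x with hd
    have hdi : ∀ i, d i = L.coord i (x + u) - L.coord i x := fun i => by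
      simp [hd, Model.coord]
    have hle : ∀ i, A.valuation (d i) ≤ L.size u := fun i => by
      rw [hdi]
      have h := (L.size_sub_le_iff (x := x + u) (y := x) (r := L.size u)).1 (by simp) i
      exact h
    obtain ⟨i₀, hi₀⟩ : ∃ i, A.valuation (d i) = L.size u := by
      by_contra! h
      have : L.size (x + u - x) < L.size u := L.size_sub_lt fun i => by
        rw [← hdi]; exact lt_of_le_of_ne (hle i) (h i)
      simp at this
    have hd0 : d i₀ ≠ 0 := fun h => (L.size_pos hu0).ne' (by rw [← hi₀, h, map_zero])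
    have hrA : ∀ i, d i / d i₀ ∈ A := fun i => by
      rw [← A.valuation_le_one_iff, map_div₀, hi₀]
      exact (div_le_one₀ (L.size_pos hu0)).2 (hle i)
    refine ⟨d i₀, fun i => ⟨_, hrA i⟩, hi₀, fun i => (mul_div_cancel₀ _ hd0).symm, i₀, ?_⟩
    show residue A (⟨_, hrA i₀⟩ : A) ≠ 0
    rw [show (⟨_, hrA i₀⟩ : A) = 1 from Subtype.ext (div_self hd0), map_one]
    exact one_ne_zero
  choose! s r hs hr hr0 using hnorm
  let P : Polynomial (ResidueField A) :=
    ∏ u ∈ U', ∑ i, Polynomial.monomial (idx i) (residue A (r u i))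
  have hP : P ≠ 0 := prod_ne_zero_iff.2 fun u hu h => by
    obtain ⟨i, hi⟩ := hr0 u hu
    refine hi ?_
    have h1 := congrArg (fun Q => Polynomial.coeff Q (idx i)) h
    simpa [Polynomial.finsetSum_coeff, Polynomial.coeff_monomial, hidx.eq_iff] using h1
  obtain ⟨t, ht⟩ := Infinite.exists_notMem_finset P.roots.toFinset
  rw [Multiset.mem_toFinset, Polynomial.mem_roots hP, Polynomial.IsRoot, Polynomial.eval_prod,
    prod_eq_zero_iff] at ht
  obtain ⟨T, hT, hTfix⟩ := exists_fixed_lift hA hp t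
  refine ⟨fun i => T ^ idx i, fun i σ hσ => by
    rw [SubmonoidClass.coe_pow, map_pow, hTfix σ hσ], fun u hu => ?_⟩
  rcases eq_or_ne u 0 with rfl | hu0
  · rw [L.size_zero]; exact zero_le
  have hu' : u ∈ U' := mem_filter.2 ⟨hu, hu0⟩
  have e : ∑ i, ((T ^ idx i : A) : Qbar) * (L.e i (x + u) - L.e i x) =
      s u * ((∑ i, T ^ idx i * r u i : A) : Qbar) := by
    rw [AddSubmonoidClass.coe_finsetSum, mul_sum]
    exact sum_congr rfl fun i _ => by rw [hr u hu' i]; simp; ring
  rw [e, map_mul, hs u hu']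
  have hone : A.valuation ((∑ i, T ^ idx i * r u i : A) : Qbar) = 1 := by
    refine le_antisymm ((A.valuation_le_one_iff _).2 (SetLike.coe_mem _)) (not_lt.1 fun h => ht ?_)
    refine ⟨u, hu', ?_⟩
    have h0 := (residue_eq_zero_iff _).2 (ValuationSubring.valuation_lt_one_iff _ _ |>.2 h)
    rw [map_sum] at h0
    rw [Polynomial.eval_finsetSum]
    simp only [Polynomial.eval_monomial]
    rw [← h0]
    exact sum_congr rfl fun i _ => by rw [map_mul, map_pow, hT]; ring
  rw [hone, mul_one]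

/-- The norm inequality: if the translates of `x` under `H` run through a group of points of size
at least `|π|`, then some integer of the field cut out by a functional of the translation moves by
at least `|π| ^ K`, where `K` is the number of translations killed by the functional. -/
theorem Model.exists_norm_bound (R : TameRoot A p) (L : Model A Δ act) (hHΔ : R.H ≤ Δ) {x : M}
    (U : Finset M) (hU0 : (0 : M) ∈ U) (hUadd : ∀ u ∈ U, ∀ v ∈ U, u + v ∈ U)
    (hCU : ∀ σ ∈ R.H, act σ x - x ∈ U) (hUfix : ∀ σ ∈ R.H, ∀ u ∈ U, act σ u = u)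
    (hUsize : ∀ u ∈ U, u ≠ 0 → R.vπ ≤ L.size u) (f : M →+ ZMod p) {σ : GalQ} (hσ : σ ∈ R.H)
    (hσf : f (act σ x - x) ≠ 0) :
    ∃ m : Qbar, (∀ h ∈ R.H, f (act h x - x) = 0 → h m = m) ∧ A.valuation m ≤ 1 ∧
      R.vπ ^ (U.filter fun u => f u = 0).card ≤ A.valuation (σ m - m) := by
  classical
  obtain ⟨w, hwfix, hw⟩ := L.exists_generic R.over R.prime x U
  set U0 := U.filter fun u => f u = 0 with hU0def
  let Z : M → Qbar := fun y => ∑ i, (w i : Qbar) * L.e i y
  have hZint : ∀ y, Z y ∈ A := fun y => sum_mem fun i _ => mul_mem (w i).2 (L.integral i y)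
  have hZeq : ∀ h ∈ R.H, ∀ u ∈ U, h (Z (x + u)) = Z (x + ((act h x - x) + u)) := by
    intro h hh u hu
    simp only [Z, map_sum, map_mul]
    refine sum_congr rfl fun i _ => ?_
    rw [hwfix i h (R.H_le hh), ← L.equivariant i h (hHΔ hh), L.act_add h (hHΔ hh),
      hUfix h hh u hu]
    congr 2
    abel
  let P : Polynomial A := ∏ u ∈ U0, (Polynomial.X - Polynomial.C (⟨Z (x + u), hZint _⟩ : A))
  let g : Polynomial Qbar := P.map A.subtype
  have hg : g = ∏ u ∈ U0, (Polynomial.X - Polynomial.C (Z (x + u))) := by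
    simp only [g, P, Polynomial.map_prod, Polynomial.map_sub, Polynomial.map_X, Polynomial.map_C]
    exact prod_congr rfl fun u _ => rfl
  have hmap : ∀ h ∈ R.H, g.map (h : Qbar →+* Qbar) =
      ∏ u ∈ U0, (Polynomial.X - Polynomial.C (Z (x + ((act h x - x) + u)))) := by
    intro h hh
    rw [hg, Polynomial.map_prod]
    refine prod_congr rfl fun u hu => ?_
    rw [Polynomial.map_sub, Polynomial.map_X, Polynomial.map_C]
    congr 2
    exact hZeq h hh u (mem_filter.1 hu).1
  have hfixed : ∀ h ∈ R.H, f (act h x - x) = 0 → g.map (h : Qbar →+* Qbar) = g := by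
    intro h hh hf
    rw [hmap h hh, hg]
    have hmem : ∀ u ∈ U0, (act h x - x) + u ∈ U0 := fun u hu =>
      mem_filter.2 ⟨hUadd _ (hCU h hh) _ (mem_filter.1 hu).1,
        by rw [map_add, hf, (mem_filter.1 hu).2, add_zero]⟩
    refine prod_bij (fun u _ => (act h x - x) + u) hmem (fun a _ b _ e => add_left_cancel e)
      (fun b hb => ?_) fun u _ => rfl
    have hinj : Set.InjOn (fun u => (act h x - x) + u) (U0 : Set M) :=
      fun a _ b _ e => add_left_cancel e
    have himg : U0.image (fun u => (act h x - x) + u) = U0 :=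
      eq_of_subset_of_card_le (image_subset_iff.2 hmem) (card_image_of_injOn hinj).ge
    rw [← himg] at hb
    obtain ⟨a, ha, hab⟩ := mem_image.1 hb
    exact ⟨a, ha, hab⟩
  have hroot : g.eval (Z x) = 0 := by
    rw [hg, Polynomial.eval_prod]
    exact prod_eq_zero (mem_filter.2 ⟨hU0, map_zero f⟩) (by simp)
  have hbig : R.vπ ^ U0.card ≤ A.valuation ((g.map (σ : Qbar →+* Qbar)).eval (Z x)) := by
    rw [hmap σ hσ, Polynomial.eval_prod, map_prod, ← prod_const]
    refine prod_le_prod' fun u hu => ?_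
    obtain ⟨huU, huf⟩ := mem_filter.1 hu
    rw [Polynomial.eval_sub, Polynomial.eval_X, Polynomial.eval_C, A.valuation.map_sub_swap]
    set v := (act σ x - x) + u with hv
    have hvU : v ∈ U := hUadd _ (hCU σ hσ) _ huU
    have hv0 : v ≠ 0 := fun h0 => hσf (by
      have h1 := congrArg f h0
      rwa [hv, map_add, huf, add_zero, map_zero] at h1)
    refine (hUsize v hvU hv0).trans ((hw v hvU).trans (le_of_eq ?_))
    simp only [Z, ← sum_sub_distrib, mul_sub]
  set N := g.natDegree + (g.map (σ : Qbar →+* Qbar)).natDegree + 1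
  have hdiff : (g.map (σ : Qbar →+* Qbar)).eval (Z x) =
      ∑ n ∈ range N, (σ (g.coeff n) - g.coeff n) * Z x ^ n := by
    conv_lhs => rw [← sub_zero ((g.map (σ : Qbar →+* Qbar)).eval (Z x)), ← hroot]
    rw [Polynomial.eval_eq_sum_range' (show (g.map (σ : Qbar →+* Qbar)).natDegree < N by omega),
      Polynomial.eval_eq_sum_range' (show g.natDegree < N by omega), ← sum_sub_distrib]
    exact sum_congr rfl fun n _ => by rw [Polynomial.coeff_map, sub_mul]; rfl
  obtain ⟨n, -, hn⟩ : ∃ n ∈ range N, R.vπ ^ U0.card ≤ A.valuation (σ (g.coeff n) - g.coeff n) := by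
    by_contra! h
    refine absurd hbig (not_le.2 ?_)
    rw [hdiff]
    refine A.valuation.map_sum_lt (pow_pos R.vπ_pos _).ne' fun n hn => ?_
    rw [map_mul, map_pow]
    exact lt_of_le_of_lt (mul_le_of_le_one_right'
      (pow_le_one₀ zero_le ((A.valuation_le_one_iff _).2 (hZint x)))) (h n hn)
  refine ⟨g.coeff n, fun h hh hf => ?_, ?_, hn⟩
  · have h1 := congrArg (fun q : Polynomial Qbar => q.coeff n) (hfixed h hh hf)
    simp only [Polynomial.coeff_map] at h1
    exact h1
  · rw [A.valuation_le_one_iff]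
    simp only [g, Polynomial.coeff_map]
    exact (P.coeff n).2

end Fermat.Agent.FlatBound
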