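import Fermat.Agent.FlatBound.Model
import Mathlib.LinearAlgebra.FiniteDimensional.Lemmas
import Mathlib.GroupTheory.QuotientGroup.Basic

/-!
# Quotient models

The functions invariant under a stable subgroup have an integral echelon basis whose entries are
fixed by Galois; this gives a model of the quotient group scheme.
-/

set_option autoImplicit false

noncomputable section

open Fermat.Agent.FlatModels (Gal)
open Fermat.Agent.GaloisBasics (Qbar)
open Finset

namespace Fermat.Agent.FlatBound

variable {A : ValuationSubring Qbar}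

/-- Subspaces of coordinate space have integral echelon bases. -/
theorem exists_integral_echelon {ι : Type} [Fintype ι] [DecidableEq ι]
    (S : Submodule Qbar (ι → Qbar)) :
    ∃ (J : Finset ι) (s : ι → ι → Qbar), (∀ j ∈ J, s j ∈ S) ∧ (∀ j ∈ J, ∀ i, s j i ∈ A) ∧
      (∀ j ∈ J, ∀ i ∈ J, s j i = if i = j then 1 else 0) ∧
      ∀ x ∈ S, x = ∑ j ∈ J, x j • s j := by
  induction hn : Module.finrank Qbar S using Nat.strong_induction_on generalizing S with
  | _ n ih =>
    rcases eq_or_ne S ⊥ with rfl | hS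
    · exact ⟨∅, fun _ _ => 0, by simp, by simp, by simp, fun x hx => by simpa using hx⟩
    obtain ⟨v, hvS, hv⟩ := S.exists_mem_ne_zero_of_ne_bot hS
    obtain ⟨i₁, hi₁⟩ := Function.ne_iff.1 hv
    obtain ⟨i₀, -, hi₀⟩ := exists_max_image univ (fun i => A.valuation (v i)) ⟨i₁, mem_univ _⟩
    have hv0 : v i₀ ≠ 0 := fun h => by
      have h1 := hi₀ i₁ (mem_univ _)
      simp only [h, map_zero, le_zero_iff, map_eq_zero] at h1
      exact hi₁ (by simpa using h1)
    set w := (v i₀)⁻¹ • v with hw
    have hwS : w ∈ S := S.smul_mem _ hvS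
    have hw0 : w i₀ = 1 := by simp [hw, hv0]
    have hwA : ∀ i, w i ∈ A := fun i => by
      rw [← A.valuation_le_one_iff, hw, Pi.smul_apply, smul_eq_mul, map_mul, map_inv₀, mul_comm,
        ← div_eq_mul_inv]
      exact (div_le_one₀ (zero_lt_iff.2 ((map_ne_zero _).2 hv0))).2 (hi₀ i (mem_univ i))
    set S' := S ⊓ LinearMap.ker (LinearMap.proj i₀ : (ι → Qbar) →ₗ[Qbar] Qbar) with hS'
    have hlt : S' < S := lt_of_le_of_ne inf_le_left fun h => by
      have : w ∈ S' := by rw [h]; exact hwS
      have h0 : w i₀ = 0 := this.2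
      rw [hw0] at h0
      exact one_ne_zero h0
    obtain ⟨J', s', hs'S, hs'A, hs'd, hs'sp⟩ :=
      ih _ (hn ▸ Submodule.finrank_lt_finrank_of_lt hlt) S' rfl
    have hi₀J : i₀ ∉ J' := fun h => by
      have h1 := hs'd i₀ h i₀ h
      rw [if_pos rfl, show s' i₀ i₀ = 0 from (hs'S i₀ h).2] at h1
      exact zero_ne_one h1
    have hne0 : ∀ j ∈ J', j ≠ i₀ := fun j hj h => hi₀J (by rwa [← h])
    set u := w - ∑ j ∈ J', w j • s' j with hu
    have hs'0 : ∀ j ∈ J', s' j i₀ = 0 := fun j hj => (hs'S j hj).2
    have hu0 : u i₀ = 1 := by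
      rw [hu, Pi.sub_apply, Finset.sum_apply, hw0, sub_eq_self]
      exact sum_eq_zero fun j hj => by simp [hs'0 j hj]
    have huJ : ∀ i ∈ J', u i = 0 := fun i hi => by
      rw [hu, Pi.sub_apply, Finset.sum_apply, sub_eq_zero]
      symm
      rw [sum_eq_single_of_mem i hi fun j hj hji => by
        simp [hs'd j hj i hi, Ne.symm hji]]
      simp [hs'd i hi i hi]
    have huS : u ∈ S := S.sub_mem hwS (sum_mem fun j hj => S.smul_mem _ (hs'S j hj).1)
    refine ⟨insert i₀ J', Function.update s' i₀ u, ?_, ?_, ?_, ?_⟩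
    · intro j hj
      rcases mem_insert.1 hj with rfl | hj'
      · rw [Function.update_self]; exact huS
      · rw [Function.update_of_ne (hne0 j hj')]; exact (hs'S j hj').1
    · intro j hj i
      rcases mem_insert.1 hj with rfl | hj'
      · rw [Function.update_self, hu, Pi.sub_apply, Finset.sum_apply]
        exact sub_mem (hwA i) (sum_mem fun k hk => mul_mem (hwA k) (hs'A k hk i))
      · rw [Function.update_of_ne (hne0 j hj')]; exact hs'A j hj' i
    · intro j hj i hi
      rcases mem_insert.1 hj with rfl | hj'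
      · rw [Function.update_self]
        rcases mem_insert.1 hi with rfl | hi'
        · rw [if_pos rfl, hu0]
        · rw [if_neg (hne0 i hi'), huJ i hi']
      · have hne : j ≠ i₀ := hne0 j hj'
        rw [Function.update_of_ne hne]
        rcases mem_insert.1 hi with rfl | hi'
        · rw [if_neg (Ne.symm hne)]; exact (hs'S j hj').2
        · exact hs'd j hj' i hi'
    · intro x hx
      rw [sum_insert hi₀J, Function.update_self]
      set y := x - x i₀ • u with hy
      have hyS : y ∈ S' := by
        refine ⟨S.sub_mem hx (S.smul_mem _ huS), ?_⟩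
        show y i₀ = 0
        simp [hy, hu0]
      have hyj : ∀ j ∈ J', y j = x j := fun j hj => by simp [hy, huJ j hj]
      have h := hs'sp y hyS
      rw [sum_congr rfl (fun j hj => by rw [hyj j hj] : ∀ j ∈ J', y j • s' j = x j • s' j)] at h
      rw [sum_congr rfl (fun j hj => by
        rw [Function.update_of_ne (hne0 j hj)] :
          ∀ j ∈ J', x j • Function.update s' i₀ u j = x j • s' j), ← h, hy]
      abel

variable {M : Type} [AddCommGroup M] {Δ : Subgroup Gal} {act : Gal → M → M}

namespace Model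

variable (L : Model A Δ act)

/-- The coefficient vectors of the functions invariant under translation by `N`. -/
def invariantCoeffs (N : AddSubgroup M) : Submodule Qbar (L.ι → Qbar) where
  carrier := {a | ∀ x, ∀ n ∈ N, ∑ i, a i * L.e i (x + n) = ∑ i, a i * L.e i x}
  add_mem' := fun {a b} ha hb x n hn => by
    simp only [Pi.add_apply, add_mul, sum_add_distrib, ha x n hn, hb x n hn]
  zero_mem' := fun x n _ => by simp
  smul_mem' := fun r a ha x n hn => by
    simp only [Pi.smul_apply, smul_eq_mul, mul_assoc, ← mul_sum, ha x n hn]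

/-- An echelon basis of the invariant coefficient vectors is fixed by Galois. -/
theorem apply_echelon_eq [DecidableEq L.ι] {N : AddSubgroup M} (hN : ∀ σ ∈ Δ, ∀ x ∈ N, act σ x ∈ N)
    {J : Finset L.ι} {s : L.ι → L.ι → Qbar} (hsS : ∀ j ∈ J, s j ∈ L.invariantCoeffs N)
    (hsd : ∀ j ∈ J, ∀ i ∈ J, s j i = if i = j then 1 else 0)
    (hsp : ∀ x ∈ L.invariantCoeffs N, x = ∑ j ∈ J, x j • s j) {σ : Gal} (hσ : σ ∈ Δ) {j : L.ι}
    (hj : j ∈ J) (i : L.ι) : σ (s j i) = s j i := by
  have hS : (fun i => σ (s j i)) ∈ L.invariantCoeffs N := by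
    intro x n hn
    have hx : x = act σ (act σ⁻¹ x) := by
      rw [← L.act_mul hσ (inv_mem hσ), mul_inv_cancel, L.act_one]
    have hn' : act σ⁻¹ n ∈ N := hN _ (inv_mem hσ) n hn
    have hxn : x + n = act σ (act σ⁻¹ x + act σ⁻¹ n) := by
      rw [L.act_add σ hσ, ← L.act_mul hσ (inv_mem hσ), ← L.act_mul hσ (inv_mem hσ),
        mul_inv_cancel, L.act_one, L.act_one]
    conv_lhs => rw [hxn]
    conv_rhs => rw [hx]
    simp only [L.equivariant _ σ hσ, ← map_mul, ← map_sum]
    rw [hsS j hj _ _ hn']
  have h' := congrFun (hsp _ hS) i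
  rw [Finset.sum_apply] at h'
  rw [h', sum_eq_single_of_mem j hj fun k hk hkj => by simp [hsd j hj k hk, hkj]]
  simp [hsd j hj j hj]

/-- An echelon basis of the invariant coefficient vectors gives a basis of the functions on the
quotient, whose coordinates are those of the pullbacks to `M`. -/
theorem exists_quotient_basis [DecidableEq L.ι] (N : AddSubgroup M) {J : Finset L.ι}
    {s : L.ι → L.ι → Qbar}
    (hsS : ∀ j ∈ J, s j ∈ L.invariantCoeffs N)
    (hsd : ∀ j ∈ J, ∀ i ∈ J, s j i = if i = j then 1 else 0)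
    (hsp : ∀ x ∈ L.invariantCoeffs N, x = ∑ j ∈ J, x j • s j) :
    ∃ e : Module.Basis J Qbar (M ⧸ N → Qbar),
      (∀ (j : J) (x : M), e j (x : M ⧸ N) = ∑ i, s j i * L.e i x) ∧
      ∀ (g : M ⧸ N → Qbar) (j : J), e.repr g j = L.e.repr (fun x : M => g (x : M ⧸ N)) j := by
  classical
  let f : J → M ⧸ N → Qbar := fun j =>
    Quotient.lift (fun x => ∑ i, s j i * L.e i x) fun x y h => by
      replace h := QuotientAddGroup.leftRel_apply.1 h
      have := hsS j j.2 x (-x + y) h
      rw [add_neg_cancel_left] at this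
      exact this.symm
  have hf : ∀ (j : J) (x : M), f j (x : M ⧸ N) = ∑ i, s j i * L.e i x := fun j x => rfl
  have hexp : ∀ g : M ⧸ N → Qbar,
      g = ∑ j : J, L.e.repr (fun x : M => g (x : M ⧸ N)) j • f j := by
    intro g
    funext z
    obtain ⟨x, rfl⟩ := QuotientAddGroup.mk_surjective z
    set g' : M → Qbar := fun x => g (x : M ⧸ N)
    have hg' : ∀ x, ∀ n ∈ N, g' (x + n) = g' x := fun x n hn => by
      show g _ = g _
      rw [QuotientAddGroup.mk_add, (QuotientAddGroup.eq_zero_iff n).2 hn, add_zero]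
    have hmem : (fun i => L.e.repr g' i) ∈ L.invariantCoeffs N := fun x n hn => by
      rw [L.sum_repr_apply, L.sum_repr_apply, hg' x n hn]
    show g' x = _
    conv_lhs => rw [← L.sum_repr_apply g' x]
    rw [sum_congr rfl fun i _ => by rw [show L.e.repr g' i = _ from congrFun (hsp _ hmem) i]]
    simp only [Finset.sum_apply, Pi.smul_apply, smul_eq_mul, hf, sum_mul, mul_sum]
    rw [sum_comm, ← sum_coe_sort J]
    exact sum_congr rfl fun j _ => sum_congr rfl fun i _ => by ring
  have hli : LinearIndependent Qbar f := by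
    rw [Fintype.linearIndependent_iff]
    intro a ha j
    have h0 : ∑ i, (∑ k : J, a k * s k i) • L.e i = 0 := by
      funext x
      have hz := congrFun ha (x : M ⧸ N)
      simp only [Finset.sum_apply, Pi.smul_apply, smul_eq_mul, Pi.zero_apply, hf, mul_sum] at hz
      simp only [Finset.sum_apply, Pi.smul_apply, smul_eq_mul, Pi.zero_apply, sum_mul]
      rw [sum_comm]
      simpa [mul_assoc] using hz
    have h1 := Fintype.linearIndependent_iff.1 L.e.linearIndependent _ h0 j
    rwa [sum_eq_single_of_mem j (mem_univ j) fun k _ hkj => by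
      rw [hsd k k.2 j j.2, if_neg (fun e : (j : L.ι) = k => hkj (Subtype.ext e).symm), mul_zero],
      hsd j j.2 j j.2, if_pos rfl,
      mul_one] at h1
  have hspan : ⊤ ≤ Submodule.span Qbar (Set.range f) := fun g _ => by
    rw [hexp g]
    exact sum_mem fun j _ => Submodule.smul_mem _ _ (Submodule.subset_span ⟨j, rfl⟩)
  refine ⟨Module.Basis.mk hli hspan, fun j x => by rw [Module.Basis.mk_apply, hf], fun g j => ?_⟩
  have h : g = ∑ k : J,
      L.e.repr (fun x : M => g (x : M ⧸ N)) k • (Module.Basis.mk hli hspan) k := by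
    simp only [Module.Basis.mk_apply]
    exact hexp g
  conv_lhs => rw [h]
  rw [Module.Basis.repr_sum_self]

/-- The comultiplication of the quotient is integral in an echelon basis. -/
theorem exists_comul_quotient (N : AddSubgroup M) {J : Finset L.ι} {s : L.ι → L.ι → Qbar}
    (hsA : ∀ j ∈ J, ∀ i, s j i ∈ A)
    (hsp : ∀ x ∈ L.invariantCoeffs N, x = ∑ j ∈ J, x j • s j)
    {e : Module.Basis J Qbar (M ⧸ N → Qbar)}
    (he : ∀ (j : J) (x : M), e j (x : M ⧸ N) = ∑ i, s j i * L.e i x)
    (herepr : ∀ (g : M ⧸ N → Qbar) (j : J),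
      e.repr g j = L.e.repr (fun x : M => g (x : M ⧸ N)) j) (j : J) :
    ∃ c : J → J → Qbar, (∀ a b, c a b ∈ A) ∧
      ∀ z w : M ⧸ N, e j (z + w) = ∑ a, ∑ b, c a b * e a z * e b w := by
  classical
  choose C hC hadd using L.comul
  let D : L.ι → L.ι → Qbar := fun a b => ∑ i, s j i * C i a b
  refine ⟨fun a b => D a b,
    fun a b => sum_mem fun i _ => mul_mem (hsA j j.2 i) (hC i a b), fun z w => ?_⟩
  obtain ⟨x, rfl⟩ := QuotientAddGroup.mk_surjective z
  obtain ⟨y, rfl⟩ := QuotientAddGroup.mk_surjective w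
  have hG : ∀ u v, e j ((u + v : M) : M ⧸ N) = ∑ a, ∑ b, D a b * L.e a u * L.e b v := by
    intro u v
    simp only [D, he, hadd, mul_sum, sum_mul]
    rw [sum_comm]
    refine sum_congr rfl fun a _ => ?_
    rw [sum_comm]
    exact sum_congr rfl fun b _ => sum_congr rfl fun i _ => by ring
  -- project the first variable
  have hrepr : ∀ v, ∀ a : J, L.e.repr (fun u => e j ((u + v : M) : M ⧸ N)) a =
      ∑ b, D a b * L.e b v := fun v a => by
    have h : (fun u => e j ((u + v : M) : M ⧸ N)) = ∑ a, (∑ b, D a b * L.e b v) • L.e a := by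
      funext u
      simp only [hG, Finset.sum_apply, Pi.smul_apply, smul_eq_mul, sum_mul]
      exact sum_congr rfl fun a _ => sum_congr rfl fun b _ => by ring
    rw [h, Module.Basis.repr_sum_self]
  have hstep : ∀ u v : M, e j ((u + v : M) : M ⧸ N) =
      ∑ a : J, (∑ b, D a b * L.e b v) * e a (u : M ⧸ N) := fun u v => by
    have h := congrFun (e.sum_repr fun t => e j (t + (v : M ⧸ N))) u
    simp only [Finset.sum_apply, Pi.smul_apply, smul_eq_mul, herepr] at h
    rw [QuotientAddGroup.mk_add, ← h]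
    refine sum_congr rfl fun a _ => ?_
    rw [← hrepr v a]
    rfl
  -- the coefficients are invariant in the second variable
  have hcoef : ∀ a : J, ∀ v : M, ∑ b, D a b * L.e b v = ∑ b : J, D a b * e b (v : M ⧸ N) := by
    intro a v
    have hinv : ∀ v, ∀ n ∈ N, ∑ b, D a b * L.e b (v + n) = ∑ b, D a b * L.e b v := by
      intro v n hn
      rw [← hrepr, ← hrepr]
      congr 3
      funext u
      rw [← add_assoc, QuotientAddGroup.mk_add (a := u + v),
        (QuotientAddGroup.eq_zero_iff n).2 hn, add_zero]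
    rw [sum_congr rfl fun b _ => by
      rw [show D a b = _ from congrFun (hsp (fun b => D a b) hinv) b]]
    simp only [Finset.sum_apply, Pi.smul_apply, smul_eq_mul, he, sum_mul, mul_sum]
    rw [sum_comm, ← sum_coe_sort J]
    exact sum_congr rfl fun b _ => sum_congr rfl fun i _ => by ring
  rw [← QuotientAddGroup.mk_add, hstep]
  refine sum_congr rfl fun a _ => ?_
  rw [hcoef, sum_mul]
  exact sum_congr rfl fun b _ => by ring

include L in
/-- The model of the quotient by a stable subgroup. -/
theorem exists_quotient (N : AddSubgroup M) (hN : ∀ σ ∈ Δ, ∀ x ∈ N, act σ x ∈ N)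
    (actQ : Gal → M ⧸ N → M ⧸ N)
    (hactQ : ∀ σ ∈ Δ, ∀ x : M, actQ σ (x : M ⧸ N) = (act σ x : M ⧸ N)) :
    Nonempty (Model A Δ actQ) := by
  classical
  obtain ⟨J, s, hsS, hsA, hsd, hsp⟩ := exists_integral_echelon (A := A) (L.invariantCoeffs N)
  obtain ⟨e, he, herepr⟩ := L.exists_quotient_basis N hsS hsd hsp
  exact ⟨{
    ι := J
    e := e
    equivariant := fun j σ hσ z => by
      obtain ⟨x, rfl⟩ := QuotientAddGroup.mk_surjective z
      rw [hactQ σ hσ, he, he, map_sum]
      exact sum_congr rfl fun i _ => by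
        rw [map_mul, L.apply_echelon_eq hN hsS hsd hsp hσ j.2, L.equivariant i σ hσ]
    integral := fun j z => by
      obtain ⟨x, rfl⟩ := QuotientAddGroup.mk_surjective z
      rw [he]
      exact sum_mem fun i _ => mul_mem (hsA j j.2 i) (L.integral i x)
    one_mem := fun j => by
      rw [herepr]
      exact L.one_mem j
    comul := L.exists_comul_quotient N hsA hsp he herepr
    act_add := fun σ hσ z w => by
      obtain ⟨x, rfl⟩ := QuotientAddGroup.mk_surjective z
      obtain ⟨y, rfl⟩ := QuotientAddGroup.mk_surjective w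
      rw [← QuotientAddGroup.mk_add, hactQ σ hσ, hactQ σ hσ, hactQ σ hσ, L.act_add σ hσ,
        QuotientAddGroup.mk_add] }⟩

end Model

end Fermat.Agent.FlatBound
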