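import Fermat.Agent.FlatBound.Defs
import Fermat.Agent.FlatBound.Equivariance
import Fermat.Agent.FlatBound.Orbit
import Fermat.Agent.FlatBound.Quotient
import Fermat.Agent.FlatModels.Closure
import Fermat.Agent.TWLocal.Away

/-!
# Changing a cocycle by a coboundary and by a change of frame
-/

set_option autoImplicit false

noncomputable section

open Fermat.Agent.TangentBound
open Fermat.Agent.TWAssembly (adCocycles adCoboundary resPlace)
open Fermat.Agent.GaloisBasics (Qbar GalQ)
open Fermat.Agent.FlatModels (HasFlatModel)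

namespace Fermat.Agent.FlatBound

variable {k : Type} [Field k] {p : ℕ}

/-- Continuity of a matrix representation. -/
def ContRep (rb : GQ →* Mat2 k) : Prop :=
  ∃ F : IntermediateField ℚ (AlgebraicClosure ℚ), FiniteDimensional ℚ F ∧
    ∀ s ∈ F.fixingSubgroup, rb s = 1

/-- The determinant is the cyclotomic character modulo `p`. -/
def CycloDet (p : ℕ) (rb : GQ →* Mat2 k) : Prop :=
  ∀ (s : GQ) (a : ℕ), (∀ μ : Qbar, μ ^ p = 1 → s μ = μ ^ a) → (rb s).det = (a : k)

/-- The determinant is read off from the action on one primitive root of unity. -/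
theorem det_eq_of_apply_zeta {A : ValuationSubring Qbar} (R : TameRoot A p) {rb : GQ →* Mat2 k}
    (hdet : CycloDet p rb) {σ : GQ} {n : ℕ} (hn : σ R.ζ = R.ζ ^ n) : (rb σ).det = (n : k) := by
  have : NeZero p := ⟨R.prime.ne_zero⟩
  refine hdet σ n fun μ hμ => ?_
  obtain ⟨i, -, rfl⟩ := R.prim.eq_pow_of_pow_eq_one hμ
  rw [map_pow, hn, pow_right_comm]

/-- The values at an element and its inverse multiply to one. -/
theorem rb_mul_inv (rb : GQ →* Mat2 k) (σ : GQ) : rb σ * rb σ⁻¹ = 1 := by
  rw [← map_mul, mul_inv_cancel, map_one]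

/-- The values at the inverse and at the element multiply to one. -/
theorem rb_inv_mul (rb : GQ →* Mat2 k) (σ : GQ) : rb σ⁻¹ * rb σ = 1 := by
  rw [← map_mul, inv_mul_cancel, map_one]

section Coboundary

variable {rb : GQ →* Mat2 k}

/-- The coboundary of a matrix of trace zero is an adjoint cocycle. -/
theorem adCoboundary_mem (hcont : ContRep rb) {X : Mat2 k} (hX : X.trace = 0) :
    adCoboundary rb X ∈ adCocycles rb := by
  obtain ⟨F, hF, h⟩ := hcont
  refine ⟨fun σ τ => ?_, fun σ => ?_, F, hF, fun σ τ hτ => ?_⟩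
  · simp only [TWAssembly.adCoboundary_apply, map_mul, mul_inv_rev, mul_sub, sub_mul, mul_assoc]
    abel
  · rw [TWAssembly.adCoboundary_apply, Matrix.trace_sub, hX, Matrix.trace_mul_comm, ← mul_assoc,
      rb_inv_mul, one_mul, hX, sub_self]
  · simp only [TWAssembly.adCoboundary_apply, map_mul, mul_inv_rev, h τ hτ,
      h τ⁻¹ (inv_mem hτ), one_mul, mul_one]

/-- Adding a coboundary does not change flatness. -/
theorem hasFlatModel_add_coboundary {c : GQ → Mat2 k}
    (h : HasFlatModel p (dualAct rb c)) (X : Mat2 k) :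
    HasFlatModel p (dualAct rb (c + adCoboundary rb X)) := by
  refine h.of_addEquiv
    { toFun := fun v => (v.1 - X.mulVec v.2, v.2)
      invFun := fun v => (v.1 + X.mulVec v.2, v.2)
      left_inv := fun v => Prod.ext (sub_add_cancel _ _) rfl
      right_inv := fun v => Prod.ext (add_sub_cancel_right _ _) rfl
      map_add' := fun v w => by
        refine Prod.ext ?_ rfl
        simp only [Prod.fst_add, Prod.snd_add, Matrix.mulVec_add]
        abel } fun σ v => ?_
  refine Prod.ext ?_ rfl
  show (dualAct rb (c + adCoboundary rb X) σ v).1 -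
    X.mulVec (dualAct rb (c + adCoboundary rb X) σ v).2 = _
  simp only [dualAct_fst, dualAct_snd, AddEquiv.coe_mk, Equiv.coe_fn_mk, Pi.add_apply,
    TWAssembly.adCoboundary_apply, Matrix.mulVec_sub, Matrix.mulVec_mulVec, add_mul, sub_mul,
    mul_assoc, rb_inv_mul, mul_one, Matrix.add_mulVec, Matrix.sub_mulVec]
  abel

variable {c : GQ → Mat2 k} (hc : c ∈ adCocycles rb)

include hc in
/-- A cocycle vanishes at the identity. -/
theorem cocycle_one : c 1 = 0 := by
  have h := hc.1 1 1
  simp only [inv_one, map_one, one_mul, mul_one] at h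
  exact left_eq_add.1 h

include hc in
/-- The value on a conjugate. -/
theorem cocycle_conj (g σ : GQ) :
    c (g⁻¹ * σ * g) = rb g⁻¹ * (c σ + rb σ * c g * rb σ⁻¹ - c g) * rb g := by
  have h0 := hc.1 g (g⁻¹ * σ * g)
  rw [show g * (g⁻¹ * σ * g) = σ * g by group, hc.1 σ g] at h0
  rw [h0, add_sub_cancel_left]
  simp only [mul_assoc, rb_inv_mul, mul_one]
  rw [← mul_assoc (rb g⁻¹), rb_inv_mul, one_mul]

include hc in
/-- Multiplying by an element on which the cocycle vanishes. -/
theorem cocycle_pow_eq_zero {τ : GQ} (h : c τ = 0) (m : ℕ) : c (τ ^ m) = 0 := by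
  induction m with
  | zero => rw [pow_zero, cocycle_one hc]
  | succ m ih => rw [pow_succ, hc.1, ih, h, mul_zero, zero_mul, add_zero]

include hc in
/-- The restriction of a cocycle to decomposition is a local cocycle. -/
theorem resPlace_mem_Z1 (A : ValuationSubring Qbar) :
    resPlace A c ∈ TWLocal.Z1 rb (A.decompositionSubgroup ℚ) := by
  obtain ⟨h1, h2, F, hF, h3⟩ := hc
  refine ⟨fun σ τ => h1 σ τ, fun σ => h2 σ, F, hF, fun σ hσ => ?_⟩
  show c (σ : GalQ) = 0
  have := h3 1 σ ((IntermediateField.mem_fixingSubgroup_iff F _).2 hσ)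
  rw [one_mul, cocycle_one ⟨h1, h2, F, hF, h3⟩] at this
  exact this

include hc in
/-- A finite level for the cocycle and the representation. -/
theorem exists_level : ∃ F : IntermediateField ℚ Qbar, FiniteDimensional ℚ F ∧
    ∀ σ ∈ F.fixingSubgroup, c σ = 0 := by
  have hc' := hc
  obtain ⟨h1, h2, F, hF, h3⟩ := hc'
  exact ⟨F, hF, fun σ hσ => by
    have := h3 1 σ hσ; rwa [one_mul, cocycle_one hc] at this⟩

include hc in
/-- A cocycle vanishing at a generator of `I` modulo `H` and on `H` vanishes on `I`. -/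
theorem cocycle_eq_zero_of_gen {I H : Subgroup GQ} {τ : GQ}
    (hgen : ∀ σ ∈ I, ∃ m : ℕ, ∃ h ∈ H, σ = τ ^ m * h) (hτ : c τ = 0) (hH : ∀ h ∈ H, c h = 0) :
    ∀ σ ∈ I, c σ = 0 := fun σ hσ => by
  obtain ⟨m, h, hh, rfl⟩ := hgen σ hσ
  rw [hc.1, cocycle_pow_eq_zero hc hτ, hH h hh, mul_zero, zero_mul, add_zero]

include hc in
/-- The value at an element of decomposition of a cocycle vanishing on inertia is fixed by
inertia. -/
theorem cocycle_fixed_of_inertia {A : ValuationSubring Qbar}
    (hI : ∀ σ ∈ A.inertiaSubgroupIn ℚ, c σ = 0) {g : GQ} (hg : g ∈ A.decompositionSubgroup ℚ)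
    {τ : GQ} (hτ : τ ∈ A.inertiaSubgroupIn ℚ) : rb τ * c g * rb τ⁻¹ = c g := by
  have hmem : g⁻¹ * τ * g ∈ A.inertiaSubgroupIn ℚ := by
    have := LocalInertia.conj_mem_inertiaSubgroupIn (inv_mem hg) hτ
    rwa [inv_inv] at this
  have h := hI _ hmem
  rw [cocycle_conj hc, hI τ hτ, zero_add] at h
  refine sub_eq_zero.1 ?_
  have := congrArg (fun X => rb g * X * rb g⁻¹) h
  simpa only [mul_zero, zero_mul, ← mul_assoc, rb_mul_inv, one_mul, mul_assoc _ (rb g),
    mul_one] using this

include hc in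
/-- A cocycle vanishing on inertia and at a Frobenius element vanishes on decomposition. -/
theorem resPlace_eq_zero {A : ValuationSubring Qbar} (hA : A.LiesOverPrime p) (hp : p.Prime)
    (hI : ∀ σ ∈ A.inertiaSubgroupIn ℚ, c σ = 0) {φ : GQ} (hφ : A.IsFrobeniusAt φ p)
    (hcφ : c φ = 0) : resPlace A c = 0 := by
  obtain ⟨F, hF, hcF⟩ := exists_level hc
  obtain ⟨F', hle, hfd, hn⟩ := TWLocal.exists_normal_level F
  refine TWLocal.eq_zero_of_frobenius_inertia (F := F') hA hp (resPlace_mem_Z1 hc A)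
    (fun σ hσ => ?_) hφ hcφ fun σ hσ => hI σ hσ
  exact hcF σ ((IntermediateField.mem_fixingSubgroup_iff F _).2 fun x hx => hσ x (hle hx))

end Coboundary

section Frame

open TWLocal (conjM conjM_apply conjM_mul conjM_one)

/-- The representation in another frame. -/
def conjRep (rb : GQ →* Mat2 k) (U : (Mat2 k)ˣ) : GQ →* Mat2 k where
  toFun σ := conjM U (rb σ)
  map_one' := by rw [map_one, conjM_one]
  map_mul' σ τ := by rw [map_mul, conjM_mul]

variable {rb : GQ →* Mat2 k} (U : (Mat2 k)ˣ)

/-- The definition of the representation in another frame. -/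
theorem conjRep_apply (σ : GQ) : conjRep rb U σ = conjM U (rb σ) := rfl

/-- A change of frame keeps continuity. -/
theorem conjRep_cont (hcont : ContRep rb) : ContRep (conjRep rb U) := by
  obtain ⟨F, hF, h⟩ := hcont
  exact ⟨F, hF, fun s hs => by rw [conjRep_apply, h s hs, conjM_one]⟩

/-- A change of frame keeps the determinant. -/
theorem conjRep_det (hdet : CycloDet p rb) : CycloDet p (conjRep rb U) := fun s a ha => by
  rw [conjRep_apply, conjM_apply, Matrix.det_units_conj', hdet s a ha]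

theorem conj_mem_adCocycles {c : GQ → Mat2 k} (hc : c ∈ adCocycles rb) :
    (fun σ => conjM U (c σ)) ∈ adCocycles (conjRep rb U) := by
  obtain ⟨h1, h2, F, hF, h3⟩ := hc
  exact ⟨fun σ τ => by dsimp only; rw [h1, map_add, conjM_mul, conjM_mul]; rfl,
    fun σ => by rw [TWLocal.trace_conjM, h2], F, hF, fun σ τ hτ => by dsimp only; rw [h3 σ τ hτ]⟩

theorem hasFlatModel_conj {c : GQ → Mat2 k} (h : HasFlatModel p (dualAct rb c)) :
    HasFlatModel p (dualAct (conjRep rb U) fun σ => conjM U (c σ)) := by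
  refine h.of_addEquiv
    { toFun := fun v => ((U : Mat2 k).mulVec v.1, (U : Mat2 k).mulVec v.2)
      invFun := fun v => ((↑U⁻¹ : Mat2 k).mulVec v.1, (↑U⁻¹ : Mat2 k).mulVec v.2)
      left_inv := fun v => Prod.ext
        (by dsimp only; rw [Matrix.mulVec_mulVec, Units.inv_mul, Matrix.one_mulVec])
        (by dsimp only; rw [Matrix.mulVec_mulVec, Units.inv_mul, Matrix.one_mulVec])
      right_inv := fun v => Prod.ext
        (by dsimp only; rw [Matrix.mulVec_mulVec, Units.mul_inv, Matrix.one_mulVec])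
        (by dsimp only; rw [Matrix.mulVec_mulVec, Units.mul_inv, Matrix.one_mulVec])
      map_add' := fun v w => by simp [Matrix.mulVec_add] } fun σ v => ?_
  refine Prod.ext ?_ ?_
  · simp only [dualAct_fst, AddEquiv.coe_mk, Equiv.coe_fn_mk, conjRep_apply, conjM_apply,
      Matrix.mulVec_add, Matrix.mulVec_mulVec, mul_assoc, Units.mul_inv_cancel_left]
  · simp only [dualAct_snd, AddEquiv.coe_mk, Equiv.coe_fn_mk, conjRep_apply, conjM_apply,
      Matrix.mulVec_mulVec, mul_assoc, Units.mul_inv_cancel_left]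

/-- The local bound can be proved in any frame. -/
theorem exists_bound_of_conj [Finite k] (A : ValuationSubring Qbar) {n : ℕ}
    (h : ∃ L : Submodule k (A.decompositionSubgroup ℚ → Mat2 k), FiniteDimensional k L ∧
      Module.finrank k L ≤ n ∧ ∀ c ∈ adCocycles (conjRep rb U),
        HasFlatModel p (dualAct (conjRep rb U) c) → resPlace A c ∈ L) :
    ∃ L : Submodule k (A.decompositionSubgroup ℚ → Mat2 k), FiniteDimensional k L ∧
      Module.finrank k L ≤ n ∧ ∀ c ∈ adCocycles rb,
        HasFlatModel p (dualAct rb c) → resPlace A c ∈ L := by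
  obtain ⟨L, hL, hn, hmem⟩ := h
  let g : (A.decompositionSubgroup ℚ → Mat2 k) →ₗ[k] (A.decompositionSubgroup ℚ → Mat2 k) :=
    (conjM U⁻¹).compLeft _
  refine ⟨L.map g, inferInstance, (Submodule.finrank_map_le g L).trans hn, fun c hc hflat => ?_⟩
  refine ⟨_, hmem _ (conj_mem_adCocycles U hc) (hasFlatModel_conj U hflat), funext fun σ => ?_⟩
  show conjM U⁻¹ (conjM U (c σ)) = c σ
  simp only [conjM_apply, inv_inv, mul_assoc, Units.mul_inv, mul_one, Units.mul_inv_cancel_left]

end Frame

section Upper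

variable {M N : Mat2 k}

/-- The inverse of an upper triangular matrix is upper triangular. -/
theorem upper_inv (hM : M 1 0 = 0) (h : M * N = 1) :
    N 1 0 = 0 ∧ M 0 0 * N 0 0 = 1 ∧ M 1 1 * N 1 1 = 1 ∧ M 0 0 * N 0 1 + M 0 1 * N 1 1 = 0 := by
  have e : ∀ i j, M i 0 * N 0 j + M i 1 * N 1 j = (1 : Mat2 k) i j := fun i j => by
    rw [← h, Matrix.mul_apply, Fin.sum_univ_two]
  have h10 : M 1 1 * N 1 0 = 0 := by simpa [hM] using e 1 0
  have h11 : M 1 1 * N 1 1 = 1 := by simpa [hM] using e 1 1
  have hN : N 1 0 = 0 := (mul_eq_zero.1 h10).resolve_left fun h0 => by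
    rw [h0, zero_mul] at h11; exact zero_ne_one h11
  exact ⟨hN, by simpa [hN] using e 0 0, h11, by simpa using e 0 1⟩

/-- Entries of a conjugate by an upper triangular matrix. -/
theorem upper_conj (hM : M 1 0 = 0) (h : M * N = 1) (X : Mat2 k) :
    (M * X * N) 1 0 = M 1 1 * N 0 0 * X 1 0 ∧
    (M * X * N) 1 1 = M 1 1 * N 0 1 * X 1 0 + X 1 1 ∧
    (X 1 0 = 0 → (M * X * N) 0 0 = X 0 0 ∧
      (M * X * N) 0 1 = M 0 0 * N 1 1 * X 0 1 + M 0 0 * N 0 1 * (X 0 0 - X 1 1)) := by
  obtain ⟨hN, h00, h11, h01⟩ := upper_inv hM h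
  refine ⟨?_, ?_, fun hX => ⟨?_, ?_⟩⟩
  · simp only [Matrix.mul_apply, Fin.sum_univ_two, hM, hN]; ring
  · simp only [Matrix.mul_apply, Fin.sum_univ_two, hM]
    linear_combination X 1 1 * h11
  · simp only [Matrix.mul_apply, Fin.sum_univ_two, hN, hX]
    linear_combination X 0 0 * h00
  · simp only [Matrix.mul_apply, Fin.sum_univ_two, hX]
    linear_combination X 1 1 * h01

end Upper

section Points

variable {A : ValuationSubring Qbar} {M : Type} [AddCommGroup M] {act : GalQ → M → M}

/-- A point killed by `p > 2` which reduces to the origin and is fixed by inertia is zero. -/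
theorem Model.eq_zero_of_fixed (L : Model A (A.inertiaSubgroupIn ℚ) act) (hA : A.LiesOverPrime p)
    (hp : p.Prime) (hp2 : p ≠ 2) {x : M} (hpx : p • x = 0)
    (hfix : ∀ σ ∈ A.inertiaSubgroupIn ℚ, act σ x = x) (hx1 : L.size x < 1) : x = 0 := by
  by_contra hx
  obtain ⟨i, hi⟩ := L.exists_eq_size x
  have hpos := L.size_pos hx
  have h0 : L.coord i x ≠ 0 := fun h => by rw [h, map_zero] at hi; exact hpos.ne hi
  obtain ⟨m, hm⟩ := exists_zpow_of_inertia_fixed hA hp h0 fun σ hσ => by
    rw [← L.coord_act hσ, hfix σ hσ]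
  have hvp := valuation_natCast_prime_pos A hp
  have hvp1 := valuation_natCast_prime_lt_one (p := p) hA
  have hm1 : 1 ≤ m := by
    by_contra! hlt
    rw [hi.symm.trans hm] at hx1
    exact absurd hx1 (not_lt.2 (one_le_zpow_of_nonpos₀ hvp hvp1.le (by omega)))
  have hle : L.size x ≤ A.valuation (p : Qbar) := by
    rw [hi.symm.trans hm]
    conv_rhs => rw [← zpow_one (A.valuation (p : Qbar))]
    exact zpow_le_zpow_right_of_le_one₀ hvp hvp1.le hm1
  have h1 := L.valuation_natCast_le_size_pow hp hpx hx hx1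
  have h2 : L.size x ^ (p - 1) < A.valuation (p : Qbar) := by
    refine (pow_le_pow_left' hle _).trans_lt (pow_lt_self_of_lt_one₀ hvp hvp1 ?_)
    have := hp.two_le; omega
  exact absurd h1 (not_le.2 h2)

end Points

namespace TameRoot

variable {A : ValuationSubring Qbar} (R : TameRoot A p)

/-- Zero has every level. -/
theorem Lev.zero (i : ℕ) : R.Lev (fun _ => 0) i :=
  ⟨1, ⟨one_ne_zero, fun σ _ => by simp [ZMod.val_zero]⟩, by simp⟩

/-- The level depends only on the values on `H`. -/
theorem Lev.congr {γ γ' : GalQ → ZMod p} {i : ℕ} (h : R.Lev γ i)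
    (heq : ∀ σ ∈ R.H, γ σ = γ' σ) : R.Lev γ' i := by
  obtain ⟨α, hα, hv⟩ := h
  exact ⟨α, hα.congr R heq, hv⟩

/-- The levels are stable under addition. -/
theorem Lev.add {γ γ' : GalQ → ZMod p} {i : ℕ} (hi : i ≠ 0) (h : R.Lev γ i) (h' : R.Lev γ' i) :
    R.Lev (γ + γ') i := by
  obtain ⟨r, hr⟩ := R.hasCoef_of_lev h
  obtain ⟨r', hr'⟩ := R.hasCoef_of_lev h'
  obtain ⟨α, hα, hv, -⟩ := hr.add R hi hr'
  exact ⟨α, hα, hv⟩

/-- A non-zero homomorphism to `𝔽_p` takes the value one. -/
theorem exists_apply_eq_one {γ : GalQ → ZMod p}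
    (hγ : ∀ σ ∈ R.H, ∀ τ ∈ R.H, γ (σ * τ) = γ σ + γ τ) {σ : GalQ} (hσ : σ ∈ R.H) (h : γ σ ≠ 0) :
    ∃ g ∈ R.H, γ g = 1 := by
  have := R.prime_fact
  have hpow : ∀ j : ℕ, γ (σ ^ j) = j * γ σ := by
    intro j
    induction j with
    | zero =>
      have h1 := hγ 1 (one_mem _) 1 (one_mem _)
      rw [mul_one] at h1
      rw [pow_zero, Nat.cast_zero, zero_mul]
      exact left_eq_add.1 h1
    | succ j ih => rw [pow_succ, hγ _ (pow_mem hσ j) _ hσ, ih]; push_cast; ring
  exact ⟨σ ^ ((γ σ)⁻¹).val, pow_mem hσ _, by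
    rw [hpow, ZMod.natCast_zmod_val, inv_mul_cancel₀ h]⟩

include R in
/-- A natural number with residue `-1` is prime to `p`. -/
theorem natCast_ne_zero_of_residue {m : ℕ} (hm : (m : IsLocalRing.ResidueField A) = -1) :
    (m : ZMod p) ≠ 0 := fun h => by
  have := R.prime_fact
  have := GaloisBasics.residueField_charP R.over R.prime
  rw [← map_natCast (ZMod.castHom (dvd_refl p) (IsLocalRing.ResidueField A)), h, map_zero] at hm
  exact one_ne_zero (neg_eq_zero.1 hm.symm)

section Closure

/-! Operations on homomorphisms on `H` and on their levels. -/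

variable {V W : Type} [AddCommGroup V] [AddCommGroup W] {b b' : GalQ → V} {i : ℕ}

/-- Being a homomorphism on `H` depends only on the values on `H`. -/
theorem IsHom.congr (h : R.IsHom b) (e : ∀ σ ∈ R.H, b σ = b' σ) : R.IsHom b' where
  map_mul σ hσ τ hτ := by rw [← e _ (mul_mem hσ hτ), ← e σ hσ, ← e τ hτ, h.map_mul σ hσ τ hτ]
  level := by
    obtain ⟨F, hF, hb⟩ := h.level
    exact ⟨F, hF, fun σ hσ hσF => by rw [← e σ hσ, hb σ hσ hσF]⟩

/-- Zero is a homomorphism on `H`. -/
theorem IsHom.zero : R.IsHom (0 : GalQ → V) where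
  map_mul _ _ _ _ := (add_zero _).symm
  level := ⟨⊥, inferInstance, fun _ _ _ => rfl⟩

/-- Homomorphisms on `H` are stable under addition. -/
theorem IsHom.add (h : R.IsHom b) (h' : R.IsHom b') : R.IsHom (b + b') where
  map_mul σ hσ τ hτ := by
    simp only [Pi.add_apply, h.map_mul σ hσ τ hτ, h'.map_mul σ hσ τ hτ]; abel
  level := by
    obtain ⟨F, hF, hb⟩ := h.level
    obtain ⟨F', hF', hb'⟩ := h'.level
    exact ⟨F ⊔ F', inferInstance, fun σ hσ hσF => by
      rw [Pi.add_apply, hb σ hσ (IntermediateField.fixingSubgroup_antitone le_sup_left hσF),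
        hb' σ hσ (IntermediateField.fixingSubgroup_antitone le_sup_right hσF), add_zero]⟩

/-- Homomorphisms on `H` are stable under additive maps. -/
theorem IsHom.map (h : R.IsHom b) (L : V →+ W) : R.IsHom (fun σ => L (b σ)) where
  map_mul σ hσ τ hτ := by rw [h.map_mul σ hσ τ hτ, map_add]
  level := by
    obtain ⟨F, hF, hb⟩ := h.level
    exact ⟨F, hF, fun σ hσ hσF => by rw [hb σ hσ hσF, map_zero]⟩

/-- The level of a vector valued function depends only on the values on `H`. -/
theorem AllLev.congr (h : R.AllLev b i) (e : ∀ σ ∈ R.H, b σ = b' σ) : R.AllLev b' i :=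
  fun f => (h f).congr R fun σ hσ => by rw [e σ hσ]

/-- Zero has every level. -/
theorem AllLev.zero (i : ℕ) : R.AllLev (0 : GalQ → V) i :=
  fun f => (Lev.zero R i).congr R fun _ _ => (map_zero f).symm

/-- The levels of vector valued functions are stable under addition. -/
theorem AllLev.add (hi : i ≠ 0) (h : R.AllLev b i) (h' : R.AllLev b' i) : R.AllLev (b + b') i :=
  fun f => (Lev.add R hi (h f) (h' f)).congr R fun _ _ => (map_add f _ _).symm

/-- The levels are stable under additive maps. -/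
theorem AllLev.map (h : R.AllLev b i) (L : V →+ W) : R.AllLev (fun σ => L (b σ)) i :=
  fun f => h (f.comp L)

/-- The coefficients at level `i` form an additive function of the homomorphism, on a space of
homomorphisms of level `i`. -/
theorem exists_coefHom [Module k V] (hpi : ¬ p ∣ i) (hiE : i < p * R.E)
    (S : Submodule k (GalQ → V)) (hS : ∀ b ∈ S, R.AllLev b i) :
    ∃ r : S →+ ((V →+ ZMod p) →+ IsLocalRing.ResidueField A),
      ∀ b f, R.HasCoef (fun σ => f ((b : GalQ → V) σ)) i (r b f) := by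
  choose r hr using fun b : S => R.exists_coefMap hpi hiE (hS b b.2)
  refine ⟨AddMonoidHom.mk' r fun b b' => AddMonoidHom.ext fun f =>
    R.hasCoef_unique hpi hiE (hr (b + b') f) ?_, hr⟩
  have e : (fun σ => f (((b + b' : S) : GalQ → V) σ)) =
      (fun σ => f ((b : GalQ → V) σ)) + fun σ => f ((b' : GalQ → V) σ) :=
    funext fun σ => map_add f _ _
  rw [e]
  exact (hr b f).add R (fun h0 => hpi (h0 ▸ dvd_zero p)) (hr b' f)

end Closure

end TameRoot

section Quotient

variable {A : ValuationSubring Qbar} {M : Type} [AddCommGroup M] {Δ : Subgroup GalQ}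
  {act : GalQ → M → M}

open scoped Classical in
/-- The quotient model, with the induced action. -/
theorem Model.exists_quotient_act (L : Model A Δ act) (N : AddSubgroup M)
    (hN : ∀ σ ∈ Δ, ∀ x ∈ N, act σ x ∈ N) :
    ∃ actQ : GalQ → M ⧸ N → M ⧸ N,
      (∀ σ ∈ Δ, ∀ x : M, actQ σ (x : M ⧸ N) = (act σ x : M ⧸ N)) ∧
      Nonempty (Model A Δ actQ) := by
  let actQ : GalQ → M ⧸ N → M ⧸ N := fun σ =>
    if h : σ ∈ Δ then QuotientAddGroup.map N N (AddMonoidHom.mk' (act σ) (L.act_add σ h))
      fun x hx => hN σ h x hx else id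
  have h : ∀ σ ∈ Δ, ∀ x : M, actQ σ (x : M ⧸ N) = (act σ x : M ⧸ N) := fun σ hσ x => by
    simp only [actQ, dif_pos hσ]
    rfl
  exact ⟨actQ, h, L.exists_quotient N hN actQ h⟩

end Quotient

section Rank

variable {V W Z : Type*} [AddCommGroup V] [Module k V] [AddCommGroup W] [Module k W]
  [AddCommGroup Z] [Module k Z]

/-- The image of `f` is bounded by any map with a smaller kernel. -/
theorem finrank_range_le_of_ker (f : V →ₗ[k] Z) (g : V →ₗ[k] W) [FiniteDimensional k W]
    (h : ∀ v, g v = 0 → f v = 0) :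
    FiniteDimensional k (LinearMap.range f) ∧
      Module.finrank k (LinearMap.range f) ≤ Module.finrank k W := by
  let gq := g.quotKerEquivRange
  have : FiniteDimensional k (V ⧸ LinearMap.ker g) := Module.Finite.equiv gq.symm
  let fq := (LinearMap.ker g).liftQ f h
  rw [show LinearMap.range f = LinearMap.range fq from ((LinearMap.ker g).range_liftQ f h).symm]
  exact ⟨inferInstance, (LinearMap.finrank_range_le fq).trans
    (gq.finrank_eq.le.trans (Submodule.finrank_le _))⟩

end Rank

end Fermat.Agent.FlatBound
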