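import Fermat.Agent.TWAssembly.Selmer
import Fermat.Agent.FlatModels.Basic

/-!
# The module attached to a first order deformation

Notation for the flat local condition of the adjoint representation: the statement proved in this
library is that the restrictions to a decomposition group at `p` of the trace-zero cocycles `c`
with `HasFlatModel p (dualAct rb c)` span, together with the coboundaries, at most four dimensions.
-/

set_option autoImplicit false

noncomputable section

open Fermat.Agent.TangentBound

namespace Fermat.Agent.FlatBound

variable {k : Type} [Field k] (rb : GQ →* Mat2 k)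

/-- The action of the first order deformation `(1 + ε c) rb`; the first component of the pair is
the part divisible by `ε`. -/
def dualAct (c : GQ → Mat2 k) (σ : GQ) (v : (Fin 2 → k) × (Fin 2 → k)) :
    (Fin 2 → k) × (Fin 2 → k) :=
  ((rb σ).mulVec v.1 + (c σ * rb σ).mulVec v.2, (rb σ).mulVec v.2)

/-- The residual action. -/
def residualAct (σ : GQ) (v : Fin 2 → k) : Fin 2 → k := (rb σ).mulVec v

/-- The first component of the action on the dual number extension. -/
@[simp] theorem dualAct_fst (c : GQ → Mat2 k) (σ : GQ) (v : (Fin 2 → k) × (Fin 2 → k)) :
    (dualAct rb c σ v).1 = (rb σ).mulVec v.1 + (c σ * rb σ).mulVec v.2 := rfl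

/-- The second component of the action on the dual number extension. -/
@[simp] theorem dualAct_snd (c : GQ → Mat2 k) (σ : GQ) (v : (Fin 2 → k) × (Fin 2 → k)) :
    (dualAct rb c σ v).2 = (rb σ).mulVec v.2 := rfl

end Fermat.Agent.FlatBound
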