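import Fermat.Agent.FlatBound.TameField
import Mathlib.FieldTheory.Galois.Basic
import Mathlib.LinearAlgebra.LinearIndependent.Basic

/-!
# Kummer theory over the fixed field of `H`, and levels of Kummer elements
-/

set_option autoImplicit false

noncomputable section

open Fermat.Agent.GaloisBasics (Qbar GalQ)
open IsLocalRing Finset

namespace Fermat.Agent.FlatBound

variable {A : ValuationSubring Qbar} {p : ℕ}

/-- The product of two elements close to one. -/
theorem valuation_mul_sub_one_lt {x y : Qbar} {t : A.ValueGroup}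
    (hx : A.valuation (x - 1) ≤ t) (hy : A.valuation (y - 1) ≤ t) :
    A.valuation (x * y - 1 - ((x - 1) + (y - 1))) ≤ t * t := by
  rw [show x * y - 1 - ((x - 1) + (y - 1)) = (x - 1) * (y - 1) by ring, map_mul]
  exact mul_le_mul' hx hy

namespace TameRoot

variable (R : TameRoot A p)

/-- The prime of a tame root, as a `Fact`. -/
theorem prime_fact (R : TameRoot A p) : Fact p.Prime := ⟨R.prime⟩

/-- `α` is a Kummer element of the homomorphism `γ` on `H`. -/
def Kum (γ : GalQ → ZMod p) (α : Qbar) : Prop :=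
  α ≠ 0 ∧ ∀ σ ∈ R.H, σ α = R.ζ ^ (γ σ).val * α

theorem zeta_pow_natCast (n : ℕ) : R.ζ ^ n = R.ζ ^ ((n : ZMod p)).val := by
  rw [ZMod.val_natCast]
  exact pow_eq_pow_mod _ R.prim.pow_eq_one

/-- Powers of `ζ` indexed by `ZMod p` are additive. -/
theorem zeta_pow_add (a b : ZMod p) : R.ζ ^ (a + b).val = R.ζ ^ a.val * R.ζ ^ b.val := by
  have : NeZero p := ⟨R.prime.ne_zero⟩
  rw [← pow_add, ZMod.val_add]
  exact (pow_eq_pow_mod _ R.prim.pow_eq_one).symm

/-- A power of `ζ` indexed by `ZMod p` is one only for the index zero. -/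
theorem zeta_pow_val_eq_one {a : ZMod p} (h : R.ζ ^ a.val = 1) : a = 0 := by
  have : NeZero p := ⟨R.prime.ne_zero⟩
  rw [← ZMod.val_eq_zero]
  exact Nat.eq_zero_of_dvd_of_lt ((R.prim.pow_eq_one_iff_dvd _).1 h) (ZMod.val_lt a)

/-- The `p`-th power of a Kummer element lies in the fixed field of `H`. -/
theorem Kum.pow_mem {γ : GalQ → ZMod p} {α : Qbar} (h : R.Kum γ α) : α ^ p ∈ R.fld :=
  R.mem_fld.2 fun σ hσ => by
    rw [map_pow, h.2 σ hσ, mul_pow, pow_right_comm, R.prim.pow_eq_one, one_pow, one_mul]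

/-- The product of Kummer elements belongs to the sum. -/
theorem Kum.add {γ γ' : GalQ → ZMod p} {α α' : Qbar} (h : R.Kum γ α) (h' : R.Kum γ' α') :
    R.Kum (γ + γ') (α * α') :=
  ⟨mul_ne_zero h.1 h'.1, fun σ hσ => by
    rw [map_mul, h.2 σ hσ, h'.2 σ hσ, Pi.add_apply, R.zeta_pow_add]; ring⟩

theorem Kum.mul_fld {γ : GalQ → ZMod p} {α b : Qbar} (h : R.Kum γ α) (hb : b ∈ R.fld)
    (hb0 : b ≠ 0) : R.Kum γ (α * b) :=
  ⟨mul_ne_zero h.1 hb0, fun σ hσ => by
    rw [map_mul, h.2 σ hσ, R.mem_fld.1 hb σ hσ, mul_assoc]⟩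

/-- A Kummer element depends only on the values on `H`. -/
theorem Kum.congr {γ γ' : GalQ → ZMod p} {α : Qbar} (h : R.Kum γ α)
    (heq : ∀ σ ∈ R.H, γ σ = γ' σ) : R.Kum γ' α :=
  ⟨h.1, fun σ hσ => by rw [← heq σ hσ]; exact h.2 σ hσ⟩

/-- Two Kummer elements of one function differ by an element of the fixed field of `H`. -/
theorem Kum.div_mem {γ : GalQ → ZMod p} {α α' : Qbar} (h : R.Kum γ α) (h' : R.Kum γ α') :
    α' / α ∈ R.fld :=
  R.mem_fld.2 fun σ hσ => by
    rw [map_div₀, h.2 σ hσ, h'.2 σ hσ, mul_div_mul_left]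
    exact pow_ne_zero _ (R.prim.ne_zero R.prime.ne_zero)

/-- The Galois twist of a Kummer element. -/
theorem Kum.conj {γ : GalQ → ZMod p} {α : Qbar} (h : R.Kum γ α) {g : GalQ}
    (hg : g ∈ A.decompositionSubgroup ℚ) {n : ℕ} (hn : g R.ζ = R.ζ ^ n) :
    R.Kum (fun σ => (n : ZMod p) * γ (g⁻¹ * σ * g)) (g α) := by
  refine ⟨(map_ne_zero g).2 h.1, fun σ hσ => ?_⟩
  have h1 := h.2 _ (R.conj_mem_of_decomposition hg hσ)
  rw [AlgEquiv.mul_apply, AlgEquiv.mul_apply] at h1
  have h2 := congrArg g h1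
  rw [← AlgEquiv.mul_apply, mul_inv_cancel, AlgEquiv.one_apply, map_mul, map_pow, hn,
    ← pow_mul] at h2
  rw [h2, R.zeta_pow_natCast (n * _), Nat.cast_mul]
  congr 3
  have : NeZero p := ⟨R.prime.ne_zero⟩
  rw [ZMod.natCast_zmod_val]

/-- Kummer elements exist for homomorphisms of finite level. -/
theorem exists_kum {γ : GalQ → ZMod p} (hγ : ∀ σ ∈ R.H, ∀ τ ∈ R.H, γ (σ * τ) = γ σ + γ τ)
    (F : IntermediateField ℚ Qbar) [FiniteDimensional ℚ F]
    (hF : ∀ σ ∈ R.H, σ ∈ F.fixingSubgroup → γ σ = 0) : ∃ α, R.Kum γ α := by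
  classical
  have : NeZero p := ⟨R.prime.ne_zero⟩
  let L := IntermediateField.normalClosure ℚ F Qbar
  have : Normal ℚ L := normalClosure.normal ℚ _ Qbar
  have : IsGalois ℚ L := ⟨⟩
  let res : GalQ →* (L ≃ₐ[ℚ] L) := AlgEquiv.restrictNormalHom L
  let G : Finset (L ≃ₐ[ℚ] L) := univ.filter fun g => ∃ σ ∈ R.H, res σ = g
  have hG : ∀ {g}, g ∈ G ↔ ∃ σ ∈ R.H, res σ = g := by simp [G]
  choose! lift hliftH hlift using fun g (hg : g ∈ G) => hG.1 hg
  have hcoe : ∀ (σ : GalQ) (x : L), ((res σ x : L) : Qbar) = σ x :=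
    fun σ x => AlgEquiv.restrictNormal_commutes σ L x
  have hres : ∀ g ∈ G, ∀ σ ∈ R.H, res σ = g → γ σ = γ (lift g) := by
    intro g hg σ hσ hσg
    have hfix : (lift g)⁻¹ * σ ∈ F.fixingSubgroup := by
      rw [IntermediateField.mem_fixingSubgroup_iff]
      intro x hx
      have hxL : x ∈ L := IntermediateField.le_normalClosure F hx
      have h1 : (res ((lift g)⁻¹ * σ) ⟨x, hxL⟩ : Qbar) = x := by
        rw [map_mul, map_inv, hlift g hg, hσg, inv_mul_cancel, AlgEquiv.one_apply]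
      rwa [hcoe] at h1
    have h0 := hF _ (mul_mem (inv_mem (hliftH g hg)) hσ) hfix
    have h1 := hγ (lift g) (hliftH g hg) _ (mul_mem (inv_mem (hliftH g hg)) hσ)
    rwa [mul_inv_cancel_left, h0, add_zero] at h1
  let χ : (L ≃ₐ[ℚ] L) → (L →* Qbar) := fun g =>
    ((IntermediateField.val L).comp g.toAlgHom).toRingHom.toMonoidHom
  have hχinj : Function.Injective χ := fun g g' h => AlgEquiv.ext fun x =>
    Subtype.ext (DFunLike.congr_fun h x)
  obtain ⟨β, hβ⟩ : ∃ β : L, ∑ g ∈ G, (R.ζ ^ (γ (lift g)).val)⁻¹ * χ g β ≠ 0 := by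
    by_contra! h
    have hli := (linearIndependent_monoidHom L Qbar).comp χ hχinj
    have h1 := linearIndependent_iff'.1 hli G (fun g => (R.ζ ^ (γ (lift g)).val)⁻¹) (funext fun x => by
      simpa [Finset.sum_apply] using h x) (res 1) (hG.2 ⟨1, one_mem _, rfl⟩)
    exact inv_ne_zero (pow_ne_zero _ (R.prim.ne_zero R.prime.ne_zero)) h1
  refine ⟨_, hβ, fun σ hσ => ?_⟩
  rw [map_sum, mul_sum]
  refine sum_bij (fun g _ => res σ * g) (fun g hg => ?_) (fun a _ b _ h => mul_left_cancel h)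
    (fun g hg => ⟨(res σ)⁻¹ * g, ?_, mul_inv_cancel_left _ _⟩) (fun g hg => ?_)
  · obtain ⟨τ, hτ, rfl⟩ := hG.1 hg
    exact hG.2 ⟨σ * τ, mul_mem hσ hτ, map_mul _ _ _⟩
  · obtain ⟨τ, hτ, rfl⟩ := hG.1 hg
    exact hG.2 ⟨σ⁻¹ * τ, mul_mem (inv_mem hσ) hτ, by rw [map_mul, map_inv]⟩
  · have hmem : res σ * g ∈ G := by
      obtain ⟨τ, hτ, rfl⟩ := hG.1 hg
      exact hG.2 ⟨σ * τ, mul_mem hσ hτ, map_mul _ _ _⟩
    have hγsum : γ (lift (res σ * g)) = γ σ + γ (lift g) := by
      rw [← hres _ hmem (σ * lift g) (mul_mem hσ (hliftH g hg)) (by rw [map_mul, hlift g hg]),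
        hγ σ hσ _ (hliftH g hg)]
    have hζσ : σ R.ζ = R.ζ := R.apply_zeta hσ
    rw [map_mul, map_inv₀, map_pow, hζσ, hγsum, R.zeta_pow_add]
    have e : σ (χ g β) = χ (res σ * g) β := (hcoe σ (g β)).symm
    rw [e, mul_inv, mul_assoc, ← mul_assoc _ (R.ζ ^ (γ σ).val)⁻¹,
      mul_inv_cancel₀ (pow_ne_zero _ (R.prim.ne_zero R.prime.ne_zero)), one_mul]

/-- `γ` has a Kummer element congruent to one modulo `π ^ i`. -/
def Lev (γ : GalQ → ZMod p) (i : ℕ) : Prop :=
  ∃ α, R.Kum γ α ∧ A.valuation (α ^ p - 1) ≤ R.vπ ^ i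

open scoped Classical in
/-- The coefficient of `π ^ i`. -/
def coef (i : ℕ) (x : Qbar) : ResidueField A :=
  if h : x / (R.π : Qbar) ^ i ∈ A then residue A ⟨_, h⟩ else 0

/-- An element of value at most `|π| ^ i` is divisible by `π ^ i`. -/
theorem div_pow_mem {i : ℕ} {x : Qbar} (h : A.valuation x ≤ R.vπ ^ i) :
    x / (R.π : Qbar) ^ i ∈ A := by
  rw [← A.valuation_le_one_iff, map_div₀, map_pow]
  exact (div_le_one₀ (pow_pos R.vπ_pos _)).2 h

theorem coef_eq {i : ℕ} {x : Qbar} (h : A.valuation x ≤ R.vπ ^ i) :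
    R.coef i x = residue A ⟨_, R.div_pow_mem h⟩ := dif_pos _

/-- The coefficient at level `i` vanishes exactly when the value is smaller. -/
theorem coef_eq_zero_iff {i : ℕ} {x : Qbar} (h : A.valuation x ≤ R.vπ ^ i) :
    R.coef i x = 0 ↔ A.valuation x < R.vπ ^ i := by
  rw [R.coef_eq h, residue_eq_zero_iff, ValuationSubring.valuation_lt_one_iff]
  show A.valuation (x / (R.π : Qbar) ^ i) < 1 ↔ _
  rw [map_div₀, map_pow]
  exact div_lt_one₀ (pow_pos R.vπ_pos _)

theorem coef_add {i : ℕ} {x y : Qbar} (hx : A.valuation x ≤ R.vπ ^ i)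
    (hy : A.valuation y ≤ R.vπ ^ i) : R.coef i (x + y) = R.coef i x + R.coef i y := by
  rw [R.coef_eq hx, R.coef_eq hy, R.coef_eq (A.valuation.map_add_le hx hy), ← map_add]
  exact congrArg _ (Subtype.ext (add_div _ _ _))

theorem coef_congr {i : ℕ} {x y : Qbar} (hy : A.valuation y ≤ R.vπ ^ i)
    (h : A.valuation (x - y) < R.vπ ^ i) : R.coef i x = R.coef i y := by
  have h2 := R.coef_add hy h.le
  rwa [add_sub_cancel, (R.coef_eq_zero_iff h.le).2 h, add_zero] at h2

include R in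
/-- Expansion of `(1 + d) ^ p - 1`. -/
theorem valuation_pow_sub_one_sub_le {d : Qbar} (hd : A.valuation d ≤ 1) :
    A.valuation ((1 + d) ^ p - 1 - (d ^ p + (p : Qbar) * d)) ≤
      A.valuation (p : Qbar) * A.valuation d ^ 2 := by
  obtain ⟨n, hn⟩ : ∃ n, p = n + 2 := ⟨p - 2, by have := R.prime.two_le; omega⟩
  have e : (1 + d) ^ p - 1 - (d ^ p + (p : Qbar) * d) =
      ∑ j ∈ range n, (p.choose (j + 2) : Qbar) * d ^ (j + 2) := by
    rw [add_comm 1 d, add_pow, sum_range_succ]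
    conv_lhs => rw [hn, sum_range_succ', sum_range_succ']
    simp only [one_pow, mul_one, pow_zero, Nat.choose_zero_right, Nat.cast_one, zero_add, pow_one,
      Nat.choose_one_right, Nat.choose_self, ← hn]
    have : ∀ j, d ^ (j + 1 + 1) * (p.choose (j + 1 + 1) : Qbar) =
        (p.choose (j + 2) : Qbar) * d ^ (j + 2) := fun j => mul_comm _ _
    simp only [this]
    ring
  rw [e]
  refine A.valuation.map_sum_le fun j hj => ?_
  obtain ⟨c, hc⟩ := Nat.Prime.dvd_choose_self R.prime (k := j + 2) (by omega)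
    (by have := mem_range.1 hj; omega)
  rw [hc, Nat.cast_mul, map_mul, map_mul, map_pow, mul_assoc]
  refine mul_le_mul_right ?_ _
  refine (mul_le_of_le_one_left' (LocalInertia.valuation_natCast_le_one A c)).trans ?_
  rw [pow_add, mul_comm]
  exact mul_le_of_le_one_right' (pow_le_one₀ zero_le hd)

/-- A `p`-th power close to one is closer. -/
theorem pow_sub_one_lt {b : Qbar} (hb : b ∈ R.fld) {i : ℕ} (hpi : ¬ p ∣ i)
    (hi : i < p * R.E) (h : A.valuation (b ^ p - 1) ≤ R.vπ ^ i) :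
    A.valuation (b ^ p - 1) < R.vπ ^ i := by
  have := R.prime_fact
  have := GaloisBasics.residueField_charP R.over R.prime
  have hi0 : i ≠ 0 := fun h => hpi (h ▸ dvd_zero p)
  have hsmall : A.valuation (b ^ p - 1) < 1 :=
    h.trans_lt (pow_lt_one₀ zero_le R.vπ_lt_one hi0)
  have hbp : A.valuation (b ^ p) = 1 := by
    have := A.valuation.map_add_eq_of_lt_left (x := (1 : Qbar)) (y := b ^ p - 1)
      (by rwa [map_one])
    rwa [add_sub_cancel, map_one] at this
  have hbA : b ∈ A := by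
    rw [← A.valuation_le_one_iff]
    rw [map_pow] at hbp
    exact (pow_le_one_iff_of_nonneg zero_le R.prime.ne_zero).1 hbp.le
  set d := b - 1 with hd
  have hd1 : A.valuation d < 1 := by
    refine LocalInertia.valuation_sub_lt_of_residue_eq (a := ⟨b, hbA⟩) (b := 1) ?_
    rw [map_one]
    apply frobenius_inj (ResidueField A) p
    simp only [frobenius_def, one_pow]
    rw [← map_pow, ← map_one (residue A)]
    exact LocalInertia.residue_eq_of_valuation_sub_lt (by simpa using hsmall)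
  have hexp := R.valuation_pow_sub_one_sub_le hd1.le
  rw [show (1 : Qbar) + d = b by rw [hd]; ring] at hexp
  rcases eq_or_ne d 0 with h0 | h0
  · rw [show b = 1 by linear_combination h0]
    simpa using pow_pos R.vπ_pos i
  obtain ⟨l, hl⟩ := R.exists_zpow (x := d) (sub_mem hb (one_mem _)) h0
  have hl1 : (1 : ℤ) ≤ l := by
    by_contra! hlt
    rw [hl] at hd1
    exact absurd hd1 (not_lt.2 (one_le_zpow_of_nonpos₀ R.vπ_pos R.vπ_lt_one.le (by omega)))
  obtain ⟨l, rfl⟩ := Int.eq_ofNat_of_zero_le (by omega : (0 : ℤ) ≤ l)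
  rw [zpow_natCast] at hl
  have hle : A.valuation ((p : Qbar) * d) = R.vπ ^ (R.ee + l) := by
    rw [map_mul, ← R.vπ_pow_ee, hl, pow_add]
  have hexp' : A.valuation (b ^ p - 1 - (d ^ p + (p : Qbar) * d)) ≤ R.vπ ^ (R.ee + l) := by
    refine hexp.trans ?_
    rw [← R.vπ_pow_ee, hl, ← pow_mul, ← pow_add]
    exact R.pow_le_pow (by omega)
  have hrest : A.valuation (b ^ p - 1 - d ^ p) ≤ R.vπ ^ (R.ee + l) := by
    rw [show b ^ p - 1 - d ^ p = (b ^ p - 1 - (d ^ p + (p : Qbar) * d)) + (p : Qbar) * d by ring]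
    exact A.valuation.map_add_le hexp' hle.le
  have hdp : A.valuation (d ^ p) = R.vπ ^ (p * l) := by rw [map_pow, hl, ← pow_mul, mul_comm]
  have hne : p * l ≠ i := fun h => hpi (h ▸ dvd_mul_right p l)
  have hee := R.ee_add_E
  rcases lt_or_gt_of_ne hne with hlt | hgt
  · -- impossible: the leading term would be too large
    have hlE : p * l < R.ee + l := by
      have hlE' : l < R.E := Nat.lt_of_mul_lt_mul_left (hlt.trans hi)
      nlinarith [R.prime.two_le]
    have h2 := A.valuation.map_add_eq_of_lt_left (x := d ^ p) (y := b ^ p - 1 - d ^ p)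
      (by rw [hdp]; exact hrest.trans_lt (R.pow_lt_pow hlE))
    rw [add_sub_cancel, hdp] at h2
    rw [h2] at h
    exact absurd h (not_le.2 (R.pow_lt_pow hlt))
  · have hel : i < R.ee + l := by
      rcases le_or_gt R.E l with h' | h'
      · omega
      · nlinarith [R.prime.two_le]
    rw [← sub_add_cancel (b ^ p - 1) (d ^ p)]
    exact A.valuation.map_add_lt (hrest.trans_lt (R.pow_lt_pow hel))
      (by rw [hdp]; exact R.pow_lt_pow hgt)

/-- `γ` has level `i` with coefficient `r`. -/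
def HasCoef (γ : GalQ → ZMod p) (i : ℕ) (r : ResidueField A) : Prop :=
  ∃ α, R.Kum γ α ∧ A.valuation (α ^ p - 1) ≤ R.vπ ^ i ∧ R.coef i (α ^ p - 1) = r

/-- A level has a coefficient. -/
theorem hasCoef_of_lev {γ : GalQ → ZMod p} {i : ℕ} (h : R.Lev γ i) : ∃ r, R.HasCoef γ i r := by
  obtain ⟨α, hα, hv⟩ := h
  exact ⟨_, α, hα, hv, rfl⟩

/-- The coefficient is unique below `p E` at levels prime to `p`. -/
theorem hasCoef_unique {γ : GalQ → ZMod p} {i : ℕ} (hpi : ¬ p ∣ i) (hi : i < p * R.E)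
    {r r' : ResidueField A} (h : R.HasCoef γ i r) (h' : R.HasCoef γ i r') : r = r' := by
  obtain ⟨α, hα, hv, rfl⟩ := h
  obtain ⟨α', hα', hv', rfl⟩ := h'
  have hb := hα.div_mem R hα'
  set b := α' / α with hbdef
  have hi0 : i ≠ 0 := fun h => hpi (h ▸ dvd_zero p)
  have hi1 : R.vπ ^ i < 1 := pow_lt_one₀ zero_le R.vπ_lt_one hi0
  have h1 : A.valuation (α ^ p) = 1 := by
    have := A.valuation.map_add_eq_of_lt_left (x := (1 : Qbar)) (y := α ^ p - 1)
      (by rw [map_one]; exact hv.trans_lt hi1)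
    rwa [add_sub_cancel, map_one] at this
  have e : α' ^ p = α ^ p * b ^ p := by
    rw [hbdef, div_pow, mul_div_cancel₀ _ (pow_ne_zero _ hα.1)]
  have hbv : A.valuation (b ^ p - 1) ≤ R.vπ ^ i := by
    have e2 : b ^ p - 1 = ((α' ^ p - 1) - (α ^ p - 1)) / α ^ p := by
      rw [eq_div_iff (pow_ne_zero _ hα.1), e]; ring
    rw [e2, map_div₀, h1, div_one]
    exact A.valuation.map_sub_le hv' hv
  have hblt := R.pow_sub_one_lt hb hpi hi hbv
  refine (R.coef_congr hv ?_).symm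
  rw [show α' ^ p - 1 - (α ^ p - 1) = α ^ p * (b ^ p - 1) by rw [e]; ring, map_mul, h1, one_mul]
  exact hblt

/-- The coefficients are additive. -/
theorem HasCoef.add {γ γ' : GalQ → ZMod p} {i : ℕ} {r r' : ResidueField A} (hi : i ≠ 0)
    (h : R.HasCoef γ i r) (h' : R.HasCoef γ' i r') : R.HasCoef (γ + γ') i (r + r') := by
  obtain ⟨α, hα, hv, rfl⟩ := h
  obtain ⟨α', hα', hv', rfl⟩ := h'
  have hi1 : R.vπ ^ i < 1 := pow_lt_one₀ zero_le R.vπ_lt_one hi
  have hlt : A.valuation ((α * α') ^ p - 1 - ((α ^ p - 1) + (α' ^ p - 1))) < R.vπ ^ i := by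
    rw [mul_pow]
    exact (valuation_mul_sub_one_lt hv hv').trans_lt
      (mul_lt_of_lt_one_left (pow_pos R.vπ_pos _) hi1)
  have hle : A.valuation ((α * α') ^ p - 1) ≤ R.vπ ^ i := by
    rw [← sub_add_cancel ((α * α') ^ p - 1) ((α ^ p - 1) + (α' ^ p - 1))]
    exact A.valuation.map_add_le hlt.le (A.valuation.map_add_le hv hv')
  exact ⟨_, hα.add R hα', hle, by
    rw [R.coef_congr (A.valuation.map_add_le hv hv') hlt, R.coef_add hv hv']⟩

/-- Twisting by an element of the decomposition group. -/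
theorem HasCoef.conj {γ : GalQ → ZMod p} {i : ℕ} {r : ResidueField A} (h : R.HasCoef γ i r)
    {g : GalQ} (hg : g ∈ A.decompositionSubgroup ℚ) {n : ℕ} (hn : g R.ζ = R.ζ ^ n)
    (ψ : ResidueField A → ResidueField A)
    (hψ : ∀ (x y : A), g (x : Qbar) = y → residue A y = ψ (residue A x))
    {u : A} (hu : g (R.π : Qbar) = u * R.π) :
    R.HasCoef (fun σ => (n : ZMod p) * γ (g⁻¹ * σ * g)) i (residue A u ^ i * ψ r) := by
  obtain ⟨α, hα, hv, rfl⟩ := h
  have hv' : A.valuation (g α ^ p - 1) ≤ R.vπ ^ i := by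
    rw [show g α ^ p - 1 = g (α ^ p - 1) by rw [map_sub, map_pow, map_one],
      LocalInertia.valuation_apply hg]
    exact hv
  refine ⟨g α, hα.conj R hg hn, hv', ?_⟩
  rw [R.coef_eq hv', R.coef_eq hv]
  have hxA : g ((α ^ p - 1) / (R.π : Qbar) ^ i) ∈ A :=
    (LocalInertia.mem_decompositionSubgroup_iff.1 hg _).2 (R.div_pow_mem hv)
  rw [← hψ ⟨_, R.div_pow_mem hv⟩ ⟨_, hxA⟩ rfl, ← map_pow (residue A),
    ← map_mul (residue A)]
  refine congrArg _ (Subtype.ext ?_)
  simp only [MulMemClass.coe_mul, SubmonoidClass.coe_pow, map_div₀, map_sub, map_pow, map_one, hu]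
  rw [mul_pow, mul_div_assoc']
  have hu0 : (u : Qbar) ^ i ≠ 0 := pow_ne_zero _ fun h0 => by
    rw [h0, zero_mul, map_eq_zero] at hu
    exact R.π.ne_zero hu
  rw [mul_div_mul_left _ _ hu0]

/-- A vanishing coefficient raises the level. -/
theorem lev_succ_of_coef_zero {γ : GalQ → ZMod p} {i : ℕ} (h : R.HasCoef γ i 0) :
    R.Lev γ (i + 1) := by
  obtain ⟨α, hα, hv, h0⟩ := h
  refine ⟨α, hα, ?_⟩
  have := R.valuation_le_of_lt (x := α ^ p - 1) (sub_mem (hα.pow_mem R) (one_mem _))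
    (j := i) (by rw [zpow_natCast]; exact (R.coef_eq_zero_iff hv).1 h0)
  exact_mod_cast this

/-- Multiplying by the `p`-th power of a unit correcting the coefficient. -/
theorem lev_succ_of_correction {γ : GalQ → ZMod p} {i : ℕ} (hi : i ≠ 0) {α b : Qbar}
    (hα : R.Kum γ α) (hb : b ∈ R.fld) (hb0 : b ≠ 0) (hv : A.valuation (α ^ p - 1) ≤ R.vπ ^ i)
    (hbv : A.valuation (b ^ p - 1) ≤ R.vπ ^ i)
    (hsum : A.valuation ((α ^ p - 1) + (b ^ p - 1)) < R.vπ ^ i) : R.Lev γ (i + 1) := by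
  have hi1 : R.vπ ^ i < 1 := pow_lt_one₀ zero_le R.vπ_lt_one hi
  refine ⟨α * b, hα.mul_fld R hb hb0, ?_⟩
  have hlt : A.valuation ((α * b) ^ p - 1) < R.vπ ^ i := by
    rw [← sub_add_cancel ((α * b) ^ p - 1) ((α ^ p - 1) + (b ^ p - 1))]
    refine A.valuation.map_add_lt ?_ hsum
    rw [mul_pow]
    exact (valuation_mul_sub_one_lt hv hbv).trans_lt
      (mul_lt_of_lt_one_left (pow_pos R.vπ_pos _) hi1)
  have := R.valuation_le_of_lt (x := (α * b) ^ p - 1)
    (sub_mem ((hα.mul_fld R hb hb0).pow_mem R) (one_mem _)) (j := i) (by rwa [zpow_natCast])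
  exact_mod_cast this

theorem valuation_one_add_ne_zero {d : Qbar} (hd : A.valuation d < 1) : 1 + d ≠ 0 := fun h => by
  have h1 := A.valuation.map_add_eq_of_lt_left (x := (1 : Qbar)) (y := d) (by rwa [map_one])
  rw [h, map_zero, map_one] at h1
  exact zero_ne_one h1

theorem fixed_mem_fld {w : Qbar} (hw : ∀ σ ∈ A.inertiaSubgroupIn ℚ, σ w = w) : w ∈ R.fld :=
  R.mem_fld.2 fun σ hσ => hw σ (R.H_le hσ)

/-- Levels divisible by `p` can be raised. -/
theorem lev_succ_of_dvd {γ : GalQ → ZMod p} {l : ℕ} (hl : l ≠ 0) (hlE : l ≤ R.E)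
    (h : R.Lev γ (p * l)) : R.Lev γ (p * l + 1) := by
  have := R.prime_fact
  have := GaloisBasics.residueField_charP R.over R.prime
  have := GaloisBasics.residueField_isAlgClosed A
  obtain ⟨α, hα, hv⟩ := h
  have hpl : p * l ≠ 0 := mul_ne_zero R.prime.ne_zero hl
  rcases lt_or_eq_of_le hlE with hlt | rfl
  · set r := R.coef (p * l) (α ^ p - 1) with hr
    obtain ⟨z, hz⟩ := IsAlgClosed.exists_pow_nat_eq (-r) R.prime.pos
    obtain ⟨w, hwz, hwfix⟩ := exists_fixed_lift R.over R.prime z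
    set d := (w : Qbar) * (R.π : Qbar) ^ l with hd
    have hdv : A.valuation d ≤ R.vπ ^ l := by
      rw [hd, map_mul, map_pow]
      exact mul_le_of_le_one_left' ((A.valuation_le_one_iff _).2 w.2)
    have hd1 : A.valuation d < 1 := hdv.trans_lt (pow_lt_one₀ zero_le R.vπ_lt_one hl)
    have hdmem : d ∈ R.fld := mul_mem (R.fixed_mem_fld hwfix) (pow_mem R.π_mem l)
    have hlEe : p * l < R.ee + l := by
      have := R.ee_add_E
      nlinarith [R.prime.two_le]
    have hrest : A.valuation ((1 + d) ^ p - 1 - d ^ p) < R.vπ ^ (p * l) := by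
      rw [show (1 + d) ^ p - 1 - d ^ p = ((1 + d) ^ p - 1 - (d ^ p + (p : Qbar) * d)) +
        (p : Qbar) * d by ring]
      refine lt_of_le_of_lt (A.valuation.map_add_le ((R.valuation_pow_sub_one_sub_le hd1.le).trans
        ?_) ?_) (R.pow_lt_pow hlEe)
      · rw [← R.vπ_pow_ee, pow_add, sq]
        exact mul_le_mul_right ((mul_le_of_le_one_left' hd1.le).trans hdv) _
      · rw [map_mul, ← R.vπ_pow_ee, pow_add]
        exact mul_le_mul_right hdv _
    have hdp : A.valuation (d ^ p) ≤ R.vπ ^ (p * l) := by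
      rw [map_pow, mul_comm, pow_mul]; exact pow_le_pow_left' hdv p
    have hbv : A.valuation ((1 + d) ^ p - 1) ≤ R.vπ ^ (p * l) := by
      rw [← sub_add_cancel ((1 + d) ^ p - 1) (d ^ p)]
      exact A.valuation.map_add_le hrest.le hdp
    refine R.lev_succ_of_correction hpl hα (add_mem (one_mem _) hdmem)
      (valuation_one_add_ne_zero hd1) hv hbv ?_
    refine (R.coef_eq_zero_iff (A.valuation.map_add_le hv hbv)).1 ?_
    rw [R.coef_add hv hbv, R.coef_congr hdp hrest, R.coef_eq hdp, ← hr]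
    have e : (⟨d ^ p / (R.π : Qbar) ^ (p * l), R.div_pow_mem hdp⟩ : A) = w ^ p := by
      refine Subtype.ext ?_
      show d ^ p / (R.π : Qbar) ^ (p * l) = (w : Qbar) ^ p
      rw [hd, mul_pow, ← pow_mul, mul_comm l p,
        mul_div_cancel_right₀ _ (pow_ne_zero _ R.π.ne_zero)]
    rw [e, map_pow, hwz, hz, add_neg_cancel]
  · -- the Artin–Schreier step
    set y := R.ζ - 1 with hy
    have hy0 : y ≠ 0 := sub_ne_zero.2 (R.prim.ne_one R.prime.one_lt)
    have hyp : y ^ p ≠ 0 := pow_ne_zero _ hy0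
    have hypv : A.valuation (y ^ p) = R.vπ ^ (p * R.E) := by rw [map_pow, R.valuation_zeta_pow]
    have hcA : (α ^ p - 1) / y ^ p ∈ A := by
      rw [← A.valuation_le_one_iff, map_div₀, hypv]
      exact (div_le_one₀ (pow_pos R.vπ_pos _)).2 hv
    set c := residue A ⟨_, hcA⟩ with hc
    obtain ⟨z, hz⟩ : ∃ z : ResidueField A, z ^ p - z + c = 0 := by
      let P : Polynomial (ResidueField A) :=
        Polynomial.X ^ p - (Polynomial.X - Polynomial.C c)
      have hdeg : P.degree = p := by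
        rw [Polynomial.degree_sub_eq_left_of_degree_lt] <;>
          simp [Polynomial.degree_X_sub_C, R.prime.one_lt]
      obtain ⟨z, hz⟩ := IsAlgClosed.exists_root P (by
        rw [hdeg]; exact_mod_cast R.prime.ne_zero)
      exact ⟨z, by simpa [P, sub_sub_eq_add_sub, add_sub_right_comm] using hz⟩
    obtain ⟨w, hwz, hwfix⟩ := exists_fixed_lift R.over R.prime z
    set d := (w : Qbar) * y with hd
    have hw1 : A.valuation (w : Qbar) ≤ 1 := (A.valuation_le_one_iff _).2 w.2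
    have hyv : A.valuation y = R.vπ ^ R.E := R.valuation_zeta
    have hdv : A.valuation d ≤ R.vπ ^ R.E := by
      rw [hd, map_mul, hyv]; exact mul_le_of_le_one_left' hw1
    have hd1 : A.valuation d < 1 :=
      hdv.trans_lt (pow_lt_one₀ zero_le R.vπ_lt_one R.E_pos.ne')
    have hdmem : d ∈ R.fld :=
      mul_mem (R.fixed_mem_fld hwfix) (sub_mem R.zeta_mem (one_mem _))
    set u := (p : Qbar) + y ^ (p - 1) with hu
    have hu' : A.valuation u < A.valuation (p : Qbar) := by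
      rw [hu, add_comm]; exact valuation_zeta_sub_one_pow_add_lt R.over R.prime R.prim
    have hpy : y ^ (p - 1) * y = y ^ p := by
      rw [← pow_succ, Nat.sub_add_cancel R.prime.one_lt.le]
    have hmain : A.valuation ((1 + d) ^ p - 1 - y ^ p * ((w : Qbar) ^ p - w)) <
        R.vπ ^ (p * R.E) := by
      have e : (1 + d) ^ p - 1 - y ^ p * ((w : Qbar) ^ p - w) =
          ((1 + d) ^ p - 1 - (d ^ p + (p : Qbar) * d)) + u * d := by
        rw [hd, hu, mul_pow, ← hpy]; ring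
      rw [e, show p * R.E = R.ee + R.E from R.ee_add_E.symm, pow_add, R.vπ_pow_ee]
      refine A.valuation.map_add_lt ((R.valuation_pow_sub_one_sub_le hd1.le).trans_lt ?_) ?_
      · refine mul_lt_mul_of_pos_left ?_ (valuation_natCast_prime_pos A R.prime)
        rw [sq]
        refine lt_of_le_of_lt (mul_le_mul' hdv hdv) ?_
        exact mul_lt_of_lt_one_left (pow_pos R.vπ_pos _)
          (pow_lt_one₀ zero_le R.vπ_lt_one R.E_pos.ne')
      · rw [map_mul]
        exact lt_of_le_of_lt (mul_le_mul_right hdv _)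
          (mul_lt_mul_of_pos_right hu' (pow_pos R.vπ_pos _))
    have hterm : A.valuation (y ^ p * ((w : Qbar) ^ p - w)) ≤ R.vπ ^ (p * R.E) := by
      rw [map_mul, hypv]
      exact mul_le_of_le_one_right' (A.valuation.map_sub_le (by rw [map_pow]; exact pow_le_one' hw1 p) hw1)
    have hbv : A.valuation ((1 + d) ^ p - 1) ≤ R.vπ ^ (p * R.E) := by
      rw [← sub_add_cancel ((1 + d) ^ p - 1) (y ^ p * ((w : Qbar) ^ p - w))]
      exact A.valuation.map_add_le hmain.le hterm
    refine R.lev_succ_of_correction hpl hα (add_mem (one_mem _) hdmem)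
      (valuation_one_add_ne_zero hd1) hv hbv ?_
    rw [show (α ^ p - 1) + ((1 + d) ^ p - 1) =
      ((1 + d) ^ p - 1 - y ^ p * ((w : Qbar) ^ p - w)) +
        y ^ p * ((α ^ p - 1) / y ^ p + ((w : Qbar) ^ p - w)) by
      rw [mul_add, mul_div_cancel₀ _ hyp]; ring]
    refine A.valuation.map_add_lt hmain ?_
    rw [map_mul, hypv]
    refine mul_lt_of_lt_one_right (pow_pos R.vπ_pos _) ?_
    have h0 : residue A (⟨_, hcA⟩ + (w ^ p - w)) = 0 := by
      rw [map_add, map_sub, map_pow, hwz, ← hc]; linear_combination hz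
    rw [residue_eq_zero_iff, ValuationSubring.valuation_lt_one_iff] at h0
    exact h0

/-- Only zero has the level above `p E`. -/
theorem eq_zero_of_lev_top {γ : GalQ → ZMod p} (h : R.Lev γ (p * R.E + 1)) :
    ∀ σ ∈ R.H, γ σ = 0 := by
  obtain ⟨α, hα, hv⟩ := h
  have hlt : A.valuation (α ^ p - 1) < A.valuation (R.ζ - 1) ^ p := by
    rw [R.valuation_zeta_pow]
    exact hv.trans_lt (R.pow_lt_pow (Nat.lt_succ_self _))
  obtain ⟨y, hy, -, hyfix⟩ := exists_root_near_one R.over R.prime R.prim hlt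
  intro σ hσ
  have hσy := hyfix σ (R.H_le_decomposition hσ) (R.mem_fld.1 (hα.pow_mem R) σ hσ)
  have hy0 : y ≠ 0 := fun h => pow_ne_zero p hα.1 (by rw [← hy, h, zero_pow R.prime.ne_zero])
  have hratio : (α / y) ^ p = 1 := by
    rw [div_pow, hy, div_self (pow_ne_zero _ hα.1)]
  have : NeZero p := ⟨R.prime.ne_zero⟩
  obtain ⟨k, -, hk⟩ := R.prim.eq_pow_of_pow_eq_one hratio
  have hαy : α = R.ζ ^ k * y := by rw [hk, div_mul_cancel₀ _ hy0]
  have hσα : σ α = α := by rw [hαy, map_mul, map_pow, R.apply_zeta hσ, hσy]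
  have h2 := hα.2 σ hσ
  rw [hσα] at h2
  exact R.zeta_pow_val_eq_one ((mul_eq_right₀ hα.1).1 h2.symm)

/-- A Kummer element of value prime to `p`, or level one. -/
theorem lev_one_or_tame {γ : GalQ → ZMod p} {α : Qbar} (hα : R.Kum γ α) :
    R.Lev γ 1 ∨ ∃ m : ℤ, A.valuation (α ^ p) = R.vπ ^ m ∧ ¬ (p : ℤ) ∣ m := by
  have := R.prime_fact
  have := GaloisBasics.residueField_charP R.over R.prime
  have := GaloisBasics.residueField_isAlgClosed A
  obtain ⟨m, hm⟩ := R.exists_zpow (hα.pow_mem R) (pow_ne_zero _ hα.1)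
  by_cases hdvd : (p : ℤ) ∣ m
  · left
    obtain ⟨l, rfl⟩ := hdvd
    set β := α * ((R.π : Qbar) ^ (-l)) with hβ
    have hπl : (R.π : Qbar) ^ (-l) ≠ 0 := zpow_ne_zero _ R.π.ne_zero
    have hβk := hα.mul_fld R (zpow_mem R.π_mem (-l)) hπl
    have hβv : A.valuation (β ^ p) = 1 := by
      rw [hβ, mul_pow, map_mul, hm, ← zpow_natCast ((R.π : Qbar) ^ (-l)), ← zpow_mul, map_zpow₀,
        show A.valuation (R.π : Qbar) = R.vπ from rfl, ← zpow_add₀ R.vπ_pos.ne',
        show (p : ℤ) * l + -l * p = 0 by ring, zpow_zero]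
    have hβA : β ^ p ∈ A := (A.valuation_le_one_iff _).1 hβv.le
    set r := residue A ⟨_, hβA⟩ with hr
    have hr0 : r ≠ 0 := fun h => by
      rw [hr, residue_eq_zero_iff, ValuationSubring.valuation_lt_one_iff] at h
      exact h.ne hβv
    obtain ⟨z, hz⟩ := IsAlgClosed.exists_pow_nat_eq r⁻¹ R.prime.pos
    obtain ⟨w, hwz, hwfix⟩ := exists_fixed_lift R.over R.prime z
    have hw0 : (w : Qbar) ≠ 0 := fun h => inv_ne_zero hr0 (by
      rw [← hz, ← hwz, show w = 0 from Subtype.ext h, map_zero, zero_pow R.prime.ne_zero])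
    refine ⟨β * w, hβk.mul_fld R (R.fixed_mem_fld hwfix) hw0, ?_⟩
    have hlt : A.valuation ((β * w) ^ p - 1) < 1 := by
      have h1 : residue A (⟨_, hβA⟩ * w ^ p) = residue A 1 := by
        rw [map_mul, map_pow, hwz, hz, ← hr, mul_inv_cancel₀ hr0, map_one]
      have := LocalInertia.valuation_sub_lt_of_residue_eq h1
      simpa [mul_pow] using this
    have := R.valuation_le_of_lt (x := (β * w) ^ p - 1)
      (sub_mem ((hβk.mul_fld R (R.fixed_mem_fld hwfix) hw0).pow_mem R) (one_mem _)) (j := 0)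
      (by rwa [zpow_zero])
    simpa using this
  · exact Or.inr ⟨m, hm, hdvd⟩

end TameRoot

end Fermat.Agent.FlatBound
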