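import Fermat.Agent.FlatBound.Classify
import Fermat.Agent.FlatModels.FlatAt
import Fermat.Agent.TWLocal.Conditions

/-!
# The flat local condition at `p`

`Lflat p rb A` is spanned by the restrictions of the cocycles with a flat first order deformation
and by the coboundaries; it has dimension at most four and contains the tangent cocycles of flat
deformations.
-/

set_option autoImplicit false

noncomputable section

open IsLocalRing
open Fermat.Agent.TangentBound
open Fermat.Agent.TWAssembly (adCocycles adCoboundary resPlace conjMap)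
open Fermat.Agent.GaloisBasics (Qbar GalQ)
open Fermat.Agent.FlatModels (HasFlatModel)

namespace Fermat.Agent.FlatBound

section Bound

variable {k : Type} [Field k]

/-- The flat local condition. -/
def Lflat (p : ℕ) (rb : GQ →* Mat2 k) (A : ValuationSubring Qbar) :
    Submodule k (A.decompositionSubgroup ℚ → Mat2 k) :=
  Submodule.span k (resPlace A '' {c | c ∈ adCocycles rb ∧ HasFlatModel p (dualAct rb c)}) ⊔
    LinearMap.range (TWLocal.cob rb (A.decompositionSubgroup ℚ))

variable {p : ℕ} {rb : GQ →* Mat2 k} {A : ValuationSubring Qbar}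

theorem mem_Lflat {c : GQ → Mat2 k} (hc : c ∈ adCocycles rb)
    (hflat : HasFlatModel p (dualAct rb c)) : resPlace A c ∈ Lflat p rb A :=
  Submodule.mem_sup_left (Submodule.subset_span ⟨c, ⟨hc, hflat⟩, rfl⟩)

/-- Coboundaries satisfy the flat condition. -/
theorem cob_mem_Lflat (X : Mat2 k) :
    TWLocal.cob rb (A.decompositionSubgroup ℚ) X ∈ Lflat p rb A :=
  Submodule.mem_sup_right ⟨X, rfl⟩

theorem range_cob_le_of_flat (hcont : ContRep rb) {L : Submodule k (A.decompositionSubgroup ℚ → Mat2 k)}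
    (hL : ∀ c ∈ adCocycles rb, HasFlatModel p (dualAct rb c) → resPlace A c ∈ L)
    {c : GQ → Mat2 k} (hc : c ∈ adCocycles rb) (hflat : HasFlatModel p (dualAct rb c))
    (h2 : (2 : k) ≠ 0) :
    LinearMap.range (TWLocal.cob rb (A.decompositionSubgroup ℚ)) ≤ L := by
  rintro _ ⟨X, rfl⟩
  set t : k := X.trace / 2 with ht
  have hX0 : (X - t • (1 : Mat2 k)).trace = 0 := by
    rw [Matrix.trace_sub, Matrix.trace_smul, Matrix.trace_one, Fintype.card_fin, smul_eq_mul,
      Nat.cast_ofNat, ht, div_mul_cancel₀ _ h2, sub_self]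
  have h1 : TWLocal.cob rb (A.decompositionSubgroup ℚ) (1 : Mat2 k) = 0 := by
    funext σ
    rw [TWLocal.cob_apply, TWLocal.adj_apply, mul_one, TWLocal.rb_mul_inv, sub_self, Pi.zero_apply]
  have h : resPlace A (adCoboundary rb (X - t • (1 : Mat2 k))) ∈ L := by
    have e := sub_mem (hL _ (add_mem hc (adCoboundary_mem hcont hX0))
      (hasFlatModel_add_coboundary hflat _)) (hL c hc hflat)
    rwa [← map_sub, add_sub_cancel_left] at e
  have e : TWLocal.cob rb (A.decompositionSubgroup ℚ) (X - t • (1 : Mat2 k)) =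
      TWLocal.cob rb (A.decompositionSubgroup ℚ) X := by
    rw [map_sub, map_smul, h1, smul_zero, sub_zero]
  rw [← e]
  exact h

/-- The flat local condition has dimension at most four. -/
theorem finrank_Lflat_le [Finite k] (hA : A.LiesOverPrime p) (hp : p.Prime) (hp2 : p ≠ 2)
    (hk : (p : k) = 0) (hcont : ContRep rb) (hdet : CycloDet p rb) :
    FiniteDimensional k (Lflat p rb A) ∧ Module.finrank k (Lflat p rb A) ≤ 4 := by
  obtain ⟨hfin, hdim⟩ := TWLocal.finrank_range_cob_le (rb := rb) (A := A)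
  by_cases h : ∃ c ∈ adCocycles rb, HasFlatModel p (dualAct rb c)
  · obtain ⟨c, hc, hflat⟩ := h
    obtain ⟨L, hLfin, hL4, hL⟩ := exists_bound_of_flat hA hp hp2 hk hcont hdet hflat
    have h2 : (2 : k) ≠ 0 := fun h2 => by
      have : CharP k p := (CharP.charP_iff_prime_eq_zero hp).2 hk
      have h1 : p ∣ 2 := (CharP.cast_eq_zero_iff k p 2).1 (by exact_mod_cast h2)
      exact hp2 ((Nat.prime_dvd_prime_iff_eq hp Nat.prime_two).1 h1)
    have hle : Lflat p rb A ≤ L := sup_le
      (Submodule.span_le.2 (by rintro _ ⟨e, ⟨he, hef⟩, rfl⟩; exact hL e he hef))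
      (range_cob_le_of_flat hcont hL hc hflat h2)
    exact ⟨Submodule.finiteDimensional_of_le hle, (Submodule.finrank_mono hle).trans hL4⟩
  · have e : Lflat p rb A = LinearMap.range (TWLocal.cob rb (A.decompositionSubgroup ℚ)) := by
      push Not at h
      rw [Lflat, sup_eq_right, Submodule.span_le]
      rintro _ ⟨c, ⟨hc, hflat⟩, rfl⟩
      exact absurd hflat (h c hc)
    rw [e]
    exact ⟨hfin, hdim.trans (by norm_num)⟩

end Bound

section Bridge

variable {𝒪 : Type} [CommRing 𝒪] [IsDomain 𝒪] [IsDiscreteValuationRing 𝒪]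
  [IsAdicComplete (maximalIdeal 𝒪) 𝒪] {ρbar : ResidualGaloisRep (ResidueField 𝒪)}
  {𝒟 : ∀ ⦃A : Type⦄ [CommRing A] [IsLocalRing A] [Algebra 𝒪 A], GaloisRepAdic A → Prop}
  (DQ : GaloisRep.DeformationRingData 𝒪 ρbar 𝒟)
  (rb : GQ →* Mat2 (ResidueField 𝒪)) (V : (Mat2 (ResidueField 𝒪))ˣ) {p : ℕ}

/-- The tangent cocycle of a flat deformation is flat. -/
theorem hasFlatModel_dualAct_tangentCocycle [Finite (ResidueField 𝒪)]
    (hV : ∀ σ, (V : Mat2 (ResidueField 𝒪)) * barMat DQ σ = rb σ * V)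
    (hflat : DQ.ρ.IsFlatAt p) (d : derSpace DQ.residue_surjective) :
    HasFlatModel p (dualAct rb (conjMap V (tangentCocycle DQ d))) := by
  classical
  set res : DQ.R →+* ResidueField 𝒪 := (resK DQ.residue_surjective : DQ.R →+* ResidueField 𝒪)
    with hres
  set dd : DQ.R →+ ResidueField 𝒪 := (d : DQ.R →ₗ[𝒪] ResidueField 𝒪).toAddMonoidHom with hdd
  have hder : ∀ x y, dd (x * y) = res x * dd y + res y * dd x := d.2
  let φ : DQ.R →+* DualNumber (ResidueField 𝒪) :=
    (dualHom DQ.residue_surjective d : DQ.R →+* DualNumber (ResidueField 𝒪))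
  set I : Ideal DQ.R := RingHom.ker φ with hI
  have hIfin : Finite (DQ.R ⧸ I) := by
    have : Finite (DualNumber (ResidueField 𝒪)) :=
      inferInstanceAs (Finite (ResidueField 𝒪 × ResidueField 𝒪))
    exact Finite.of_injective (RingHom.kerLift φ) (RingHom.kerLift_injective φ)
  have hIzero : ∀ x ∈ I, res x = 0 ∧ dd x = 0 := by
    intro x hx
    have h : TrivSqZeroExt.inl (res x) + TrivSqZeroExt.inr (dd x) = 0 := hx
    refine ⟨?_, ?_⟩
    · simpa using congrArg TrivSqZeroExt.fst h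
    · simpa using congrArg TrivSqZeroExt.snd h
  set u := univBasis DQ
  set S : Submodule DQ.R DQ.ρ.V := I • ⊤
  let f₀ : DQ.ρ.V →+ (Fin 2 → ResidueField 𝒪) × (Fin 2 → ResidueField 𝒪) :=
    AddMonoidHom.mk'
      (fun v => ((V : Mat2 (ResidueField 𝒪)).mulVec (fun i => dd (u.repr v i)),
        (V : Mat2 (ResidueField 𝒪)).mulVec (fun i => res (u.repr v i))))
      fun v w => by
        simp only [map_add, Finsupp.add_apply, Prod.mk_add_mk, ← Matrix.mulVec_add]
        rfl
  have hS : S.toAddSubgroup ≤ f₀.ker := by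
    intro v hv
    have hmem := (TWAssembly.mem_smul_top_iff_repr u I v).1 hv
    rw [AddMonoidHom.mem_ker]
    refine Prod.ext ?_ ?_
    · show (V : Mat2 (ResidueField 𝒪)).mulVec _ = 0
      rw [show (fun i => dd (u.repr v i)) = 0 from funext fun i => (hIzero _ (hmem i)).2,
        Matrix.mulVec_zero]
    · show (V : Mat2 (ResidueField 𝒪)).mulVec _ = 0
      rw [show (fun i => res (u.repr v i)) = 0 from funext fun i => (hIzero _ (hmem i)).1,
        Matrix.mulVec_zero]
  let f : DQ.ρ.V ⧸ S →+ (Fin 2 → ResidueField 𝒪) × (Fin 2 → ResidueField 𝒪) :=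
    QuotientAddGroup.lift S.toAddSubgroup f₀ hS
  have hf : ∀ v : DQ.ρ.V, f (S.mkQ v) = f₀ v := fun v => rfl
  set c := conjMap V (tangentCocycle DQ d) with hc
  have hrepr : ∀ σ v i, u.repr (DQ.ρ.ρ σ v) i = ∑ j, univMat DQ σ i j * u.repr v j := by
    intro σ v i
    rw [← LinearMap.toMatrix_mulVec_repr u u (DQ.ρ.ρ σ) v]
    rfl
  have hcomm : ∀ σ v, f₀ (DQ.ρ.ρ σ v) = dualAct rb c σ (f₀ v) := by
    intro σ v
    have h1 : rb σ * (V : Mat2 (ResidueField 𝒪)) = (V : Mat2 (ResidueField 𝒪)) * barMat DQ σ :=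
      (hV σ).symm
    have h2 : c σ * rb σ * (V : Mat2 (ResidueField 𝒪)) =
        (V : Mat2 (ResidueField 𝒪)) * (univMat DQ σ).map dd := by
      have h3 := TWLocal.conjMap_mul_rb DQ rb V hV d σ
      rw [← hc] at h3
      rw [h3, mul_assoc _ (↑V⁻¹ : Mat2 (ResidueField 𝒪)), Units.inv_mul, mul_one]
      rfl
    have e1 : (fun i => res (u.repr (DQ.ρ.ρ σ v) i)) =
        (barMat DQ σ).mulVec (fun i => res (u.repr v i)) := by
      funext i
      rw [hrepr, map_sum]
      simp only [map_mul]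
      rfl
    have e2 : (fun i => dd (u.repr (DQ.ρ.ρ σ v) i)) =
        (barMat DQ σ).mulVec (fun i => dd (u.repr v i)) +
          ((univMat DQ σ).map dd).mulVec (fun i => res (u.repr v i)) := by
      funext i
      rw [hrepr, map_sum, Pi.add_apply]
      simp only [hder, Finset.sum_add_distrib]
      refine congrArg₂ (· + ·) rfl ?_
      simp only [mul_comm (res (u.repr v _))]
      rfl
    refine Prod.ext ?_ ?_
    · show (V : Mat2 (ResidueField 𝒪)).mulVec _ = (rb σ).mulVec ((V : Mat2 (ResidueField 𝒪)).mulVec _) +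
        (c σ * rb σ).mulVec ((V : Mat2 (ResidueField 𝒪)).mulVec _)
      rw [Matrix.mulVec_mulVec, Matrix.mulVec_mulVec, h1, h2, e2, Matrix.mulVec_add,
        Matrix.mulVec_mulVec, Matrix.mulVec_mulVec]
    · show (V : Mat2 (ResidueField 𝒪)).mulVec _ = (rb σ).mulVec ((V : Mat2 (ResidueField 𝒪)).mulVec _)
      rw [Matrix.mulVec_mulVec, h1, e1, Matrix.mulVec_mulVec]
  -- multiplication by `ε`
  let eps : (Fin 2 → ResidueField 𝒪) × (Fin 2 → ResidueField 𝒪) →+
      (Fin 2 → ResidueField 𝒪) × (Fin 2 → ResidueField 𝒪) :=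
    AddMonoidHom.mk' (fun z => (z.2, 0)) fun z w => by simp
  let q : (DQ.ρ.V ⧸ S) × (DQ.ρ.V ⧸ S) →+
      (Fin 2 → ResidueField 𝒪) × (Fin 2 → ResidueField 𝒪) := f.coprod (eps.comp f)
  have hmodel := FlatModels.hasFlatModel_level_of_isFlatAt hflat I hIfin
  refine (hmodel.prod hmodel).of_surjective q ?_ ?_
  · rintro ⟨w₁, w₂⟩
    have hsurj : ∀ w : Fin 2 → ResidueField 𝒪, ∃ v, (f₀ v).2 = w := by
      intro w
      choose r₀ hr₀ using fun i => IsLocalRing.residue_surjective (R := 𝒪)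
        (((↑V⁻¹ : Mat2 (ResidueField 𝒪)).mulVec w) i)
      let r : Fin 2 → DQ.R := fun i => algebraMap 𝒪 DQ.R (r₀ i)
      have hr : ∀ i, res (r i) = ((↑V⁻¹ : Mat2 (ResidueField 𝒪)).mulVec w) i := fun i => by
        rw [← hr₀ i]
        exact (resK DQ.residue_surjective).commutes (r₀ i)
      refine ⟨u.equivFun.symm r, ?_⟩
      show (V : Mat2 (ResidueField 𝒪)).mulVec (fun i => res (u.repr (u.equivFun.symm r) i)) = w
      have e : (fun i => res (u.repr (u.equivFun.symm r) i)) =
          (↑V⁻¹ : Mat2 (ResidueField 𝒪)).mulVec w := by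
        funext i
        rw [show u.repr (u.equivFun.symm r) i = r i from
          congrFun (u.equivFun.apply_symm_apply r) i]
        exact hr i
      rw [e, Matrix.mulVec_mulVec, Units.mul_inv, Matrix.one_mulVec]
    obtain ⟨v₂, hv₂⟩ := hsurj w₂
    obtain ⟨v₁, hv₁⟩ := hsurj (w₁ - (f₀ v₂).1)
    refine ⟨(S.mkQ v₂, S.mkQ v₁), ?_⟩
    show f (S.mkQ v₂) + eps (f (S.mkQ v₁)) = _
    rw [hf, hf]
    refine Prod.ext ?_ ?_
    · show (f₀ v₂).1 + (f₀ v₁).2 = w₁
      rw [hv₁, add_sub_cancel]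
    · show (f₀ v₂).2 + 0 = w₂
      rw [hv₂, add_zero]
  · rintro σ ⟨x, y⟩
    obtain ⟨v, rfl⟩ := S.mkQ_surjective x
    obtain ⟨w, rfl⟩ := S.mkQ_surjective y
    show f (S.mkQ (DQ.ρ.ρ σ v)) + eps (f (S.mkQ (DQ.ρ.ρ σ w))) =
      dualAct rb c σ (f (S.mkQ v) + eps (f (S.mkQ w)))
    rw [hf, hf, hf, hf, hcomm, hcomm]
    refine Prod.ext ?_ ?_
    · simp only [eps, AddMonoidHom.mk'_apply, dualAct_fst, dualAct_snd, Prod.fst_add, Prod.snd_add,
        add_zero, Matrix.mulVec_add]
      abel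
    · simp [eps, dualAct]

/-- Tangent cocycles of flat deformations satisfy the flat local condition. -/
theorem resPlace_mem_Lflat [Fact p.Prime] [Finite (ResidueField 𝒪)]
    (hV : ∀ σ, (V : Mat2 (ResidueField 𝒪)) * barMat DQ σ = rb σ * V)
    (hdet : DQ.ρ.DetIsCyclotomic p) (hflat : DQ.ρ.IsFlatAt p)
    (P : ValuationSubring Qbar) (d : derSpace DQ.residue_surjective) :
    resPlace P (conjMap V (tangentCocycle DQ d)) ∈ Lflat p rb P :=
  mem_Lflat (TWAssembly.conjMap_tangentCocycle_mem_adCocycles DQ rb V hV p hdet d)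
    (hasFlatModel_dualAct_tangentCocycle DQ rb V hV hflat d)

end Bridge

end Fermat.Agent.FlatBound
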