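import Fermat.Agent.FlatModels.Basic
import Fermat.Agent.GaloisBasics.Galois
import Fermat.Agent.LocalInertia.Basic
import Mathlib.Algebra.Group.ForwardDiff

/-!
# Coordinates on a finite flat group scheme at a place

A `Model` is a basis of the functions on a finite Galois module by equivariant functions with
integral values which span an `A`-lattice closed under comultiplication.
-/

set_option autoImplicit false

noncomputable section

open Fermat.Agent.FlatModels (Gal Rp IsHopfOrder HasFlatModel)
open Fermat.Agent.GaloisBasics (Qbar)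

namespace Fermat.Agent.FlatBound

variable {A : ValuationSubring Qbar} {M : Type} [AddCommGroup M]

/-- A basis of functions defining a finite flat group scheme over `A`, with descent to the fixed
field of `Δ`. -/
structure Model (A : ValuationSubring Qbar) (Δ : Subgroup Gal) {M : Type} [AddCommGroup M]
    (act : Gal → M → M) where
  ι : Type
  [fintypeι : Fintype ι]
  e : Module.Basis ι Qbar (M → Qbar)
  equivariant : ∀ i, ∀ σ ∈ Δ, ∀ x : M, e i (act σ x) = σ (e i x)
  integral : ∀ i (x : M), e i x ∈ A
  one_mem : ∀ i, e.repr 1 i ∈ A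
  comul : ∀ i, ∃ c : ι → ι → Qbar, (∀ j l, c j l ∈ A) ∧
    ∀ x y : M, e i (x + y) = ∑ j, ∑ l, c j l * e j x * e l y
  act_add : ∀ σ ∈ Δ, ∀ x y : M, act σ (x + y) = act σ x + act σ y

attribute [instance] Model.fintypeι

/-- A place over `p` contains the rationals integral at `p`. -/
theorem ratLocalizedAt_mem {p : ℕ} (hA : A.LiesOverPrime p) (r : Rp p) :
    algebraMap (Rp p) Qbar r ∈ A := by
  rw [IsScalarTower.algebraMap_apply (Rp p) ℚ Qbar, ← A.valuation_le_one_iff]
  show A.valuation (algebraMap ℚ Qbar (r : ℚ)) ≤ 1
  rw [eq_ratCast, Rat.cast_def, map_div₀,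
    LocalInertia.valuation_natCast_of_coprime hA (r.2), div_one]
  exact LocalInertia.valuation_intCast_le_one A _

open scoped TensorProduct in
/-- A flat model over `ℤ₍ₚ₎` gives a model at every place over `p`. -/
theorem exists_model {p : ℕ} (hA : A.LiesOverPrime p) {act : Gal → M → M}
    (h : HasFlatModel p act) (Δ : Subgroup Gal) : Nonempty (Model A Δ act) := by
  classical
  obtain ⟨hfin, O, hO⟩ := h
  have := hO.finite
  have := hO.free
  let b := Module.Free.chooseBasis (Rp p) O
  have hli : LinearIndependent Qbar (fun i => (b i : M → Qbar)) :=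
    FlatModels.linearIndependent_qbar hO.act_surjective (fun i => hO.equivariant _ (b i).2)
      (b.linearIndependent.map' O.val.toLinearMap (LinearMap.ker_eq_bot.mpr Subtype.val_injective))
  have hexp : ∀ a : O, ((a : M → Qbar)) =
      ∑ i, algebraMap (Rp p) Qbar (b.repr a i) • (b i : M → Qbar) := fun a => by
    conv_lhs => rw [← b.sum_repr a]
    rw [AddSubmonoidClass.coe_finsetSum]
    refine Finset.sum_congr rfl fun i _ => ?_
    rw [SetLike.val_smul, algebraMap_smul]
  have hspan : ⊤ ≤ Submodule.span Qbar (Set.range fun i => (b i : M → Qbar)) := by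
    rw [← hO.span_eq_top, Submodule.span_le]
    intro f hf
    rw [SetLike.mem_coe, show f = ((⟨f, hf⟩ : O) : M → Qbar) from rfl, hexp]
    exact sum_mem fun i _ => Submodule.smul_mem _ _ (Submodule.subset_span ⟨i, rfl⟩)
  refine ⟨{
    ι := Module.Free.ChooseBasisIndex (Rp p) O
    e := Module.Basis.mk hli hspan
    equivariant := fun i σ _ x => by
      rw [Module.Basis.mk_apply]
      exact hO.equivariant _ (b i).2 σ x
    integral := fun i x => by
      rw [Module.Basis.mk_apply, ← A.valuation_le_one_iff]
      have hint := hO.isIntegral_apply (b i).2 x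
      obtain ⟨P, hPm, hP⟩ := hint
      let ι : Rp p →+* A := (algebraMap (Rp p) Qbar).codRestrict A.toSubring
        fun r => ratLocalizedAt_mem hA r
      have hint' : IsIntegral A ((b i : M → Qbar) x) :=
        ⟨P.map ι, hPm.map ι, by rw [Polynomial.eval₂_map]; exact hP⟩
      obtain ⟨a, ha⟩ := IsIntegrallyClosed.algebraMap_eq_of_integral hint'
      rw [A.valuation_le_one_iff, ← ha]
      exact a.2
    one_mem := fun i => by
      have h1 : (1 : M → Qbar) = ∑ j, algebraMap (Rp p) Qbar (b.repr 1 j) •
          (Module.Basis.mk hli hspan) j := by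
        simp only [Module.Basis.mk_apply]
        exact hexp 1
      rw [h1, Module.Basis.repr_sum_self]
      exact ratLocalizedAt_mem hA _
    comul := fun i => by
      obtain ⟨t, ht⟩ := hO.comul _ (b i).2
      refine ⟨fun j l => algebraMap (Rp p) Qbar ((b.tensorProduct b).repr t (j, l)),
        fun j l => ratLocalizedAt_mem hA _, fun x y => ?_⟩
      simp only [Module.Basis.mk_apply]
      have ht' : FlatModels.mulMap O.val O.val t = fun z : M × M => (b i : M → Qbar) (z.1 + z.2) := ht
      rw [← congrFun ht' (x, y)]
      conv_lhs => rw [← (b.tensorProduct b).sum_repr t]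
      rw [map_sum, Finset.sum_apply, Fintype.sum_prod_type]
      refine Finset.sum_congr rfl fun j _ => Finset.sum_congr rfl fun l _ => ?_
      rw [map_smul, Pi.smul_apply, Module.Basis.tensorProduct_apply', mul_assoc,
        Algebra.smul_def]
      rfl
    act_add := fun σ _ x y => hO.act_add σ x y }⟩

namespace Model

variable {Δ : Subgroup Gal} {act : Gal → M → M} (L : Model A Δ act)

/-- The coordinates, normalised to vanish at the origin. -/
def coord (i : L.ι) (x : M) : Qbar := L.e i x - L.e i 0

/-- The coordinates vanish at the origin. -/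
@[simp] theorem coord_zero (i : L.ι) : L.coord i 0 = 0 := sub_self _

/-- The coordinates are integral. -/
theorem coord_mem (i : L.ι) (x : M) : L.coord i x ∈ A := sub_mem (L.integral i x) (L.integral i 0)

theorem valuation_coord_le_one (i : L.ι) (x : M) : A.valuation (L.coord i x) ≤ 1 :=
  (A.valuation_le_one_iff _).2 (L.coord_mem i x)

/-- Evaluation of the expansion in the basis of functions. -/
theorem sum_repr_apply (f : M → Qbar) (x : M) : ∑ i, L.e.repr f i * L.e i x = f x := by
  conv_rhs => rw [← L.e.sum_repr f]
  simp [Finset.sum_apply]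

/-- The group law in the coordinates. -/
theorem exists_coord_add (i : L.ι) : ∃ c : L.ι → L.ι → Qbar, (∀ j l, c j l ∈ A) ∧ ∀ x y : M,
    L.coord i (x + y) =
      L.coord i x + L.coord i y + ∑ j, ∑ l, c j l * L.coord j x * L.coord l y := by
  obtain ⟨c, hc, h⟩ := L.comul i
  refine ⟨c, hc, fun x y => ?_⟩
  have h00 := h 0 0
  have hx := h x 0
  have hy := h 0 y
  rw [add_zero] at h00 hx
  rw [zero_add] at hy
  simp only [coord]
  rw [h x y, hx, hy, h00]
  simp only [mul_sub, sub_mul, Finset.sum_sub_distrib]
  ring

theorem eq_zero_of_coord_eq_zero {x : M} (h : ∀ i, L.coord i x = 0) : x = 0 := by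
  classical
  by_contra hx
  have h1 := L.sum_repr_apply (Pi.single x 1) x
  have h2 := L.sum_repr_apply (Pi.single x 1) 0
  simp only [fun i => sub_eq_zero.1 (h i)] at h1
  rw [h2, Pi.single_eq_of_ne (Ne.symm hx), Pi.single_eq_same] at h1
  exact zero_ne_one h1

theorem eq_of_e_eq {x y : M} (h : ∀ i, L.e i x = L.e i y) : x = y := by
  classical
  by_contra hne
  have h1 := L.sum_repr_apply (Pi.single x 1) x
  have h2 := L.sum_repr_apply (Pi.single x 1) y
  simp only [h] at h1
  rw [h2, Pi.single_eq_of_ne (Ne.symm hne), Pi.single_eq_same] at h1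
  exact zero_ne_one h1

include L in
/-- The action is multiplicative on `Δ`. -/
theorem act_mul {σ τ : Gal} (hσ : σ ∈ Δ) (hτ : τ ∈ Δ) (x : M) :
    act (σ * τ) x = act σ (act τ x) :=
  L.eq_of_e_eq fun i => by
    rw [L.equivariant i _ (mul_mem hσ hτ), L.equivariant i σ hσ, L.equivariant i τ hτ,
      AlgEquiv.mul_apply]

include L in
/-- The identity acts trivially. -/
theorem act_one (x : M) : act 1 x = x :=
  L.eq_of_e_eq fun i => by rw [L.equivariant i 1 (Subgroup.one_mem Δ), AlgEquiv.one_apply]

include L in
/-- The action fixes the origin. -/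
theorem act_zero {σ : Gal} (hσ : σ ∈ Δ) : act σ 0 = 0 := by
  have h := L.act_add σ hσ 0 0
  rw [add_zero] at h
  exact right_eq_add.1 h

/-- The coordinates are equivariant. -/
theorem coord_act {σ : Gal} (hσ : σ ∈ Δ) (i : L.ι) (x : M) :
    L.coord i (act σ x) = σ (L.coord i x) := by
  rw [coord, coord, map_sub, ← L.equivariant i σ hσ, ← L.equivariant i σ hσ, L.act_zero hσ]

/-- All coordinates of `x` are at most `r`. -/
def Small (r : A.ValueGroup) (x : M) : Prop := ∀ i, A.valuation (L.coord i x) ≤ r

/-- The origin is small for every radius. -/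
theorem small_zero (r : A.ValueGroup) : L.Small r 0 := fun i => by simp

/-- Every point is small of radius one. -/
theorem small_one (x : M) : L.Small 1 x := fun i => L.valuation_coord_le_one i x

/-- Smallness is monotone in the radius. -/
theorem Small.mono {r s : A.ValueGroup} {x : M} (h : L.Small r x) (hrs : r ≤ s) : L.Small s x :=
  fun i => (h i).trans hrs

/-- Only the origin is small of radius zero. -/
theorem small_zero_iff {x : M} : L.Small 0 x ↔ x = 0 := by
  refine ⟨fun h => L.eq_zero_of_coord_eq_zero fun i => ?_, fun h => h ▸ L.small_zero 0⟩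
  simpa using h i

/-- An integral bilinear form is bounded by the product of the bounds of its arguments. -/
theorem valuation_bilinear_le {c : L.ι → L.ι → Qbar} (hc : ∀ j l, c j l ∈ A)
    {a b : L.ι → Qbar} {r s : A.ValueGroup} (ha : ∀ j, A.valuation (a j) ≤ r)
    (hb : ∀ l, A.valuation (b l) ≤ s) :
    A.valuation (∑ j, ∑ l, c j l * a j * b l) ≤ r * s := by
  refine A.valuation.map_sum_le fun j _ => A.valuation.map_sum_le fun l _ => ?_
  rw [map_mul, map_mul]
  exact mul_le_mul' ((mul_le_of_le_one_left' ((A.valuation_le_one_iff _).2 (hc j l))).trans (ha j))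
    (hb l)

/-- The group law is additive to first order. -/
theorem valuation_coord_add_sub_le {r s : A.ValueGroup} {x y : M} (hx : L.Small r x)
    (hy : L.Small s y) (i : L.ι) :
    A.valuation (L.coord i (x + y) - (L.coord i x + L.coord i y)) ≤ r * s := by
  obtain ⟨c, hc, h⟩ := L.exists_coord_add i
  rw [h, add_sub_cancel_left]
  exact L.valuation_bilinear_le hc hx hy

/-- Small points are stable under addition. -/
theorem Small.add {r : A.ValueGroup} {x y : M} (hx : L.Small r x) (hy : L.Small r y)
    (hr : r ≤ 1) : L.Small r (x + y) := fun i => by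
  rw [← sub_add_cancel (L.coord i (x + y)) (L.coord i x + L.coord i y)]
  exact A.valuation.map_add_le ((L.valuation_coord_add_sub_le hx hy i).trans
    (mul_le_of_le_one_right' hr)) (A.valuation.map_add_le (hx i) (hy i))

/-- Small points are stable under negation. -/
theorem Small.neg {r : A.ValueGroup} {x : M} (hx : L.Small r x) : L.Small r (-x) := fun i => by
  have h := L.valuation_coord_add_sub_le hx (L.small_one (-x)) i
  rw [add_neg_cancel, coord_zero, zero_sub, Valuation.map_neg, mul_one] at h
  have e : L.coord i (-x) = (L.coord i x + L.coord i (-x)) - L.coord i x := by ring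
  rw [e]
  exact A.valuation.map_sub_le h (hx i)

/-- Small points are stable under natural multiples. -/
theorem Small.nsmul {r : A.ValueGroup} {x : M} (hx : L.Small r x) (hr : r ≤ 1) (n : ℕ) :
    L.Small r (n • x) := by
  induction n with
  | zero => rw [zero_smul]; exact L.small_zero r
  | succ n ih => rw [succ_nsmul]; exact Small.add L ih hx hr

/-- Small points are stable under integral multiples. -/
theorem Small.zsmul {r : A.ValueGroup} {x : M} (hx : L.Small r x) (hr : r ≤ 1) (n : ℤ) :
    L.Small r (n • x) := by
  obtain ⟨m, rfl | rfl⟩ := n.eq_nat_or_neg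
  · rw [natCast_zsmul]; exact Small.nsmul L hx hr m
  · rw [neg_smul, natCast_zsmul]; exact Small.neg L (Small.nsmul L hx hr m)

/-- Points at distance `≤ r` differ by a point of size `≤ r`. -/
theorem small_sub_iff {r : A.ValueGroup} {x y : M} :
    L.Small r (x - y) ↔ ∀ i, A.valuation (L.coord i x - L.coord i y) ≤ r := by
  constructor
  · intro h i
    have h1 := L.valuation_coord_add_sub_le h (L.small_one y) i
    rw [sub_add_cancel, mul_one] at h1
    have e : L.coord i x - L.coord i y =
        (L.coord i x - (L.coord i (x - y) + L.coord i y)) + L.coord i (x - y) := by ring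
    rw [e]
    exact A.valuation.map_add_le h1 (h i)
  · intro h i
    obtain ⟨c, hc, hadd⟩ := L.exists_coord_add i
    have h1 := hadd x (-y)
    have h2 := hadd y (-y)
    rw [add_neg_cancel, coord_zero] at h2
    rw [← sub_eq_add_neg] at h1
    have e : L.coord i (x - y) = (L.coord i x - L.coord i y) +
        ∑ j, ∑ l, c j l * (L.coord j x - L.coord j y) * L.coord l (-y) := by
      simp only [mul_sub, sub_mul, Finset.sum_sub_distrib]
      linear_combination h1 - h2
    rw [e]
    refine A.valuation.map_add_le (h i) ?_
    exact (L.valuation_bilinear_le hc (a := fun j => L.coord j x - L.coord j y) h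
      fun l => L.valuation_coord_le_one l _).trans (mul_one r).le

/-- A combination of the coordinates and a constant, with coefficients bounded by `r`. -/
def IsCombination (r : A.ValueGroup) (f : M → Qbar) : Prop :=
  ∃ (b : L.ι → Qbar) (a : Qbar), (∀ j, A.valuation (b j) ≤ r) ∧ A.valuation a ≤ r ∧
    ∀ z, f z = ∑ j, b j * L.coord j z + a

/-- A difference along a small point multiplies the bound by its radius. -/
theorem IsCombination.fwdDiff {r s : A.ValueGroup} {f : M → Qbar} (hf : L.IsCombination r f)
    {x : M} (hx : L.Small s x) : L.IsCombination (r * s) (fwdDiff x f) := by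
  obtain ⟨b, a, hb, -, hfz⟩ := hf
  choose c hc hadd using L.exists_coord_add
  refine ⟨fun m => ∑ j, ∑ l, b j * c j m l * L.coord l x, ∑ j, b j * L.coord j x,
    fun m => ?_, ?_, fun z => ?_⟩
  · refine A.valuation.map_sum_le fun j _ => A.valuation.map_sum_le fun l _ => ?_
    rw [map_mul, map_mul]
    exact mul_le_mul' ((mul_le_of_le_one_right' ((A.valuation_le_one_iff _).2 (hc j m l))).trans
      (hb j)) (hx l)
  · refine A.valuation.map_sum_le fun j _ => ?_
    rw [map_mul]
    exact mul_le_mul' (hb j) (hx j)
  · show f (z + x) - f z = _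
    rw [hfz, hfz]
    simp only [hadd, mul_add, Finset.sum_add_distrib, Finset.mul_sum, Finset.sum_mul]
    rw [Finset.sum_comm (f := fun m j => ∑ l, b j * c j m l * L.coord l x * L.coord m z)]
    have e : ∀ j m l, b j * (c j m l * L.coord m z * L.coord l x) =
        b j * c j m l * L.coord l x * L.coord m z := fun _ _ _ => by ring
    simp only [e]
    ring

/-- Iterated differences of a coordinate along a small point are bounded by powers of the radius. -/
theorem exists_iterate_fwdDiff_le {r : A.ValueGroup} {x : M} (hx : L.Small r x) (i : L.ι) (k : ℕ) :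
    A.valuation (((fwdDiff x)^[k]) (L.coord i) 0) ≤ r ^ k := by
  classical
  have h : ∀ k, L.IsCombination (r ^ k) (((fwdDiff x)^[k]) (L.coord i)) := by
    intro k
    induction k with
    | zero =>
      refine ⟨Pi.single i 1, 0, fun j => ?_, by simp, fun z => by simp [Pi.single_apply]⟩
      rw [pow_zero, Pi.single_apply]
      split <;> simp
    | succ k ih =>
      rw [Function.iterate_succ_apply', pow_succ]
      exact IsCombination.fwdDiff L ih hx
  obtain ⟨b, a, -, ha, hz⟩ := h k
  rw [hz]
  simpa using ha

end Model

end Fermat.Agent.FlatBound
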