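import Fermat.Agent.GaloisBasics.Roots
import Fermat.Agent.GaloisBasics.ResidueField
import Fermat.Agent.LocalInertia.Tame
import Mathlib.Data.Nat.Choose.Dvd

/-!
# Roots of unity at a place
-/

set_option autoImplicit false

noncomputable section

open Fermat.Agent.GaloisBasics (Qbar)
open IsLocalRing Finset

namespace Fermat.Agent.FlatBound

variable {A : ValuationSubring Qbar} {p : ℕ}

/-- `p` is small at a place over `p`. -/
theorem valuation_natCast_prime_lt_one (hA : A.LiesOverPrime p) : A.valuation (p : Qbar) < 1 :=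
  A.mem_nonunits_iff.1 hA

/-- The value of `p` is positive. -/
theorem valuation_natCast_prime_pos (A : ValuationSubring Qbar) (hp : p.Prime) :
    0 < A.valuation (p : Qbar) :=
  zero_lt_iff.2 ((map_ne_zero _).2 (Nat.cast_ne_zero.2 hp.ne_zero))

/-- Roots of unity are integral. -/
theorem mem_of_pow_eq_one {m : ℕ} (hm : 0 < m) {x : Qbar} (hx : x ^ m = 1) : x ∈ A :=
  GaloisBasics.mem_of_isIntegral A (IsIntegral.of_pow hm (hx ▸ isIntegral_one))

/-- Roots of unity have value one. -/
theorem valuation_eq_one_of_pow_eq_one {m : ℕ} (hm : 0 < m) {x : Qbar} (hx : x ^ m = 1) :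
    A.valuation x = 1 := by
  have h : A.valuation x ^ m = 1 := by rw [← map_pow, hx, map_one]
  exact (pow_eq_one_iff.1 h).resolve_right hm.ne'

/-- The residue of a `p`-th root of unity is one. -/
theorem valuation_zeta_sub_one_lt_one (hA : A.LiesOverPrime p) (hp : p.Prime) {ζ : Qbar}
    (hζ : ζ ^ p = 1) : A.valuation (ζ - 1) < 1 := by
  have : Fact p.Prime := ⟨hp⟩
  have := GaloisBasics.residueField_charP hA hp
  have hmem := mem_of_pow_eq_one (A := A) hp.pos hζ
  refine LocalInertia.valuation_sub_lt_of_residue_eq (a := ⟨ζ, hmem⟩) (b := 1) ?_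
  rw [map_one]
  apply frobenius_inj (ResidueField A) p
  simp only [frobenius_def, one_pow]
  rw [← map_pow, ← map_one (residue A)]
  exact congrArg _ (Subtype.ext hζ)

/-- The equation of `ζ - 1`. -/
theorem valuation_zeta_sub_one_pow_add_lt (hA : A.LiesOverPrime p) (hp : p.Prime) {ζ : Qbar}
    (hζ : IsPrimitiveRoot ζ p) :
    A.valuation ((ζ - 1) ^ (p - 1) + (p : Qbar)) < A.valuation (p : Qbar) := by
  set y := ζ - 1 with hy
  have hy1 : A.valuation y < 1 := valuation_zeta_sub_one_lt_one hA hp hζ.pow_eq_one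
  have hy0 : y ≠ 0 := sub_ne_zero.2 (hζ.ne_one hp.one_lt)
  have hsum : ∑ j ∈ range p, (p.choose (j + 1) : Qbar) * y ^ j = 0 := by
    have h : (y + 1) ^ p = 1 := by rw [hy, sub_add_cancel]; exact hζ.pow_eq_one
    rw [add_pow, Finset.sum_range_succ'] at h
    simp only [pow_zero, one_pow, mul_one, Nat.choose_zero_right, Nat.cast_one,
      add_eq_right] at h
    refine (mul_eq_zero.1 ?_).resolve_left hy0
    rw [mul_sum, ← h]
    exact sum_congr rfl fun j _ => by ring
  obtain ⟨m, hm⟩ : ∃ m, p = m + 2 := ⟨p - 2, by have := hp.two_le; omega⟩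
  rw [hm, Finset.sum_range_succ, Finset.sum_range_succ'] at hsum
  simp only [Nat.choose_self, Nat.cast_one, one_mul, pow_zero, mul_one, zero_add,
    Nat.choose_one_right] at hsum
  rw [← hm] at hsum
  rw [show p - 1 = m + 1 by omega]
  have e : y ^ (m + 1) + (p : Qbar) = -∑ j ∈ range m, (p.choose (j + 1 + 1) : Qbar) * y ^ (j + 1) := by
    linear_combination hsum
  rw [e, Valuation.map_neg]
  refine A.valuation.map_sum_lt (valuation_natCast_prime_pos A hp).ne' fun j hj => ?_
  obtain ⟨c, hc⟩ := Nat.Prime.dvd_choose_self hp (k := j + 1 + 1) (by omega)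
    (by have := mem_range.1 hj; omega)
  rw [hc, Nat.cast_mul, map_mul, map_mul, map_pow, mul_assoc]
  refine mul_lt_of_lt_one_right (valuation_natCast_prime_pos A hp) ?_
  refine lt_of_le_of_lt (mul_le_of_le_one_left' (LocalInertia.valuation_natCast_le_one A c)) ?_
  exact pow_lt_one₀ zero_le hy1 (Nat.succ_ne_zero j)

/-- The `(p - 1)`-th power of the value of `ζ - 1` is that of `p`. -/
theorem valuation_zeta_sub_one_pow (hA : A.LiesOverPrime p) (hp : p.Prime) {ζ : Qbar}
    (hζ : IsPrimitiveRoot ζ p) :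
    A.valuation (ζ - 1) ^ (p - 1) = A.valuation (p : Qbar) := by
  have h := valuation_zeta_sub_one_pow_add_lt hA hp hζ
  rw [← map_pow, ← Valuation.map_neg A.valuation (p : Qbar)]
  have := A.valuation.map_add_eq_of_lt_left (x := -(p : Qbar))
    (y := (ζ - 1) ^ (p - 1) + (p : Qbar)) (by rwa [Valuation.map_neg])
  rwa [neg_add_cancel_comm_assoc] at this

/-- All non-trivial `p`-th roots of unity are equally close to one. -/
theorem valuation_root_sub_one (hA : A.LiesOverPrime p) (hp : p.Prime) {ζ : Qbar}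
    (hζ : IsPrimitiveRoot ζ p) {x : Qbar} (hx : x ^ p = 1) (hx1 : x ≠ 1) :
    A.valuation (x - 1) = A.valuation (ζ - 1) := by
  have hxp : IsPrimitiveRoot x p := by
    have h := IsPrimitiveRoot.orderOf x
    rwa [orderOf_eq_prime (p := p) (hp := ⟨hp⟩) hx hx1] at h
  have hne : p - 1 ≠ 0 := by have := hp.two_le; omega
  exact (pow_left_inj₀ zero_le zero_le hne).1
    ((valuation_zeta_sub_one_pow hA hp hxp).trans (valuation_zeta_sub_one_pow hA hp hζ).symm)

/-- Every element of the residue field is zero or the residue of a root of unity of order prime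
to `p`. -/
theorem exists_root_of_unity_residue (hA : A.LiesOverPrime p) (hp : p.Prime)
    {y : ResidueField A} (hy : y ≠ 0) {f : ℕ} (hf : 0 < f) (hyf : y ^ p ^ f = y) :
    ∃ w : A, (w : Qbar) ^ (p ^ f - 1) = 1 ∧ residue A w = y := by
  classical
  have hq : 1 < p ^ f := Nat.one_lt_pow hf.ne' hp.one_lt
  set m := p ^ f - 1 with hm
  have hm0 : 0 < m := by omega
  have hpm : ¬ p ∣ m := fun h => by
    have h1 : p ∣ m + 1 := by rw [hm, Nat.sub_add_cancel hq.le]; exact dvd_pow_self p hf.ne'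
    exact hp.one_lt.ne' (Nat.dvd_one.1 ((Nat.dvd_add_right h).1 h1))
  have : NeZero m := ⟨hm0.ne'⟩
  obtain ⟨ω, hω⟩ := HasEnoughRootsOfUnity.exists_primitiveRoot Qbar m
  set w : A := ⟨ω, mem_of_pow_eq_one hm0 hω.pow_eq_one⟩
  have hwm : w ^ m = 1 := Subtype.ext hω.pow_eq_one
  have hbar : IsPrimitiveRoot (residue A w) m := by
    refine IsPrimitiveRoot.iff_def _ _ |>.2 ⟨by rw [← map_pow, hwm, map_one], fun l hl => ?_⟩
    rw [← hω.pow_eq_one_iff_dvd]
    refine GaloisBasics.eq_of_pow_eq_one_of_sub_mem_nonunits hA hp hpm (one_pow m)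
      (by rw [← pow_mul, mul_comm, pow_mul, hω.pow_eq_one, one_pow]) ?_
    rw [ValuationSubring.mem_nonunits_iff]
    exact LocalInertia.valuation_sub_lt_of_residue_eq (a := w ^ l) (b := 1)
      (by rw [map_pow, hl, map_one])
  have hym : y ^ m = 1 := by
    apply mul_right_cancel₀ hy
    rw [← pow_succ, hm, Nat.sub_add_cancel hq.le, one_mul, hyf]
  obtain ⟨i, -, hi⟩ := hbar.eq_pow_of_pow_eq_one hym
  refine ⟨w ^ i, ?_, by rw [map_pow, hi]⟩
  push_cast
  rw [← pow_mul, mul_comm, pow_mul]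
  show (ω ^ m) ^ i = 1
  rw [hω.pow_eq_one, one_pow]

/-- Roots of unity lifting residues: every residue is the residue of an element fixed by inertia
which is zero or a root of unity of order prime to `p`. -/
theorem exists_fixed_lift (hA : A.LiesOverPrime p) (hp : p.Prime) (y : ResidueField A) :
    ∃ w : A, residue A w = y ∧ ∀ σ ∈ A.inertiaSubgroupIn ℚ, σ (w : Qbar) = w := by
  rcases eq_or_ne y 0 with rfl | hy
  · exact ⟨0, map_zero _, fun σ _ => map_zero σ⟩
  obtain ⟨f, hf, hyf⟩ := GaloisBasics.exists_pow_card_eq hA hp y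
  obtain ⟨w, hw, hwy⟩ := exists_root_of_unity_residue hA hp hy hf hyf
  have hq : 1 < p ^ f := Nat.one_lt_pow hf.ne' hp.one_lt
  refine ⟨w, hwy, fun σ hσ => GaloisBasics.inertia_apply_of_pow_eq_one hA hp ?_ hσ hw⟩
  intro h
  have h1 : p ∣ p ^ f - 1 + 1 := by rw [Nat.sub_add_cancel hq.le]; exact dvd_pow_self p hf.ne'
  exact hp.one_lt.ne' (Nat.dvd_one.1 ((Nat.dvd_add_right h).1 h1))

end Fermat.Agent.FlatBound
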