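import Fermat.Agent.FlatBound.InertiaField

/-!
# The fixed field of the kernel of a tame character

For `π ^ e = p` with `e = (p - 1) E` prime to `p` we study the subgroup `H` of inertia fixing `π`:
its fixed field has value group generated by `|π|` and contains the `p`-th roots of unity.
-/

set_option autoImplicit false

noncomputable section

open Fermat.Agent.GaloisBasics (Qbar GalQ)
open IsLocalRing Finset
open scoped Pointwise

namespace Fermat.Agent.FlatBound

/-- The data of a tame root of `p` of exponent `(p - 1) E` together with a `p`-th root of unity. -/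
structure TameRoot (A : ValuationSubring Qbar) (p : ℕ) where
  E : ℕ
  π : Qbarˣ
  ζ : Qbar
  over : A.LiesOverPrime p
  prime : p.Prime
  E_pos : 0 < E
  not_dvd : ¬ p ∣ (p - 1) * E
  pow_π : (π : Qbar) ^ ((p - 1) * E) = p
  prim : IsPrimitiveRoot ζ p

/-- Tame roots exist. -/
theorem exists_tameRoot {A : ValuationSubring Qbar} {p : ℕ} (hA : A.LiesOverPrime p)
    (hp : p.Prime) {E : ℕ} (hE : 0 < E) (hdvd : ¬ p ∣ (p - 1) * E) :
    ∃ R : TameRoot A p, R.E = E := by
  have hpos : 0 < (p - 1) * E := Nat.mul_pos (by have := hp.two_le; omega) hE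
  obtain ⟨x, hx⟩ := IsAlgClosed.exists_pow_nat_eq (p : Qbar) hpos
  have : NeZero p := ⟨hp.ne_zero⟩
  obtain ⟨ζ, hζ⟩ := HasEnoughRootsOfUnity.exists_primitiveRoot Qbar p
  have hx0 : x ≠ 0 := fun h => by
    rw [h, zero_pow hpos.ne'] at hx
    exact Nat.cast_ne_zero.2 hp.ne_zero hx.symm
  exact ⟨⟨E, Units.mk0 x hx0, ζ, hA, hp, hE, hdvd, hx, hζ⟩, rfl⟩

namespace TameRoot

variable {A : ValuationSubring Qbar} {p : ℕ} (R : TameRoot A p)

/-- The tame exponent. -/
def ee : ℕ := (p - 1) * R.E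

/-- The tame exponent is positive. -/
theorem ee_pos : 0 < R.ee := Nat.mul_pos (by have := R.prime.two_le; omega) R.E_pos

/-- `π` is an `e`-th root of `p`. -/
theorem pow_ee : (R.π : Qbar) ^ R.ee = p := R.pow_π

/-- The tame exponent is prime to `p`. -/
theorem not_dvd_ee : ¬ p ∣ R.ee := R.not_dvd

/-- The exponent plus `E` is `p E`. -/
theorem ee_add_E : R.ee + R.E = p * R.E := by
  rw [ee, Nat.sub_one_mul, Nat.sub_add_cancel (Nat.le_mul_of_pos_left _ R.prime.pos)]

/-- The absolute value of `π`. -/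
def vπ : A.ValueGroup := A.valuation (R.π : Qbar)

/-- `π` has positive value. -/
theorem vπ_pos : 0 < R.vπ := zero_lt_iff.2 ((map_ne_zero _).2 R.π.ne_zero)

/-- The value of `π` is an `e`-th root of that of `p`. -/
theorem vπ_pow_ee : R.vπ ^ R.ee = A.valuation (p : Qbar) := by
  rw [vπ, ← map_pow, R.pow_ee]

/-- `π` has value less than one. -/
theorem vπ_lt_one : R.vπ < 1 := by
  refine lt_of_not_ge fun h => ?_
  have := (one_le_pow₀ h : 1 ≤ R.vπ ^ R.ee)
  rw [R.vπ_pow_ee] at this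
  exact absurd (valuation_natCast_prime_lt_one R.over) (not_lt.2 this)

/-- Integral powers of the value of `π` are antitone. -/
theorem zpow_le_zpow {i j : ℤ} (h : j ≤ i) : R.vπ ^ i ≤ R.vπ ^ j :=
  zpow_le_zpow_right_of_le_one₀ R.vπ_pos R.vπ_lt_one.le h

/-- Natural powers of the value of `π` are strictly antitone. -/
theorem pow_lt_pow {i j : ℕ} (h : j < i) : R.vπ ^ i < R.vπ ^ j :=
  pow_lt_pow_right_of_lt_one₀ R.vπ_pos R.vπ_lt_one h

/-- Natural powers of the value of `π` are antitone. -/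
theorem pow_le_pow {i j : ℕ} (h : j ≤ i) : R.vπ ^ i ≤ R.vπ ^ j :=
  pow_le_pow_of_le_one zero_le R.vπ_lt_one.le h

/-- `ζ - 1` has the value of `π ^ E`. -/
theorem valuation_zeta : A.valuation (R.ζ - 1) = R.vπ ^ R.E := by
  refine (pow_left_inj₀ zero_le zero_le (by have := R.prime.two_le; omega : p - 1 ≠ 0)).1 ?_
  rw [valuation_zeta_sub_one_pow R.over R.prime R.prim, ← pow_mul, mul_comm, ← R.vπ_pow_ee]
  rfl

/-- The `p`-th power of the value of `ζ - 1` is that of `π ^ (p E)`. -/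
theorem valuation_zeta_pow : A.valuation (R.ζ - 1) ^ p = R.vπ ^ (p * R.E) := by
  rw [R.valuation_zeta, ← pow_mul, mul_comm]

/-- The elements of inertia fixing `π`. -/
def H : Subgroup GalQ := A.inertiaSubgroupIn ℚ ⊓ MulAction.stabilizer GalQ (R.π : Qbar)

/-- Membership in `H`. -/
theorem mem_H {σ : GalQ} : σ ∈ R.H ↔ σ ∈ A.inertiaSubgroupIn ℚ ∧ σ (R.π : Qbar) = R.π := by
  rw [H, Subgroup.mem_inf, MulAction.mem_stabilizer_iff, AlgEquiv.smul_def]

/-- `H` lies in inertia. -/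
theorem H_le : R.H ≤ A.inertiaSubgroupIn ℚ := inf_le_left

/-- `H` lies in decomposition. -/
theorem H_le_decomposition : R.H ≤ A.decompositionSubgroup ℚ :=
  R.H_le.trans LocalInertia.inertiaSubgroupIn_le_decompositionSubgroup

/-- An automorphism moves `π` to a multiple by a root of unity of order dividing `e`. -/
theorem exists_apply_π (σ : GalQ) :
    ∃ w : Qbar, w ^ R.ee = 1 ∧ σ (R.π : Qbar) = w * R.π := by
  refine ⟨σ (R.π : Qbar) / R.π, ?_, (div_mul_cancel₀ _ R.π.ne_zero).symm⟩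
  rw [div_pow, ← map_pow, R.pow_ee, map_natCast, div_self (Nat.cast_ne_zero.2 R.prime.ne_zero)]

/-- Inertia fixes the roots of unity of order dividing `e`. -/
theorem apply_root {σ : GalQ} (hσ : σ ∈ A.inertiaSubgroupIn ℚ) {w : Qbar} (hw : w ^ R.ee = 1) :
    σ w = w :=
  GaloisBasics.inertia_apply_of_pow_eq_one R.over R.prime R.not_dvd_ee hσ hw

/-- The powers of an element of inertia multiply `π` by the powers of its multiplier. -/
theorem pow_apply_π {τ : GalQ} (hτ : τ ∈ A.inertiaSubgroupIn ℚ) {w : Qbar} (hw : w ^ R.ee = 1)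
    (hτπ : τ (R.π : Qbar) = w * R.π) (m : ℕ) : (τ ^ m) (R.π : Qbar) = w ^ m * R.π := by
  induction m with
  | zero => simp
  | succ m ih =>
    rw [pow_succ' τ, AlgEquiv.mul_apply, ih, map_mul, map_pow, hτπ, R.apply_root hτ hw,
      ← mul_assoc, ← pow_succ]

/-- `H` fixes the `p`-th roots of unity. -/
theorem apply_zeta {σ : GalQ} (hσ : σ ∈ R.H) : σ R.ζ = R.ζ := by
  obtain ⟨hI, hπ⟩ := R.mem_H.1 hσ
  have hD := R.H_le_decomposition hσ
  have hz0 : R.ζ - 1 ≠ 0 := sub_ne_zero.2 (R.prim.ne_one R.prime.one_lt)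
  -- `ζ - 1` is `π ^ E` times a unit
  set u := (R.ζ - 1) / (R.π : Qbar) ^ R.E with hu
  have hπE : (R.π : Qbar) ^ R.E ≠ 0 := pow_ne_zero _ R.π.ne_zero
  have hu1 : A.valuation u = 1 := by
    rw [hu, map_div₀, R.valuation_zeta, map_pow]
    exact div_self (pow_ne_zero _ R.vπ_pos.ne')
  have h1 : A.valuation (σ u - u) < 1 :=
    (LocalInertia.mem_inertiaSubgroupIn_iff.1 hI).2 _ ((A.valuation_le_one_iff _).1 hu1.le)
  have h2 : A.valuation (σ R.ζ - R.ζ) < A.valuation (R.ζ - 1) := by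
    have e : σ R.ζ - R.ζ = (σ u - u) * (R.π : Qbar) ^ R.E := by
      rw [sub_mul, hu, div_mul_cancel₀ _ hπE]
      nth_rw 2 [← hπ]
      rw [← map_pow, ← map_mul, div_mul_cancel₀ _ hπE, map_sub, map_one]
      ring
    rw [e, map_mul, R.valuation_zeta, map_pow]
    exact mul_lt_of_lt_one_left (pow_pos R.vπ_pos _) h1
  by_contra hne
  have hw : (σ R.ζ / R.ζ) ^ p = 1 := by
    rw [div_pow, ← map_pow, R.prim.pow_eq_one, map_one, div_one]
  have hζ0 : R.ζ ≠ 0 := R.prim.ne_zero R.prime.ne_zero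
  have h3 := valuation_root_sub_one R.over R.prime R.prim hw
    fun h => hne ((div_eq_one_iff_eq hζ0).1 h)
  rw [div_sub_one hζ0, map_div₀,
    valuation_eq_one_of_pow_eq_one R.prime.pos R.prim.pow_eq_one, div_one] at h3
  exact h2.ne h3

/-- Inertia has an element moving `π` by a primitive root of unity. -/
theorem exists_generator : ∃ τ ∈ A.inertiaSubgroupIn ℚ, ∃ w : Qbar,
    IsPrimitiveRoot w R.ee ∧ τ (R.π : Qbar) = w * R.π ∧
      ∀ σ ∈ A.inertiaSubgroupIn ℚ, ∃ m < R.ee, ∃ h ∈ R.H, σ = τ ^ m * h := by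
  have : NeZero R.ee := ⟨R.ee_pos.ne'⟩
  obtain ⟨w, hw⟩ := HasEnoughRootsOfUnity.exists_primitiveRoot Qbar R.ee
  obtain ⟨τ, hτ, hτπ⟩ := LocalInertia.exists_inertia_apply_root R.over R.prime R.not_dvd_ee
    R.pow_ee hw.pow_eq_one
  refine ⟨τ, hτ, w, hw, hτπ, fun σ hσ => ?_⟩
  obtain ⟨u, hu, hσπ⟩ := R.exists_apply_π σ
  obtain ⟨m, hm, rfl⟩ := hw.eq_pow_of_pow_eq_one hu
  refine ⟨m, hm, (τ ^ m)⁻¹ * σ, R.mem_H.2 ⟨mul_mem (inv_mem (pow_mem hτ m)) hσ, ?_⟩,
    (mul_inv_cancel_left _ _).symm⟩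
  rw [AlgEquiv.mul_apply, hσπ, ← R.pow_apply_π hτ hw.pow_eq_one hτπ m, ← AlgEquiv.mul_apply,
    inv_mul_cancel, AlgEquiv.one_apply]

/-- `H` is normal in inertia, indeed conjugation by anything sending `π` to an inertia-fixed
multiple of `π` and normalising inertia preserves it. -/
theorem conj_mem {g : GalQ} (hg : ∀ σ ∈ A.inertiaSubgroupIn ℚ, g⁻¹ * σ * g ∈ A.inertiaSubgroupIn ℚ)
    {σ : GalQ} (hσ : σ ∈ R.H) : g⁻¹ * σ * g ∈ R.H := by
  obtain ⟨w, hw, hgπ⟩ := R.exists_apply_π g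
  obtain ⟨hI, hπ⟩ := R.mem_H.1 hσ
  refine R.mem_H.2 ⟨hg σ hI, ?_⟩
  rw [AlgEquiv.mul_apply, AlgEquiv.mul_apply, hgπ, map_mul, R.apply_root hI hw, hπ, ← hgπ,
    ← AlgEquiv.mul_apply, inv_mul_cancel, AlgEquiv.one_apply]

/-- `H` is normal in decomposition. -/
theorem conj_mem_of_decomposition {g : GalQ} (hg : g ∈ A.decompositionSubgroup ℚ)
    {σ : GalQ} (hσ : σ ∈ R.H) : g⁻¹ * σ * g ∈ R.H :=
  R.conj_mem (fun τ hτ => by
    have := LocalInertia.conj_mem_inertiaSubgroupIn (inv_mem hg) hτ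
    rwa [inv_inv] at this) hσ

/-- The fixed field of `H`. -/
def fld : IntermediateField ℚ Qbar := IntermediateField.fixedField R.H

/-- Membership in the fixed field of `H`. -/
theorem mem_fld {x : Qbar} : x ∈ R.fld ↔ ∀ σ ∈ R.H, σ x = x := by
  rw [fld, IntermediateField.mem_fixedField_iff]

/-- `π` lies in the fixed field of `H`. -/
theorem π_mem : (R.π : Qbar) ∈ R.fld := R.mem_fld.2 fun _ hσ => (R.mem_H.1 hσ).2

/-- `ζ` lies in the fixed field of `H`. -/
theorem zeta_mem : R.ζ ∈ R.fld := R.mem_fld.2 fun _ hσ => R.apply_zeta hσ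

/-- Values on the fixed field of `H` are powers of `|π|`. -/
theorem exists_zpow {x : Qbar} (hx : x ∈ R.fld) (hx0 : x ≠ 0) :
    ∃ j : ℤ, A.valuation x = R.vπ ^ j := by
  obtain ⟨τ, hτ, w, hw, hτπ, hdec⟩ := R.exists_generator
  have hD := LocalInertia.inertiaSubgroupIn_le_decompositionSubgroup (K := ℚ) hτ
  have hFH : ∀ σ : GalQ, ∀ h ∈ R.H, (σ * h) x = σ x := fun σ h hh => by
    rw [AlgEquiv.mul_apply, R.mem_fld.1 hx h hh]
  set y := ∏ m ∈ range R.ee, (τ ^ m) x with hy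
  have hfix : ∀ σ ∈ A.inertiaSubgroupIn ℚ, σ y = y := by
    intro σ hσ
    rw [hy, map_prod]
    have hmul : ∀ m, ∃ n < R.ee, ∃ h ∈ R.H, σ * τ ^ m = τ ^ n * h := fun m =>
      hdec _ (mul_mem hσ (pow_mem hτ m))
    choose n hn h hh he using hmul
    have hninj : Set.InjOn n (range R.ee : Finset ℕ) := by
      intro a ha b hb hab
      have h1 := congrArg (fun g : GalQ => g (R.π : Qbar)) (he a)
      have h2 := congrArg (fun g : GalQ => g (R.π : Qbar)) (he b)
      simp only [AlgEquiv.mul_apply, (R.mem_H.1 (hh a)).2, (R.mem_H.1 (hh b)).2] at h1 h2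
      rw [hab] at h1
      have h3 := σ.injective (h1.trans h2.symm)
      rw [R.pow_apply_π hτ hw.pow_eq_one hτπ, R.pow_apply_π hτ hw.pow_eq_one hτπ] at h3
      exact hw.pow_inj (mem_range.1 ha) (mem_range.1 hb) (mul_right_cancel₀ R.π.ne_zero h3)
    refine prod_bij (fun m _ => n m) (fun m _ => mem_range.2 (hn m))
      (fun a ha b hb h => hninj ha hb h) (fun b hb => ?_) (fun m _ => ?_)
    · exact surj_on_of_inj_on_of_card_le (s := range R.ee) (t := range R.ee)
        (fun m _ => n m) (fun m _ => mem_range.2 (hn m)) (fun a b ha hb h => hninj ha hb h)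
        le_rfl b hb |>.imp fun a ⟨ha, h⟩ => ⟨ha, h.symm⟩
    · rw [← AlgEquiv.mul_apply, he m, hFH _ _ (hh m)]
  have hy0 : y ≠ 0 := prod_ne_zero_iff.2 fun m _ => (map_ne_zero _).2 hx0
  obtain ⟨j, hj⟩ := exists_zpow_of_inertia_fixed R.over R.prime hy0 hfix
  refine ⟨j, (pow_left_inj₀ zero_le zero_le R.ee_pos.ne').1 ?_⟩
  have hv : A.valuation y = A.valuation x ^ R.ee := by
    rw [hy, map_prod]
    calc ∏ m ∈ range R.ee, A.valuation ((τ ^ m) x) = ∏ _m ∈ range R.ee, A.valuation x :=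
          prod_congr rfl fun m _ => LocalInertia.valuation_apply (pow_mem hD m) x
      _ = _ := by rw [prod_const, card_range]
  rw [← hv, hj, ← R.vπ_pow_ee, ← zpow_natCast, ← zpow_natCast, ← zpow_mul, ← zpow_mul, mul_comm]

/-- Values on the fixed field of `H` jump by powers of the value of `π`. -/
theorem valuation_le_of_lt {x : Qbar} (hx : x ∈ R.fld) {j : ℤ} (h : A.valuation x < R.vπ ^ j) :
    A.valuation x ≤ R.vπ ^ (j + 1) := by
  rcases eq_or_ne x 0 with rfl | hx0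
  · simp
  obtain ⟨i, hi⟩ := R.exists_zpow hx hx0
  rw [hi] at h ⊢
  have : j < i := lt_of_not_ge fun hle => absurd h (not_lt.2 (R.zpow_le_zpow hle))
  exact R.zpow_le_zpow (by omega)

end TameRoot

end Fermat.Agent.FlatBound
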